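import Fermat.Agent.GoodRed.HauptGood

/-!
# Kummer lifting in all residue characteristics
-/

set_option autoImplicit false
set_option linter.unusedSectionVars false
set_option linter.style.haveILetI false
set_option synthInstance.maxHeartbeats 400000

noncomputable section

namespace Fermat.Agent.GoodRed

open Polynomial AlgebraicCurve Fermat.Agent.Curves Module IntermediateField ModularCurve
open Fermat.Agent.GenusX0 (je transcendental_je)

theorem exists_pow_of_pow_eq {F : Type*} [Field F] {u v : F} (hu : u ≠ 0) {a m : ℕ}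
    (hco : Nat.Coprime a m) (h : u ^ a = v ^ m) : ∃ z : F, u = z ^ m := by
  rcases Nat.eq_zero_or_pos m with rfl | hm
  · have ha : a = 1 := by simpa using hco
    subst ha
    exact ⟨1, by rw [← pow_one u, h]; simp⟩
  have hv : v ≠ 0 := by
    rintro rfl
    rw [zero_pow hm.ne'] at h
    exact pow_ne_zero a hu h
  have hb : (a : ℤ) * a.gcdA m + m * a.gcdB m = 1 := by
    rw [← Nat.gcd_eq_gcd_ab, hco]; rfl
  refine ⟨v ^ (a.gcdA m) * u ^ (a.gcdB m), ?_⟩
  rw [mul_pow, ← zpow_natCast, ← zpow_natCast, ← zpow_mul, ← zpow_mul, mul_comm (a.gcdA m),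
    mul_comm (a.gcdB m), zpow_mul, zpow_natCast, ← h, ← zpow_natCast, ← zpow_mul, ← zpow_add₀ hu, hb,
    zpow_one]

/-- descent of powers along an extension of intermediate fields -/
theorem exists_pow_descend {k Ω : Type*} [Field k] [Field Ω] [Algebra k Ω]
    {E E' : IntermediateField k Ω} (h : E ≤ E') {d m : ℕ} (hd : relfinrank E E' = d)
    (hco : Nat.Coprime d m) {u w : Ω} (hu : u ∈ E) (hu0 : u ≠ 0) (hw : w ∈ E') (huw : u = w ^ m) :
    ∃ z ∈ E, u = z ^ m := by
  rw [relfinrank_eq_finrank_of_le h] at hd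
  let w' : extendScalars h := ⟨w, hw⟩
  let u' : E := ⟨u, hu⟩
  have h1 : algebraMap E (extendScalars h) u' = w' ^ m := Subtype.ext huw
  have h2 := congrArg (Algebra.norm E) h1
  rw [Algebra.norm_algebraMap, map_pow, hd] at h2
  obtain ⟨z, hz⟩ := exists_pow_of_pow_eq (u := u') (fun h => hu0 (congrArg Subtype.val h)) hco h2
  exact ⟨z, z.2, congrArg Subtype.val hz⟩

theorem relfinrank_full {k : Type*} [Field k] [IsSepClosed k] {N p : ℕ} [NeZero N] [NeZero p]
    (hp : p.Prime) (hpN : ¬ p ∣ N) (hNp : ((p * N : ℕ) : k) ≠ 0) :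
    relfinrank (modularFunctionFieldFullC k N) (modularFunctionFieldFullC k (p * N)) = p + 1 := by
  have hN : (N : k) ≠ 0 := by
    intro h
    apply hNp
    rw [Nat.cast_mul, h, mul_zero]
  haveI : NeZero (p * N) := ⟨Nat.mul_ne_zero hp.ne_zero (NeZero.ne N)⟩
  have h1 := ModFun.relfinrank_modularFunctionField k N hN
  have h2 := ModFun.relfinrank_modularFunctionField k (p * N) hNp
  have hle1 : k⟮jqModC k⟯ ≤ modularFunctionFieldFullC k N := by
    rw [IntermediateField.adjoin_simple_le_iff]
    exact jqModC_mem_full k N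
  have hle2 : modularFunctionFieldFullC k N ≤ modularFunctionFieldFullC k (p * N) :=
    full_degeneracyC_le (K := k) (Dvd.intro_left p rfl)
  have h3 := relfinrank_mul_relfinrank hle1 hle2
  have h4 := ModFun.dedekindPsi_step p hp 0 N hpN
  rw [zero_add, pow_one, pow_zero, one_mul, if_pos rfl] at h4
  rw [h1, h2, h4] at h3
  exact Nat.eq_of_mul_eq_mul_left (Nat.pos_of_ne_zero (ModFun.dedekindPsi_pos (NeZero.ne N))) h3

variable {K κ : Type} [Field K] [Field κ] {A : ValuationSubring K} (π : A →+* κ) (N : ℕ)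
  [IsLocalHom π] [IsAlgClosed K] [IsAlgClosed κ]

/-- Kummer lifting, in terms of Laurent series -/
theorem HasGood.isPow' (h : HasGood π N) (hr : RankOne π) {m : ℕ} (hm : (m : κ) ≠ 0)
    {u : LaurentSeries K} (hu : u ∈ modularFunctionFieldFullC K N) {ub gb : LaurentSeries κ}
    (hub : ub ∈ modularFunctionFieldFullC κ N) (hgb : gb ∈ modularFunctionFieldFullC κ N) {c : κ}
    (hLR : LR π u ub) (hub0 : ub ≠ 0) (heq : ub = HahnSeries.C c * gb ^ m)
    (hdiv : ∀ P : Place K (modularFunctionFieldFullC K N), (m : ℤ) ∣ P.ord ⟨u, hu⟩) :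
    ∃ w ∈ modularFunctionFieldFullC K N, u = w ^ m := by
  obtain ⟨w, hw⟩ := HasGood.isPow π N h hr hm (u := ⟨u, hu⟩) (ub := ⟨ub, hub⟩) (gb := ⟨gb, hgb⟩)
    (c := c) hLR (fun h0 => hub0 (congrArg Subtype.val h0)) (by
      apply Subtype.ext
      rw [ModFun.C_eq_algebraMap] at heq
      exact heq) hdiv
  exact ⟨w, w.2, congrArg Subtype.val hw⟩

theorem ord_level {N M : ℕ} [NeZero N] [NeZero M] (hNM : N ∣ M) {m : ℤ}
    [IsFunctionField K (modularFunctionFieldFullC K N)]
    [IsFunctionField K (modularFunctionFieldFullC K M)]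
    {u : LaurentSeries K} (hu : u ∈ modularFunctionFieldFullC K N)
    (hu' : u ∈ modularFunctionFieldFullC K M)
    (hdiv : ∀ P : Place K (modularFunctionFieldFullC K N), m ∣ P.ord ⟨u, hu⟩)
    (P : Place K (modularFunctionFieldFullC K M)) : m ∣ P.ord ⟨u, hu'⟩ := by
  have hle := full_degeneracyC_le (K := K) hNM
  have h1 := Place.ord_restrictAlong (IntermediateField.inclusion hle)
    (integralAlong (IntermediateField.inclusion hle)) P ⟨u, hu⟩
  have h2 : (IntermediateField.inclusion hle ⟨u, hu⟩ : modularFunctionFieldFullC K M) =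
    ⟨u, hu'⟩ := rfl
  rw [h2] at h1
  rw [h1]
  exact Dvd.dvd.mul_left (hdiv _) _

/-- Kummer lifting transfers down along a prime-to-`m` level raising -/
theorem isPow_of_level [CharZero K] [NeZero N] {p : ℕ} (hp : p.Prime) (hpN : ¬ p ∣ N)
    (h : HasGood π (p * N)) (hr : RankOne π) {m : ℕ} (hm : (m : κ) ≠ 0)
    (hco : Nat.Coprime (p + 1) m)
    {u : LaurentSeries K} (hu : u ∈ modularFunctionFieldFullC K N) {ub gb : LaurentSeries κ}
    (hub : ub ∈ modularFunctionFieldFullC κ N) (hgb : gb ∈ modularFunctionFieldFullC κ N) {c : κ}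
    (hLR : LR π u ub) (hub0 : ub ≠ 0) (heq : ub = HahnSeries.C c * gb ^ m)
    (hdiv : ∀ P : Place K (modularFunctionFieldFullC K N), (m : ℤ) ∣ P.ord ⟨u, hu⟩) :
    ∃ w ∈ modularFunctionFieldFullC K N, u = w ^ m := by
  haveI : NeZero p := ⟨hp.ne_zero⟩
  haveI : NeZero (p * N) := ⟨Nat.mul_ne_zero hp.ne_zero (NeZero.ne N)⟩
  haveI := isFunctionField_fullC K N (by exact_mod_cast NeZero.ne N)
  haveI := isFunctionField_fullC K (p * N) (by exact_mod_cast NeZero.ne (p * N))
  have hle := full_degeneracyC_le (K := K) (N := N) (M := p * N) (Dvd.intro_left p rfl)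
  have hleb := full_degeneracyC_le (K := κ) (N := N) (M := p * N) (Dvd.intro_left p rfl)
  have hu0 : u ≠ 0 := by
    rintro rfl
    exact hub0 (hLR.unique (LR.zero π))
  obtain ⟨w, hw, huw⟩ := h.isPow' π (p * N) hr hm (hle hu) (hleb hub) (hleb hgb) hLR hub0 heq
    (ord_level (Dvd.intro_left p rfl) hu (hle hu) hdiv)
  exact exists_pow_descend hle (relfinrank_full hp hpN
    (by exact_mod_cast NeZero.ne (p * N))) hco hu hu0 hw huw

/-- **Kummer lifting for modular function fields**: if `u ∈ F_N` has divisor divisible by `m` and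
its reduction is a constant times an `m`-th power, then `u` is an `m`-th power. -/
theorem modKummer [CharZero K] (ι : K →+* ℂ) (hπ : Function.Surjective π) (hNκ : (N : κ) ≠ 0)
    (hr : RankOne π) {m : ℕ} (hm : (m : κ) ≠ 0)
    {u : LaurentSeries K} (hu : u ∈ modularFunctionFieldFullC K N) {ub gb : LaurentSeries κ}
    (hub : ub ∈ modularFunctionFieldFullC κ N) (hgb : gb ∈ modularFunctionFieldFullC κ N) {c : κ}
    (hLR : LR π u ub) (hub0 : ub ≠ 0) (heq : ub = HahnSeries.C c * gb ^ m)
    (hdiv : ∀ P : Place K (modularFunctionFieldFullC K N), (m : ℤ) ∣ P.ord ⟨u, hu⟩) :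
    ∃ w ∈ modularFunctionFieldFullC K N, u = w ^ m := by
  have hN0 : N ≠ 0 := by rintro rfl; simp at hNκ
  haveI : NeZero N := ⟨hN0⟩
  have hNK : (N : K) ≠ 0 := by exact_mod_cast hN0
  by_cases h6 : (6 : κ) = 0
  · have h23 : (2 : κ) * 3 = 0 := by rw [← h6]; norm_num
    rcases mul_eq_zero.1 h23 with h2 | h3
    · -- characteristic `2`
      have h3 : ((3 : ℕ) : κ) ≠ 0 := by
        intro h
        have : (1 : κ) = 3 - 2 := by norm_num
        push_cast at h
        rw [h, h2, sub_zero] at this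
        exact one_ne_zero this
      by_cases h3N : 3 ∣ N
      · exact (haup3.hasGood π N ι hπ hNK hNκ (by norm_num) h3 h3N).isPow' π N hr hm hu hub hgb
          hLR hub0 heq hdiv
      · have hg := haup3.hasGood π (3 * N) ι hπ (by push_cast; exact mul_ne_zero (by norm_num) hNK)
          (by push_cast; exact mul_ne_zero (by exact_mod_cast h3) hNκ) (by norm_num) h3
          (Dvd.intro _ rfl)
        refine isPow_of_level π N Nat.prime_three h3N hg hr hm ?_ hu hub hgb hLR hub0 heq hdiv
        have hodd : ¬ 2 ∣ m := by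
          rintro ⟨m', rfl⟩
          apply hm
          push_cast
          rw [h2, zero_mul]
        have : Nat.Coprime 2 m := (Nat.Prime.coprime_iff_not_dvd Nat.prime_two).2 hodd
        exact Nat.Coprime.pow_left 2 this
    · have h2 : ((2 : ℕ) : κ) ≠ 0 := by
        intro h
        have : (1 : κ) = 3 - 2 := by norm_num
        push_cast at h
        rw [h, h3, sub_zero] at this
        exact one_ne_zero this.symm.symm
      by_cases h2N : 2 ∣ N
      · exact (haup2.hasGood π N ι hπ hNK hNκ (by norm_num) h2 h2N).isPow' π N hr hm hu hub hgb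
          hLR hub0 heq hdiv
      · have hg := haup2.hasGood π (2 * N) ι hπ (by push_cast; exact mul_ne_zero (by norm_num) hNK)
          (by push_cast; exact mul_ne_zero (by exact_mod_cast h2) hNκ) (by norm_num) h2
          (Dvd.intro _ rfl)
        refine isPow_of_level π N Nat.prime_two h2N hg hr hm ?_ hu hub hgb hLR hub0 heq hdiv
        have hodd : ¬ 3 ∣ m := by
          rintro ⟨m', rfl⟩
          apply hm
          push_cast
          rw [h3, zero_mul]
        exact (Nat.Prime.coprime_iff_not_dvd Nat.prime_three).2 hodd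
  · exact (hasGood_of_six π N ι h6 hπ hNK hNκ).isPow' π N hr hm hu hub hgb hLR hub0 heq hdiv

end Fermat.Agent.GoodRed
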