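import Fermat.Agent.GoodRed.EmbNorm
import Fermat.Agent.GoodRed.KLAll
import Fermat.Agent.HeckeQ.Basic

/-!
# The norm formula for Hecke operators on modular functions
-/

set_option autoImplicit false
set_option linter.unusedSectionVars false
set_option linter.style.haveILetI false
set_option synthInstance.maxHeartbeats 400000

noncomputable section

namespace Fermat.Agent.GoodRed

open HahnSeries ModularCurve IntermediateField Fermat.Agent.ModFun Fermat.Agent.HeckeQ Module

section Degree

variable {k : Type*} [Field k] [IsSepClosed k]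

theorem relfinrank_EM (p N : ℕ) [hp : Fact p.Prime] (hpN : ¬ p ∣ N) (hN : ((N * p : ℕ) : k) ≠ 0) :
    relfinrank (EM k p N) (modularFunctionFieldFullC k (N * p)) = p + 1 := by
  have hp0 : p ≠ 0 := hp.out.ne_zero
  have hN0 : N ≠ 0 := by
    rintro rfl
    simp at hN
  have hNk : (N : k) ≠ 0 := by
    intro h
    apply hN
    rw [Nat.cast_mul, h, zero_mul]
  have hNp : N * p ≠ 0 := Nat.mul_ne_zero hN0 hp0
  obtain ⟨hpk, z, hz⟩ := enoughRoots_of_sepClosed k hN p hp.out (dvd_mul_left p N)
  have hJ1 : k⟮Jd k 1⟯ ≤ modularFunctionFieldFullC k N := jle hN0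
  have hJp : Jd k p ∈ modularFunctionFieldFullC k (N * p) := Jd_mem k hNp (dvd_mul_left p N)
  have hJ1' : Jd k 1 ∈ modularFunctionFieldFullC k (N * p) := Jd_mem k hNp (one_dvd _)
  have hB : k⟮Jd k 1⟯ ⊔ k⟮Jd k p⟯ ≤ modularFunctionFieldFullC k (N * p) :=
    sup_le (by simpa using hJ1') (by simpa using hJp)
  set A' := EM k p N with hA'
  obtain ⟨hT1, hT2⟩ := relfinrank_J1_Jp (k := k) p hpk z hz
  have hx : degN k (N * p) = degN k N * relfinrank A' (modularFunctionFieldFullC k (N * p)) := by
    have e1 : degN k (N * p) = relfinrank k⟮Jd k p⟯ (modularFunctionFieldFullC k (N * p)) := by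
      rw [degN, ← relfinrank_mul_relfinrank (le_sup_left : k⟮Jd k 1⟯ ≤ k⟮Jd k 1⟯ ⊔ k⟮Jd k p⟯) hB,
        ← relfinrank_mul_relfinrank (le_sup_right : k⟮Jd k p⟯ ≤ k⟮Jd k 1⟯ ⊔ k⟮Jd k p⟯) hB,
        hT1, hT2]
    have e2 : k⟮Jd k p⟯ = (k⟮Jd k 1⟯).map (qExpandAlgHomC k p) := by
      rw [map_adjoin_Jd, mul_one]
    have e3 : degN k N = relfinrank k⟮Jd k p⟯ A' := by
      rw [e2, hA', EM, relfinrank_map, degN]
    have e4 : k⟮Jd k p⟯ ≤ A' := by
      rw [e2, hA', EM]
      exact map_mono _ hJ1
    rw [e1, e3, relfinrank_mul_relfinrank e4 (EM_le_EN k hN0)]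
  rw [degN_eq (N * p) hNp (enoughRoots_of_sepClosed k hN),
    degN_eq N hN0 (enoughRoots_of_sepClosed k hNk)] at hx
  have h4 := dedekindPsi_step p hp.out 0 N hpN
  rw [zero_add, pow_one, pow_zero, one_mul, if_pos rfl, mul_comm p N] at h4
  rw [h4] at hx
  exact (Nat.eq_of_mul_eq_mul_left (Nat.pos_of_ne_zero (dedekindPsi_pos hN0)) hx).symm

end Degree

section W

variable {k : Type*} [Field k] [IsAlgClosed k] [CharZero k] (p N : ℕ) [hp : Fact p.Prime]
  [NeZero N]

theorem card_roots (p : ℕ) [hp : Fact p.Prime] : Fintype.card (rootsOfUnity p k) = p := by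
  haveI : NeZero (p : k) := ⟨by exact_mod_cast hp.out.ne_zero⟩
  have h := HasEnoughRootsOfUnity.natCard_rootsOfUnity k p
  rwa [Nat.card_eq_fintype_card] at h

theorem Jd_coeff_neg_one : (Jd k 1).coeff (-1) = 1 := by
  have := Jd_coeff_self k 1
  simpa using this

/-- **the Atkin-Lehner substitution**: there is a homomorphism `w` from `F_{Np}` to Laurent series
with `w(f(q^p)) = f(q)` and `w(f(q)) = f(q^p)` for `f ∈ F_N`. -/
theorem exists_AL (hpN : ¬ p ∣ N) :
    ∃ w : modularFunctionFieldFullC k (N * p) →+* LaurentSeries k,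
      (∀ (f : LaurentSeries k) (_ : f ∈ modularFunctionFieldFullC k N)
        (h : f ∈ modularFunctionFieldFullC k (N * p)), w ⟨f, h⟩ = qExpand k p f) ∧
      (∀ (f : LaurentSeries k) (_ : f ∈ modularFunctionFieldFullC k N)
        (h : qExpand k p f ∈ modularFunctionFieldFullC k (N * p)), w ⟨qExpand k p f, h⟩ = f) := by
  classical
  have hN0 : N ≠ 0 := NeZero.ne N
  have hp0 : p ≠ 0 := hp.out.ne_zero
  have hNp : N * p ≠ 0 := Nat.mul_ne_zero hN0 hp0
  have hNpk : ((N * p : ℕ) : k) ≠ 0 := by exact_mod_cast hNp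
  obtain ⟨hpk, z, hz⟩ := enoughRoots_of_sepClosed k hNpk p hp.out (dvd_mul_left p N)
  have hle : EM k p N ≤ modularFunctionFieldFullC k (N * p) := EM_le_EN k hN0
  let L := extendScalars hle
  have hfr : finrank (EM k p N) L = p + 1 := by
    rw [← relfinrank_eq_finrank_of_le hle]
    exact relfinrank_EM p N hpN hNpk
  haveI : FiniteDimensional (EM k p N) L := FiniteDimensional.of_finrank_pos (by omega)
  have hfix : ∀ (ξ : rootsOfUnity p k) (a : EM k p N), twist (ξ : kˣ) (a : LaurentSeries k) = a := by
    intro ξ a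
    obtain ⟨b, hb⟩ := EM_fixed (k := k) p N a a.2
    rw [← hb]
    exact twist_qExpand _ p ((mem_rootsOfUnity p _).1 ξ.2) b
  -- the twists
  let φ : rootsOfUnity p k → (L →ₐ[EM k p N] LaurentSeries k) := fun ξ =>
    { toRingHom := (twist (ξ : kˣ)).comp (algebraMap L (LaurentSeries k))
      commutes' := fun a => hfix ξ a }
  have hφ_apply : ∀ ξ (x : L), φ ξ x = twist (ξ : kˣ) (x : LaurentSeries k) := fun ξ x => rfl
  have hJ1 : Jd k 1 ∈ modularFunctionFieldFullC k (N * p) := Jd_mem k hNp (one_dvd _)
  have hφ : Function.Injective φ := by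
    intro ξ ξ' h
    have h1 := DFunLike.congr_fun h ⟨Jd k 1, hJ1⟩
    rw [hφ_apply, hφ_apply] at h1
    have h2 := congrArg (fun F => HahnSeries.coeff F (-1)) h1
    simp only [twist_coeff, Jd_coeff_neg_one, mul_one] at h2
    have h3 : (ξ : kˣ) ^ (-1 : ℤ) = (ξ' : kˣ) ^ (-1 : ℤ) := Units.ext h2
    rw [zpow_neg_one, zpow_neg_one] at h3
    exact Subtype.ext (inv_injective h3)
  obtain ⟨c, hc⟩ := exists_last_embedding (by rw [hfr, card_roots]) φ hφ
  -- values are in `k((q^p))`
  have htw : ∀ x, twist z (c x) = c x := by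
    intro x
    have h1 : c x = ((Algebra.trace (EM k p N) L x : EM k p N) : LaurentSeries k) -
        ∑ ξ, φ ξ x := by
      have := hc x
      rw [eq_sub_iff_add_eq]
      exact this.symm
    let zr : rootsOfUnity p k := ⟨z, (mem_rootsOfUnity p _).2 hz.pow_eq_one⟩
    rw [h1, map_sub, map_sum]
    congr 1
    · exact hfix zr _
    · simp only [hφ_apply, twist_twist]
      exact Fintype.sum_equiv (Equiv.mulLeft zr) _ _ fun ξ => rfl
  have hex : ∀ x, ∃ y, qExpand k p y = c x := fun x => exists_qExpand_of_twist z p hz _ (htw x)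
  choose w₀ hw₀ using hex
  have hinj : Function.Injective (qExpand k p) := qExpand_inj p
  let w : L →+* LaurentSeries k :=
    { toFun := w₀
      map_one' := hinj (by rw [hw₀, map_one, map_one])
      map_mul' := fun x y => hinj (by rw [hw₀, map_mul, map_mul, hw₀, hw₀])
      map_zero' := hinj (by rw [hw₀, map_zero, map_zero])
      map_add' := fun x y => hinj (by rw [hw₀, map_add, map_add, hw₀, hw₀]) }
  have hw : ∀ x, qExpand k p (w x) = c x := hw₀
  -- elements of `E₀`
  have hw2 : ∀ (f : LaurentSeries k) (_ : f ∈ modularFunctionFieldFullC k N)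
      (h : qExpand k p f ∈ modularFunctionFieldFullC k (N * p)), w ⟨qExpand k p f, h⟩ = f := by
    intro f hf h
    apply hinj
    rw [hw]
    exact c.commutes (⟨qExpand k p f, f, hf, rfl⟩ : EM k p N)
  -- the functions `j(q^d)`
  have hwJ : ∀ (d : ℕ) (_ : d ∣ N) (h : Jd k d ∈ modularFunctionFieldFullC k (N * p)),
      w ⟨Jd k d, h⟩ = Jd k (p * d) := by
    intro d hd h
    haveI : NeZero d := ⟨fun h0 => hN0 (by rw [h0, zero_dvd_iff] at hd; exact hd)⟩
    have hpd : ¬ p ∣ d := fun h => hpN (h.trans hd)
    have hA : Jd k (d * p) ∈ EM k p N := by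
      rw [mul_comm, Jd_mem_EM_iff]
      exact Jd_mem k hN0 hd
    obtain ⟨f, hf⟩ := exists_lift_Phi p z hz d (EM k p N) hA
    have hroot : Polynomial.aeval (⟨Jd k d, h⟩ : L) f = 0 := by
      apply (algebraMap L (LaurentSeries k)).injective
      rw [← Polynomial.aeval_algebraMap_apply, map_zero]
      change Polynomial.aeval (Jd k d) f = 0
      rw [Polynomial.aeval_def, ← Polynomial.eval_map, hf, ← rootsM_some_zero p z d]
      exact prodPoly_eval _ _
    have hroot2 : Polynomial.aeval (c ⟨Jd k d, h⟩) f = 0 := by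
      rw [Polynomial.aeval_algHom_apply, hroot, map_zero]
    rw [Polynomial.aeval_def, ← Polynomial.eval_map, hf, prodPoly, Polynomial.eval_prod,
      Finset.prod_eq_zero_iff] at hroot2
    obtain ⟨i, -, hi⟩ := hroot2
    rw [Polynomial.eval_sub, Polynomial.eval_X, Polynomial.eval_C, sub_eq_zero] at hi
    cases i with
    | none =>
      apply hinj
      rw [hw, hi, rootsM_none, qExpand_Jd]
      congr 1
      ring
    | some b =>
      exfalso
      have h1 := rootsM_some_order p z d b
      rw [← hi, ← hw, order_qExpand] at h1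
      apply hpd
      have h2 : (p : ℤ) ∣ -(d : ℤ) := ⟨_, h1.symm⟩
      rw [dvd_neg] at h2
      exact_mod_cast h2
  -- all functions of level `N`
  have hEN : modularFunctionFieldFullC k N ≤ modularFunctionFieldFullC k (N * p) :=
    EN_le k _ fun d hd => Jd_mem k hNp (hd.mul_right p)
  have hw1 : ∀ (f : LaurentSeries k) (hf : f ∈ modularFunctionFieldFullC k N),
      w ⟨f, hEN hf⟩ = qExpand k p f := by
    let S : IntermediateField k (LaurentSeries k) :=
      { carrier := {f | ∃ hf : f ∈ modularFunctionFieldFullC k N, w ⟨f, hEN hf⟩ = qExpand k p f}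
        mul_mem' := by
          rintro a b ⟨ha, ha'⟩ ⟨hb, hb'⟩
          refine ⟨mul_mem ha hb, ?_⟩
          rw [map_mul, ← ha', ← hb', ← map_mul]
          rfl
        one_mem' := ⟨one_mem _, by rw [map_one]; exact map_one w⟩
        add_mem' := by
          rintro a b ⟨ha, ha'⟩ ⟨hb, hb'⟩
          refine ⟨add_mem ha hb, ?_⟩
          rw [map_add, ← ha', ← hb', ← map_add]
          rfl
        zero_mem' := ⟨zero_mem _, by rw [map_zero]; exact map_zero w⟩
        algebraMap_mem' := by
          intro a
          refine ⟨(modularFunctionFieldFullC k N).algebraMap_mem a, ?_⟩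
          have h1 : algebraMap k (LaurentSeries k) a = qExpand k p (algebraMap k _ a) := by
            rw [← C_eq_algebraMap, qExpand_C]
          have h2 := hw2 (algebraMap k _ a) ((modularFunctionFieldFullC k N).algebraMap_mem a)
            (by rw [← h1]; exact IntermediateField.algebraMap_mem _ a)
          rw [← h1]
          convert h2 using 2
          exact Subtype.ext h1
        inv_mem' := by
          rintro a ⟨ha, ha'⟩
          refine ⟨inv_mem ha, ?_⟩
          rw [map_inv₀, ← ha', ← map_inv₀]
          rfl }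
    have hS : modularFunctionFieldFullC k N ≤ S := by
      refine EN_le k S fun d hd => ?_
      refine ⟨Jd_mem k hN0 hd, ?_⟩
      rw [hwJ d hd, qExpand_Jd]
    intro f hf
    obtain ⟨_, h'⟩ := hS hf
    exact h'
  exact ⟨w, fun f hf h => hw1 f hf, hw2⟩

end W

section Norm

open AlgebraicCurve

theorem norm_aux {F L Λ ι : Type*} [Field F] [Field L] [Field Λ] [Fintype ι] [CharZero F]
    (α : F →+* L)
    (hcard : letI := α.toAlgebra; finrank F L = Fintype.card ι) (hpos : Fintype.card ι ≠ 0)
    (ρ : F →+* Λ) (φ : ι → (L →+* Λ)) (hφα : ∀ i x, φ i (α x) = ρ x)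
    (hφ : Function.Injective φ) (x : L) :
    ρ (letI := α.toAlgebra; Algebra.norm F x) = ∏ i, φ i x := by
  letI := α.toAlgebra
  letI := ρ.toAlgebra
  haveI : FiniteDimensional F L := FiniteDimensional.of_finrank_pos (by
    rw [hcard]; exact Nat.pos_of_ne_zero hpos)
  let φ' : ι → (L →ₐ[F] Λ) := fun i => { φ i with commutes' := hφα i }
  have hφ' : Function.Injective φ' := by
    intro a b hab
    apply hφ
    ext y
    exact DFunLike.congr_fun hab y
  exact norm_eq_prod_of_injective hcard φ' hφ' x

variable {k : Type*} [Field k] [IsAlgClosed k] [CharZero k] (p N : ℕ) [hp : Fact p.Prime]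
  [NeZero N]

theorem finrank_incl {F L : IntermediateField k (LaurentSeries k)} (hle : F ≤ L)
    (α : F →ₐ[k] L) (hα : ∀ x, (α x : LaurentSeries k) = x) :
    (letI := algebraAlong α; finrank F L) = relfinrank F L := by
  letI := algebraAlong α
  rw [relfinrank_eq_finrank_of_le hle]
  let e : L ≃ₗ[F] extendScalars hle :=
    { toFun := fun x => ⟨x.1, x.2⟩
      invFun := fun x => ⟨x.1, x.2⟩
      left_inv := fun x => rfl
      right_inv := fun x => rfl
      map_add' := fun x y => rfl
      map_smul' := fun r x => by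
        apply Subtype.ext
        change ((α r * x : L) : LaurentSeries k) = (r : LaurentSeries k) * (x : LaurentSeries k)
        rw [← hα r]
        rfl }
  exact e.finrank_eq

/-- **The norm formula**: the norm along `F_N ⊆ F_{Np}` of `f(q^p)` is `hM p f`. -/
theorem hecke_norm_aux [HasPrim k p] (hpN : ¬ p ∣ N) {F L : IntermediateField k (LaurentSeries k)}
    (hF : F = modularFunctionFieldFullC k N) (hL : L = modularFunctionFieldFullC k (N * p))
    (α β : F →ₐ[k] L) (hα : ∀ x, (α x : LaurentSeries k) = x)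
    (hβ : ∀ x, (β x : LaurentSeries k) = qExpand k p x) (f : F) :
    ((letI := algebraAlong α; Algebra.norm F (β f) : F) : LaurentSeries k) =
      hM p (f : LaurentSeries k) := by
  subst hF hL
  haveI : CharZero (modularFunctionFieldFullC k N) :=
    charZero_of_injective_algebraMap (algebraMap k (modularFunctionFieldFullC k N)).injective
  haveI : NeZero (N * p) := ⟨Nat.mul_ne_zero (NeZero.ne N) hp.out.ne_zero⟩
  have hNp : N * p ≠ 0 := NeZero.ne _
  have hNpk : ((N * p : ℕ) : k) ≠ 0 := by exact_mod_cast hNp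
  obtain ⟨w, hw1, hw2⟩ := exists_AL (k := k) p N hpN
  have hle : modularFunctionFieldFullC k N ≤ modularFunctionFieldFullC k (N * p) :=
    full_degeneracyC_le (K := k) (dvd_mul_right N p)
  have hdeg : (letI := algebraAlong α; finrank (modularFunctionFieldFullC k N)
      (modularFunctionFieldFullC k (N * p))) = p + 1 := by
    have h1 := finrank_incl hle α hα
    rw [h1]
    have := relfinrank_full (k := k) (N := N) (p := p) hp.out hpN
      (by rw [mul_comm]; exact hNpk)
    rwa [mul_comm p N] at this
  let ρ : modularFunctionFieldFullC k N →+* LaurentSeries k :=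
    (qExpand k p).comp (algebraMap (modularFunctionFieldFullC k N) (LaurentSeries k))
  let φ : Option (rootsOfUnity p k) → (modularFunctionFieldFullC k (N * p) →+* LaurentSeries k) :=
    fun o => match o with
      | none => (qExpand k p).comp (algebraMap (modularFunctionFieldFullC k (N * p))
          (LaurentSeries k))
      | some ξ => (twist (ξ : kˣ)).comp w
  have hcoe : ∀ x : modularFunctionFieldFullC k N, α x = ⟨x, hle x.2⟩ := fun x =>
    Subtype.ext (hα x)
  have hφα : ∀ i x, φ i (α x) = ρ x := by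
    intro i x
    cases i with
    | none =>
      change qExpand k p ((α x : _) : LaurentSeries k) = qExpand k p (x : LaurentSeries k)
      rw [hα]
    | some ξ =>
      change twist (ξ : kˣ) (w (α x)) = qExpand k p (x : LaurentSeries k)
      rw [hcoe, hw1 x x.2]
      exact twist_qExpand _ p ((mem_rootsOfUnity p _).1 ξ.2) _
  have hwβ : ∀ x, w (β x) = (x : LaurentSeries k) := by
    intro x
    have h1 : β x = ⟨qExpand k p (x : LaurentSeries k), by rw [← hβ x]; exact (β x).2⟩ :=
      Subtype.ext (hβ x)
    rw [h1]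
    exact hw2 x x.2 _
  have hφ : Function.Injective φ := by
    let J : modularFunctionFieldFullC k N := ⟨Jd k 1, Jd_mem k (NeZero.ne N) (one_dvd N)⟩
    have h0 : (φ none (β J)).coeff (-1) = 0 := by
      change (qExpand k p ((β J : _) : LaurentSeries k)).coeff (-1) = 0
      apply qExpand_coeff_of_not_dvd
      rw [dvd_neg]
      intro h
      have h2 := Int.natCast_dvd_natCast.1 (by simpa using h : ((p : ℕ) : ℤ) ∣ ((1 : ℕ) : ℤ))
      exact hp.out.one_lt.ne' (Nat.dvd_one.1 h2)
    have h1 : ∀ ξ : rootsOfUnity p k, (φ (some ξ) (β J)).coeff (-1) =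
        (((ξ : kˣ) ^ (-1 : ℤ) : kˣ) : k) := by
      intro ξ
      change (twist (ξ : kˣ) (w (β J))).coeff (-1) = _
      rw [hwβ, twist_coeff]
      change _ * (Jd k 1).coeff (-1) = _
      rw [Jd_coeff_neg_one, mul_one]
    intro a b hab
    have h2 := congrArg (fun F => HahnSeries.coeff (F (β J)) (-1)) hab
    cases a with
    | none =>
      cases b with
      | none => rfl
      | some ξ =>
        exfalso
        rw [h0, h1] at h2
        exact (Units.ne_zero _) h2.symm
    | some ξ =>
      cases b with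
      | none =>
        exfalso
        rw [h0, h1] at h2
        exact (Units.ne_zero _) h2
      | some ξ' =>
        rw [h1, h1] at h2
        have h3 := Units.ext h2
        rw [zpow_neg_one, zpow_neg_one] at h3
        rw [Subtype.ext (inv_injective h3)]
  have hcard : (letI := algebraAlong α; finrank (modularFunctionFieldFullC k N)
      (modularFunctionFieldFullC k (N * p))) = Fintype.card (Option (rootsOfUnity p k)) := by
    rw [hdeg, Fintype.card_option, card_roots]
  have key := norm_aux α.toRingHom hcard (by rw [Fintype.card_option]; omega) ρ φ hφα hφ (β f)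
  rw [Fintype.prod_option] at key
  apply qExpand_inj p
  refine key.trans ?_
  rw [hM, map_mul, qExpand_hW, prodTwist]
  congr 1
  · change qExpand k p ((β f : _) : LaurentSeries k) = _
    rw [hβ]
  · refine Finset.prod_congr rfl fun ξ _ => ?_
    change twist (ξ : kˣ) (w (β f)) = _
    rw [hwβ]

end Norm

end Fermat.Agent.GoodRed
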