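import Fermat.Agent.GoodRed.Laurent
import Fermat.Agent.ModFun.Tower1

/-!
# Scaling of Laurent series in fields generated by integral Laurent series
-/

set_option autoImplicit false
set_option linter.unusedSectionVars false

noncomputable section

namespace Fermat.Agent.GoodRed

open ModularCurve

variable {K κ : Type*} [Field K] [Field κ] {A : ValuationSubring K} (π : A →+* κ) [IsLocalHom π]

/-- `K`-linear combinations of integral Laurent series can be scaled to be integral with non-zero
reduction. -/
theorem exists_scale_span {x : LaurentSeries K} (hx : x ≠ 0)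
    (hxs : ∃ c : LaurentSeries ℤ →₀ K,
      (c.sum fun i a => HahnSeries.C a * coeffMap (Int.castRingHom K) i) = x) :
    ∃ (c : K) (y : LaurentSeries A), c ≠ 0 ∧ coeffMap A.subtype y = HahnSeries.C c * x ∧
      coeffMap π y ≠ 0 := by
  classical
  obtain ⟨c, hc⟩ := hxs
  let L : (c.support → ℤ) →ₗ[ℤ] K :=
    { toFun := fun v => ∑ i : c.support, c i * (v i : K)
      map_add' := by
        intro v w
        rw [← Finset.sum_add_distrib]
        refine Finset.sum_congr rfl fun i _ => ?_
        rw [Pi.add_apply]; push_cast; ring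
      map_smul' := by
        intro m v
        rw [RingHom.id_apply, Finset.smul_sum]
        refine Finset.sum_congr rfl fun i _ => ?_
        rw [Pi.smul_apply, smul_eq_mul, zsmul_eq_mul]; push_cast; ring }
  let v : ℤ → (c.support → ℤ) := fun n i => (i : LaurentSeries ℤ).coeff n
  have hL : ∀ n, L (v n) = x.coeff n := by
    intro n
    rw [← hc, Finsupp.sum, HahnSeries.coeff_sum, ← Finset.sum_coe_sort]
    refine Finset.sum_congr rfl fun i _ => ?_
    rw [HahnSeries.C_apply, HahnSeries.coeff_single_mul, sub_zero, coeffMap_coeff]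
    rfl
  have hfg : (Submodule.span ℤ (Set.range v)).FG := IsNoetherian.noetherian _
  rw [Submodule.fg_span_iff_fg_span_finset_subset] at hfg
  obtain ⟨s, hs, hspan⟩ := hfg
  have hex : ∃ t ∈ s, L t ≠ 0 := by
    by_contra! h
    apply hx
    ext n
    rw [← hL n, HahnSeries.coeff_zero]
    have h1 : v n ∈ Submodule.span ℤ (s : Set (c.support → ℤ)) := by
      rw [← hspan]; exact Submodule.subset_span ⟨n, rfl⟩
    have h2 : Submodule.span ℤ (s : Set (c.support → ℤ)) ≤ LinearMap.ker L := by
      rw [Submodule.span_le]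
      intro t ht
      exact h t ht
    exact h2 h1
  obtain ⟨t, ht, ht0, hdA'⟩ := GaussRed.exists_scale_finset (A := A) s L hex
  obtain ⟨d, hd⟩ : ∃ d, d = (L t)⁻¹ := ⟨_, rfl⟩
  have hd0 : d ≠ 0 := by rw [hd]; exact inv_ne_zero ht0
  have hdA : ∀ w ∈ s, d * L w ∈ A := by rw [hd]; exact hdA'
  have hall : ∀ w ∈ Submodule.span ℤ (s : Set (c.support → ℤ)), d * L w ∈ A := by
    intro w hw
    induction hw using Submodule.span_induction with
    | mem w hw => exact hdA w hw
    | zero => rw [map_zero, mul_zero]; exact zero_mem _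
    | add w w' _ _ h h' => rw [map_add, mul_add]; exact add_mem h h'
    | smul m w _ h =>
      rw [map_smul, mul_smul_comm]
      exact zsmul_mem h m
  have hcoef : ∀ n, d * x.coeff n ∈ A := by
    intro n
    rw [← hL n]
    apply hall
    rw [← hspan]
    exact Submodule.subset_span ⟨n, rfl⟩
  let y : LaurentSeries A :=
    { coeff := fun n => ⟨d * x.coeff n, hcoef n⟩
      isPWO_support' := x.isPWO_support.mono (by
        intro n hn h0
        apply hn
        apply Subtype.ext
        change d * x.coeff n = 0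
        rw [show x.coeff n = 0 from h0, mul_zero]) }
  refine ⟨d, y, hd0, ?_, ?_⟩
  · ext n
    rw [coeffMap_coeff, HahnSeries.C_apply, HahnSeries.coeff_single_mul, sub_zero]
    rfl
  · intro h0
    obtain ⟨n, hn⟩ := hs ht
    have h1 := congrArg (fun z => HahnSeries.coeff z n) h0
    simp only [coeffMap_coeff, HahnSeries.coeff_zero] at h1
    have h2 : y.coeff n = 1 := by
      apply Subtype.ext
      change d * x.coeff n = 1
      rw [← hL n, hn, hd, inv_mul_cancel₀ ht0]
    rw [h2, map_one] at h1
    exact one_ne_zero h1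

/-- the algebra generated by integral Laurent series -/
theorem mem_span_of_mem_adjoin {S : Set (LaurentSeries ℤ)} {x : LaurentSeries K}
    (hx : x ∈ Algebra.adjoin K (coeffMap (Int.castRingHom K) '' S)) :
    ∃ c : LaurentSeries ℤ →₀ K,
      (c.sum fun i a => HahnSeries.C a * coeffMap (Int.castRingHom K) i) = x := by
  have h1 : Algebra.adjoin K (coeffMap (Int.castRingHom K) '' S) ≤
      Algebra.adjoin K ((coeffMap (Int.castRingHom K)).rangeS.toSubmonoid : Set (LaurentSeries K)) := by
    apply Algebra.adjoin_mono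
    rintro _ ⟨y, _, rfl⟩
    exact ⟨y, rfl⟩
  have h2 := h1 hx
  rw [← Subalgebra.mem_toSubmodule, Algebra.adjoin_eq_span, Submonoid.closure_eq] at h2
  have h3 : ((coeffMap (Int.castRingHom K)).rangeS.toSubmonoid : Set (LaurentSeries K)) =
    Set.range (coeffMap (Int.castRingHom K)) := rfl
  rw [h3] at h2
  clear h1 h3 hx
  induction h2 using Submodule.span_induction with
  | mem x hx =>
    obtain ⟨f, rfl⟩ := hx
    refine ⟨Finsupp.single f 1, ?_⟩
    rw [Finsupp.sum_single_index] <;> simp
  | zero => exact ⟨0, by simp⟩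
  | add x y _ _ hx hy =>
    obtain ⟨c, rfl⟩ := hx
    obtain ⟨d, rfl⟩ := hy
    refine ⟨c + d, ?_⟩
    rw [Finsupp.sum_add_index'] <;> simp [add_mul]
  | smul a x _ hx =>
    obtain ⟨c, rfl⟩ := hx
    refine ⟨a • c, ?_⟩
    rw [Finsupp.sum_smul_index' (by simp), Algebra.smul_def, ← ModFun.C_eq_algebraMap,
      Finsupp.mul_sum]
    refine Finsupp.sum_congr fun i _ => ?_
    rw [smul_eq_mul, map_mul, mul_assoc]

/-- **Gauss scaling**: in a subfield of `K((q))` generated over `K` by series with integral
coefficients, every non-zero element is a constant times a quotient of two series over `A`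
with non-zero reductions. -/
theorem exists_scale_adjoin (S : Set (LaurentSeries ℤ)) {x : LaurentSeries K} (hx : x ≠ 0)
    (hxs : x ∈ IntermediateField.adjoin K (coeffMap (Int.castRingHom K) '' S)) :
    ∃ (c : K) (f g : LaurentSeries A), c ≠ 0 ∧
      coeffMap A.subtype f ∈ IntermediateField.adjoin K (coeffMap (Int.castRingHom K) '' S) ∧
      coeffMap A.subtype g ∈ IntermediateField.adjoin K (coeffMap (Int.castRingHom K) '' S) ∧
      coeffMap π f ≠ 0 ∧ coeffMap π g ≠ 0 ∧
      coeffMap A.subtype g * (HahnSeries.C c * x) = coeffMap A.subtype f := by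
  rw [IntermediateField.mem_adjoin_iff_div] at hxs
  obtain ⟨r, hr, s, hs, rfl⟩ := hxs
  have hr0 : r ≠ 0 := by rintro rfl; simp at hx
  have hs0 : s ≠ 0 := by rintro rfl; simp at hx
  obtain ⟨c, f, hc, hf, hf0⟩ := exists_scale_span π hr0 (mem_span_of_mem_adjoin hr)
  obtain ⟨d, g, hd, hg, hg0⟩ := exists_scale_span π hs0 (mem_span_of_mem_adjoin hs)
  have hle := IntermediateField.algebra_adjoin_le_adjoin K (coeffMap (Int.castRingHom K) '' S)
  refine ⟨c / d, f, g, div_ne_zero hc hd, ?_, ?_, hf0, hg0, ?_⟩
  · rw [hf, ModFun.C_eq_algebraMap]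
    exact mul_mem (IntermediateField.algebraMap_mem _ _) (hle hr)
  · rw [hg, ModFun.C_eq_algebraMap]
    exact mul_mem (IntermediateField.algebraMap_mem _ _) (hle hs)
  · rw [hf, hg, map_div₀]
    have : (HahnSeries.C d : LaurentSeries K) ≠ 0 := by
      exact (map_ne_zero_iff _ HahnSeries.C_injective).2 hd
    field_simp

/-- scaling, in terms of the relation `LR` -/
theorem exists_scale_LR (S : Set (LaurentSeries ℤ)) {x : LaurentSeries K} (hx : x ≠ 0)
    (hxs : x ∈ IntermediateField.adjoin K (coeffMap (Int.castRingHom K) '' S)) :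
    ∃ c : K, c ≠ 0 ∧ ∃ y : LaurentSeries κ, y ≠ 0 ∧ LR π (HahnSeries.C c * x) y := by
  obtain ⟨c, f, g, hc, -, -, hf, hg, h⟩ := exists_scale_adjoin π S hx hxs
  refine ⟨c, hc, coeffMap π f / coeffMap π g, div_ne_zero hf hg, f, g, hg, h, ?_⟩
  rw [mul_div_cancel₀ _ hg]

/-- the modular function fields are generated by integral Laurent series -/
theorem fullC_eq_adjoin (N : ℕ) : modularFunctionFieldFullC K N =
    IntermediateField.adjoin K (coeffMap (Int.castRingHom K) ''
      {x | ∃ (d : ℕ) (_ : NeZero d), d ∣ N ∧ x = qExpand ℤ d (jqModC ℤ)}) := by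
  rw [modularFunctionFieldFullC]
  congr 1
  ext x
  constructor
  · rintro ⟨d, hd, hdN, rfl⟩
    exact ⟨_, ⟨d, hd, hdN, rfl⟩, by rw [coeffMap_qExpand, coeffMap_jqModC]⟩
  · rintro ⟨_, ⟨d, hd, hdN, rfl⟩, rfl⟩
    exact ⟨d, hd, hdN, by rw [coeffMap_qExpand, coeffMap_jqModC]⟩

end Fermat.Agent.GoodRed
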