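import Fermat.Agent.GoodRed.Gen

/-!
# Injectivity of reduction on prime-to-`p` torsion (multiplicative form)
-/

set_option autoImplicit false
set_option linter.unusedSectionVars false
set_option linter.style.haveILetI false

noncomputable section

namespace Fermat.Agent.GoodRed

open Polynomial AlgebraicCurve Fermat.Agent.Curves Module IntermediateField WithZero

section Ring

theorem exists_one_add_pow {B : Type*} [CommRing B] (y : B) (m : ℕ) :
    ∃ z : B, (1 + y) ^ m = 1 + m * y + y ^ 2 * z := by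
  induction m with
  | zero => exact ⟨0, by simp⟩
  | succ n ih =>
    obtain ⟨z, hz⟩ := ih
    refine ⟨n + z + z * y, ?_⟩
    rw [pow_succ, hz]
    push_cast
    ring

theorem exists_approx_root {B : Type*} [CommRing B] (m : ℕ) (i : B) (hi : (m : B) * i = 1)
    (a b : B) (k : ℕ) : ∃ v d c : B, v = 1 + a * d ∧ v ^ m * (1 + a * b) = 1 + a ^ (k + 1) * c := by
  induction k with
  | zero => exact ⟨1, 0, b, by simp, by simp⟩
  | succ k ih =>
    obtain ⟨v, d, c, hv, hvc⟩ := ih
    obtain ⟨z, hz⟩ := exists_one_add_pow (-(a ^ (k + 1) * c * i)) m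
    refine ⟨v * (1 + -(a ^ (k + 1) * c * i)), d - (1 + a * d) * (a ^ k * c * i),
      a ^ k * c ^ 2 * (i ^ 2 * z - 1 + a ^ (k + 1) * c * (i ^ 2 * z)), ?_, ?_⟩
    · rw [hv]; ring
    · have h1 : (v * (1 + -(a ^ (k + 1) * c * i))) ^ m * (1 + a * b) =
          (v ^ m * (1 + a * b)) * (1 + -(a ^ (k + 1) * c * i)) ^ m := by
        rw [mul_pow]; ring
      rw [h1, hvc, hz]
      linear_combination (-(a ^ (k + 1) * c) * (1 + a ^ (k + 1) * c)) * hi

end Ring

variable {K κ : Type*} [Field K] [Field κ] [IsAlgClosed K] [IsAlgClosed κ] {A : ValuationSubring K}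
  {π : A →+* κ} [IsLocalHom π]
  {F Fb : Type*} [Field F] [Field Fb] [Algebra K F] [Algebra κ Fb]
  [IsFunctionField K F] [IsFunctionField κ Fb]
  {G : GaussRed A π F Fb} {t : F} {tb : Fb}

theorem exists_pow_inL (ht0 : t ≠ 0) (D : Divisor K F) (x : F)
    (hx : ∀ w : Place K F, t ∈ w.toValuationSubring → t⁻¹ ∈ w.toValuationSubring →
      x = 0 ∨ 0 ≤ w.ord x + D w) : ∃ N : ℕ, InL t D (t ^ N * x) := by
  classical
  rcases eq_or_ne x 0 with rfl | hx0
  · exact ⟨0, by rw [mul_zero]; exact InL.zero t D⟩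
  set S := (finite_support (k := K) x).toFinset ∪ D.support with hS
  obtain ⟨N, hN⟩ : ∃ N : ℕ, N = ∑ w ∈ S, ((w.ord x).natAbs + (D w).natAbs) := ⟨_, rfl⟩
  refine ⟨N, fun w hw => Or.inr ?_⟩
  rw [w.ord_mul (pow_ne_zero _ ht0) hx0, ord_pow]
  have ht : 0 ≤ w.ord t := (mem_iff_ord w ht0).1 hw
  rcases ht.eq_or_lt with h0 | h0
  · rw [← h0, mul_zero, zero_add]
    refine (hx w hw ?_).resolve_left hx0
    rw [mem_iff_ord w (inv_ne_zero ht0), w.ord_inv, ← h0, neg_zero]
  · have h1 : (w.ord x).natAbs + (D w).natAbs ≤ N := by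
      rw [hN]
      by_cases hwS : w ∈ S
      · exact Finset.single_le_sum (f := fun w : Place K F => (w.ord x).natAbs + (D w).natAbs)
          (fun _ _ => Nat.zero_le _) hwS
      · have h2 : w.ord x = 0 := by
          by_contra hne
          exact hwS (Finset.mem_union_left _ ((Set.Finite.mem_toFinset _).2 hne))
        have h3 : D w = 0 := by
          by_contra hne
          exact hwS (Finset.mem_union_right _ (Finsupp.mem_support_iff.2 hne))
        rw [h2, h3]; simp
    have h2 : (N : ℤ) ≤ N * w.ord t := le_mul_of_one_le_right (Int.natCast_nonneg N) h0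
    omega

omit [IsLocalHom π] in
theorem zpow_mem_genAll {x : F} (ht0 : t ≠ 0) {s : Finset F}
    (hx : x ∈ genPos A (mulE K t ht0) s) (j : ℤ) : t ^ j * x ∈ genAll A (mulE K t ht0) s := by
  unfold genPos at hx
  induction hx using Submodule.span_induction with
  | mem x hx =>
    obtain ⟨k, y, hy, rfl⟩ := hx
    refine Submodule.subset_span ⟨j + k, y, hy, ?_⟩
    rw [mulE_zpow_apply, mulE_zpow_apply, zpow_add₀ ht0, mul_assoc]
  | zero => rw [mul_zero]; exact Submodule.zero_mem _
  | add x y _ _ hx hy => rw [mul_add]; exact Submodule.add_mem _ hx hy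
  | smul r x _ hx => rw [mul_smul_comm]; exact Submodule.smul_mem _ _ hx

theorem inL_of_mem_span (ht0 : t ≠ 0) {D : Divisor K F} {s : Finset F} (hs : ∀ y ∈ s, InL t D y)
    {x : F} (hx : x ∈ Submodule.span K (genPos A (mulE K t ht0) s : Set F)) : InL t D x := by
  have h1 : ∀ c : K, ∀ y, InL t D y → InL t D (c • y) := by
    intro c y hy
    rw [Algebra.smul_def]
    exact hy.mul_aff (algebraMap_mem_affineRing t c)
  have h2 : ∀ y ∈ genPos A (mulE K t ht0) s, InL t D y := by
    intro y hy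
    unfold genPos at hy
    induction hy using Submodule.span_induction with
    | mem x hx =>
      obtain ⟨k, y, hy, rfl⟩ := hx
      rw [mulE_zpow_apply, zpow_natCast]
      exact (hs y hy).mul_aff ((affineRing K t).pow_mem (self_mem_affineRing t) k)
    | zero => exact InL.zero t D
    | add x y _ _ hx hy => exact hx.add hy
    | smul r x _ hx => exact h1 r x hx
  induction hx using Submodule.span_induction with
  | mem x hx => exact h2 x hx
  | zero => exact InL.zero t D
  | add x y _ _ hx hy => exact hx.add hy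
  | smul r x _ hx => exact h1 r x hx

omit [IsLocalHom π] in
theorem genNeg_eq (ht0 : t ≠ 0) (s : Finset F) :
    genPos A (mulE K t⁻¹ (inv_ne_zero ht0)) s = genNeg A (mulE K t ht0) s := by
  unfold genPos genNeg
  congr 1
  ext x
  simp only [mulE_zpow_apply, inv_zpow', Set.mem_ofPred_eq]

/-- comparison of approximate roots -/
theorem approx_root_unique {m : ℕ} (hm : (m : κ) ≠ 0) {u p p' : F} {gb : Fb} (hgb : gb ≠ 0)
    (hp : G.R p gb) (hp' : G.R p' gb) {α : A} (hα : π α = 0) {c c' : F} (hc : c ∈ G.O)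
    (hc' : c' ∈ G.O) (h : p ^ m * u = 1 + algebraMap K F α * c)
    (h' : p' ^ m * u = 1 + algebraMap K F α * c') :
    ∃ x ∈ G.O, p - p' = algebraMap K F α * x := by
  have hp'0 : p' ≠ 0 := hp'.ne_zero hgb
  set q := p / p' with hq
  have hqR : G.R q 1 := by
    have := hp.div hp' hgb
    rwa [div_self hgb] at this
  have hαc : G.R (1 + algebraMap K F α * c') 1 := by
    obtain ⟨cb, hcb⟩ := GaussRed.exists_R_of_mem hc'
    have := (GaussRed.R.one G).add ((GaussRed.R.const G α).mul hcb)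
    rwa [hα, map_zero, zero_mul, add_zero] at this
  have hαc0 : 1 + algebraMap K F α * c' ≠ 0 := hαc.ne_zero one_ne_zero
  have hu0 : u ≠ 0 := by
    rintro rfl
    rw [mul_zero] at h'
    exact hαc0 h'.symm
  have hsum : G.R (∑ i ∈ Finset.range m, q ^ i) (m : Fb) := by
    have := GaussRed.R.sum (G := G) (Finset.range m) (x := fun i => q ^ i) (y := fun _ => 1)
      fun i _ => by
        have := hqR.pow i
        rwa [one_pow] at this
    simpa using this
  have hmb : (m : Fb) ≠ 0 := by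
    have := (algebraMap κ Fb).injective.ne hm
    rwa [map_natCast, map_zero] at this
  have hsum0 : (∑ i ∈ Finset.range m, q ^ i) ≠ 0 := hsum.ne_zero hmb
  have hqm : q ^ m = (1 + algebraMap K F α * c) / (1 + algebraMap K F α * c') := by
    rw [← h, ← h', hq, div_pow]
    field_simp
  have hq1 : q - 1 = algebraMap K F α * ((c - c') * (1 + algebraMap K F α * c')⁻¹ *
      (∑ i ∈ Finset.range m, q ^ i)⁻¹) := by
    have h1 := geom_sum_mul q m
    rw [hqm] at h1
    have h2 : q - 1 = ((1 + algebraMap K F α * c) / (1 + algebraMap K F α * c') - 1) *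
        (∑ i ∈ Finset.range m, q ^ i)⁻¹ := by
      rw [← h1, mul_comm (∑ i ∈ Finset.range m, q ^ i), mul_assoc, mul_inv_cancel₀ hsum0, mul_one]
    rw [h2]
    field_simp
    ring
  refine ⟨p' * ((c - c') * (1 + algebraMap K F α * c')⁻¹ * (∑ i ∈ Finset.range m, q ^ i)⁻¹),
    ?_, ?_⟩
  · exact mul_mem hp'.mem (mul_mem (mul_mem (sub_mem hc hc') (hαc.inv one_ne_zero).mem)
      (hsum.inv hmb).mem)
  · have h1 : p - p' = p' * (q - 1) := by
      rw [hq]; field_simp
    rw [h1, hq1]
    ring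

/-- lifting of `gb⁻¹` in a good chart -/
theorem GoodChart.exists_lift_root (hC : GoodChart G t tb) {m : ℕ} (hm : m ≠ 0) {u : F}
    {ub gb : Fb} (hu : G.R u ub) (hub : ub ≠ 0) (hgb : ub = gb ^ m) {D : Divisor K F}
    (hD : ∀ P, P.ord u = m * D P) : ∃ y, InL t D y ∧ G.R y gb⁻¹ := by
  classical
  have hgb0 : gb ≠ 0 := by
    rintro rfl
    rw [zero_pow hm] at hgb
    exact hub hgb
  refine hC.lift_divisor D fun Q hQ => Or.inr ?_
  have h1 := hC.ord_red hQ hu hub
  rw [hgb, ord_pow] at h1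
  have h2 : ∑ P ∈ (finite_support (k := K) u).toFinset.filter (fun P => SpecTo G t tb P Q), P.ord u =
      m * ∑ P ∈ D.support.filter (fun P => SpecTo G t tb P Q), D P := by
    rw [Finset.mul_sum]
    have h3 : (finite_support (k := K) u).toFinset = D.support := by
      ext P
      rw [Set.Finite.mem_toFinset, Function.mem_support, Finsupp.mem_support_iff, hD]
      simp [hm]
    rw [h3]
    exact Finset.sum_congr rfl fun P _ => hD P
  have h3 : (m : ℤ) * Q.ord gb = m * ∑ P ∈ D.support.filter (fun P => SpecTo G t tb P Q), D P := by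
    rw [← h2]
    convert h1 using 2
  have h4 : Q.ord gb = ∑ P ∈ D.support.filter (fun P => SpecTo G t tb P Q), D P :=
    mul_left_cancel₀ (by exact_mod_cast hm) h3
  rw [Q.ord_inv, h4]
  have : ∑ P ∈ D.support.filter (fun P => SpecTo G t tb P Q), D P =
      ∑ P ∈ (@Finset.filter (Place K F) (fun P => SpecTo G t tb P Q)
        (fun P => Classical.propDecidable _) D.support), D P := by
    congr!
  rw [← this]
  omega

/-- the Newton approximations -/
theorem exists_approx {t : F} {m : ℕ} (hm : (m : κ) ≠ 0) {u y : F}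
    {gb : Fb} (hy : G.R y gb⁻¹) {D : Divisor K F} (hyD : InL t D y)
    {a : A} (ha : π a = 0) {b : F} (hb : b ∈ affineRing K t) (hbO : b ∈ G.O)
    (hyu : y ^ m * u = 1 + algebraMap K F a * b) (k : ℕ) :
    ∃ w c, InL t D w ∧ G.R w gb⁻¹ ∧ c ∈ G.O ∧
      w ^ m * u = 1 + algebraMap K F ((a ^ (k + 1) : A) : K) * c := by
  let B : Subring F := (affineRing K t).toSubring ⊓ G.O
  have hmK : (m : K) ≠ 0 := by
    intro h0
    apply hm
    have : ((m : A) : K) = 0 := by rw [← h0]; rfl
    have h1 : (m : A) = 0 := Subtype.ext this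
    rw [← map_natCast π, h1, map_zero]
  have hmunit : IsUnit (m : A) := by
    have : π (m : A) ≠ 0 := by rwa [map_natCast]
    exact isUnit_of_map_unit π _ (isUnit_iff_ne_zero.2 this)
  obtain ⟨mu, hmu⟩ := hmunit
  let i : A := ((mu⁻¹ : Aˣ) : A)
  have hi : (m : A) * i = 1 := by rw [← hmu]; exact mu.mul_inv
  have hmem : ∀ c : A, algebraMap K F c ∈ B := fun c =>
    ⟨algebraMap_mem_affineRing t _, G.mem c⟩
  obtain ⟨v, d, c, hv, hvc⟩ := exists_approx_root (B := B) m ⟨_, hmem i⟩ (by
    apply Subtype.ext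
    have h1 := congrArg (fun x : A => algebraMap K F (x : K)) hi
    simp only [MulMemClass.coe_mul, map_mul, OneMemClass.coe_one, map_one] at h1
    have h2 : algebraMap K F ((m : A) : K) = (m : F) := by
      have : ((m : A) : K) = (m : K) := rfl
      rw [this, map_natCast]
    rw [h2] at h1
    change ((m : B) : F) * algebraMap K F i = 1
    rw [← h1]
    rfl) ⟨_, hmem a⟩ ⟨b, hb, hbO⟩ k
  have hvF := congrArg (fun x : B => (x : F)) hv
  have hvcF := congrArg (fun x : B => (x : F)) hvc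
  change (v : F) = 1 + algebraMap K F a * (d : F) at hvF
  change (v : F) ^ m * (1 + algebraMap K F a * b) = 1 + (algebraMap K F a) ^ (k + 1) * (c : F)
    at hvcF
  have hvR : G.R (v : F) 1 := by
    obtain ⟨db, hdb⟩ := GaussRed.exists_R_of_mem d.2.2
    have := (GaussRed.R.one G).add ((GaussRed.R.const G a).mul hdb)
    rwa [ha, map_zero, zero_mul, add_zero, ← hvF] at this
  refine ⟨v * y, c, hyD.mul_aff v.2.1, ?_, c.2.2, ?_⟩
  · have := hvR.mul hy
    rwa [one_mul] at this
  · rw [mul_pow, mul_assoc, hyu, hvcF]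
    congr 2
    rw [← map_pow]
    rfl

/-- **Injectivity of reduction on prime-to-`p` torsion** (multiplicative form). -/
theorem isPow_of_red_isPow (hC : GoodChart G t tb) (hC' : GoodChart G t⁻¹ tb⁻¹)
    (hr : RankOne π) {m : ℕ} (hm : (m : κ) ≠ 0) {u : F} {ub gb : Fb} (hu : G.R u ub) (hub : ub ≠ 0)
    (hgb : ub = gb ^ m) (hdiv : ∀ P : Place K F, (m : ℤ) ∣ P.ord u) : ∃ w : F, u = w ^ m := by
  classical
  have hm0 : m ≠ 0 := by rintro rfl; simp at hm
  have hmZ : (m : ℤ) ≠ 0 := by exact_mod_cast hm0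
  have hu0 : u ≠ 0 := hu.ne_zero hub
  have hgb0 : gb ≠ 0 := by
    rintro rfl
    rw [zero_pow hm0] at hgb
    exact hub hgb
  have ht0 : t ≠ 0 := hC.R.ne_zero hC.toChart.ne_zero
  -- the divisor
  obtain ⟨D, hD⟩ : ∃ D : Divisor K F, ∀ P, P.ord u = m * D P := by
    choose d hd using hdiv
    refine ⟨Finsupp.ofSupportFinite d ((finite_support (k := K) u).subset fun P hP => ?_), hd⟩
    rw [Function.mem_support] at hP ⊢
    rw [hd]
    exact mul_ne_zero hmZ hP
  -- a global solution suffices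
  have hglobal : ∀ x : F, x ≠ 0 → InL t D x → InL t⁻¹ D x → ∃ w : F, u = w ^ m := by
    intro x hx0 hx hx'
    have hnn : ∀ w : Place K F, 0 ≤ w.ord x + D w := by
      intro w
      rcases w.toValuationSubring.mem_or_inv_mem t with h | h
      · exact (hx w h).resolve_left hx0
      · exact (hx' w h).resolve_left hx0
    have hdegD : Divisor.degree D = 0 := by
      have h1 : (m : ℤ) • D = divisorOf u := by
        ext P
        rw [Finsupp.smul_apply, divisorOf_apply, hD, smul_eq_mul]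
      have h2 := congrArg Divisor.degree h1
      rw [map_zsmul, degree_divisorOf, smul_eq_mul, mul_eq_zero] at h2
      exact h2.resolve_left hmZ
    have hE : Divisor.degree (divisorOf x + D) = 0 := by
      rw [map_add, degree_divisorOf, hdegD, add_zero]
    rw [degree_eq_sum, Finsupp.sum, Finset.sum_eq_zero_iff_of_nonneg (fun w _ => by
      rw [Finsupp.add_apply, divisorOf_apply]; exact hnn w)] at hE
    have hzero : ∀ w : Place K F, w.ord x + D w = 0 := by
      intro w
      by_cases hw : w ∈ (divisorOf x + D).support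
      · have := hE w hw
        rwa [Finsupp.add_apply, divisorOf_apply] at this
      · rw [Finsupp.notMem_support_iff, Finsupp.add_apply, divisorOf_apply] at hw
        exact hw
    have hz0 : x ^ m * u ≠ 0 := mul_ne_zero (pow_ne_zero _ hx0) hu0
    have hz : ∀ w : Place K F, w.ord (x ^ m * u) = 0 := by
      intro w
      rw [w.ord_mul (pow_ne_zero _ hx0) hu0, ord_pow, hD, ← mul_add, hzero w, mul_zero]
    rcases transcendental_or (k := K) (x ^ m * u) with htr | ⟨c, hc⟩
    · obtain ⟨w, hw⟩ := exists_ord_pos_of_transcendental htr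
      have := hz w
      omega
    · obtain ⟨d, hd⟩ := IsAlgClosed.exists_pow_nat_eq c (Nat.pos_of_ne_zero hm0)
      refine ⟨algebraMap K F d / x, ?_⟩
      rw [div_pow, ← map_pow, hd, ← hc]
      field_simp
  -- lifts in both charts
  obtain ⟨y, hyD, hyR⟩ := hC.exists_lift_root hm0 hu hub hgb hD
  obtain ⟨y', hy'D, hy'R⟩ := hC'.exists_lift_root hm0 hu hub hgb hD
  have haff : ∀ {t : F} {y : F}, InL t D y → G.R y gb⁻¹ →
      y ^ m * u - 1 ∈ affineRing K t ∧ G.R (y ^ m * u - 1) 0 := by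
    intro t y hy hyR
    have hy0 : y ≠ 0 := hyR.ne_zero (inv_ne_zero hgb0)
    constructor
    · refine (affineRing K t).sub_mem (fun w hw => ?_) (affineRing K t).one_mem
      rw [mem_iff_ord w (mul_ne_zero (pow_ne_zero _ hy0) hu0), w.ord_mul (pow_ne_zero _ hy0) hu0,
        ord_pow, hD, ← mul_add]
      exact mul_nonneg (by positivity) ((hy w hw).resolve_left hy0)
    · have := ((hyR.pow m).mul hu).sub (GaussRed.R.one G)
      rwa [hgb, inv_pow, inv_mul_cancel₀ (pow_ne_zero _ hgb0), sub_self] at this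
  obtain ⟨hbaff, hbR⟩ := haff hyD hyR
  obtain ⟨hbaff', hbR'⟩ := haff hy'D hy'R
  have hroot : ∀ {y : F}, y ^ m * u - 1 = 0 → G.R y gb⁻¹ → ∃ w, u = w ^ m := by
    intro y h hy
    have hy0 : y ≠ 0 := hy.ne_zero (inv_ne_zero hgb0)
    refine ⟨y⁻¹, ?_⟩
    rw [inv_pow, eq_comm, inv_eq_iff_eq_inv]
    rw [sub_eq_zero] at h
    exact eq_inv_of_mul_eq_one_left h
  by_cases hb0 : y ^ m * u - 1 = 0
  · exact hroot hb0 hyR
  by_cases hb0' : y' ^ m * u - 1 = 0
  · exact hroot hb0' hy'R
  obtain ⟨a, x, z, ha, ha0, hz, hx, hbx⟩ := GaussRed.exists_of_R_zero hb0 hbR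
  obtain ⟨a', x', z', ha', ha0', hz', hx', hbx'⟩ := GaussRed.exists_of_R_zero hb0' hbR'
  have hxaff : ∀ {t : F} {b x : F} {a : A}, a ≠ 0 → b ∈ affineRing K t →
      b = algebraMap K F a * x → x ∈ affineRing K t := by
    intro t b x a ha hb h
    have haK : (a : K) ≠ 0 := fun h => ha (Subtype.ext h)
    have : x = algebraMap K F (a : K)⁻¹ * b := by
      rw [h, ← mul_assoc, ← map_mul, inv_mul_cancel₀ haK, map_one, one_mul]
    rw [this]
    exact affineRing_smul_mem hb
  -- a common small constant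
  obtain ⟨a₀, ha₀, ha₀0, e, he, e', he'⟩ : ∃ a₀ : A, π a₀ = 0 ∧ a₀ ≠ 0 ∧
      ∃ e : A, a = a₀ * e ∧ ∃ e' : A, a' = a₀ * e' := by
    rcases ValuationRing.dvd_total a a' with ⟨e, he⟩ | ⟨e, he⟩
    · exact ⟨a, ha, ha0, 1, (mul_one _).symm, e, he⟩
    · exact ⟨a', ha', ha0', e, he, 1, (mul_one _).symm⟩
  have hb1 : y ^ m * u = 1 + algebraMap K F a₀ * (algebraMap K F e * x) := by
    have h1 : algebraMap K F (a : K) = algebraMap K F (a₀ : K) * algebraMap K F (e : K) := by
      rw [← map_mul, he]; rfl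
    rw [← mul_assoc, ← h1, ← hbx]; ring
  have hb1' : y' ^ m * u = 1 + algebraMap K F a₀ * (algebraMap K F e' * x') := by
    have h1 : algebraMap K F (a' : K) = algebraMap K F (a₀ : K) * algebraMap K F (e' : K) := by
      rw [← map_mul, he']; rfl
    rw [← mul_assoc, ← h1, ← hbx']; ring
  have happ := fun k => exists_approx (G := G) hm hyR hyD ha₀
    (affineRing_smul_mem (c := (e : K)) (hxaff ha0 hbaff hbx)) (mul_mem (G.mem e) hx.mem) hb1 k
  have happ' := fun k => exists_approx (G := G) hm hy'R hy'D ha₀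
    (affineRing_smul_mem (c := (e' : K)) (hxaff ha0' hbaff' hbx')) (mul_mem (G.mem e') hx'.mem) hb1' k
  -- the modules
  obtain ⟨s, hs, hsgen⟩ := hC.toChart.exists_gen hC.hπ hr ht0 D
  obtain ⟨s', hs', hsgen'⟩ := hC'.toChart.exists_gen hC.hπ hr (inv_ne_zero ht0) D
  rw [genNeg_eq ht0 s'] at hsgen'
  have hTO : t ∈ G.O := hC.R.mem
  have hTO' : t⁻¹ ∈ G.O := hC'.R.mem
  by_cases h0 : Submodule.span K (genPos A (mulE K t ht0) s : Set F) ⊓
      Submodule.span K (genNeg A (mulE K t ht0) s' : Set F) = ⊥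
  swap
  · obtain ⟨x, hx, hx0⟩ := Submodule.exists_mem_ne_zero_of_ne_bot h0
    refine hglobal x hx0 (inL_of_mem_span ht0 (fun y hy => (hs y hy).1) hx.1) ?_
    have h1 := hx.2
    rw [← genNeg_eq ht0 s'] at h1
    exact inL_of_mem_span (inv_ne_zero ht0) (fun y hy => (hs' y hy).1) h1
  exfalso
  have h1 : ∀ x ∈ s, ∃ k : ℕ, ((mulE K t ht0) ^ (-(k : ℤ))) x ∈ genNeg A (mulE K t ht0) s' := by
    intro x hx
    obtain ⟨N, hN⟩ := exists_pow_inL (inv_ne_zero ht0) D x (fun w _ hw => by
      rw [inv_inv] at hw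
      exact (hs x hx).1 w hw)
    refine ⟨N, ?_⟩
    rw [mulE_zpow_apply, zpow_neg, zpow_natCast, ← inv_pow]
    exact hsgen' _ hN (mul_mem (pow_mem hTO' N) (hs x hx).2)
  obtain ⟨c, hc0, hc⟩ := h1_bound (R := A) (K := K) (mulE K t ht0) s s' h1 h0
  have hcK : (c : K) ≠ 0 := fun h => hc0 (Subtype.ext h)
  obtain ⟨n, hn⟩ := hr a₀ ha₀0 ha₀ (c : K)⁻¹
  obtain ⟨w, cw, hwD, hwR, hcw, hwu⟩ := happ n
  obtain ⟨w', cw', hwD', hwR', hcw', hwu'⟩ := happ' n
  obtain ⟨x, hxO, hww⟩ := approx_root_unique hm (inv_ne_zero hgb0) hwR hwR'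
    (α := a₀ ^ (n + 1)) (by rw [map_pow, ha₀, zero_pow (Nat.succ_ne_zero n)]) hcw hcw' hwu hwu'
  have ha₀n : ((a₀ ^ (n + 1) : A) : K) ≠ 0 := by
    intro h
    exact pow_ne_zero (n + 1) ha₀0 (Subtype.ext h)
  have hxall : x ∈ genAll A (mulE K t ht0) s := by
    obtain ⟨N, hN⟩ := exists_pow_inL ht0 D x (fun v hv hv' => by
      have h2 : InL t D w := hwD
      have h3 : v.adicValuation w ≤ exp (D v) := inL_iff.1 hwD v hv
      have h4 : v.adicValuation w' ≤ exp (D v) := inL_iff.1 hwD' v hv'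
      have h5 : v.adicValuation (w - w') ≤ exp (D v) :=
        (Valuation.map_sub _ _ _).trans (max_le h3 h4)
      rw [hww, map_mul, val_algebraMap v ha₀n, one_mul] at h5
      rcases eq_or_ne x 0 with h6 | h6
      · exact Or.inl h6
      · right
        rw [← neg_neg (D v), val_le_exp_iff v h6] at h5
        omega)
    have h2 := zpow_mem_genAll ht0 (hsgen _ hN (mul_mem (pow_mem hTO N) hxO)) (-(N : ℤ))
    rwa [zpow_neg, zpow_natCast, ← mul_assoc, inv_mul_cancel₀ (pow_ne_zero _ ht0), one_mul] at h2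
  obtain ⟨v, hv, hcv⟩ := hc (a₀ ^ (n + 1)) w (hsgen w hwD hwR.mem) w' (hsgen' w' hwD' hwR'.mem) x
    hxall (by rw [hww, Algebra.smul_def]; rfl)
  -- contradiction
  have hvO : v ∈ G.O := by
    clear hcv
    unfold genPos at hv
    induction hv using Submodule.span_induction with
    | mem x hx =>
      obtain ⟨k, y, hy, rfl⟩ := hx
      rw [mulE_zpow_apply, zpow_natCast]
      exact mul_mem (pow_mem hTO k) (hs y hy).2
    | zero => exact zero_mem _
    | add x y _ _ hx hy => exact add_mem hx hy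
    | smul r x _ hx => rw [Algebra.smul_def]; exact mul_mem (G.mem r) hx
  obtain ⟨vb, hvb⟩ := GaussRed.exists_R_of_mem hvO
  have hwv : w = algebraMap K F a₀ * (algebraMap K F ((a₀ : K) ^ n * (c : K)⁻¹) * v) := by
    rw [Algebra.smul_def, Algebra.smul_def] at hcv
    change algebraMap K F (c : K) * w = algebraMap K F ((a₀ ^ (n + 1) : A) : K) * v at hcv
    have hcF : algebraMap K F (c : K) ≠ 0 := by simpa using hcK
    apply mul_left_cancel₀ hcF
    rw [hcv]
    have : ((a₀ ^ (n + 1) : A) : K) = (c : K) * ((a₀ : K) * ((a₀ : K) ^ n * (c : K)⁻¹)) := by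
      field_simp
      push_cast
      ring
    rw [this, map_mul, map_mul]
    ring
  have hwR0 : G.R w 0 := by
    have h2 := (GaussRed.R.const G a₀).mul ((GaussRed.R.const G ⟨_, hn⟩).mul hvb)
    rw [ha₀, map_zero, zero_mul] at h2
    rwa [← hwv] at h2
  exact inv_ne_zero hgb0 (hwR.unique hwR0)

end Fermat.Agent.GoodRed
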