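import Fermat.Agent.GoodRed.Red

/-!
# Good charts from ramification data
-/

set_option autoImplicit false
set_option linter.unusedSectionVars false
set_option linter.style.haveILetI false

noncomputable section

namespace Fermat.Agent.GoodRed

open Polynomial AlgebraicCurve Fermat.Agent.Curves Module IntermediateField

theorem squarefree_aux {k : Type*} [Field k] {a b : k} (ha : a ≠ 0) (hb : b ≠ 0) :
    Squarefree (X * (C a * X - C b) : k[X]) := by
  apply Separable.squarefree
  apply Separable.mul
  · exact separable_X
  · rw [separable_def]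
    have : derivative (C a * X - C b : k[X]) = C a := by simp
    rw [this]
    refine ⟨0, C a⁻¹, ?_⟩
    rw [zero_mul, zero_add, ← C_mul, inv_mul_cancel₀ ha, C_1]
  · refine ⟨C (a / b), -C b⁻¹, ?_⟩
    have h1 : C (a / b) = C a * C b⁻¹ := by rw [← C_mul, div_eq_mul_inv]
    have h2 : C b * C b⁻¹ = (1 : k[X]) := by rw [← C_mul, mul_inv_cancel₀ hb, C_1]
    rw [h1]
    linear_combination h2

variable {K κ : Type*} [Field K] [Field κ] [IsAlgClosed K] [IsAlgClosed κ] {A : ValuationSubring K}
  {π : A →+* κ} [IsLocalHom π]
  {F Fb : Type*} [Field F] [Field Fb] [Algebra K F] [Algebra κ Fb]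
  [IsFunctionField K F] [IsFunctionField κ Fb] {G : GaussRed A π F Fb} {t : F} {tb : Fb}

theorem Chart.good (hC : Chart G t tb) (hπ : Function.Surjective π) [CharZero K]
    (b : A) (hb : π b ≠ 0) (m : ℕ) (h0 : ∀ w : Place K F, w.ord t ≤ m)
    (h1 : ∀ w : Place K F, w.ord (t - algebraMap K F b) ≤ m)
    (h2 : ∀ (w : Place K F) (c : K), c ≠ 0 → c ≠ b → w.ord (t - algebraMap K F c) ≤ 1)  :
    GoodChart G t tb where
  toChart := hC
  hπ := hπ
  lift := by
    intro yb hyb
    have hg : (X * (C 1 * X - C b) : A[X]).map π = X * (C 1 * X - C (π b)) := by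
      rw [Polynomial.map_mul, Polynomial.map_sub, Polynomial.map_mul, map_X, map_C, map_C, map_one]
    have hsq := squarefree_aux (one_ne_zero (α := κ)) hb
    refine hC.lift hπ (X * (C 1 * X - C b)) ?_ ?_ (m := m + 1) (Nat.succ_pos m) ?_ ?_ hyb
    · rw [hg]; exact hsq.ne_zero
    · rw [hg]; exact hsq
    · intro w c hw
      rcases eq_or_ne c 0 with rfl | hc0
      · rw [map_zero, sub_zero]
        have := h0 w
        push_cast
        omega
      · rcases eq_or_ne c b with rfl | hcb
        · have := h1 w
          push_cast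
          omega
        · have := h2 w c hc0 hcb
          push_cast
          omega
    · intro w c hw hc
      have hc0 : c ≠ 0 := by
        rintro rfl
        apply hc
        simp
      have hcb : c ≠ b := by
        rintro rfl
        apply hc
        simp
      have := h2 w c hc0 hcb
      omega

theorem Chart.good_inv (hC : Chart G t tb) (hπ : Function.Surjective π) [CharZero K]
    (b : A) (hb : π b ≠ 0) (m : ℕ) (h0 : ∀ w : Place K F, - w.ord t ≤ m)
    (h1 : ∀ w : Place K F, w.ord (t - algebraMap K F b) ≤ m)
    (h2 : ∀ (w : Place K F) (c : K), c ≠ 0 → c ≠ b → w.ord (t - algebraMap K F c) ≤ 1)  :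
    GoodChart G t⁻¹ tb⁻¹ where
  toChart := hC.inv
  hπ := hπ
  lift := by
    intro yb hyb
    have ht0 : t ≠ 0 := fun h => hC.tr (h ▸ isAlgebraic_zero)
    have hb0 : (b : K) ≠ 0 := by
      intro h
      apply hb
      have : b = 0 := Subtype.ext h
      rw [this, map_zero]
    have hg : (X * (C b * X - C 1) : A[X]).map π = X * (C (π b) * X - C 1) := by
      rw [Polynomial.map_mul, Polynomial.map_sub, Polynomial.map_mul, map_X, map_C, map_C, map_one]
    have hsq := squarefree_aux hb (one_ne_zero (α := κ))
    -- the order at non-zero values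
    have key : ∀ (w : Place K F) (c : K), c ≠ 0 → 0 < w.ord (t⁻¹ - algebraMap K F c) →
        w.ord (t⁻¹ - algebraMap K F c) = w.ord (t - algebraMap K F c⁻¹) := by
      intro w c hc hw
      have hcF : algebraMap K F c ≠ 0 := by simpa using hc
      have htc : t - algebraMap K F c⁻¹ ≠ 0 := by
        intro h
        apply hC.tr
        rw [sub_eq_zero.1 h]
        exact isAlgebraic_algebraMap _
      have h3 : t⁻¹ - algebraMap K F c = -(algebraMap K F c * t⁻¹) * (t - algebraMap K F c⁻¹) := by
        rw [map_inv₀]
        field_simp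
        ring
      have h4 : w.ord (t⁻¹) = 0 := by
        have h5 := (ord_add_eq_left w hcF (g := t⁻¹ - algebraMap K F c)
          (Or.inr (by rw [ord_algebraMap]; exact hw))).2
        rwa [add_sub_cancel, ord_algebraMap] at h5
      rw [h3, w.ord_mul (neg_ne_zero.2 (mul_ne_zero hcF (inv_ne_zero ht0))) htc, ord_neg,
        w.ord_mul hcF (inv_ne_zero ht0), h4, ord_algebraMap, zero_add, zero_add]
    refine hC.inv.lift hπ (X * (C b * X - C 1)) ?_ ?_ (m := m + 1) (Nat.succ_pos m) ?_ ?_ hyb
    · rw [hg]; exact hsq.ne_zero
    · rw [hg]; exact hsq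
    · intro w c hw
      rcases eq_or_ne c 0 with rfl | hc0
      · rw [map_zero, sub_zero, w.ord_inv]
        have := h0 w
        push_cast
        omega
      · rw [key w c hc0 hw]
        rcases eq_or_ne c⁻¹ b with hcb | hcb
        · rw [hcb]
          have := h1 w
          push_cast
          omega
        · exact (h2 w c⁻¹ (inv_ne_zero hc0) hcb).trans (by push_cast; omega)
    · intro w c hw hc
      have hc0 : c ≠ 0 := by
        rintro rfl
        apply hc
        simp
      have hcb : c⁻¹ ≠ b := by
        intro h
        apply hc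
        have : (b : K) * c = 1 := by rw [← h, inv_mul_cancel₀ hc0]
        rw [Polynomial.map_mul, Polynomial.map_sub, Polynomial.map_mul, map_X, map_C, map_C,
          map_one, eval_mul, eval_sub, eval_mul, eval_C, eval_X, eval_C]
        change c * ((b : K) * c - 1) = 0
        rw [this, sub_self, mul_zero]
      have := h2 w c⁻¹ (inv_ne_zero hc0) hcb
      have := key w c hc0 hw
      omega

end Fermat.Agent.GoodRed
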