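import Mathlib

/-!
# Boundedness of the torsion of `H¹` for two-chart curves
-/

set_option autoImplicit false

noncomputable section

namespace Fermat.Agent.GoodRed

section H1

variable {R K V : Type*} [CommRing R] [IsDomain R] [Field K] [Algebra R K] [IsFractionRing R K]
  [AddCommGroup V] [Module R V] [Module K V] [IsScalarTower R K V]

theorem exists_smul_mem_of_mem_span (M : Submodule R V) {v : V}
    (hv : v ∈ Submodule.span K (M : Set V)) : ∃ c : R, c ≠ 0 ∧ c • v ∈ M := by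
  induction hv using Submodule.span_induction with
  | mem x hx => exact ⟨1, one_ne_zero, by simpa using hx⟩
  | zero => exact ⟨1, one_ne_zero, by simp⟩
  | add x y _ _ hx hy =>
    obtain ⟨c, hc, hcx⟩ := hx
    obtain ⟨d, hd, hdy⟩ := hy
    refine ⟨c * d, mul_ne_zero hc hd, ?_⟩
    rw [smul_add]
    refine M.add_mem ?_ ?_
    · rw [mul_comm, mul_smul]; exact M.smul_mem _ hcx
    · rw [mul_smul]; exact M.smul_mem _ hdy
  | smul k x _ hx =>
    obtain ⟨c, hc, hcx⟩ := hx
    obtain ⟨r, d, hd, rfl⟩ := IsFractionRing.div_surjective (A := R) k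
    have hd0 : d ≠ 0 := nonZeroDivisors.ne_zero hd
    have hd' : algebraMap R K d ≠ 0 := by
      intro h
      exact hd0 (IsFractionRing.injective R K (by rw [h, map_zero]))
    refine ⟨c * d, mul_ne_zero hc hd0, ?_⟩
    have h1 : (c * d) • (algebraMap R K r / algebraMap R K d) • x = r • (c • x) := by
      rw [← algebraMap_smul K (c * d), ← algebraMap_smul K r, ← algebraMap_smul K c, smul_smul,
        smul_smul]
      congr 1
      rw [map_mul]
      field_simp
    rw [h1]
    exact M.smul_mem _ hcx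

/-- `R[T]`-module generated by `s` -/
def genPos (R : Type*) {K V : Type*} [CommRing R] [Field K] [AddCommGroup V] [Module R V]
    [Module K V] (T : V ≃ₗ[K] V) (s : Finset V) : Submodule R V :=
  Submodule.span R {x | ∃ k : ℕ, ∃ y ∈ s, x = (T ^ (k : ℤ)) y}

/-- `R[T⁻¹]`-module generated by `s` -/
def genNeg (R : Type*) {K V : Type*} [CommRing R] [Field K] [AddCommGroup V] [Module R V]
    [Module K V] (T : V ≃ₗ[K] V) (s : Finset V) : Submodule R V :=
  Submodule.span R {x | ∃ k : ℕ, ∃ y ∈ s, x = (T ^ (-(k : ℤ))) y}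

/-- `R[T, T⁻¹]`-module generated by `s` -/
def genAll (R : Type*) {K V : Type*} [CommRing R] [Field K] [AddCommGroup V] [Module R V]
    [Module K V] (T : V ≃ₗ[K] V) (s : Finset V) : Submodule R V :=
  Submodule.span R {x | ∃ k : ℤ, ∃ y ∈ s, x = (T ^ k) y}

omit [IsDomain R] [IsFractionRing R K] in
theorem apply_smul_R (T : V →ₗ[K] V) (r : R) (x : V) : T (r • x) = r • T x := by
  rw [← algebraMap_smul K r x, map_smul, algebraMap_smul]

omit [IsDomain R] [IsFractionRing R K] in
theorem zpow_mem_genNeg (T : V ≃ₗ[K] V) {s : Finset V} {x : V} (hx : x ∈ genNeg R T s) (k : ℕ) :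
    (T ^ (-(k : ℤ))) x ∈ genNeg R T s := by
  unfold genNeg at hx ⊢
  induction hx using Submodule.span_induction with
  | mem x hx =>
    obtain ⟨j, y, hy, rfl⟩ := hx
    refine Submodule.subset_span ⟨k + j, y, hy, ?_⟩
    rw [← LinearEquiv.mul_apply, ← zpow_add]
    congr 2
    push_cast; ring
  | zero => rw [map_zero]; exact Submodule.zero_mem _
  | add x y _ _ hx hy => rw [map_add]; exact Submodule.add_mem _ hx hy
  | smul r x _ hx =>
    rw [← algebraMap_smul K r x, map_smul, algebraMap_smul]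
    exact Submodule.smul_mem _ _ hx

theorem h1_bound (T : V ≃ₗ[K] V) (s s' : Finset V)
    (h1 : ∀ x ∈ s, ∃ k : ℕ, (T ^ (-(k : ℤ))) x ∈ genNeg R T s')
    (h0 : Submodule.span K (genPos R T s : Set V) ⊓ Submodule.span K (genNeg R T s' : Set V) = ⊥) :
    ∃ c : R, c ≠ 0 ∧ ∀ a : R, ∀ w ∈ genPos R T s, ∀ w' ∈ genNeg R T s', ∀ u ∈ genAll R T s,
      w - w' = a • u → ∃ v ∈ genPos R T s, c • w = a • v := by
  classical
  set M := genPos R T s with hM
  set M' := genNeg R T s' with hM'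
  choose! k hk using h1
  obtain ⟨m, hm⟩ : ∃ m : ℕ, ∀ x ∈ s, (T ^ (-(m : ℤ))) x ∈ M' := by
    refine ⟨s.sup k, fun x hx => ?_⟩
    obtain ⟨j, hj⟩ := Nat.exists_eq_add_of_le (Finset.le_sup (f := k) hx)
    have h2 := zpow_mem_genNeg T (hk x hx) j
    rw [← LinearEquiv.mul_apply, ← zpow_add] at h2
    have h3 : -(j : ℤ) + -(k x : ℤ) = -((s.sup k : ℕ) : ℤ) := by
      rw [hj]; push_cast; ring
    rwa [h3] at h2
  -- `P = T^m M'`
  let P : Submodule R V := M'.map (((T ^ (m : ℤ) : V ≃ₗ[K] V) : V →ₗ[K] V).restrictScalars R)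
  have hP : ∀ x, x ∈ P ↔ (T ^ (-(m : ℤ))) x ∈ M' := by
    intro x
    constructor
    · rintro ⟨y, hy, rfl⟩
      change (T ^ (-(m : ℤ))) ((T ^ (m : ℤ)) y) ∈ M'
      rw [← LinearEquiv.mul_apply, ← zpow_add, neg_add_cancel, zpow_zero]
      exact hy
    · intro h
      refine ⟨_, h, ?_⟩
      change (T ^ (m : ℤ)) ((T ^ (-(m : ℤ))) x) = x
      rw [← LinearEquiv.mul_apply, ← zpow_add, add_neg_cancel, zpow_zero]
      rfl
  have hM'P : M' ≤ P := fun x hx => (hP x).2 (zpow_mem_genNeg T hx m)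
  have hall : genAll R T s ≤ M ⊔ P := by
    refine Submodule.span_le.2 ?_
    rintro _ ⟨k, y, hy, rfl⟩
    rcases le_or_gt 0 k with hk | hk
    · obtain ⟨n, rfl⟩ := Int.eq_ofNat_of_zero_le hk
      exact Submodule.mem_sup_left (Submodule.subset_span ⟨n, y, hy, rfl⟩)
    · refine Submodule.mem_sup_right ((hP _).2 ?_)
      obtain ⟨n, hn⟩ := Int.eq_ofNat_of_zero_le (neg_nonneg.2 hk.le)
      have h2 := zpow_mem_genNeg T (hm y hy) n
      rw [← LinearEquiv.mul_apply, ← zpow_add] at h2 ⊢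
      have h3 : -(n : ℤ) + -(m : ℤ) = -(m : ℤ) + k := by omega
      rwa [h3] at h2
  -- the retraction
  let MK := Submodule.span K (M : Set V)
  let M'K := Submodule.span K (M' : Set V)
  let PK := Submodule.span K (P : Set V)
  let W := MK ⊓ PK
  let φ : W →ₗ[K] V ⧸ M'K := M'K.mkQ ∘ₗ W.subtype
  have hφ : φ.ker = ⊥ := by
    rw [LinearMap.ker_eq_bot']
    rintro ⟨x, hx⟩ hφx
    have h2 : x ∈ M'K := by
      rw [← Submodule.Quotient.mk_eq_zero]
      exact hφx
    have h3 : x ∈ (⊥ : Submodule K V) := h0 ▸ ⟨hx.1, h2⟩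
    exact Subtype.ext ((Submodule.mem_bot K).1 h3)
  obtain ⟨ψ, hψ⟩ := LinearMap.exists_leftInverse_of_injective φ hφ
  let θ : V →ₗ[K] V := W.subtype ∘ₗ ψ ∘ₗ M'K.mkQ
  have hθW : ∀ x ∈ W, θ x = x := by
    intro x hx
    have := LinearMap.congr_fun hψ ⟨x, hx⟩
    exact congrArg Subtype.val this
  have hθM' : ∀ x ∈ M', θ x = 0 := by
    intro x hx
    have h2 : M'K.mkQ x = 0 := (Submodule.Quotient.mk_eq_zero _).2 (Submodule.subset_span hx)
    change (ψ (M'K.mkQ x) : V) = 0
    rw [h2, map_zero, Submodule.coe_zero]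
  have hθMK : ∀ x, θ x ∈ MK := fun x => (ψ (M'K.mkQ x)).2.1
  -- denominators
  choose d hd hdM using fun x : V => exists_smul_mem_of_mem_span M (hθMK x)
  let I : Finset V := (Finset.range m ×ˢ s').image fun p => (T ^ ((m : ℤ) - p.1)) p.2
  let c : R := ∏ x ∈ I, d x
  have hc : c ≠ 0 := Finset.prod_ne_zero_iff.2 fun x _ => hd x
  have hcP : ∀ q ∈ P, c • θ q ∈ M := by
    intro q hq
    obtain ⟨y, hy, rfl⟩ := hq
    change c • θ ((T ^ (m : ℤ)) y) ∈ M
    rw [hM'] at hy
    unfold genNeg at hy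
    induction hy using Submodule.span_induction with
    | mem x hx =>
      obtain ⟨j, y, hy, rfl⟩ := hx
      rw [← LinearEquiv.mul_apply, ← zpow_add]
      rcases lt_or_ge j m with hj | hj
      · have h2 : (T ^ ((m : ℤ) + -(j : ℤ))) y ∈ I := by
          refine Finset.mem_image.2 ⟨(j, y), Finset.mem_product.2 ⟨Finset.mem_range.2 hj, hy⟩, ?_⟩
          simp only [sub_eq_add_neg]
        have h3 : c = (∏ x ∈ I.erase _, d x) * d ((T ^ ((m : ℤ) + -(j : ℤ))) y) :=
          (Finset.prod_erase_mul I d h2).symm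
        rw [h3, mul_smul]
        exact M.smul_mem _ (hdM _)
      · have h2 : (T ^ ((m : ℤ) + -(j : ℤ))) y ∈ M' := by
          refine Submodule.subset_span ⟨j - m, y, hy, ?_⟩
          congr 2
          push_cast [hj]
          ring
        rw [hθM' _ h2, smul_zero]
        exact M.zero_mem
    | zero => rw [map_zero, map_zero, smul_zero]; exact M.zero_mem
    | add x y _ _ hx hy => rw [map_add, map_add, smul_add]; exact M.add_mem hx hy
    | smul r x _ hx =>
      rw [← algebraMap_smul K r x, map_smul, map_smul, algebraMap_smul, smul_comm]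
      exact M.smul_mem _ hx
  refine ⟨c, hc, fun a w hw w' hw' u hu hwu => ?_⟩
  obtain ⟨p, hp, q, hq, rfl⟩ := Submodule.mem_sup.1 (hall hu)
  rw [smul_add] at hwu
  have h2 : w - a • p = w' + a • q := by
    rw [sub_eq_iff_eq_add] at hwu ⊢
    rw [hwu]; abel
  have h3 : w - a • p ∈ W := by
    refine ⟨Submodule.subset_span (M.sub_mem hw (M.smul_mem _ hp)), ?_⟩
    rw [h2]
    exact Submodule.subset_span (P.add_mem (hM'P hw') (P.smul_mem _ hq))
  have h4 : w - a • p = a • θ q := by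
    rw [← hθW _ h3, h2, map_add, hθM' _ hw', zero_add, apply_smul_R]
  refine ⟨c • θ q + c • p, M.add_mem (hcP q hq) (M.smul_mem _ hp), ?_⟩
  rw [sub_eq_iff_eq_add] at h4
  rw [h4, smul_add, smul_add, smul_comm c a, smul_comm c a]

end H1

end Fermat.Agent.GoodRed
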