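import Fermat.Agent.GoodRed.Lift
import Fermat.Agent.GoodRed.H1

/-!
# Finite generation of integral models over `A[X]` (rank one)
-/

set_option autoImplicit false
set_option linter.unusedSectionVars false

noncomputable section

namespace Fermat.Agent.GoodRed

open Polynomial Module

/-- rank one condition -/
def RankOne {K κ : Type*} [Field K] [Field κ] {A : ValuationSubring K} (π : A →+* κ) : Prop :=
  ∀ a : A, a ≠ 0 → π a = 0 → ∀ c : K, ∃ n : ℕ, (a : K) ^ n * c ∈ A

namespace GaussRed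

variable {K κ : Type*} [Field K] [Field κ] {A : ValuationSubring K} {π : A →+* κ}

theorem exists_dvd_of_map_eq_zero {ν : A[X]} (hν0 : ν ≠ 0) (hν : ν.map π = 0) :
    ∃ (a : A) (ν' : A[X]), a ≠ 0 ∧ π a = 0 ∧ ν = C a * ν' := by
  classical
  obtain ⟨i, hi, hne, hall⟩ := exists_scale_finset (A := A) ν.support
    (fun n => ((ν.coeff n : A) : K)) (by
      obtain ⟨n, hn⟩ := support_nonempty.2 hν0
      refine ⟨n, hn, ?_⟩
      rw [Polynomial.mem_support_iff] at hn
      exact fun h => hn (Subtype.ext h))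
  have ha0 : ν.coeff i ≠ 0 := fun h => hne (by rw [h]; rfl)
  have hdvd : ∀ n, ∃ b : A, ν.coeff n = ν.coeff i * b := by
    intro n
    by_cases hn : ν.coeff n = 0
    · exact ⟨0, by rw [hn, mul_zero]⟩
    · refine ⟨⟨_, hall n (Polynomial.mem_support_iff.2 hn)⟩, Subtype.ext ?_⟩
      change ((ν.coeff n : A) : K) = ((ν.coeff i : A) : K) * (((ν.coeff i : A) : K)⁻¹ * ((ν.coeff n : A) : K))
      rw [← mul_assoc, mul_inv_cancel₀ hne, one_mul]
  obtain ⟨ν', hν'⟩ := C_dvd_iff_dvd_coeff (ν.coeff i) ν |>.2 fun n => by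
    obtain ⟨b, hb⟩ := hdvd n
    exact ⟨b, hb⟩
  refine ⟨ν.coeff i, ν', ha0, ?_, hν'⟩
  have := congrArg (fun p => p.coeff i) hν
  simpa using this

/-- for `e ≡ 1 mod 𝔪`, every polynomial over `K` is congruent to a polynomial over `A` mod `e` -/
theorem exists_mod_of_map_eq_one (hr : RankOne π) {e : A[X]} (he : e.map π = 1) (f : K[X]) :
    ∃ (g : A[X]) (h : K[X]), f = g.map A.subtype + e.map A.subtype * h := by
  by_cases he1 : e = 1
  · exact ⟨0, f, by rw [he1]; simp⟩
  have hν0 : e - 1 ≠ 0 := sub_ne_zero.2 he1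
  obtain ⟨a, ν', ha, hπa, hν⟩ := exists_dvd_of_map_eq_zero (π := π) hν0 (by
    rw [Polynomial.map_sub, he, Polynomial.map_one, sub_self])
  -- constants
  have hconst : ∀ c : K, ∃ (g : A[X]) (h : K[X]), C c = g.map A.subtype + e.map A.subtype * h := by
    intro c
    obtain ⟨n, hn⟩ := hr a ha hπa c
    obtain ⟨k, hk⟩ := sub_dvd_pow_sub_pow (-(e - 1)) 1 n
    rw [one_pow] at hk
    have h1 : (-(e - 1)) ^ n - 1 = - e * k := by
      rw [hk]; ring
    refine ⟨C (⟨(a : K) ^ n * c, hn⟩ : A) * (-ν') ^ n, (k.map A.subtype) * C c, ?_⟩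
    have h2 : (1 : K[X]) = ((-(e - 1)) ^ n).map A.subtype + e.map A.subtype * k.map A.subtype := by
      rw [← Polynomial.map_mul, ← Polynomial.map_add, sub_eq_iff_eq_add.1 h1]
      have : -e * k + 1 + e * k = 1 := by ring
      rw [this, Polynomial.map_one]
    have h3 : (C (⟨(a : K) ^ n * c, hn⟩ : A) * (-ν') ^ n).map A.subtype =
        ((-(e - 1)) ^ n).map A.subtype * C c := by
      rw [hν, ← mul_neg (C a) ν', mul_pow, Polynomial.map_mul, Polynomial.map_mul, map_C,
        Polynomial.map_pow (n := n) (p := C a), map_C]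
      change C ((a : K) ^ n * c) * _ = C (a : K) ^ n * _ * C c
      rw [C_mul, C_pow]
      ring
    rw [h3, ← mul_assoc, ← add_mul, ← h2, one_mul]
  induction f using Polynomial.induction_on with
  | C c => exact hconst c
  | add p q hp hq =>
    obtain ⟨g, h, rfl⟩ := hp
    obtain ⟨g', h', rfl⟩ := hq
    refine ⟨g + g', h + h', ?_⟩
    rw [Polynomial.map_add]; ring
  | monomial n c hp =>
    obtain ⟨g, h, hgh⟩ := hp
    refine ⟨g * X, h * X, ?_⟩
    rw [pow_succ, ← mul_assoc, hgh, Polynomial.map_mul, map_X]; ring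

variable {F Fb : Type*} [Field F] [Field Fb] [Algebra K F] [Algebra κ Fb]
  {G : GaussRed A π F Fb}
  [Algebra K[X] F] [IsScalarTower K K[X] F] [Algebra κ[X] Fb] [IsScalarTower κ κ[X] Fb]
  [IsLocalHom π]
  (L : Type*) [Field L] [Algebra K[X] L] [IsFractionRing K[X] L] [Algebra L F]
  [IsScalarTower K[X] L F] [FiniteDimensional L F] [Algebra.IsSeparable L F]
  (Lb : Type*) [Field Lb] [Algebra κ[X] Lb] [IsFractionRing κ[X] Lb] [Algebra Lb Fb]
  [IsScalarTower κ[X] Lb Fb] [FiniteDimensional Lb Fb] [Algebra.IsSeparable Lb Fb]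
  (hX : G.R (algebraMap K[X] F X) (algebraMap κ[X] Fb X)) (hπ : Function.Surjective π)

include L Lb in
theorem redMod_fg (hn : finrank L F = finrank Lb Fb) {M : Submodule K[X] F} (hM : M.FG) :
    (G.redMod hX hπ M).FG := by
  classical
  have hfaith : FaithfulSMul κ[X] Fb := faithfulSMul_red (Fb := Fb) Lb
  have hfaithF : FaithfulSMul K[X] F := faithfulSMul_of_tower K[X] L F
  -- a common denominator
  obtain ⟨d, hd0, hd⟩ : ∃ d : K[X], d ≠ 0 ∧ ∀ x ∈ M, IsIntegral K[X] (d • x) := by
    obtain ⟨s, hs⟩ := hM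
    choose d hd hdx using fun x : F => (isAlgebraic_of_tower (K := K) L x).exists_integral_multiple
    refine ⟨∏ x ∈ s, d x, Finset.prod_ne_zero_iff.2 fun x _ => hd x, fun x hx => ?_⟩
    rw [← hs] at hx
    induction hx using Submodule.span_induction with
    | mem x hx =>
      rw [← Finset.prod_erase_mul s d hx, mul_smul]
      exact IsIntegral.smul _ (hdx x)
    | zero => rw [smul_zero]; exact isIntegral_zero
    | add x y _ _ hx hy => rw [smul_add]; exact hx.add hy
    | smul r x _ hx => rw [smul_comm]; exact IsIntegral.smul _ hx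
  obtain ⟨c, q, hc, hq, hq0⟩ := exists_scale_poly (A := A) (π := π) d hd0
  let φ : Fb →ₗ[κ[X]] Fb := LinearMap.lsmul κ[X] Fb (q.map π)
  have hφ : Function.Injective φ := by
    rw [injective_iff_map_eq_zero]
    intro y hy
    change (q.map π) • y = 0 at hy
    rw [Algebra.smul_def, mul_eq_zero] at hy
    exact hy.resolve_left (algebraMap_poly_ne_zero hq0)
  refine Submodule.fg_of_fg_map_injective φ hφ
    (Submodule.FG.of_le (fg_Bbar (G := G) L Lb hX hπ hn) ?_)
  rintro _ ⟨y, ⟨x, hx, hxy⟩, rfl⟩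
  refine ⟨algebraMap K[X] F (q.map A.subtype) * x, ?_, ?_⟩
  · rw [hq, map_mul, mul_assoc, ← Algebra.smul_def d x]
    exact isIntegral_algebraMap.mul (hd x hx)
  · change G.R _ ((q.map π) • y)
    rw [Algebra.smul_def]
    exact (R_poly hX q).mul hxy

include L in
theorem exists_basis_redMod (hn : finrank L F = finrank Lb Fb) {M : Submodule K[X] F} (hM : M.FG)
    (hfull : ∀ x : F, ∃ d : K[X], d ≠ 0 ∧ d • x ∈ M) :
    ∃ (ι : Type) (_ : Fintype ι) (_ : Nonempty ι) (bb : Basis ι κ[X] (G.redMod hX hπ M))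
      (Bb : Basis ι Lb Fb), ∀ i, Bb i = (bb i : Fb) := by
  have hfaith : FaithfulSMul κ[X] Fb := faithfulSMul_red (Fb := Fb) Lb
  have : Module.IsTorsionFree κ[X] Fb := (Module.isTorsionFree_iff_faithfulSMul).2 hfaith
  have : Module.Finite κ[X] (G.redMod hX hπ M) := Module.Finite.iff_fg.2 (redMod_fg L Lb hX hπ hn hM)
  have : Module.Free κ[X] (G.redMod hX hπ M) := inferInstance
  let n := finrank κ[X] (G.redMod hX hπ M)
  let bb : Basis (Fin n) κ[X] (G.redMod hX hπ M) := Module.finBasis _ _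
  have h1 : LinearIndependent κ[X] (fun i => ((bb i : G.redMod hX hπ M) : Fb)) :=
    bb.linearIndependent.map' (G.redMod hX hπ M).subtype (Submodule.ker_subtype _)
  have h2 : LinearIndependent Lb (fun i => ((bb i : G.redMod hX hπ M) : Fb)) :=
    (LinearIndependent.iff_fractionRing κ[X] Lb).1 h1
  have h3 : ⊤ ≤ Submodule.span Lb (Set.range (fun i => ((bb i : G.redMod hX hπ M) : Fb))) := by
    intro y _
    obtain ⟨x, hx⟩ := G.exists_R y
    obtain ⟨d, hd, hdx⟩ := hfull x
    obtain ⟨c, q, hc, hq, hq0⟩ := exists_scale_poly (A := A) (π := π) d hd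
    have hey : (q.map π) • y ∈ G.redMod hX hπ M := by
      refine ⟨(q.map A.subtype) • x, ?_, ?_⟩
      · rw [hq, mul_smul]
        exact M.smul_mem _ hdx
      · rw [Algebra.smul_def, Algebra.smul_def]
        exact (R_poly hX q).mul hx
    have h4 : (q.map π) • y ∈ Submodule.span Lb (Set.range
        (fun i => ((bb i : G.redMod hX hπ M) : Fb))) := by
      have h5 := congrArg Subtype.val (bb.sum_repr ⟨_, hey⟩)
      change _ = (q.map π) • y at h5
      rw [← h5]
      simp only [AddSubmonoidClass.coe_finsetSum]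
      refine Submodule.sum_mem _ fun i _ => ?_
      rw [Submodule.coe_smul, ← algebraMap_smul Lb]
      exact Submodule.smul_mem _ _ (Submodule.subset_span ⟨i, rfl⟩)
    have h6 : y = (algebraMap κ[X] Lb (q.map π))⁻¹ • ((q.map π) • y) := by
      rw [← algebraMap_smul Lb (q.map π) y, smul_smul, inv_mul_cancel₀, one_smul]
      rw [Ne, FaithfulSMul.algebraMap_eq_zero_iff]
      exact hq0
    rw [h6]
    exact Submodule.smul_mem _ _ h4
  have hne : Nonempty (Fin n) := by
    by_contra hemp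
    rw [not_nonempty_iff] at hemp
    have h7 : (1 : Fb) ∈ Submodule.span Lb (Set.range
      (fun i => ((bb i : G.redMod hX hπ M) : Fb))) := h3 trivial
    rw [Set.range_eq_empty, Submodule.span_empty, Submodule.mem_bot] at h7
    exact one_ne_zero h7
  exact ⟨Fin n, inferInstance, hne, bb, Basis.mk h2 h3, fun i => by simp [Basis.mk_apply]⟩

include L Lb hX hπ in
/-- **Finite generation** of `M ∩ O` over `A[X]`. -/
theorem exists_gen [IsAlgClosed K] (hr : RankOne π) (hn : finrank L F = finrank Lb Fb)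
    {M : Submodule K[X] F} (hM : M.FG) (hfull : ∀ x : F, ∃ d : K[X], d ≠ 0 ∧ d • x ∈ M) :
    ∃ s : Finset F, (∀ y ∈ s, y ∈ M ∧ y ∈ G.O) ∧
      ∀ x ∈ M, x ∈ G.O → ∃ f : F → A[X],
        x = ∑ y ∈ s, algebraMap K[X] F ((f y).map A.subtype) * y := by
  classical
  have hfaith : FaithfulSMul κ[X] Fb := faithfulSMul_red (Fb := Fb) Lb
  obtain ⟨ι, _, _, bb, Bb, hBb⟩ := exists_basis_redMod (G := G) L Lb hX hπ hn hM hfull
  choose b hb hbR using fun i => (bb i).2
  have hbR' : ∀ i, G.R (b i) (Bb i) := fun i => by rw [hBb]; exact hbR i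
  obtain ⟨B, hB⟩ := exists_basis_of_red (L := L) hX hn Bb hbR'
  have hBR : ∀ i, G.R (B i) (Bb i) := fun i => by rw [hB]; exact hbR' i
  obtain ⟨e, he, hall⟩ := exists_denom_of_fg (G := G) L Lb hX hπ hM bb hb hbR B hB
  -- generators in `O`
  obtain ⟨s₀, hs₀⟩ := hM
  have hs₀M : ∀ x ∈ s₀, x ∈ M := fun x hx => hs₀ ▸ Submodule.subset_span hx
  have hscale : ∀ x : F, ∃ c : K, c ≠ 0 ∧ algebraMap K F c * x ∈ G.O := by
    intro x
    rcases eq_or_ne x 0 with rfl | hx
    · exact ⟨1, one_ne_zero, by rw [mul_zero]; exact zero_mem _⟩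
    · obtain ⟨c, hc, h, -⟩ := G.scale x hx
      exact ⟨c, hc, h⟩
  choose c hc hcO using hscale
  -- predicate
  let P : F → Prop := fun x => ∃ f : F → A[X], x = ∑ y ∈ s₀.image (fun x => algebraMap K F (c x) * x) ∪
      Finset.univ.image b, algebraMap K[X] F ((f y).map A.subtype) * y
  set s := s₀.image (fun x => algebraMap K F (c x) * x) ∪ Finset.univ.image b with hs
  have hPadd : ∀ x y, P x → P y → P (x + y) := by
    rintro _ _ ⟨f, rfl⟩ ⟨f', rfl⟩
    refine ⟨fun y => f y + f' y, ?_⟩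
    rw [← Finset.sum_add_distrib]
    refine Finset.sum_congr rfl fun y _ => ?_
    rw [Polynomial.map_add, map_add, add_mul]
  have hPmul : ∀ (g : A[X]) (y : F), y ∈ s → P (algebraMap K[X] F (g.map A.subtype) * y) := by
    intro g y hy
    refine ⟨fun z => if z = y then g else 0, ?_⟩
    rw [Finset.sum_eq_single_of_mem y hy]
    · simp only [if_true]
    · intro z _ hz
      simp only [if_neg hz, Polynomial.map_zero, map_zero, zero_mul]
  have hPzero : P 0 := ⟨fun _ => 0, by simp⟩
  have hPsumF : ∀ (t : Finset F) (x : F → F), (∀ i ∈ t, P (x i)) → P (∑ i ∈ t, x i) := by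
    intro t x hx
    induction t using Finset.induction_on with
    | empty => simpa using hPzero
    | insert i t hi ih =>
      rw [Finset.sum_insert hi]
      exact hPadd _ _ (hx i (Finset.mem_insert_self _ _))
        (ih fun j hj => hx j (Finset.mem_insert_of_mem hj))
  have hPsum : ∀ (t : Finset ι) (x : ι → F), (∀ i ∈ t, P (x i)) → P (∑ i ∈ t, x i) := by
    intro t x hx
    induction t using Finset.induction_on with
    | empty => simpa using hPzero
    | insert i t hi ih =>
      rw [Finset.sum_insert hi]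
      exact hPadd _ _ (hx i (Finset.mem_insert_self _ _))
        (ih fun j hj => hx j (Finset.mem_insert_of_mem hj))
  refine ⟨s, ?_, ?_⟩
  · intro y hy
    rcases Finset.mem_union.1 hy with hy | hy
    · obtain ⟨x, hx, rfl⟩ := Finset.mem_image.1 hy
      refine ⟨?_, hcO x⟩
      have := M.smul_mem (C (c x)) (hs₀M x hx)
      rwa [Algebra.smul_def, ← Polynomial.algebraMap_eq, ← IsScalarTower.algebraMap_apply] at this
    · obtain ⟨i, -, rfl⟩ := Finset.mem_image.1 hy
      exact ⟨hb i, (hbR i).mem⟩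
  · intro x hx hxO
    change P x
    -- every element of `M` is `P`-element plus an element of `⊕ K[X] b_i`
    have key : ∀ x ∈ M, ∃ x₁ x₂, P x₁ ∧ (∃ p : ι → K[X], x₂ = ∑ i, p i • b i) ∧ x = x₁ + x₂ := by
      have hspan : ∀ x, (∃ p : ι → K[X], x = ∑ i, p i • b i) ↔
          x ∈ Submodule.span K[X] (Set.range b) := by
        intro x
        rw [Submodule.mem_span_range_iff_exists_fun]
        exact ⟨fun ⟨p, hp⟩ => ⟨p, hp.symm⟩, fun ⟨p, hp⟩ => ⟨p, hp.symm⟩⟩
      intro x hx
      rw [← hs₀, Submodule.mem_span_finset] at hx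
      obtain ⟨f, -, rfl⟩ := hx
      have hone : ∀ y ∈ s₀, ∃ x₁ x₂, P x₁ ∧ (∃ p : ι → K[X], x₂ = ∑ i, p i • b i) ∧
          f y • y = x₁ + x₂ := by
        intro y hy
        obtain ⟨g, h, hgh⟩ := exists_mod_of_map_eq_one (π := π) hr he (f y * C (c y)⁻¹)
        have h1 : f y • y = algebraMap K[X] F (g.map A.subtype) * (algebraMap K F (c y) * y) +
            (h * C (c y)) • (e.map A.subtype • y) := by
          have h2 : f y = (f y * C (c y)⁻¹) * C (c y) := by
            rw [mul_assoc, ← C_mul, inv_mul_cancel₀ (hc y), C_1, mul_one]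
          rw [h2, hgh]
          simp only [Algebra.smul_def, map_mul, map_add]
          have h3 : algebraMap K[X] F (C (c y)) = algebraMap K F (c y) := by
            rw [← Polynomial.algebraMap_eq, ← IsScalarTower.algebraMap_apply]
          rw [h3]
          ring
        refine ⟨_, _, hPmul g _ (Finset.mem_union_left _ (Finset.mem_image_of_mem _ hy)), ?_, h1⟩
        rw [hspan]
        exact Submodule.smul_mem _ _ ((hspan _).1 (hall y (hs₀M y hy)))
      choose! x₁ x₂ hx₁ hx₂ hx₁₂ using hone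
      refine ⟨∑ y ∈ s₀, x₁ y, ∑ y ∈ s₀, x₂ y, hPsumF _ _ hx₁, ?_, ?_⟩
      · rw [hspan]
        exact Submodule.sum_mem _ fun y hy => (hspan _).1 (hx₂ y hy)
      · rw [← Finset.sum_add_distrib]
        exact Finset.sum_congr rfl fun y hy => hx₁₂ y hy
    have hPO : ∀ x, P x → x ∈ G.O := by
      rintro _ ⟨f, rfl⟩
      refine sum_mem fun y hy => mul_mem (R_poly hX (f y)).mem ?_
      rcases Finset.mem_union.1 hy with hy | hy
      · obtain ⟨x, hx, rfl⟩ := Finset.mem_image.1 hy
        exact hcO x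
      · obtain ⟨i, -, rfl⟩ := Finset.mem_image.1 hy
        exact (hbR i).mem
    obtain ⟨x₁, x₂, hx₁, ⟨p, hp⟩, rfl⟩ := key x hx
    have hx₂O : x₂ ∈ G.O := by
      have := sub_mem hxO (hPO x₁ hx₁)
      rwa [add_sub_cancel_left] at this
    obtain ⟨q, hq⟩ := exists_of_smul_eq (L := L) (Lb := Lb) hX hBR hx₂O (p := p)
      (by simpa only [hB] using hp)
    refine hPadd _ _ hx₁ ?_
    rw [hp]
    refine hPsum _ _ fun i _ => ?_
    rw [Algebra.smul_def, ← hq i]
    exact hPmul _ _ (Finset.mem_union_right _ (Finset.mem_image_of_mem _ (Finset.mem_univ i)))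

end GaussRed

end Fermat.Agent.GoodRed
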