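import Fermat.Agent.Frob.Localization
import Fermat.Agent.GoodRed.FG

/-!
# Valuation rings of algebraically closed fields, rank one
-/

set_option autoImplicit false

noncomputable section

namespace Fermat.Agent.GoodRed

open Polynomial

variable {K : Type*} [Field K] (A : ValuationSubring K)

instance isAlgClosed_residueField [IsAlgClosed K] : IsAlgClosed (IsLocalRing.ResidueField A) := by
  refine IsAlgClosed.of_exists_root _ fun p hp hirr => ?_
  have hl : p ∈ lifts (IsLocalRing.residue A) := by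
    rw [lifts_iff_coeff_lifts]
    intro n
    exact IsLocalRing.residue_surjective _
  obtain ⟨q, hq, hqdeg, hqm⟩ := lifts_and_natDegree_eq_and_monic hl hp
  have hdeg : (q.map A.subtype).degree ≠ 0 := by
    rw [Polynomial.degree_map_eq_of_injective Subtype.val_injective,
      degree_eq_natDegree hqm.ne_zero, hqdeg]
    have := hirr.natDegree_pos
    exact_mod_cast this.ne'
  obtain ⟨x, hx⟩ := IsAlgClosed.exists_root _ hdeg
  have hint : IsIntegral A x := by
    refine ⟨q, hqm, ?_⟩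
    rw [IsRoot.def, eval_map] at hx
    exact hx
  obtain ⟨a, rfl⟩ := IsIntegrallyClosed.isIntegral_iff.1 hint
  refine ⟨IsLocalRing.residue A a, ?_⟩
  have h1 : q.eval a = 0 := by
    rw [IsRoot.def] at hx
    change (q.map A.subtype).eval (A.subtype a) = 0 at hx
    rw [eval_map_apply] at hx
    exact Subtype.val_injective hx
  rw [← hq, eval_map_apply, h1, map_zero]

variable {A}

/-- rank one -/
theorem exists_pow_mem_of_nonunit [CharZero K] [Algebra.IsAlgebraic ℤ K] {ℓ : ℕ} (hℓ : ℓ.Prime)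
    (hA : A.LiesOverPrime ℓ) {a : K} (ha0 : a ≠ 0) (ha1 : A.valuation a < 1) :
    ∃ n : ℕ, A.valuation (a ^ n) ≤ A.valuation (ℓ : K) := by
  by_contra! hcon
  obtain ⟨p, hp0, hp⟩ := Algebra.IsAlgebraic.isAlgebraic (R := ℤ) a
  set q := p.primPart with hq
  have hq0 : aeval a q = 0 := aeval_primPart_eq_zero hp0 hp
  have hex : ∃ i, ¬ (ℓ : ℤ) ∣ q.coeff i := by
    by_contra! h
    have h1 := (isPrimitive_primPart p) (ℓ : ℤ) ((C_dvd_iff_dvd_coeff _ _).2 h)
    exact (Nat.prime_iff_prime_int.mp hℓ).not_isUnit h1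
  classical
  obtain ⟨i₀, hi₀, hmin⟩ : ∃ i₀, ¬ (ℓ : ℤ) ∣ q.coeff i₀ ∧ ∀ j < i₀, (ℓ : ℤ) ∣ q.coeff j :=
    ⟨Nat.find hex, Nat.find_spec hex, fun j hj => not_not.1 (Nat.find_min hex hj)⟩
  have hva0 : A.valuation a ≠ 0 := (Valuation.ne_zero_iff _).2 ha0
  have hterm : A.valuation (((q.coeff i₀ : ℤ) : K) * a ^ i₀) = A.valuation a ^ i₀ := by
    rw [map_mul, map_pow, Frob.valuation_intCast_eq_one A hℓ hA hi₀, one_mul]
  have hmem : i₀ ∈ q.support := by
    rw [mem_support_iff]
    rintro h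
    rw [h] at hi₀
    exact hi₀ (dvd_zero _)
  have hsum : ((q.coeff i₀ : ℤ) : K) * a ^ i₀ =
      -∑ j ∈ q.support.erase i₀, ((q.coeff j : ℤ) : K) * a ^ j := by
    rw [eq_neg_iff_add_eq_zero, Finset.add_sum_erase q.support
      (fun j => ((q.coeff j : ℤ) : K) * a ^ j) hmem, ← hq0, aeval_eq_sum_range, eq_comm,
      ← Finset.sum_subset (s₁ := q.support)]
    · refine Finset.sum_congr rfl fun j _ => ?_
      rw [zsmul_eq_mul]
    · exact supp_subset_range_natDegree_succ
    · intro j _ hj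
      rw [notMem_support_iff.1 hj, zero_smul]
  have hlt : A.valuation (∑ j ∈ q.support.erase i₀, ((q.coeff j : ℤ) : K) * a ^ j) <
      A.valuation a ^ i₀ := by
    refine Valuation.map_sum_lt _ (pow_ne_zero _ hva0) fun j hj => ?_
    rw [Finset.mem_erase] at hj
    rw [map_mul, map_pow]
    rcases lt_or_gt_of_ne hj.1 with h | h
    · obtain ⟨c, hc⟩ := hmin j h
      have h1 : A.valuation ((q.coeff j : ℤ) : K) ≤ A.valuation (ℓ : K) := by
        rw [hc, Int.cast_mul, map_mul, Int.cast_natCast]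
        exact mul_le_of_le_one_right' (Frob.valuation_intCast_le_one A c)
      calc _ ≤ A.valuation (ℓ : K) * 1 := mul_le_mul' h1 (pow_le_one₀ zero_le ha1.le)
        _ < _ := by rw [mul_one, ← map_pow]; exact hcon i₀
    · calc _ ≤ 1 * A.valuation a ^ j := mul_le_mul_left (Frob.valuation_intCast_le_one A _) _
        _ < _ := by
          rw [one_mul]
          exact pow_lt_pow_right_of_lt_one₀ (zero_lt_iff.2 hva0) ha1 h
  rw [← hterm, hsum, Valuation.map_neg] at hlt
  exact lt_irrefl _ hlt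

theorem rankOne_of_liesOver [CharZero K] [Algebra.IsAlgebraic ℤ K] {ℓ : ℕ} (hℓ : ℓ.Prime)
    (hA : A.LiesOverPrime ℓ) : RankOne (IsLocalRing.residue A) := by
  intro a ha0 hπa c
  have ha0' : (a : K) ≠ 0 := fun h => ha0 (Subtype.ext h)
  have ha1 : A.valuation (a : K) < 1 := by
    rw [IsLocalRing.residue_eq_zero_iff, IsLocalRing.mem_maximalIdeal, mem_nonunits_iff] at hπa
    exact (A.valuation_lt_one_iff a).1 hπa
  obtain ⟨n, hn⟩ := exists_pow_mem_of_nonunit hℓ hA ha0' ha1
  rcases eq_or_ne c 0 with rfl | hc0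
  · exact ⟨0, by rw [mul_zero]; exact zero_mem _⟩
  -- an integer multiple of `c` is integral
  obtain ⟨d, hd0, hd⟩ := (Algebra.IsAlgebraic.isAlgebraic (R := ℤ) c).exists_integral_multiple
  have hdc : A.valuation ((d : K) * c) ≤ 1 := by
    rw [A.valuation_le_one_iff, ← zsmul_eq_mul]
    exact Frob.mem_of_isIntegral A hd
  -- factor out the `ℓ` part of `d`
  obtain ⟨w, u, hu, hdu⟩ : ∃ (w : ℕ) (u : ℤ), ¬ (ℓ : ℤ) ∣ u ∧ d = (ℓ : ℤ) ^ w * u := by
    have hfin : FiniteMultiplicity (ℓ : ℤ) d := Int.finiteMultiplicity_iff.2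
      ⟨by simpa using hℓ.ne_one, hd0⟩
    obtain ⟨u, hu, hu'⟩ := hfin.exists_eq_pow_mul_and_not_dvd
    exact ⟨_, u, hu', hu⟩
  refine ⟨n * w, ?_⟩
  rw [← A.valuation_le_one_iff, map_mul, pow_mul]
  rw [map_pow] at hn ⊢
  have h1 : A.valuation ((a : K) ^ n) ^ w ≤ A.valuation (ℓ : K) ^ w := by
    rw [map_pow]
    exact pow_le_pow_left₀ zero_le hn w
  calc _ ≤ A.valuation (ℓ : K) ^ w * A.valuation c := mul_le_mul_left h1 _
    _ = A.valuation ((d : K) * c) := by
      rw [hdu]
      push_cast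
      rw [map_mul, map_mul, map_pow, Frob.valuation_intCast_eq_one A hℓ hA hu, mul_one]
    _ ≤ 1 := hdc

end Fermat.Agent.GoodRed
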