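import Fermat.Agent.GoodRed.Inst
import Fermat.Agent.GoodRed.RamChart
import Fermat.Agent.GoodRed.KL
import Fermat.Agent.GoodRed.ValRing

/-!
# Good charts and the Kummer lifting principle for modular function fields
-/

set_option autoImplicit false
set_option linter.unusedSectionVars false
set_option linter.style.haveILetI false
set_option synthInstance.maxHeartbeats 400000

noncomputable section

namespace Fermat.Agent.GoodRed

open Polynomial AlgebraicCurve Fermat.Agent.Curves Module IntermediateField ModularCurve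
open Fermat.Agent.GenusX0 (je transcendental_je)

variable {K κ : Type*} [Field K] [Field κ] {A : ValuationSubring K} (π : A →+* κ) (N : ℕ)
  [IsLocalHom π] [IsAlgClosed K] [IsAlgClosed κ]

/-- existence of good charts -/
def HasGood : Prop :=
  ∃ (hπ : Function.Surjective π) (hNK : (N : K) ≠ 0) (hNκ : (N : κ) ≠ 0)
    (t : modularFunctionFieldFullC K N) (tb : modularFunctionFieldFullC κ N),
    haveI := isFunctionField_fullC K N hNK
    haveI := isFunctionField_fullC κ N hNκ
    GoodChart (modGauss π N hπ hNK hNκ) t tb ∧ GoodChart (modGauss π N hπ hNK hNκ) t⁻¹ tb⁻¹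

theorem modGoodChart [CharZero K] (ι : K →+* ℂ) (h6 : (6 : κ) ≠ 0)
    (hπ : Function.Surjective π) (hNK : (N : K) ≠ 0) (hNκ : (N : κ) ≠ 0) :
    haveI := isFunctionField_fullC K N hNK
    haveI := isFunctionField_fullC κ N hNκ
    GoodChart (modGauss π N hπ hNK hNκ) (je K N) (je κ N) ∧
      GoodChart (modGauss π N hπ hNK hNκ) (je K N)⁻¹ (je κ N)⁻¹ := by
  haveI := isFunctionField_fullC K N hNK
  haveI := isFunctionField_fullC κ N hNκ
  haveI : NeZero N := ⟨by rintro rfl; simp at hNK⟩
  have h1728 : π (1728 : A) ≠ 0 := by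
    rw [map_ofNat, show (1728 : κ) = 6 ^ 3 * 8 by norm_num]
    have h2 : (2 : κ) ≠ 0 := fun h => h6 (by rw [show (6 : κ) = 2 * 3 by norm_num, h, zero_mul])
    exact mul_ne_zero (pow_ne_zero _ h6)
      (by rw [show (8 : κ) = 2 ^ 3 by norm_num]; exact pow_ne_zero _ h2)
  have hC := modChart π N hπ hNK hNκ
  have hb : ((1728 : A) : K) = 1728 := rfl
  constructor
  · refine hC.good hπ (1728 : A) h1728 3 ?_ ?_ ?_
    · intro w
      have := GenusX0.ord_je_le_three w ι
      push_cast
      exact this
    · intro w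
      have := GenusX0.ord_je_sub_le_two w ι
      rw [hb]
      push_cast
      omega
    · intro w c h0 h1
      exact GenusX0.ord_je_sub_le_one w ι h0 h1
  · refine hC.good_inv hπ (1728 : A) h1728 (2 + N) ?_ ?_ ?_
    · intro w
      have := GenusX0.neg_ord_je_le w ι
      push_cast
      omega
    · intro w
      have := GenusX0.ord_je_sub_le_two w ι
      rw [hb]
      push_cast
      omega
    · intro w c h0 h1
      exact GenusX0.ord_je_sub_le_one w ι h0 h1

theorem hasGood_of_six [CharZero K] (ι : K →+* ℂ) (h6 : (6 : κ) ≠ 0)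
    (hπ : Function.Surjective π) (hNK : (N : K) ≠ 0) (hNκ : (N : κ) ≠ 0) : HasGood π N :=
  ⟨hπ, hNK, hNκ, je K N, je κ N, modGoodChart π N ι h6 hπ hNK hNκ⟩

/-- **Kummer lifting** for modular function fields, assuming the existence of good charts. -/
theorem HasGood.isPow (h : HasGood π N) (hr : RankOne π) {m : ℕ} (hm : (m : κ) ≠ 0)
    {u : modularFunctionFieldFullC K N} {ub gb : modularFunctionFieldFullC κ N} {c : κ}
    (hu : LR π (u : LaurentSeries K) (ub : LaurentSeries κ)) (hub : ub ≠ 0)
    (hgb : ub = algebraMap κ _ c * gb ^ m)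
    (hdiv : ∀ P : Place K (modularFunctionFieldFullC K N), (m : ℤ) ∣ P.ord u) :
    ∃ w, u = w ^ m := by
  obtain ⟨hπ, hNK, hNκ, t, tb, h1, h2⟩ := h
  haveI := isFunctionField_fullC K N hNK
  haveI := isFunctionField_fullC κ N hNκ
  have hm0 : m ≠ 0 := by rintro rfl; simp at hm
  obtain ⟨d, hd⟩ := IsAlgClosed.exists_pow_nat_eq c (Nat.pos_of_ne_zero hm0)
  refine isPow_of_red_isPow h1 h2 hr hm ((modGauss_R π N).2 hu) hub
    (gb := algebraMap κ _ d * gb) ?_ hdiv
  rw [hgb, mul_pow, ← map_pow, hd]

end Fermat.Agent.GoodRed
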