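import Fermat.Agent.GoodRed.KLAll

/-!
# Injectivity of the reduction on prime-to-`ℓ` torsion
-/

set_option autoImplicit false
set_option linter.unusedSectionVars false
set_option linter.style.haveILetI false
set_option synthInstance.maxHeartbeats 400000

noncomputable section

namespace Fermat.Agent.GoodRed

open Polynomial AlgebraicCurve Fermat.Agent.Curves Module IntermediateField ModularCurve

variable {K κ : Type} [Field K] [Field κ] {A : ValuationSubring K} (π : A →+* κ) (N : ℕ)
  [IsLocalHom π] [IsAlgClosed K] [IsAlgClosed κ]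

/-- a function with trivial divisor is constant -/
theorem exists_const_of_ord_zero {k F : Type*} [Field k] [Field F] [Algebra k F] [IsAlgClosed k]
    [IsFunctionField k F] {x : F} (h : ∀ P : Place k F, P.ord x = 0) :
    ∃ c : k, x = algebraMap k F c := by
  rcases transcendental_or (k := k) x with htr | ⟨c, hc⟩
  · obtain ⟨w, hw⟩ := exists_ord_pos_of_transcendental htr
    have := h w
    omega
  · exact ⟨c, hc⟩

theorem core_aux [CharZero K] (ι : K →+* ℂ) (hπ : Function.Surjective π) (hNκ : (N : κ) ≠ 0)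
    (hr : RankOne π) {m : ℕ} (hm : (m : κ) ≠ 0)
    (E : IntermediateField K (LaurentSeries K)) (hE : E = modularFunctionFieldFullC K N)
    (r : Place K E → Place κ (modularFunctionFieldFullC κ N))
    (hrr : ∀ (y : LaurentSeries A) (hy : coeffMap A.subtype y ∈ E)
      (hyk : coeffMap π y ∈ modularFunctionFieldFullC κ N), coeffMap π y ≠ 0 →
        ∀ D : Divisor K E, (∀ P, D P = P.ord (⟨coeffMap A.subtype y, hy⟩ : E)) →
          ∀ Q, Finsupp.mapDomain r D Q =
            Q.ord (⟨coeffMap π y, hyk⟩ : modularFunctionFieldFullC κ N))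
    (D : Divisor K E) {u : E} (hu0 : u ≠ 0) (hu : ∀ P, (m : ℤ) * D P = P.ord u)
    {g : modularFunctionFieldFullC κ N} (hg0 : g ≠ 0)
    (hg : ∀ Q, Finsupp.mapDomain r D Q = Q.ord g) :
    ∃ w : E, w ≠ 0 ∧ ∀ P, D P = P.ord w := by
  subst hE
  have hN0 : N ≠ 0 := by rintro rfl; simp at hNκ
  have hNK : (N : K) ≠ 0 := by exact_mod_cast hN0
  have hm0 : m ≠ 0 := by rintro rfl; simp at hm
  haveI := isFunctionField_fullC K N hNK
  haveI := isFunctionField_fullC κ N hNκ
  obtain ⟨c, f, h, hc, hf, hh, hfb, hhb, hfb0, hhb0, heq⟩ := exists_int_frac π N hNK hNκ u hu0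
  have hcF : algebraMap K (modularFunctionFieldFullC K N) c ≠ 0 := by simpa using hc
  have hf0 : (⟨coeffMap A.subtype f, hf⟩ : modularFunctionFieldFullC K N) ≠ 0 := fun h0 =>
    coeffMap_subtype_ne_zero hfb0 (congrArg Subtype.val h0)
  have hh0 : (⟨coeffMap A.subtype h, hh⟩ : modularFunctionFieldFullC K N) ≠ 0 := fun h0 =>
    coeffMap_subtype_ne_zero hhb0 (congrArg Subtype.val h0)
  have hfb0' : (⟨coeffMap π f, hfb⟩ : modularFunctionFieldFullC κ N) ≠ 0 := fun h0 =>
    hfb0 (congrArg Subtype.val h0)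
  have hhb0' : (⟨coeffMap π h, hhb⟩ : modularFunctionFieldFullC κ N) ≠ 0 := fun h0 =>
    hhb0 (congrArg Subtype.val h0)
  have heq' : (⟨coeffMap A.subtype h, hh⟩ : modularFunctionFieldFullC K N) *
      (algebraMap K _ c * u) = ⟨coeffMap A.subtype f, hf⟩ := Subtype.ext heq
  set F1 : modularFunctionFieldFullC K N := ⟨coeffMap A.subtype f, hf⟩ with hF1
  set H1 : modularFunctionFieldFullC K N := ⟨coeffMap A.subtype h, hh⟩ with hH1
  set F2 : modularFunctionFieldFullC κ N := ⟨coeffMap π f, hfb⟩ with hF2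
  set H2 : modularFunctionFieldFullC κ N := ⟨coeffMap π h, hhb⟩ with hH2
  -- divisors
  have hD : (m : ℤ) • D = divisorOf F1 - divisorOf H1 := by
    ext P
    rw [Finsupp.smul_apply, smul_eq_mul, Finsupp.sub_apply, divisorOf_apply, divisorOf_apply, hu P,
      ← heq', P.ord_mul hh0 (mul_ne_zero hcF hu0), P.ord_mul hcF hu0, ord_algebraMap]
    ring
  have hkey : ∀ Q : Place κ (modularFunctionFieldFullC κ N),
      Q.ord (F2 * H2⁻¹) = m * Q.ord g := by
    intro Q
    have h1 := hrr f hf hfb hfb0 (divisorOf F1) (fun P => divisorOf_apply _ _) Q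
    have h2 := hrr h hh hhb hhb0 (divisorOf H1) (fun P => divisorOf_apply _ _) Q
    have h3 := congrArg (fun E => Finsupp.mapDomain r E Q) hD
    simp only [Finsupp.mapDomain_smul, Finsupp.mapDomain_sub, Finsupp.smul_apply,
      Finsupp.sub_apply, smul_eq_mul] at h3
    rw [h1, h2, hg Q] at h3
    rw [Q.ord_mul hfb0' (inv_ne_zero hhb0'), Q.ord_inv]
    rw [h3]
    rfl
  have hgm : g ^ m ≠ 0 := pow_ne_zero m hg0
  obtain ⟨d, hd⟩ := exists_const_of_ord_zero (k := κ) (x := F2 * H2⁻¹ * (g ^ m)⁻¹) (fun Q => by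
    rw [Q.ord_mul (mul_ne_zero hfb0' (inv_ne_zero hhb0')) (inv_ne_zero hgm), hkey Q, Q.ord_inv,
      ord_pow]
    ring)
  have hd' : F2 * H2⁻¹ = algebraMap κ _ d * g ^ m := by
    rw [← hd, mul_assoc, inv_mul_cancel₀ hgm, mul_one]
  obtain ⟨w, hw, huw⟩ := modKummer π N ι hπ hNκ hr hm
    (u := ((algebraMap K (modularFunctionFieldFullC K N) c * u : modularFunctionFieldFullC K N) :
      LaurentSeries K)) (SetLike.coe_mem _)
    (ub := ((F2 * H2⁻¹ : modularFunctionFieldFullC κ N) : LaurentSeries κ))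
    (gb := (g : LaurentSeries κ)) (SetLike.coe_mem _) (SetLike.coe_mem _) (c := d)
    ⟨f, h, hhb0, heq, by
      have : H2 * (F2 * H2⁻¹) = F2 := by
        field_simp
      exact congrArg Subtype.val this⟩
    (fun h0 => mul_ne_zero hfb0' (inv_ne_zero hhb0') (Subtype.ext h0))
    (by
      rw [ModFun.C_eq_algebraMap]
      exact congrArg Subtype.val hd')
    (fun P => by
      have h1 : (⟨((algebraMap K (modularFunctionFieldFullC K N) c * u :
        modularFunctionFieldFullC K N) : LaurentSeries K), SetLike.coe_mem _⟩ :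
          modularFunctionFieldFullC K N) = algebraMap K _ c * u := rfl
      rw [h1, P.ord_mul hcF hu0, ord_algebraMap, ← hu P, zero_add]
      exact dvd_mul_right _ _)
  have huw' : algebraMap K (modularFunctionFieldFullC K N) c * u = ⟨w, hw⟩ ^ m := Subtype.ext huw
  refine ⟨⟨w, hw⟩, ?_, fun P => ?_⟩
  · intro h0
    rw [h0, zero_pow hm0] at huw'
    exact mul_ne_zero hcF hu0 huw'
  · have h1 := congrArg P.ord huw'
    rw [P.ord_mul hcF hu0, ord_algebraMap, ← hu P, ord_pow, zero_add] at h1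
    exact mul_left_cancel₀ (by exact_mod_cast hm0) h1

end Fermat.Agent.GoodRed
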