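import Fermat.Agent.GoodRed.Haupt4
import Fermat.Agent.GoodRed.ModKL

/-!
# Charts from Hauptmoduln
-/

set_option autoImplicit false
set_option linter.unusedSectionVars false
set_option linter.style.haveILetI false

noncomputable section

namespace Fermat.Agent.GoodRed

open Polynomial AlgebraicCurve Fermat.Agent.Curves Module IntermediateField ModularCurve
open Fermat.Agent.GenusX0 (je transcendental_je zeros mem_zeros sum_zeros)

section Ord

variable {k F : Type*} [Field k] [Field F] [Algebra k F] [IsAlgClosed k] [IsFunctionField k F]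

theorem aeval_mem_place (P : Place k F) {t : F} (ht : t ∈ P.toValuationSubring) (p : k[X]) :
    aeval t p ∈ P.toValuationSubring := by
  have h := aeval_mem_affineRing (K := k) t p
  exact h P ht

theorem sub_ne_zero_of_tr {t : F} (ht : Transcendental k t) (c : k) :
    t - algebraMap k F c ≠ 0 := by
  intro h
  rw [sub_eq_zero.1 h] at ht
  exact ht (isAlgebraic_algebraMap c)

theorem ord_multiset_prod (P : Place k F) (s : Multiset k) {t : F} (ht : Transcendental k t) :
    P.ord ((s.map fun r => t - algebraMap k F r).prod) =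
      (s.map fun r => P.ord (t - algebraMap k F r)).sum := by
  induction s using Multiset.induction_on with
  | empty => simp
  | cons a s ih =>
    rw [Multiset.map_cons, Multiset.prod_cons, Multiset.map_cons, Multiset.sum_cons, P.ord_mul, ih]
    · exact sub_ne_zero_of_tr ht a
    · rw [Ne, Multiset.prod_eq_zero_iff, Multiset.mem_map]
      rintro ⟨r, _, h⟩
      exact sub_ne_zero_of_tr ht r h

theorem aeval_monic_eq {t : F} {H : k[X]} (hH : H.Monic) :
    aeval t H = (H.roots.map fun r => t - algebraMap k F r).prod := by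
  conv_lhs => rw [(IsAlgClosed.splits H).eq_prod_roots_of_monic hH]
  rw [map_multiset_prod, Multiset.map_map]
  congr 1
  apply Multiset.map_congr rfl
  intro r _
  simp

theorem ord_sub_of_neg (P : Place k F) {t : F} (h : P.ord t < 0) (c : k) :
    P.ord (t - algebraMap k F c) = P.ord t := by
  have ht0 : t ≠ 0 := by rintro rfl; simp at h
  have h1 := (ord_add_eq_left P ht0 (g := -algebraMap k F c) (by
    right
    rw [ord_neg, ord_algebraMap]
    exact h)).2
  rwa [← sub_eq_add_neg] at h1

theorem ord_sub_of_pos (P : Place k F) {t : F} (h : 0 < P.ord t) {c : k} (hc : c ≠ 0) :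
    P.ord (t - algebraMap k F c) = 0 := by
  have hc' : -algebraMap k F c ≠ 0 := by simpa using hc
  have h1 := (ord_add_eq_right P hc' (g := t) (by
    right
    rw [ord_neg, ord_algebraMap]
    exact h)).2
  rwa [← sub_eq_add_neg, ord_neg, ord_algebraMap] at h1

theorem ord_aeval_of_neg (P : Place k F) {t : F} (ht : Transcendental k t) (h : P.ord t < 0)
    {H : k[X]} (hH : H.Monic) : P.ord (aeval t H) = H.natDegree * P.ord t := by
  rw [aeval_monic_eq hH, ord_multiset_prod P _ ht]
  rw [Multiset.map_congr rfl (fun r _ => ord_sub_of_neg P h r)]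
  rw [Multiset.map_const', Multiset.sum_replicate, IsAlgClosed.card_roots_eq_natDegree, nsmul_eq_mul]

theorem ord_aeval_of_pos (P : Place k F) {t : F} (ht : Transcendental k t) (h : 0 < P.ord t)
    {H : k[X]} (hH : H.Monic) (h0 : H.coeff 0 ≠ 0) : P.ord (aeval t H) = 0 := by
  rw [aeval_monic_eq hH, ord_multiset_prod P _ ht]
  apply Multiset.sum_eq_zero
  intro x hx
  rw [Multiset.mem_map] at hx
  obtain ⟨r, hr, rfl⟩ := hx
  apply ord_sub_of_pos P h
  rintro rfl
  rw [mem_roots hH.ne_zero, IsRoot.def, ← coeff_zero_eq_eval_zero] at hr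
  exact h0 hr

theorem ord_aeval_nonneg (P : Place k F) {t : F} (ht : Transcendental k t) (h : 0 ≤ P.ord t)
    {H : k[X]} (hH : H ≠ 0) : 0 ≤ P.ord (aeval t H) := by
  have ht0 : t ≠ 0 := fun h0 => ht (h0 ▸ isAlgebraic_zero)
  have h1 : aeval t H ≠ 0 := fun h0 => ht ⟨H, hH, h0⟩
  exact (mem_iff_ord P h1).1 (aeval_mem_place P ((mem_iff_ord P ht0).2 h) H)

variable {j t : F} {e : ℕ} {H : k[X]}

theorem ord_j_of_neg (ht : Transcendental k t) (hj : Transcendental k j)
    (hrel : j * t ^ e = aeval t H) (hH : H.Monic) (hdeg : H.natDegree = e + 1)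
    (P : Place k F) (h : P.ord t < 0) : P.ord j = P.ord t := by
  have ht0 : t ≠ 0 := fun h0 => ht (h0 ▸ isAlgebraic_zero)
  have hj0 : j ≠ 0 := fun h0 => hj (h0 ▸ isAlgebraic_zero)
  have h1 := ord_aeval_of_neg P ht h hH
  rw [← hrel, P.ord_mul hj0 (pow_ne_zero e ht0), ord_pow, hdeg] at h1
  push_cast at h1
  linarith

theorem ord_j_of_pos (ht : Transcendental k t) (hj : Transcendental k j)
    (hrel : j * t ^ e = aeval t H) (hH : H.Monic) (h0 : H.coeff 0 ≠ 0)
    (P : Place k F) (h : 0 < P.ord t) : P.ord j = -(e * P.ord t) := by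
  have ht0 : t ≠ 0 := fun h0 => ht (h0 ▸ isAlgebraic_zero)
  have hj0 : j ≠ 0 := fun h0 => hj (h0 ▸ isAlgebraic_zero)
  have h1 := ord_aeval_of_pos P ht h hH h0
  rw [← hrel, P.ord_mul hj0 (pow_ne_zero e ht0), ord_pow] at h1
  linarith

theorem ord_j_of_zero (ht : Transcendental k t) (hj : Transcendental k j)
    (hrel : j * t ^ e = aeval t H) (hH : H.Monic)
    (P : Place k F) (h : P.ord t = 0) : 0 ≤ P.ord j := by
  have ht0 : t ≠ 0 := fun h0 => ht (h0 ▸ isAlgebraic_zero)
  have hj0 : j ≠ 0 := fun h0 => hj (h0 ▸ isAlgebraic_zero)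
  have h1 := ord_aeval_nonneg P ht h.ge hH.ne_zero
  rw [← hrel, P.ord_mul hj0 (pow_ne_zero e ht0), ord_pow, h] at h1
  linarith

theorem finrank_j_eq (ht : Transcendental k t) (hj : Transcendental k j)
    (hrel : j * t ^ e = aeval t H) (hH : H.Monic) (hdeg : H.natDegree = e + 1)
    (h0 : H.coeff 0 ≠ 0) (he : e ≠ 0) :
    finrank k⟮j⟯ F = (e + 1) * finrank k⟮t⟯ F := by
  classical
  have hji : Transcendental k j⁻¹ := fun h => hj (by simpa using h.inv)
  have hti : Transcendental k t⁻¹ := fun h => ht (by simpa using h.inv)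
  have h1 := sum_zeros hji
  have h2 := sum_zeros hti
  have h3 := sum_zeros ht
  rw [adjoin_inv_eq] at h1 h2
  have hdisj : Disjoint (zeros k t) (zeros k t⁻¹) := by
    rw [Finset.disjoint_left]
    intro P hP hP'
    rw [mem_zeros] at hP hP'
    rw [P.ord_inv] at hP'
    omega
  have hunion : zeros k j⁻¹ = zeros k t ∪ zeros k t⁻¹ := by
    ext P
    rw [Finset.mem_union, mem_zeros, mem_zeros, mem_zeros, P.ord_inv, P.ord_inv]
    constructor
    · intro h
      by_contra hc
      push Not at hc
      have : P.ord t = 0 := by omega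
      have := ord_j_of_zero ht hj hrel hH P this
      omega
    · rintro (h | h)
      · rw [ord_j_of_pos ht hj hrel hH h0 P h]
        have : (0 : ℤ) < e := by exact_mod_cast Nat.pos_of_ne_zero he
        rw [neg_neg]
        positivity
      · rw [ord_j_of_neg ht hj hrel hH hdeg P (by omega)]
        exact h
  rw [hunion, Finset.sum_union hdisj] at h1
  have h4 : ∑ x ∈ zeros k t, x.ord j⁻¹ = e * ∑ x ∈ zeros k t, x.ord t := by
    rw [Finset.mul_sum]
    refine Finset.sum_congr rfl fun P hP => ?_
    rw [mem_zeros] at hP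
    rw [P.ord_inv, ord_j_of_pos ht hj hrel hH h0 P hP, neg_neg]
  have h5 : ∑ x ∈ zeros k t⁻¹, x.ord j⁻¹ = ∑ x ∈ zeros k t⁻¹, x.ord t⁻¹ := by
    refine Finset.sum_congr rfl fun P hP => ?_
    rw [mem_zeros, P.ord_inv] at hP
    rw [P.ord_inv, P.ord_inv, ord_j_of_neg ht hj hrel hH hdeg P (by omega)]
  rw [h4, h5, h2, h3] at h1
  have : ((finrank k⟮j⟯ F : ℕ) : ℤ) = ((e + 1) * finrank k⟮t⟯ F : ℕ) := by
    rw [← h1]; push_cast; ring
  exact_mod_cast this

/-- ramification bound -/
theorem ord_sub_le (ht : Transcendental k t) (hj : Transcendental k j)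
    (hrel : j * t ^ e = aeval t H) {c j0 : k} (hc : c ≠ 0) {m : ℕ}
    (hdvd : (X - C c) ^ m ∣ H - C j0 * X ^ e)
    (P : Place k F) (h : 0 < P.ord (t - algebraMap k F c)) :
    m * P.ord (t - algebraMap k F c) ≤ P.ord (j - algebraMap k F j0) := by
  have ht0 : t ≠ 0 := fun h0 => ht (h0 ▸ isAlgebraic_zero)
  obtain ⟨H', hH'⟩ := hdvd
  have h1 : (j - algebraMap k F j0) * t ^ e =
      (t - algebraMap k F c) ^ m * aeval t H' := by
    have := congrArg (aeval t) hH'
    rw [map_sub, map_mul, map_mul, map_pow, map_pow, map_sub, aeval_C, aeval_X, aeval_C,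
      ← hrel] at this
    rw [← this]
    ring
  have hjj := sub_ne_zero_of_tr hj j0
  have htc := sub_ne_zero_of_tr ht c
  have hordt : P.ord t = 0 := by
    have hcF : algebraMap k F c ≠ 0 := by simpa using hc
    have h5 := (ord_add_eq_left P hcF (g := t - algebraMap k F c)
      (Or.inr (by rw [ord_algebraMap]; exact h))).2
    rwa [add_sub_cancel, ord_algebraMap] at h5
  have hne : aeval t H' ≠ 0 := by
    intro h0
    rw [h0, mul_zero] at h1
    exact mul_ne_zero hjj (pow_ne_zero e ht0) h1
  have hH'0 : H' ≠ 0 := by rintro rfl; simp at hne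
  have h2 := ord_aeval_nonneg P ht hordt.ge hH'0
  have h3 := congrArg P.ord h1
  rw [P.ord_mul hjj (pow_ne_zero e ht0), ord_pow, hordt, mul_zero, add_zero,
    P.ord_mul (pow_ne_zero m htc) hne, ord_pow] at h3
  linarith

end Ord

/-- Hauptmodul data -/
structure Haup (p : ℕ) where
  T : LaurentSeries ℤ
  ld : Ld (-1) T 1
  e : ℕ
  e_pos : e ≠ 0
  H : ℤ[X]
  monic : H.Monic
  natDegree : H.natDegree = e + 1
  H0 : ∃ a : ℕ, H.coeff 0 = (p : ℤ) ^ a
  rel : jqModC ℤ * T ^ e = H.eval₂ (Int.castRingHom _) T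
  b : ℤ
  b_eq : ∃ a : ℕ, b = -(p : ℤ) ^ a
  ram0 : ∀ (k : Type) [Field k] [CharZero k] (c : k), c ≠ 0 → c ≠ b →
    (H.map (Int.castRingHom k)).eval c = 0 → (X - C c) ^ 3 ∣ H.map (Int.castRingHom k)
  ram1 : ∀ (k : Type) [Field k] [CharZero k] (c : k), c ≠ 0 → c ≠ b →
    (H.map (Int.castRingHom k)).eval c = 1728 * c ^ e →
    (X - C c) ^ 2 ∣ H.map (Int.castRingHom k) - C 1728 * X ^ e
  mem : ∀ (k : Type) [Field k] [IsAlgClosed k], (p : k) ≠ 0 →
    ∀ E : IntermediateField k (LaurentSeries k), jqModC k ∈ E → ModFun.Jd k p ∈ E →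
      coeffMap (Int.castRingHom k) T ∈ E

theorem exists_prim_unit (k : Type*) [Field k] [IsAlgClosed k] (p : ℕ) (hp : (p : k) ≠ 0) :
    ∃ z : kˣ, IsPrimitiveRoot z p := by
  haveI : NeZero (p : k) := ⟨hp⟩
  obtain ⟨z, hz⟩ := HasEnoughRootsOfUnity.exists_primitiveRoot k p
  have hp0 : p ≠ 0 := by rintro rfl; simp at hp
  have hu := hz.isUnit hp0
  exact ⟨hu.unit, (IsPrimitiveRoot.coe_units_iff).1 (by simpa using hz)⟩

/-- the Hauptmodul of level `2` -/
def haup2 : Haup 2 where
  T := T2
  ld := ld_T2
  e := 2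
  e_pos := two_ne_zero
  H := (X + C 256) ^ 3
  monic := (monic_X_add_C _).pow 3
  natDegree := by rw [(monic_X_add_C _).natDegree_pow, natDegree_X_add_C]
  H0 := ⟨24, by simp [coeff_zero_eq_eval_zero]⟩
  rel := by
    rw [T2_rel]
    simp only [eval₂_pow, eval₂_add, eval₂_X, eval₂_C]
    simp only [eq_intCast, Int.cast_ofNat]
  b := -64
  b_eq := ⟨6, by norm_num⟩
  ram0 := by
    intro k _ _ c hc hb h
    simp only [Polynomial.map_pow, Polynomial.map_add, map_X, map_C, eval_pow, eval_add, eval_X,
      eval_C] at h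
    have h1 : c + 256 = 0 := by
      have := pow_eq_zero_iff (three_ne_zero) |>.1 h
      simpa using this
    have h2 : c = -256 := by linear_combination h1
    subst h2
    simp only [Polynomial.map_pow, Polynomial.map_add, map_X, map_C]
    simp only [eq_intCast, Int.cast_ofNat, map_neg, sub_neg_eq_add]
    exact dvd_rfl
  ram1 := by
    intro k _ _ c hc hb h
    simp only [Polynomial.map_pow, Polynomial.map_add, map_X, map_C, eval_pow, eval_add, eval_X,
      eval_C] at h
    have h1 : (c + 64) * (c - 512) ^ 2 = 0 := by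
      simp only [eq_intCast, Int.cast_ofNat] at h
      linear_combination h
    have h2 : c = 512 := by
      rcases mul_eq_zero.1 h1 with h2 | h2
      · exfalso
        apply hb
        push_cast
        linear_combination h2
      · have := pow_eq_zero_iff (two_ne_zero) |>.1 h2
        linear_combination this
    subst h2
    refine ⟨X + C 64, ?_⟩
    simp only [Polynomial.map_pow, Polynomial.map_add, map_X, map_C]
    simp only [eq_intCast, Int.cast_ofNat]
    simp only [map_ofNat]
    ring
  mem := by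
    intro k _ _ hp E hE hE2
    obtain ⟨z, hz⟩ := exists_prim_unit k 2 hp
    have h1 := ModFun.uSer_mem 2 z hz E hE hE2
    have h2 := T2_mul_uSer k
    have h0 := ModFun.uSer_ne_zero (k := k) 2 hp
    have h3 : coeffMap (Int.castRingHom k) T2 = HahnSeries.C ((2 : k) ^ 12) / ModFun.uSer 2 k := by
      rw [eq_div_iff h0, h2]
    rw [h3, ModFun.C_eq_algebraMap]
    exact div_mem (E.algebraMap_mem _) h1

/-- the Hauptmodul of level `3` -/
def haup3 : Haup 3 where
  T := T3
  ld := ld_T3
  e := 3
  e_pos := three_ne_zero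
  H := (X + C 27) * (X + C 243) ^ 3
  monic := (monic_X_add_C _).mul ((monic_X_add_C _).pow 3)
  natDegree := by
    rw [(monic_X_add_C _).natDegree_mul ((monic_X_add_C _).pow 3),
      (monic_X_add_C _).natDegree_pow, natDegree_X_add_C, natDegree_X_add_C]
  H0 := ⟨18, by simp [coeff_zero_eq_eval_zero]⟩
  rel := by
    rw [T3_rel]
    simp only [eval₂_mul, eval₂_pow, eval₂_add, eval₂_X, eval₂_C]
    simp only [eq_intCast, Int.cast_ofNat]
  b := -27
  b_eq := ⟨3, by norm_num⟩
  ram0 := by
    intro k _ _ c hc hb h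
    simp only [Polynomial.map_pow, Polynomial.map_add, Polynomial.map_mul, map_X, map_C, eval_pow,
      eval_mul, eval_add, eval_X, eval_C] at h
    simp only [eq_intCast, Int.cast_ofNat] at h
    have h2 : c = -243 := by
      rcases mul_eq_zero.1 h with h2 | h2
      · exfalso
        apply hb
        push_cast
        linear_combination h2
      · have := pow_eq_zero_iff (three_ne_zero) |>.1 h2
        linear_combination this
    subst h2
    refine ⟨X + C 27, ?_⟩
    simp only [Polynomial.map_pow, Polynomial.map_add, Polynomial.map_mul, map_X, map_C]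
    simp only [eq_intCast, Int.cast_ofNat, map_neg]
    simp only [map_ofNat]
    ring
  ram1 := by
    intro k _ _ c hc hb h
    simp only [Polynomial.map_pow, Polynomial.map_add, Polynomial.map_mul, map_X, map_C, eval_pow,
      eval_mul, eval_add, eval_X, eval_C] at h
    simp only [eq_intCast, Int.cast_ofNat] at h
    have h1 : (c ^ 2 - 486 * c - 19683) ^ 2 = 0 := by
      linear_combination h
    have h2 := pow_eq_zero_iff (two_ne_zero) |>.1 h1
    have h3 : X ^ 2 - C 486 * X - C 19683 = (X - C c) * (X - C (486 - c)) := by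
      have : C (19683 : k) = C (c ^ 2 - 486 * c) := by
        congr 1
        linear_combination -h2
      rw [this]
      simp only [map_sub, map_mul, map_pow]
      ring
    refine ⟨(X - C (486 - c)) ^ 2, ?_⟩
    rw [← mul_pow, ← h3]
    simp only [Polynomial.map_pow, Polynomial.map_add, Polynomial.map_mul, map_X, map_C]
    simp only [eq_intCast, Int.cast_ofNat]
    simp only [map_ofNat]
    ring
  mem := by
    intro k _ _ hp E hE hE2
    obtain ⟨z, hz⟩ := exists_prim_unit k 3 hp
    have h1 := ModFun.uSer_mem 3 z hz E hE hE2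
    have h2 := T3_sq_mul_uSer k
    have h0 := ModFun.uSer_ne_zero (k := k) 3 hp
    set T := coeffMap (Int.castRingHom k) T3 with hT
    have hsq : T ^ 2 ∈ E := by
      have h3 : T ^ 2 = HahnSeries.C ((3 : k) ^ 12) / ModFun.uSer 3 k := by
        rw [eq_div_iff h0, h2]
      rw [h3, ModFun.C_eq_algebraMap]
      exact div_mem (E.algebraMap_mem _) h1
    have hrel : jqModC k * T ^ 3 = (T + 27) * (T + 243) ^ 3 := by
      have := congrArg (coeffMap (Int.castRingHom k)) T3_rel
      simpa only [map_mul, map_pow, map_add, coeffMap_jqModC, map_ofNat] using this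
    have hLT := ld_T3.coeffMap (Int.castRingHom k)
    have hne : jqModC k * T ^ 2 - (756 * T ^ 2 + 19131876) ≠ 0 := by
      have hT2 : Ld (-2) (T ^ 2) (1 : k) := by
        have := hLT.mul hLT
        rw [map_one, one_mul, ← pow_two] at this
        exact this
      have h3 : Ld (-3) (jqModC k * T ^ 2 - (756 * T ^ 2 + 19131876)) (1 : k) := by
        have h4 := (ld_jq k).mul hT2
        have h5 : Bd (-2) (756 * T ^ 2 + 19131876 : LaurentSeries k) := by
          have h6 := hT2.bd.C_mul 756
          have h7 : Bd (-2) (HahnSeries.C (19131876 : k)) := by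
            rw [C_eq_sp]
            exact (bd_sp 0 _).mono (by norm_num)
          rw [map_ofNat] at h6 h7
          exact h6.add h7
        refine ⟨(h4.bd.sub (h5.mono (by norm_num))), ?_⟩
        have h8 := h4.2
        norm_num at h8
        rw [HahnSeries.coeff_sub, h5 (-3) (by norm_num), h8, sub_zero]
      exact h3.ne_zero one_ne_zero
    have h9 : T = ((T ^ 2) ^ 2 + 196830 * T ^ 2 + 387420489) /
        (jqModC k * T ^ 2 - (756 * T ^ 2 + 19131876)) := by
      rw [eq_div_iff hne]
      linear_combination hrel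
    have hn : ∀ n : ℕ, ((n : ℕ) : LaurentSeries k) ∈ E := fun n => _root_.natCast_mem E n
    rw [h9]
    refine div_mem (add_mem (add_mem (pow_mem hsq 2) (mul_mem ?_ hsq)) ?_)
      (sub_mem (mul_mem hE hsq) (add_mem (mul_mem ?_ hsq) ?_))
    · exact_mod_cast hn 196830
    · exact_mod_cast hn 387420489
    · exact_mod_cast hn 756
    · exact_mod_cast hn 19131876

end Fermat.Agent.GoodRed
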