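import Mathlib

/-!
# Abstract construction of the specialization
-/

set_option autoImplicit false

noncomputable section

namespace Fermat.Agent.GoodRed

theorem spec_abstract {G H J X : Type*} [Group G] [CommRing H] [AddCommGroup J]
    [Module H J] [DistribMulAction G J] [SMulCommClass G H J] [AddCommGroup X] (red : J →+ X)
    (I : Subgroup G) (σ₀ : G) (hnorm : ∀ τ ∈ I, σ₀ * τ * σ₀⁻¹ ∈ I)
    (hI : ∀ τ ∈ I, ∀ x, red (τ • x) = red x) (Tl : H) (l : ℕ)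
    (hES : ∀ x, red (σ₀ • σ₀ • x) - red (Tl • σ₀ • x) + l • red x = 0)
    (P : J → Prop) (hP : ∀ x, P x → red x = 0 → x = 0) :
    ∃ (K : Submodule H J) (F : (J ⧸ K) →+ (J ⧸ K)),
      (∀ τ ∈ I, ∀ x, K.mkQ (τ • x) = K.mkQ x) ∧
      (∀ τ ∈ I, ∀ x, K.mkQ ((σ₀ * τ) • x) = F (K.mkQ x)) ∧
      (∀ x, P x → K.mkQ x = 0 → x = 0) ∧
      ∀ y, F (F y) - Tl • F y + l • y = 0 := by
  haveI := SMulCommClass.symm G H J
  let K : Submodule H J :=
    { carrier := {x | ∀ (T : H) (k : ℕ), red (σ₀ ^ k • T • x) = 0}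
      zero_mem' := fun T k => by rw [smul_zero, smul_zero, map_zero]
      add_mem' := fun {x y} hx hy T k => by rw [smul_add, smul_add, map_add, hx, hy, add_zero]
      smul_mem' := fun S x hx T k => by rw [smul_smul]; exact hx (T * S) k }
  have hmem : ∀ x, x ∈ K ↔ ∀ (T : H) (k : ℕ), red (σ₀ ^ k • T • x) = 0 := fun x => Iff.rfl
  let φ : J →ₗ[H] J :=
    { toFun := fun x => σ₀ • x
      map_add' := fun x y => smul_add _ x y
      map_smul' := fun T x => smul_comm σ₀ T x }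
  have hφ : K ≤ K.comap φ := by
    intro x hx T k
    change red (σ₀ ^ k • T • σ₀ • x) = 0
    rw [← smul_comm σ₀ T x, smul_smul, ← pow_succ]
    exact hx T (k + 1)
  have hnormk : ∀ (k : ℕ), ∀ τ ∈ I, σ₀ ^ k * τ * (σ₀ ^ k)⁻¹ ∈ I := by
    intro k
    induction k with
    | zero => intro τ hτ; simpa using hτ
    | succ k ih =>
      intro τ hτ
      have := ih _ (hnorm τ hτ)
      have h2 : σ₀ ^ (k + 1) * τ * (σ₀ ^ (k + 1))⁻¹ = σ₀ ^ k * (σ₀ * τ * σ₀⁻¹) * (σ₀ ^ k)⁻¹ := by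
        rw [pow_succ]; group
      rw [h2]
      exact this
  let F : (J ⧸ K) →+ (J ⧸ K) := (K.mapQ K φ hφ).toAddMonoidHom
  have hF : ∀ x, F (K.mkQ x) = K.mkQ (σ₀ • x) := fun x => rfl
  have hIn : ∀ τ ∈ I, ∀ x, K.mkQ (τ • x) = K.mkQ x := by
    intro τ hτ x
    rw [← sub_eq_zero, ← map_sub, Submodule.mkQ_apply, Submodule.Quotient.mk_eq_zero, hmem]
    intro T k
    rw [smul_sub, smul_sub, map_sub, sub_eq_zero, ← smul_comm τ T x, smul_smul]
    have h1 : σ₀ ^ k * τ = (σ₀ ^ k * τ * (σ₀ ^ k)⁻¹) * σ₀ ^ k := by group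
    rw [h1, mul_smul]
    exact hI _ (hnormk k τ hτ) _
  refine ⟨K, F, hIn, ?_, ?_, ?_⟩
  · intro τ hτ x
    rw [hF, mul_smul, ← hF, ← hF, hIn τ hτ]
  · intro x hx h0
    refine hP x hx ?_
    rw [Submodule.mkQ_apply, Submodule.Quotient.mk_eq_zero, hmem] at h0
    have := h0 1 0
    rwa [pow_zero, one_smul, one_smul] at this
  · intro y
    obtain ⟨x, rfl⟩ := K.mkQ_surjective y
    rw [hF, hF, ← map_smul, ← map_nsmul, ← map_sub, ← map_add, Submodule.mkQ_apply,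
      Submodule.Quotient.mk_eq_zero, hmem]
    intro T k
    have h1 := hES (σ₀ ^ k • T • x)
    have e1 : σ₀ ^ k • T • σ₀ • σ₀ • x = σ₀ • σ₀ • σ₀ ^ k • T • x := by
      rw [smul_comm T σ₀ (σ₀ • x), smul_comm T σ₀ x]
      simp only [smul_smul]
      congr 1
      group
    have e2 : σ₀ ^ k • T • Tl • σ₀ • x = Tl • σ₀ • σ₀ ^ k • T • x := by
      have a1 : T • Tl • σ₀ • x = σ₀ • Tl • T • x := by
        rw [smul_comm T Tl, smul_comm T σ₀, smul_comm Tl σ₀]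
      have a2 : σ₀ ^ k • σ₀ • Tl • T • x = σ₀ • Tl • σ₀ ^ k • T • x := by
        rw [smul_smul, ← pow_succ, pow_succ', ← smul_smul, smul_comm (σ₀ ^ k) Tl]
      rw [a1, a2, smul_comm σ₀ Tl]
    have e3 : σ₀ ^ k • T • l • x = l • σ₀ ^ k • T • x := by
      rw [smul_comm T l x]
      exact map_nsmul (DistribSMul.toAddMonoidHom J (σ₀ ^ k)) l (T • x)
    rw [smul_add, smul_add, smul_sub, smul_sub, map_add, map_sub, e1, e2, e3, map_nsmul]
    exact h1

end Fermat.Agent.GoodRed
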