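import Fermat.Agent.GoodRed.ModRed
import Fermat.Agent.GoodRed.HeckeNorm
import Fermat.Agent.GoodRed.SpecAbs
import Fermat.Agent.HeckeQ.Red

/-!
# Reduction of divisors, Galois action and Hecke operators
-/

set_option autoImplicit false
set_option linter.unusedSectionVars false
set_option linter.style.haveILetI false
set_option synthInstance.maxHeartbeats 400000

noncomputable section

namespace Fermat.Agent.GoodRed

open AlgebraicCurve Fermat.Agent.Curves Module IntermediateField ModularCurve IsLocalRing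
open Fermat.Agent.ModFun Fermat.Agent.HeckeQ Fermat.Agent.AnJac
open scoped Pointwise

local notation "Qbar" => AlgebraicClosure ℚ
local notation "GQ" => Qbar ≃ₐ[ℚ] Qbar

section Misc

variable {k F : Type} [Field k] [Field F] [Algebra k F] [IsFunctionField k F] [IsAlgClosed k]

theorem divisorOf_mul {f g : F} (hf : f ≠ 0) (hg : g ≠ 0) :
    divisorOf (k := k) (f * g) = divisorOf f + divisorOf g := by
  ext P
  rw [Finsupp.add_apply, divisorOf_apply, divisorOf_apply, divisorOf_apply, P.ord_mul hf hg]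

theorem divisorOf_pow (f : F) (n : ℕ) :
    divisorOf (k := k) (f ^ n) = n • divisorOf f := by
  ext P
  rw [Finsupp.smul_apply, divisorOf_apply, divisorOf_apply, ord_pow, nsmul_eq_mul]

theorem smul_divisorOf (g : SemilinearAut k F) (f : F) :
    g • divisorOf (k := k) f = divisorOf (g • f) := by
  ext P
  rw [SemilinearAut.divisor_smul_apply, divisorOf_apply, divisorOf_apply]
  have h := SemilinearAut.ord_smul g (g⁻¹ • P) f
  rw [smul_inv_smul] at h
  exact h.symm

end Misc

variable {N : ℕ} [NeZero N] {A : ValuationSubring Qbar}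

/-- the Galois action on divisors -/
abbrev gact (N : ℕ) (σ : GQ) : SemilinearAut Qbar (modularFunctionFieldBar N) :=
  arithmeticGalois (modularFunctionFieldFull N) σ

/-- the data of a reduction map of divisors -/
structure RedMap (A : ValuationSubring Qbar) (N M : ℕ) [NeZero N]
    [IsFunctionField (ResidueField A) (modularFunctionFieldFullC (ResidueField A) M)] where
  R : Divisor Qbar (modularFunctionFieldBar N) →+
    Divisor (ResidueField A) (modularFunctionFieldFullC (ResidueField A) M)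
  c : ℤ
  posDeg : PosDeg R c
  hle : modularFunctionFieldFullC (ResidueField A) N ≤ modularFunctionFieldFullC (ResidueField A) M
  spec : ∀ (f : modularFunctionFieldBar N) (fb : modularFunctionFieldFullC (ResidueField A) M),
    LR (residue A) (f : LaurentSeries Qbar) (fb : LaurentSeries (ResidueField A)) → fb ≠ 0 →
      R (divisorOf f) = divisorOf fb
  inj : ∀ m : ℕ, (m : ResidueField A) ≠ 0 → ∀ D : Divisor Qbar (modularFunctionFieldBar N),
        (m • D).IsPrincipal → (R D).IsPrincipal → D.IsPrincipal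

theorem residue_ne_zero {ℓ : ℕ} (hℓ : ℓ.Prime) (hA : A.LiesOverPrime ℓ) {m : ℕ} (hm : ¬ ℓ ∣ m) :
    (m : ResidueField A) ≠ 0 := by
  haveI := FrobDens.charP_residueField A hℓ hA
  rw [Ne, CharP.cast_eq_zero_iff _ ℓ]
  exact hm

theorem isAlgebraic_int_of (K : Type*) [Field K] [Algebra ℚ K] (h : Algebra.IsAlgebraic ℚ K) :
    Algebra.IsAlgebraic ℤ K :=
  ⟨fun x => (IsFractionRing.isAlgebraic_iff ℤ ℚ K).mpr (h.isAlgebraic x)⟩

theorem exists_emb_of (K M : Type*) [Field K] [Field M] [IsAlgClosed M] [Algebra K M] :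
    Nonempty (AlgebraicClosure K →+* M) :=
  ⟨(IsAlgClosed.lift (R := K) (S := AlgebraicClosure K) (M := M)).toRingHom⟩

theorem rankOne_Qbar {ℓ : ℕ} (hℓ : ℓ.Prime) (hA : A.LiesOverPrime ℓ) : RankOne (residue A) := by
  have := isAlgebraic_int_of (AlgebraicClosure ℚ) (AlgebraicClosure.isAlgebraic ℚ)
  exact rankOne_of_liesOver hℓ hA

theorem exists_emb_Qbar : Nonempty (Qbar →+* ℂ) := exists_emb_of ℚ ℂ

theorem exists_redMap {ℓ : ℕ} (hℓ : ℓ.Prime) (hA : A.LiesOverPrime ℓ) (hN : ¬ ℓ ∣ N) :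
    ∃ (M : ℕ) (_ : IsFunctionField (ResidueField A) (modularFunctionFieldFullC (ResidueField A) M)),
      Nonempty (RedMap A N M) := by
  obtain ⟨ι⟩ := exists_emb_Qbar
  have hNκ := residue_ne_zero hℓ hA hN
  obtain ⟨M, hNM, hMκ, R, c, h1, h2, h3⟩ := exists_modRed (residue A) ι residue_surjective N hNκ
    (laurentBaseChange_eq Qbar N)
  haveI := isFunctionField_fullC (ResidueField A) M hMκ
  haveI : NeZero M := ⟨by rintro rfl; simp at hMκ⟩
  exact ⟨M, inferInstance, ⟨⟨R, c, h1, full_degeneracyC_le (K := ResidueField A) hNM, h2,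
    fun m hm D => h3 m hm (rankOne_Qbar hℓ hA) D⟩⟩⟩

section

variable {M : ℕ} [IsFunctionField (ResidueField A) (modularFunctionFieldFullC (ResidueField A) M)]
  (r : RedMap A N M)

theorem RedMap.spec' {f : modularFunctionFieldBar N}
    {fb : modularFunctionFieldFullC (ResidueField A) N}
    (h : LR (residue A) (f : LaurentSeries Qbar) (fb : LaurentSeries (ResidueField A)))
    (hfb : fb ≠ 0) : r.R (divisorOf f) = divisorOf (IntermediateField.inclusion r.hle fb) := by
  refine r.spec f _ h ?_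
  rwa [Ne, map_eq_zero]

/-- scaling to nonzero reduction, for divisors -/
theorem RedMap.exists_scale {ℓ : ℕ} (hℓ : ℓ.Prime) (hA : A.LiesOverPrime ℓ) (hN : ¬ ℓ ∣ N)
    {f : modularFunctionFieldBar N} (hf : f ≠ 0) :
    ∃ (g : modularFunctionFieldBar N) (gb : modularFunctionFieldFullC (ResidueField A) N),
      g ≠ 0 ∧ gb ≠ 0 ∧ divisorOf (k := Qbar) f = divisorOf g ∧
      LR (residue A) (g : LaurentSeries Qbar) (gb : LaurentSeries (ResidueField A)) := by
  obtain ⟨c, fb, hc, hfb, h⟩ := GoodRed.exists_scale (residue A) N residue_surjective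
    (residue_ne_zero hℓ hA hN) (laurentBaseChange_eq Qbar N) hf
  exact ⟨_, fb, mul_ne_zero (by simpa using hc) hf, hfb, (divisorOf_const_mul hf hc).symm, h⟩

/-- inertia acts trivially on reductions of divisors of degree zero -/
theorem RedMap.inertia {ℓ : ℕ} (hℓ : ℓ.Prime) (hA : A.LiesOverPrime ℓ) (hN : ¬ ℓ ∣ N)
    {σ : GQ} (hσ : σ ∈ A.inertiaSubgroupIn ℚ) {D : Divisor Qbar (modularFunctionFieldBar N)}
    (hD : Divisor.degree D = 0) : r.R (gact N σ • D) = r.R D := by
  have h1 : PosDeg (r.R.comp (DistribSMul.toAddMonoidHom (Divisor Qbar (modularFunctionFieldBar N))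
      (gact N σ))) (r.c * 1) := (smul_posDeg (gact N σ)).comp r.posDeg
  refine rigid h1 r.posDeg ?_ hD
  intro f hf
  obtain ⟨g, gb, hg, hgb, hdiv, hLR⟩ := RedMap.exists_scale hℓ hA hN hf
  change r.R (gact N σ • divisorOf f) = _
  rw [hdiv, smul_divisorOf, r.spec' hLR hgb]
  obtain ⟨hdec, hact⟩ := actK_inertia hσ
  have h2 : Rd A (coeffMap (σ : Qbar →+* Qbar) (g : LaurentSeries Qbar))
      (coeffMap (actK σ hdec : _ →+* ResidueField A) (gb : LaurentSeries (ResidueField A))) :=
    Rd.gal hLR σ hdec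
  have e1 : coeffMap (actK σ hdec : _ →+* ResidueField A) (gb : LaurentSeries (ResidueField A)) =
      gb := by
    ext n
    simp only [coeffMap_coeff]
    exact hact _
  rw [e1] at h2
  exact r.spec' h2 hgb

/-- the norm of level `N ℓ` functions -/
theorem heckeDiv_divisorOf {ℓ : ℕ} [hℓ : Fact ℓ.Prime] (hN : ¬ ℓ ∣ N)
    {f : modularFunctionFieldBar N} (hf : f ≠ 0) :
    ∃ g : modularFunctionFieldBar N, (g : LaurentSeries Qbar) = hM ℓ (f : LaurentSeries Qbar) ∧
      heckeDiv Qbar N ℓ (divisorOf f) = divisorOf g := by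
  haveI : NeZero (N * ℓ) := ⟨Nat.mul_ne_zero (NeZero.ne N) hℓ.out.ne_zero⟩
  refine ⟨(letI := algebraAlong (heckeAlphaBar Qbar N ℓ);
    Algebra.norm (modularFunctionFieldBar N) (heckeBetaBar Qbar N ℓ f)), ?_, ?_⟩
  · exact hecke_norm_aux ℓ N hN (laurentBaseChange_eq Qbar N) (laurentBaseChange_eq Qbar (N * ℓ))
      (heckeAlphaBar Qbar N ℓ) (heckeBetaBar Qbar N ℓ) (coe_heckeAlphaBar N ℓ)
      (coe_heckeBetaBar N ℓ) f
  · rw [heckeDiv_apply, pullbackAlong_divisorOf, pushforwardAlong_divisorOf]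
    rwa [Ne, map_eq_zero]

theorem heckeDiv_posDeg {ℓ : ℕ} [hℓ : Fact ℓ.Prime] :
    ∃ c : ℤ, PosDeg (heckeDiv Qbar N ℓ) c := by
  haveI : NeZero (N * ℓ) := ⟨Nat.mul_ne_zero (NeZero.ne N) hℓ.out.ne_zero⟩
  exact ⟨_, (pullbackAlong_posDeg (heckeBetaBar Qbar N ℓ) (betaIntegral Qbar N ℓ)).comp
    (pushforwardAlong_posDeg (heckeAlphaBar Qbar N ℓ) (alphaIntegral Qbar N ℓ))⟩

theorem coeffMap_actK_frob {ℓ : ℕ} [Fact ℓ.Prime] [CharP (ResidueField A) ℓ]
    {σ : GQ} (hσ : A.IsFrobeniusAt σ ℓ) (y : LaurentSeries (ResidueField A)) :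
    coeffMap (actK σ hσ.mem_decompositionSubgroup : _ →+* ResidueField A) y =
      coeffMap (frobenius (ResidueField A) ℓ) y := by
  ext n
  simp only [coeffMap_coeff]
  exact actK_frob hσ _

theorem LR_gact {ℓ : ℕ} [Fact ℓ.Prime] [CharP (ResidueField A) ℓ]
    {σ : GQ} (hσ : A.IsFrobeniusAt σ ℓ) {u : modularFunctionFieldBar N}
    {ub : modularFunctionFieldFullC (ResidueField A) N}
    (hu : LR (residue A) (u : LaurentSeries Qbar) (ub : LaurentSeries (ResidueField A))) :
    LR (residue A) ((gact N σ • u : modularFunctionFieldBar N) : LaurentSeries Qbar)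
        (coeffF N (frobenius (ResidueField A) ℓ) ub : LaurentSeries (ResidueField A)) := by
  have h3 : Rd A (coeffMap (σ : Qbar →+* Qbar) (u : LaurentSeries Qbar))
      (coeffMap (actK σ hσ.mem_decompositionSubgroup : _ →+* ResidueField A)
        (ub : LaurentSeries (ResidueField A))) := Rd.gal hu σ hσ.mem_decompositionSubgroup
  rw [coeffMap_actK_frob hσ] at h3
  exact h3

theorem gact_ne_zero (σ : GQ) {g : modularFunctionFieldBar N} (hg : g ≠ 0) :
    gact N σ • g ≠ 0 := by
  rw [SemilinearAut.smul_def]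
  exact (map_ne_zero_iff _ (RingEquiv.injective _)).mpr hg

theorem LR_hecke {ℓ : ℕ} [Fact ℓ.Prime] [CharP (ResidueField A) ℓ]
    {g v : modularFunctionFieldBar N}
    {gb : modularFunctionFieldFullC (ResidueField A) N}
    (hv : (v : LaurentSeries Qbar) = hM ℓ (g : LaurentSeries Qbar))
    (h3 : LR (residue A) (g : LaurentSeries Qbar)
      (coeffF N (frobenius (ResidueField A) ℓ) gb : LaurentSeries (ResidueField A))) :
    LR (residue A) (v : LaurentSeries Qbar)
      ((gb ^ ℓ * coeffF N (frobenius (ResidueField A) ℓ)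
        (coeffF N (frobenius (ResidueField A) ℓ) gb) :
        modularFunctionFieldFullC (ResidueField A) N) : LaurentSeries (ResidueField A)) := by
  have h5 : Rd A (hM ℓ (g : LaurentSeries Qbar))
      (qExpand _ ℓ (coeffF N (frobenius (ResidueField A) ℓ) gb : LaurentSeries (ResidueField A)) *
        coeffMap (frobenius _ ℓ)
          (coeffF N (frobenius (ResidueField A) ℓ) gb : LaurentSeries (ResidueField A))) := Rd.hM h3
  rw [← hv] at h5
  have h6 : qExpand _ ℓ (coeffF N (frobenius (ResidueField A) ℓ) gb :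
      LaurentSeries (ResidueField A)) *
        coeffMap (frobenius _ ℓ)
          (coeffF N (frobenius (ResidueField A) ℓ) gb : LaurentSeries (ResidueField A)) =
      ((gb ^ ℓ * coeffF N (frobenius (ResidueField A) ℓ)
        (coeffF N (frobenius (ResidueField A) ℓ) gb) :
        modularFunctionFieldFullC (ResidueField A) N) : LaurentSeries (ResidueField A)) := by
    rw [MulMemClass.coe_mul, SubmonoidClass.coe_pow, laurent_pow_char]
    rfl
  rw [h6] at h5
  exact h5

theorem RedMap.spec_mul {ℓ : ℕ} {v : modularFunctionFieldBar N}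
    {ab bb : modularFunctionFieldFullC (ResidueField A) N}
    (h : LR (residue A) (v : LaurentSeries Qbar)
      ((ab ^ ℓ * bb : modularFunctionFieldFullC (ResidueField A) N) :
        LaurentSeries (ResidueField A))) (ha : ab ≠ 0) (hb : bb ≠ 0) :
    r.R (divisorOf v) = ℓ • divisorOf (IntermediateField.inclusion r.hle ab) +
      divisorOf (IntermediateField.inclusion r.hle bb) := by
  rw [r.spec' h (mul_ne_zero (pow_ne_zero _ ha) hb), map_mul, map_pow,
    divisorOf_mul (pow_ne_zero _ ((map_ne_zero _).mpr ha)) ((map_ne_zero _).mpr hb), divisorOf_pow]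

theorem RedMap.es_fun {ℓ : ℕ} [hℓ : Fact ℓ.Prime] [CharP (ResidueField A) ℓ]
    (hN : ¬ ℓ ∣ N)
    {σ : GQ} (hσ : A.IsFrobeniusAt σ ℓ) {g : modularFunctionFieldBar N}
    {gb : modularFunctionFieldFullC (ResidueField A) N} (hg : g ≠ 0) (hgb : gb ≠ 0)
    (hLR : LR (residue A) (g : LaurentSeries Qbar) (gb : LaurentSeries (ResidueField A))) :
    r.R (gact N σ • gact N σ • divisorOf g) + ℓ • r.R (divisorOf g) =
      r.R (heckeDiv Qbar N ℓ (gact N σ • divisorOf g)) := by
  have hfr0 : ∀ ub : modularFunctionFieldFullC (ResidueField A) N, ub ≠ 0 →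
      coeffF N (frobenius (ResidueField A) ℓ) ub ≠ 0 := fun ub h => (map_ne_zero _).mpr h
  have h3 := LR_gact hσ hLR
  have h4 := LR_gact hσ h3
  obtain ⟨v, hv, hvdiv⟩ := heckeDiv_divisorOf hN (gact_ne_zero σ hg)
  have h5 := LR_hecke hv h3
  rw [smul_divisorOf, smul_divisorOf, hvdiv, r.spec_mul h5 hgb (hfr0 _ (hfr0 _ hgb)),
    r.spec' hLR hgb, r.spec' h4 (hfr0 _ (hfr0 _ hgb)), add_comm]

/-- **Eichler-Shimura** for reductions of divisors of degree zero -/
theorem RedMap.es {ℓ : ℕ} [hℓ : Fact ℓ.Prime] (hA : A.LiesOverPrime ℓ) (hN : ¬ ℓ ∣ N)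
    {σ : GQ} (hσ : A.IsFrobeniusAt σ ℓ) {D : Divisor Qbar (modularFunctionFieldBar N)}
    (hD : Divisor.degree D = 0) :
    r.R (gact N σ • gact N σ • D) + ℓ • r.R D = r.R (heckeDiv Qbar N ℓ (gact N σ • D)) := by
  haveI : CharP (ResidueField A) ℓ := FrobDens.charP_residueField A hℓ.out hA
  have hs := smul_posDeg (gact N σ)
  obtain ⟨c, hc⟩ := heckeDiv_posDeg (N := N) (ℓ := ℓ)
  have h1 := ((hs.comp hs).comp r.posDeg).add (r.posDeg.nsmul ℓ)
  have h2 := (hs.comp hc).comp r.posDeg
  have h3 := rigid h1 h2 (fun f hf => by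
    obtain ⟨g, gb, hg, hgb, hdiv, hLR⟩ := RedMap.exists_scale hℓ.out hA hN hf
    rw [hdiv]
    exact r.es_fun hN hσ hg hgb hLR) hD
  exact h3

end

end Fermat.Agent.GoodRed
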