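import Fermat.Agent.GenusX0.Diff

/-!
# Separating elements
-/

set_option autoImplicit false
set_option linter.style.haveILetI false

noncomputable section

namespace Fermat.Agent.GoodRed

open AlgebraicCurve Fermat.Agent.Curves IntermediateField
open scoped KaehlerDifferential

variable {k F : Type*} [Field k] [Field F] [Algebra k F]

/-- derivations are determined by their value at a separating element -/
theorem derivation_eq_zero_of_sep {t : F} (hsep : Algebra.IsSeparable k⟮t⟯ F)
    [FiniteDimensional k⟮t⟯ F] {W : Type*} [AddCommGroup W] [Module F W] [Module k W]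
    [IsScalarTower k F W] (d : Derivation k F W) (hdt : d t = 0) (f : F) : d f = 0 := by
  have hdpoly : ∀ p : Polynomial k, d (Polynomial.aeval t p) = 0 := by
    intro p
    rw [Derivation.map_aeval, hdt, smul_zero]
  have hdE : ∀ c : k⟮t⟯, d (c : F) = 0 := by
    intro c
    obtain ⟨r, s, h⟩ := (IntermediateField.mem_adjoin_simple_iff k (c : F)).mp c.2
    rw [h]
    rw [Derivation.leibniz_div]
    simp [hdpoly]
  have : Algebra.FormallyUnramified k⟮t⟯ F := Algebra.FormallyUnramified.of_isSeparable k⟮t⟯ F
  let d' : Derivation k⟮t⟯ F W :=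
    { toFun := d
      map_add' := d.map_add
      map_smul' := by
        intro c f
        rw [Algebra.smul_def, d.leibniz]
        have : d (algebraMap k⟮t⟯ F c) = 0 := hdE c
        rw [this, smul_zero, add_zero]
        exact algebraMap_smul F c (d f)
      map_one_eq_zero' := d.map_one_eq_zero
      leibniz' := d.leibniz }
  have h1 : d' f = d'.liftKaehlerDifferential (KaehlerDifferential.D k⟮t⟯ F f) :=
    (Derivation.liftKaehlerDifferential_comp_D d' f).symm
  have h2 : KaehlerDifferential.D k⟮t⟯ F f = 0 := Subsingleton.elim _ _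
  rw [h2, map_zero] at h1
  exact h1

variable (k F) in
theorem exists_separating_element [PerfectField k] [IsFunctionField k F] :
    ∃ s : F, Transcendental k s ∧ Algebra.IsSeparable k⟮s⟯ F := by
  haveI := essFiniteType (k := k) (F := F)
  obtain ⟨s, hs, hsep⟩ :=
    exists_isTranscendenceBasis_and_isSeparable_of_perfectField k F
  have h1 := hs.lift_cardinalMk_eq_trdeg
  rw [trdeg_eq_one] at h1
  have h2 : s.card = 1 := by
    simpa using h1
  obtain ⟨x, rfl⟩ := Finset.card_eq_one.1 h2
  refine ⟨x, ?_, ?_⟩
  · have := hs.1.transcendental ⟨x, Finset.mem_singleton_self x⟩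
    exact this
  · rwa [Finset.coe_singleton] at hsep

/-- An element on which some derivation does not vanish is separating. -/
theorem isSeparable_of_derivation [PerfectField k] [IsFunctionField k F] {t : F}
    (ht : Transcendental k t) {V : Type*} [AddCommGroup V] [Module F V] [Module k V]
    [IsScalarTower k F V] (d : Derivation k F V) (hd : d t ≠ 0) : Algebra.IsSeparable k⟮t⟯ F := by
  obtain ⟨s, hs, hsep⟩ := exists_separating_element k F
  haveI := finiteDimensional_adjoin_simple hs
  haveI := finiteDimensional_adjoin_simple ht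
  -- `Ω` is spanned by `ds`
  set S := Submodule.span F {KaehlerDifferential.D k F s} with hS
  let e : Derivation k F (Ω[F⁄k] ⧸ S) := (S.mkQ).compDer (KaehlerDifferential.D k F)
  have hes : e s = 0 := by
    change S.mkQ (KaehlerDifferential.D k F s) = 0
    rw [Submodule.mkQ_apply, Submodule.Quotient.mk_eq_zero]
    exact Submodule.mem_span_singleton_self _
  have het := derivation_eq_zero_of_sep hsep e hes t
  change S.mkQ (KaehlerDifferential.D k F t) = 0 at het
  rw [Submodule.mkQ_apply, Submodule.Quotient.mk_eq_zero, hS, Submodule.mem_span_singleton] at het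
  obtain ⟨g, hg⟩ := het
  have key : ∀ {W : Type _} [AddCommGroup W] [Module F W] [Module k W] [IsScalarTower k F W]
      (d : Derivation k F W), d t = g • d s := by
    intro W _ _ _ _ d
    have := congrArg d.liftKaehlerDifferential hg
    rw [map_smul, Derivation.liftKaehlerDifferential_comp_D,
      Derivation.liftKaehlerDifferential_comp_D] at this
    exact this.symm
  have hg0 : g ≠ 0 := by
    rintro rfl
    have := congrArg d.liftKaehlerDifferential hg
    rw [zero_smul, map_zero, Derivation.liftKaehlerDifferential_comp_D] at this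
    exact hd this.symm
  -- the differentials over `k(t)`
  let D1 : Derivation k F (Ω[F⁄k⟮t⟯]) := (KaehlerDifferential.D k⟮t⟯ F).restrictScalars k
  have hD1t : D1 t = 0 := by
    change KaehlerDifferential.D k⟮t⟯ F t = 0
    exact (KaehlerDifferential.D k⟮t⟯ F).map_algebraMap (AdjoinSimple.gen k t)
  have hD1s : D1 s = 0 := by
    have h1 := key D1
    rw [hD1t] at h1
    have h2 : g⁻¹ • (g • D1 s) = 0 := by rw [← h1, smul_zero]
    rwa [smul_smul, inv_mul_cancel₀ hg0, one_smul] at h2
  have hall : ∀ f, KaehlerDifferential.D k⟮t⟯ F f = 0 := fun f =>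
    derivation_eq_zero_of_sep hsep D1 hD1s f
  have hsub : Subsingleton (Ω[F⁄k⟮t⟯]) := by
    refine subsingleton_of_forall_eq 0 fun x => ?_
    have hx : x ∈ (⊤ : Submodule F (Ω[F⁄k⟮t⟯])) := trivial
    rw [← KaehlerDifferential.span_range_derivation] at hx
    induction hx using Submodule.span_induction with
    | mem x hx => obtain ⟨f, rfl⟩ := hx; exact hall f
    | zero => rfl
    | add x y _ _ hx hy => rw [hx, hy, add_zero]
    | smul r x _ hx => rw [hx, smul_zero]
  haveI : Algebra.FormallyUnramified k⟮t⟯ F := ⟨hsub⟩
  exact Algebra.FormallyUnramified.isSeparable k⟮t⟯ F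

end Fermat.Agent.GoodRed
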