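import Fermat.Agent.GoodRed.Laurent
import Fermat.Agent.GoodRed.Sep
import Fermat.Agent.GenusX0.Places

/-!
# The Gauss reduction of the modular function fields
-/

set_option autoImplicit false
set_option linter.unusedSectionVars false
set_option linter.style.haveILetI false
set_option synthInstance.maxHeartbeats 400000

noncomputable section

namespace Fermat.Agent.GoodRed

open Polynomial AlgebraicCurve Fermat.Agent.Curves Module IntermediateField ModularCurve
open Fermat.Agent.GenusX0 (je transcendental_je)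

variable {K κ : Type*} [Field K] [Field κ] {A : ValuationSubring K} (π : A →+* κ) (N : ℕ)

/-- the reduction relation for modular function fields -/
def modPre : PreRed A π (modularFunctionFieldFullC K N) (modularFunctionFieldFullC κ N) :=
  laurentPre π (modularFunctionFieldFullC K N).val.toRingHom
    (modularFunctionFieldFullC κ N).val.toRingHom (fun _ => rfl) (fun _ => rfl)

theorem modPre_R {x : modularFunctionFieldFullC K N} {y : modularFunctionFieldFullC κ N} :
    (modPre π N).R x y ↔ LR π (x : LaurentSeries K) (y : LaurentSeries κ) := Iff.rfl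

theorem LR_jqd (d : ℕ) [NeZero d] : LR π (qExpand K d (jqModC K)) (qExpand κ d (jqModC κ)) := by
  have := LR.of (π := π) (qExpand A d (jqModC A))
  rw [coeffMap_qExpand, coeffMap_qExpand, coeffMap_jqModC, coeffMap_jqModC] at this
  exact this

theorem LR_jq : LR π (jqModC K) (jqModC κ) := by
  have := LR.of (π := π) (jqModC A)
  rw [coeffMap_jqModC, coeffMap_jqModC] at this
  exact this

theorem modPre_je : (modPre π N).R (je K N) (je κ N) := LR_jq π

theorem modPre_lift (hπ : Function.Surjective π) (y : modularFunctionFieldFullC κ N) :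
    ∃ x : modularFunctionFieldFullC K N, (modPre π N).R x y := by
  obtain ⟨y, hy⟩ := y
  suffices h : ∃ x ∈ modularFunctionFieldFullC K N, LR π x y by
    obtain ⟨x, hx, h⟩ := h
    exact ⟨⟨x, hx⟩, h⟩
  induction hy using IntermediateField.adjoin_induction with
  | mem y hy =>
    obtain ⟨d, hd, hdN, rfl⟩ := hy
    exact ⟨qExpand K d (jqModC K), jqModCd_mem_full K N hdN, LR_jqd π d⟩
  | algebraMap c =>
    obtain ⟨a, rfl⟩ := hπ c
    exact ⟨algebraMap K _ a, IntermediateField.algebraMap_mem _ _, LR.const π a⟩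
  | add y y' _ _ h h' =>
    obtain ⟨x, hx, h⟩ := h
    obtain ⟨x', hx', h'⟩ := h'
    exact ⟨x + x', add_mem hx hx', h.add h'⟩
  | mul y y' _ _ h h' =>
    obtain ⟨x, hx, h⟩ := h
    obtain ⟨x', hx', h'⟩ := h'
    exact ⟨x * x', mul_mem hx hx', h.mul h'⟩
  | inv y _ h =>
    obtain ⟨x, hx, h⟩ := h
    rcases eq_or_ne y 0 with rfl | hy
    · exact ⟨0, zero_mem _, by rw [inv_zero]; exact LR.zero π⟩
    · exact ⟨x⁻¹, inv_mem hx, h.inv hy⟩

/-- functions with integral `q`-expansion -/
def IntElt (x : modularFunctionFieldFullC K N) : Prop :=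
  ∃ y : LaurentSeries A, coeffMap A.subtype y = x ∧ coeffMap π y ∈ modularFunctionFieldFullC κ N

/-- reductions of functions with integral `q`-expansions -/
def intRed : Submonoid (modularFunctionFieldFullC κ N) where
  carrier := {yb | ∃ y : LaurentSeries A, coeffMap A.subtype y ∈ modularFunctionFieldFullC K N ∧
    coeffMap π y = yb}
  one_mem' := ⟨1, by rw [map_one]; exact one_mem _, by rw [map_one]; rfl⟩
  mul_mem' := by
    rintro a b ⟨y, hy, h⟩ ⟨y', hy', h'⟩
    refine ⟨y * y', by rw [map_mul]; exact mul_mem hy hy', ?_⟩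
    rw [map_mul, h, h']
    rfl

theorem span_submonoid_eq_top {k Ω : Type*} [Field k] [Field Ω] [Algebra k Ω] (gens : Set Ω)
    (t : IntermediateField.adjoin k gens)
    [Algebra.IsAlgebraic k⟮t⟯ (IntermediateField.adjoin k gens)]
    (S : Submonoid (IntermediateField.adjoin k gens))
    (hS : ∀ g (hg : g ∈ gens), (⟨g, IntermediateField.subset_adjoin k gens hg⟩ :
      IntermediateField.adjoin k gens) ∈ S) :
    Submodule.span k⟮t⟯ (S : Set (IntermediateField.adjoin k gens)) = ⊤ := by
  have h1 : IntermediateField.adjoin k⟮t⟯ (S : Set (IntermediateField.adjoin k gens)) = ⊤ := by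
    rw [eq_top_iff]
    rintro ⟨y, hy⟩ -
    induction hy using IntermediateField.adjoin_induction with
    | mem y hy => exact IntermediateField.subset_adjoin _ _ (hS y hy)
    | algebraMap c => exact IntermediateField.algebraMap_mem _ (algebraMap k k⟮t⟯ c)
    | add y y' hy hy' h h' => exact add_mem h h'
    | mul y y' hy hy' h h' => exact mul_mem h h'
    | inv y hy h => exact inv_mem h
  have h2 : Algebra.adjoin k⟮t⟯ (S : Set (IntermediateField.adjoin k gens)) = ⊤ := by
    have h3 := IntermediateField.adjoin_toSubalgebra_of_isAlgebraic (F := k⟮t⟯)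
      (S := (S : Set (IntermediateField.adjoin k gens)))
      (fun x _ => Algebra.IsAlgebraic.isAlgebraic x)
    rw [← h3, h1, IntermediateField.top_toSubalgebra]
  have h4 := Algebra.adjoin_eq_span k⟮t⟯ (S : Set (IntermediateField.adjoin k gens))
  rw [Submonoid.closure_eq, h2] at h4
  rw [← h4]
  rfl

theorem span_submonoid_eq_top' {k Ω : Type*} [Field k] [Field Ω] [Algebra k Ω] (gens : Set Ω)
    (B : IntermediateField k Ω) (hB : B = IntermediateField.adjoin k gens)
    (t : B) [Algebra.IsAlgebraic k⟮t⟯ B] (S : Submonoid B)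
    (hS : ∀ g ∈ gens, ∃ h : g ∈ B, (⟨g, h⟩ : B) ∈ S) :
    Submodule.span k⟮t⟯ (S : Set B) = ⊤ := by
  subst hB
  exact span_submonoid_eq_top gens t S fun g hg => (hS g hg).2

theorem span_intRed [IsFunctionField κ (modularFunctionFieldFullC κ N)] :
    Submodule.span κ⟮je κ N⟯ (intRed (K := K) (A := A) π N : Set (modularFunctionFieldFullC κ N)) = ⊤ := by
  haveI := finiteDimensional_adjoin_simple (transcendental_je (k := κ) (N := N))
  refine span_submonoid_eq_top' (divisorExpansionsC κ N) (modularFunctionFieldFullC κ N) rfl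
    (je κ N) (intRed (K := K) (A := A) π N) ?_
  rintro _ ⟨d, hd, hdN, rfl⟩
  refine ⟨jqModCd_mem_full κ N hdN, qExpand A d (jqModC A), ?_, ?_⟩
  · rw [coeffMap_qExpand, coeffMap_jqModC]
    exact jqModCd_mem_full K N hdN
  · rw [coeffMap_qExpand, coeffMap_jqModC]

/-- evaluation of a polynomial at `j` as a Laurent series -/
def jevA (R : Type*) [CommRing R] (p : R[X]) : LaurentSeries R :=
  p.eval₂ HahnSeries.C (jqModC R)

theorem coeffMap_C {R S : Type*} [CommRing R] [CommRing S] (f : R →+* S) (r : R) :
    coeffMap f (HahnSeries.C r) = HahnSeries.C (f r) := coeffMap_single f 0 r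

theorem coeffMap_jevA {R S : Type*} [CommRing R] [CommRing S] (f : R →+* S) (p : R[X]) :
    coeffMap f (jevA R p) = jevA S (p.map f) := by
  rw [jevA, jevA, Polynomial.hom_eval₂, Polynomial.eval₂_map, coeffMap_jqModC]
  congr 1
  ext r : 1
  exact coeffMap_C f r

theorem coe_aeval_je {k : Type*} [Field k] (p : k[X]) :
    ((aeval (je k N) p : modularFunctionFieldFullC k N) : LaurentSeries k) = jevA k p := by
  have h1 := Polynomial.aeval_algHom_apply (modularFunctionFieldFullC k N).val (je k N) p
  have h2 : (modularFunctionFieldFullC k N).val (aeval (je k N) p) = aeval (jqModC k) p := h1.symm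
  refine Eq.trans h2 ?_
  rw [aeval_def, jevA]
  congr 1
  ext c : 1
  exact (ModFun.C_eq_algebraMap k c).symm

theorem jevA_mem {k : Type*} [Field k] (p : k[X]) : jevA k p ∈ modularFunctionFieldFullC k N := by
  rw [← coe_aeval_je]
  exact (aeval (je k N) p).2

/-- numerator/denominator representation of functions by functions with integral `q`-expansion -/
theorem exists_int_frac [IsLocalHom π] [IsAlgClosed K] [IsAlgClosed κ] (hNK : (N : K) ≠ 0)
    (hNκ : (N : κ) ≠ 0) (x : modularFunctionFieldFullC K N) (hx : x ≠ 0) :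
    ∃ (c : K) (f g : LaurentSeries A), c ≠ 0 ∧
      coeffMap A.subtype f ∈ modularFunctionFieldFullC K N ∧
      coeffMap A.subtype g ∈ modularFunctionFieldFullC K N ∧
      coeffMap π f ∈ modularFunctionFieldFullC κ N ∧
      coeffMap π g ∈ modularFunctionFieldFullC κ N ∧
      coeffMap π f ≠ 0 ∧ coeffMap π g ≠ 0 ∧
      coeffMap A.subtype g * (algebraMap K _ c * (x : LaurentSeries K)) =
        coeffMap A.subtype f := by
  haveI := isFunctionField_fullC K N hNK
  haveI := isFunctionField_fullC κ N hNκ
  have ht := transcendental_je (k := K) (N := N)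
  have htb := transcendental_je (k := κ) (N := N)
  have hS : ∀ sb ∈ (intRed (K := K) (A := A) π N : Set (modularFunctionFieldFullC κ N)),
      ∃ s ∈ {x : modularFunctionFieldFullC K N | ∃ y : LaurentSeries A, coeffMap A.subtype y = x ∧
      coeffMap π y ∈ modularFunctionFieldFullC κ N}, (modPre π N).R s sb := by
    rintro sb ⟨y, hy, h⟩
    refine ⟨⟨coeffMap A.subtype y, hy⟩, ⟨y, rfl, by rw [h]; exact sb.2⟩, ?_⟩
    rw [modPre_R, ← h]
    exact LR.of y
  obtain ⟨ι, _, c, q, δ, b, bb, hc, hbS, hb, hδ, hδ0, hsum, heq⟩ :=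
    (modPre π N).exists_scale (modPre_je π N) ht htb (finiteDimensional_adjoin_simple ht)
    (finiteDimensional_adjoin_simple htb) ((finrank_fullC K N hNK).trans (finrank_fullC κ N hNκ).symm)
    hS (span_intRed π N) x hx
  choose y hy hyb using hbS
  have hyy : ∀ i, coeffMap π (y i) = bb i := by
    intro i
    have h1 : LR π (b i : LaurentSeries K) (bb i : LaurentSeries κ) := hb i
    rw [← hy i] at h1
    exact (LR.of (y i)).unique h1
  have hf1 : coeffMap A.subtype (∑ i, jevA A (q i) * y i) =
      ((∑ i, aeval (je K N) ((q i).map A.subtype) * b i : modularFunctionFieldFullC K N) :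
        LaurentSeries K) := by
    rw [map_sum, AddSubmonoidClass.coe_finsetSum]
    refine Finset.sum_congr rfl fun i _ => ?_
    rw [map_mul, coeffMap_jevA, hy, MulMemClass.coe_mul, coe_aeval_je]
  have hf2 : coeffMap π (∑ i, jevA A (q i) * y i) =
      ((∑ i, aeval (je κ N) ((q i).map π) * bb i : modularFunctionFieldFullC κ N) :
        LaurentSeries κ) := by
    rw [map_sum, AddSubmonoidClass.coe_finsetSum]
    refine Finset.sum_congr rfl fun i _ => ?_
    rw [map_mul, coeffMap_jevA, hyy, MulMemClass.coe_mul, coe_aeval_je]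
  refine ⟨c, ∑ i, jevA A (q i) * y i, jevA A δ, hc, ?_, ?_, ?_, ?_, ?_, ?_, ?_⟩
  · rw [hf1]; exact SetLike.coe_mem _
  · rw [coeffMap_jevA]; exact jevA_mem N _
  · rw [hf2]; exact SetLike.coe_mem _
  · rw [coeffMap_jevA]; exact jevA_mem N _
  · rw [hf2]
    intro h
    exact hsum (Subtype.ext h)
  · rw [coeffMap_jevA, ← coe_aeval_je N]
    intro h
    exact hδ0 (Subtype.ext h)
  · rw [hf1, ← heq, coeffMap_jevA, MulMemClass.coe_mul, MulMemClass.coe_mul, coe_aeval_je]
    rfl

variable [IsLocalHom π] [IsAlgClosed K] [IsAlgClosed κ]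

/-- the Gauss reduction of the modular function field of level `N` -/
def modGauss (hπ : Function.Surjective π) (hNK : (N : K) ≠ 0) (hNκ : (N : κ) ≠ 0) :
    GaussRed A π (modularFunctionFieldFullC K N) (modularFunctionFieldFullC κ N) :=
  (modPre π N).gauss (modPre_lift π N hπ) (fun x hx => by
    obtain ⟨c, f, g, hc, hf, hg, hfb, hgb, hfb0, hgb0, h⟩ := exists_int_frac π N hNK hNκ x hx
    refine ⟨c, hc, ⟨coeffMap π f, hfb⟩ / ⟨coeffMap π g, hgb⟩, ?_, ?_⟩
    · exact div_ne_zero (fun h0 => hfb0 (congrArg Subtype.val h0))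
        (fun h0 => hgb0 (congrArg Subtype.val h0))
    · rw [modPre_R]
      refine ⟨f, g, hgb0, ?_, ?_⟩
      · rw [← h]
        rfl
      · have : (coeffMap π f / coeffMap π g : LaurentSeries κ) * coeffMap π g = coeffMap π f :=
          div_mul_cancel₀ _ hgb0
        rw [mul_comm]
        exact this)

theorem modGauss_R {hπ : Function.Surjective π} {hNK : (N : K) ≠ 0} {hNκ : (N : κ) ≠ 0}
    {x : modularFunctionFieldFullC K N} {y : modularFunctionFieldFullC κ N} :
    (modGauss π N hπ hNK hNκ).R x y ↔ LR π (x : LaurentSeries K) (y : LaurentSeries κ) :=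
  (modPre π N).gauss_R _ _

/-- `t` generates a separable subextension if its `q`-derivative is non-zero. -/
theorem isSeparable_of_theta (hNκ : (N : κ) ≠ 0) {t : modularFunctionFieldFullC κ N}
    (ht : Transcendental κ t) (hd : GenusX0.thetaFun (t : LaurentSeries κ) ≠ 0) :
    Algebra.IsSeparable κ⟮t⟯ (modularFunctionFieldFullC κ N) := by
  haveI := isFunctionField_fullC κ N hNκ
  exact isSeparable_of_derivation ht (GenusX0.thetaDer
    (modularFunctionFieldFullC κ N).val.toRingHom (RingHom.id κ)
    (fun c => (ModFun.C_eq_algebraMap κ c).symm)) hd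

theorem thetaFun_ne_zero_of_coeff {t : LaurentSeries κ} (h : t.coeff (-1) ≠ 0) :
    GenusX0.thetaFun t ≠ 0 := by
  intro h0
  have := congrArg (fun z => HahnSeries.coeff z (-1)) h0
  rw [GenusX0.thetaFun_coeff] at this
  apply h
  simpa using this

theorem modChart (hπ : Function.Surjective π) (hNK : (N : K) ≠ 0) (hNκ : (N : κ) ≠ 0) :
    haveI := isFunctionField_fullC K N hNK
    haveI := isFunctionField_fullC κ N hNκ
    Chart (modGauss π N hπ hNK hNκ) (je K N) (je κ N) := by
  haveI := isFunctionField_fullC K N hNK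
  haveI := isFunctionField_fullC κ N hNκ
  exact {
    R := (modGauss_R π N).2 (LR_jq π)
    tr := transcendental_je
    trb := transcendental_je
    sep := isSeparable_of_theta N hNK transcendental_je (thetaFun_ne_zero_of_coeff (by
      change (jqModC K).coeff (-1) ≠ 0
      rw [coeff_jqModC_neg_one]
      exact one_ne_zero))
    sepb := isSeparable_of_theta N hNκ transcendental_je (thetaFun_ne_zero_of_coeff (by
      change (jqModC κ).coeff (-1) ≠ 0
      rw [coeff_jqModC_neg_one]
      exact one_ne_zero))
    finrank_eq := (finrank_fullC K N hNK).trans (finrank_fullC κ N hNκ).symm }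

end Fermat.Agent.GoodRed
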