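import Fermat.Agent.GoodRed.Red

/-!
# Finite generation and lifting for divisors
-/

set_option autoImplicit false
set_option linter.unusedSectionVars false
set_option linter.style.haveILetI false

noncomputable section

namespace Fermat.Agent.GoodRed

open Polynomial AlgebraicCurve Fermat.Agent.Curves Module IntermediateField WithZero

section MulE

variable (K : Type*) {F : Type*} [Field K] [Field F] [Algebra K F]

/-- multiplication by a nonzero element -/
def mulE (t : F) (ht : t ≠ 0) : F ≃ₗ[K] F :=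
  { LinearMap.mulLeft K t with
    invFun := fun x => t⁻¹ * x
    left_inv := fun x => by
      change t⁻¹ * (t * x) = x
      rw [← mul_assoc, inv_mul_cancel₀ ht, one_mul]
    right_inv := fun x => by
      change t * (t⁻¹ * x) = x
      rw [← mul_assoc, mul_inv_cancel₀ ht, one_mul] }

theorem mulE_apply (t : F) (ht : t ≠ 0) (x : F) : mulE K t ht x = t * x := rfl

theorem mulE_pow_apply (t : F) (ht : t ≠ 0) (n : ℕ) (x : F) :
    (mulE K t ht ^ n) x = t ^ n * x := by
  induction n generalizing x with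
  | zero => simp
  | succ n ih => rw [pow_succ, LinearEquiv.mul_apply, ih, mulE_apply, pow_succ, mul_assoc]

theorem mulE_zpow_apply (t : F) (ht : t ≠ 0) (n : ℤ) (x : F) :
    (mulE K t ht ^ n) x = t ^ n * x := by
  obtain ⟨m, rfl | rfl⟩ := n.eq_nat_or_neg
  · rw [zpow_natCast, zpow_natCast, mulE_pow_apply]
  · have h1 : (mulE K t ht ^ m) ((mulE K t ht ^ (-(m : ℤ))) x) = x := by
      rw [← LinearEquiv.mul_apply, ← zpow_natCast, ← zpow_add, add_neg_cancel, zpow_zero]
      rfl
    rw [mulE_pow_apply] at h1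
    have h2 : t ^ m ≠ 0 := pow_ne_zero _ ht
    rw [zpow_neg t, zpow_natCast t, eq_comm, inv_mul_eq_iff_eq_mul₀ h2]
    exact h1.symm

end MulE

variable {K κ : Type*} [Field K] [Field κ] [IsAlgClosed K] [IsAlgClosed κ] {A : ValuationSubring K}
  {π : A →+* κ} [IsLocalHom π]
  {F Fb : Type*} [Field F] [Field Fb] [Algebra K F] [Algebra κ Fb]
  [IsFunctionField K F] [IsFunctionField κ Fb]
  {G : GaussRed A π F Fb} {t : F} {tb : Fb}

theorem inL_iff {D : Divisor K F} {x : F} : InL t D x ↔
    ∀ w : Place K F, t ∈ w.toValuationSubring → w.adicValuation x ≤ exp (D w) := by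
  refine forall_congr' fun w => imp_congr_right fun _ => ?_
  rcases eq_or_ne x 0 with rfl | hx
  · simp
  · rw [or_iff_right hx, ← neg_neg (D w), val_le_exp_iff w hx]
    constructor
    · intro h; omega
    · intro h; omega

theorem InL.add {D : Divisor K F} {x y : F} (hx : InL t D x) (hy : InL t D y) :
    InL t D (x + y) := by
  rw [inL_iff] at hx hy ⊢
  exact fun w hw => (Valuation.map_add _ _ _).trans (max_le (hx w hw) (hy w hw))

theorem InL.mul_aff {D : Divisor K F} {x r : F} (hr : r ∈ affineRing K t) (hx : InL t D x) :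
    InL t D (r * x) := by
  rw [inL_iff] at hx ⊢
  intro w hw
  rw [map_mul]
  calc _ ≤ 1 * exp (D w) := mul_le_mul' ((mem_iff_val w).1 (hr w hw)) (hx w hw)
    _ = _ := one_mul _

theorem InL.zero (t : F) (D : Divisor K F) : InL t D 0 := fun _ _ => Or.inl rfl

/-- a polynomial in `t` vanishing to high order at the finite part of the support of `D` -/
theorem exists_delta (ht : Transcendental K t) (D : Divisor K F) : ∃ δ : K[X], δ ≠ 0 ∧
    ∀ w : Place K F, t ∈ w.toValuationSubring → |D w| ≤ w.ord (aeval t δ) := by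
  classical
  set S := D.support.filter fun u => t ∈ u.toValuationSubring with hS
  set N : ℕ := ∑ u ∈ S, (D u).natAbs with hN
  have hp0 : (∏ v ∈ S, (X - C (value v t)) ^ N : K[X]) ≠ 0 :=
    Finset.prod_ne_zero_iff.mpr fun v _ => pow_ne_zero _ (X_sub_C_ne_zero _)
  have hpt : aeval t (∏ v ∈ S, (X - C (value v t)) ^ N)
      = ∏ v ∈ S, (t - algebraMap K F (value v t)) ^ N := by
    rw [map_prod]
    exact Finset.prod_congr rfl fun v _ => by simp
  refine ⟨_, hp0, fun w hw => ?_⟩
  rw [hpt, ord_prod w S _ fun v _ => pow_ne_zero _ (sub_algebraMap_ne_zero ht _)]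
  have hnn : ∀ v ∈ S, 0 ≤ w.ord ((t - algebraMap K F (value v t)) ^ N) := fun v _ => by
    rw [ord_pow]
    exact mul_nonneg (by positivity) (ord_sub_nonneg ht hw _)
  by_cases hwS : w ∈ S
  · have h1 := Finset.single_le_sum hnn hwS
    rw [ord_pow] at h1
    have h2 := (ord_sub_pos_iff ht hw (value w t)).mpr rfl
    have h3 : (D w).natAbs ≤ N := by
      rw [hN]
      exact Finset.single_le_sum (f := fun u => (D u).natAbs) (fun _ _ => Nat.zero_le _) hwS
    have h4 : (N : ℤ) * 1 ≤ N * w.ord (t - algebraMap K F (value w t)) :=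
      mul_le_mul_of_nonneg_left (by omega) (by positivity)
    have h5 : |D w| = ((D w).natAbs : ℤ) := (Int.natCast_natAbs _).symm
    rw [h5]
    have h6 : ((D w).natAbs : ℤ) ≤ N := by exact_mod_cast h3
    linarith
  · have h1 : D w = 0 := by
      by_contra hne
      exact hwS (Finset.mem_filter.2 ⟨Finsupp.mem_support_iff.2 hne, hw⟩)
    rw [h1, abs_zero]
    exact Finset.sum_nonneg hnn

theorem Chart.exists_gen (hC : Chart G t tb) (hπ : Function.Surjective π) (hr : RankOne π)
    (ht0 : t ≠ 0) (D : Divisor K F) :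
    ∃ s : Finset F, (∀ y ∈ s, InL t D y ∧ y ∈ G.O) ∧
      ∀ x, InL t D x → x ∈ G.O → x ∈ genPos A (mulE K t ht0) s := by
  classical
  letI := polyAlg K t
  letI := polyAlgAdj K t
  haveI := polyAlg_tower K t
  haveI := polyAlgAdj_tower K t
  haveI := polyAlg_tower_adj K t
  haveI := isFractionRing_adj K hC.tr
  haveI := finiteDimensional_adjoin_simple hC.tr
  haveI := hC.sep
  letI := polyAlg κ tb
  letI := polyAlgAdj κ tb
  haveI := polyAlg_tower κ tb
  haveI := polyAlgAdj_tower κ tb
  haveI := polyAlg_tower_adj κ tb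
  haveI := isFractionRing_adj κ hC.trb
  haveI := finiteDimensional_adjoin_simple hC.trb
  haveI := hC.sepb
  have hXt : algebraMap K[X] F X = t := polyAlg_X K t
  have hXtb : algebraMap κ[X] Fb X = tb := polyAlg_X κ tb
  have hX : G.R (algebraMap K[X] F X) (algebraMap κ[X] Fb X) := by
    rw [hXt, hXtb]; exact hC.R
  have halg : ∀ p : K[X], algebraMap K[X] F p = aeval t p := fun _ => rfl
  let M : Submodule K[X] F :=
    { carrier := {x | InL t D x}
      zero_mem' := InL.zero t D
      add_mem' := fun hx hy => hx.add hy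
      smul_mem' := fun p x hx => by
        change InL t D (p • x)
        rw [Algebra.smul_def, halg]
        exact hx.mul_aff (aeval_mem_affineRing t p) }
  obtain ⟨δ, hδ0, hδ⟩ := exists_delta hC.tr D
  have hδF : aeval t δ ≠ 0 := fun h => hC.tr ⟨δ, hδ0, h⟩
  have hMfg : M.FG := by
    let φ : F →ₗ[K[X]] F := LinearMap.lsmul K[X] F δ
    have hφ : Function.Injective φ := by
      rw [injective_iff_map_eq_zero]
      intro y hy
      change δ • y = 0 at hy
      rw [Algebra.smul_def, mul_eq_zero] at hy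
      exact hy.resolve_left hδF
    have : IsNoetherian K[X] (integralClosure K[X] F) :=
      IsIntegralClosure.isNoetherian K[X] K⟮t⟯ F _
    have hfg : (Subalgebra.toSubmodule (integralClosure K[X] F)).FG := by
      have : Module.Finite K[X] (integralClosure K[X] F) := inferInstance
      exact Module.Finite.iff_fg.1 this
    refine Submodule.fg_of_fg_map_injective φ hφ (Submodule.FG.of_le hfg ?_)
    rintro _ ⟨x, hx, rfl⟩
    change IsIntegral K[X] (δ • x)
    rw [isIntegral_iff_mem_affineRing, hXt, Algebra.smul_def, halg]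
    intro w hw
    have hx' : InL t D x := hx
    rcases hx' w hw with h0 | h0
    · rw [h0, mul_zero]; exact zero_mem _
    · rcases eq_or_ne x 0 with rfl | hx0
      · rw [mul_zero]; exact zero_mem _
      rw [mem_iff_ord w (mul_ne_zero hδF hx0), w.ord_mul hδF hx0]
      have h1 := hδ w hw
      have h2 := le_abs_self (D w)
      omega
  have hfull : ∀ x : F, ∃ d : K[X], d ≠ 0 ∧ d • x ∈ M := by
    intro x
    rcases eq_or_ne x 0 with rfl | hx0
    · exact ⟨1, one_ne_zero, by rw [smul_zero]; exact M.zero_mem⟩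
    obtain ⟨p, hp0, hp, -⟩ := exists_clear hC.tr hx0
    refine ⟨δ * p, mul_ne_zero hδ0 hp0, ?_⟩
    change InL t D _
    intro w hw
    right
    have hpF : aeval t p ≠ 0 := fun h => hC.tr ⟨p, hp0, h⟩
    rw [Algebra.smul_def, halg, map_mul, mul_assoc, w.ord_mul hδF (mul_ne_zero hpF hx0)]
    have h1 := hδ w hw
    have h2 := neg_abs_le (D w)
    have h3 := hp w hw
    omega
  obtain ⟨s, hs, hall⟩ := GaussRed.exists_gen (G := G) K⟮t⟯ κ⟮tb⟯ hX hπ hr hC.finrank_eq hMfg hfull
  refine ⟨s, fun y hy => ⟨(hs y hy).1, (hs y hy).2⟩, fun x hx hxO => ?_⟩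
  obtain ⟨f, hf⟩ := hall x hx hxO
  rw [hf]
  refine Submodule.sum_mem _ fun y hy => ?_
  rw [halg]
  generalize f y = q
  induction q using Polynomial.induction_on' with
  | add p q hp hq =>
    rw [Polynomial.map_add, map_add, add_mul]
    exact Submodule.add_mem _ hp hq
  | monomial n a =>
    have h1 : aeval t ((monomial n a).map A.subtype) * y = a • (t ^ n * y) := by
      rw [Polynomial.map_monomial, aeval_monomial, Algebra.smul_def, mul_assoc]
      rfl
    rw [h1]
    refine Submodule.smul_mem _ _ (Submodule.subset_span ⟨n, y, hy, ?_⟩)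
    rw [mulE_zpow_apply, zpow_natCast]

open Classical in
/-- **Lifting for divisors** -/
theorem GoodChart.lift_divisor (hC : GoodChart G t tb) (D : Divisor K F) {fb : Fb}
    (hfb : ∀ Q : Place κ Fb, tb ∈ Q.toValuationSubring → fb = 0 ∨
      0 ≤ Q.ord fb + ∑ P ∈ D.support.filter (fun P => SpecTo G t tb P Q), D P) :
    ∃ f, InL t D f ∧ G.R f fb := by
  rcases eq_or_ne fb 0 with rfl | hfb0
  · exact ⟨0, InL.zero t D, GaussRed.R.zero G⟩
  -- the ideal
  let I : Ideal (affineRing κ tb) :=
    { carrier := {cb | ∃ f, InL t D f ∧ G.R f ((cb : Fb) * fb)}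
      zero_mem' := ⟨0, InL.zero t D, by
        rw [ZeroMemClass.coe_zero, zero_mul]; exact GaussRed.R.zero G⟩
      add_mem' := by
        rintro a b ⟨f, hf, hfR⟩ ⟨g, hg, hgR⟩
        refine ⟨f + g, hf.add hg, ?_⟩
        have := hfR.add hgR
        rwa [← add_mul] at this
      smul_mem' := by
        rintro c a ⟨f, hf, hfR⟩
        obtain ⟨r, hr, hrR⟩ := hC.lift c c.2
        refine ⟨r * f, hf.mul_aff hr, ?_⟩
        have := hrR.mul hfR
        rwa [← mul_assoc] at this }
  have hI : I = ⊤ := by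
    by_contra hne
    obtain ⟨Q, hQ, hQI⟩ := exists_place_of_ideal hC.trb I hne
    obtain ⟨s, sb, hs, hsR, hsb0, hQsb, hparam⟩ := hC.exists_param hQ
    set S := D.support.filter (fun P => SpecTo G t tb P Q) with hS
    have hSspec : ∀ P ∈ S, SpecTo G t tb P Q := fun P hP => (Finset.mem_filter.1 hP).2
    have hs0 : ∀ P ∈ S, s - algebraMap K F (value P s) ≠ 0 := fun P hP =>
      (hparam P (hSspec P hP)).1.ne_zero hsb0
    set ρ := ∏ P ∈ S, (s - algebraMap K F (value P s)) ^ (D P) with hρ
    have hρ0 : ρ ≠ 0 := Finset.prod_ne_zero_iff.2 fun P hP => zpow_ne_zero _ (hs0 P hP)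
    have hRzpow : ∀ {x : F} {xb : Fb}, G.R x xb → xb ≠ 0 → ∀ n : ℤ, G.R (x ^ n) (xb ^ n) := by
      intro x xb hx hxb n
      obtain ⟨m, rfl | rfl⟩ := n.eq_nat_or_neg
      · rw [zpow_natCast, zpow_natCast]; exact hx.pow m
      · rw [zpow_neg, zpow_neg, zpow_natCast, zpow_natCast]
        exact (hx.pow m).inv (pow_ne_zero _ hxb)
    set ρb := ∏ P ∈ S, sb ^ (D P) with hρb
    have hρR : G.R ρ ρb :=
      GaussRed.R.prod S fun P hP => hRzpow (hparam P (hSspec P hP)).1 hsb0 _
    have hρb0 : ρb ≠ 0 := Finset.prod_ne_zero_iff.2 fun P _ => zpow_ne_zero _ hsb0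
    have hρbQ : Q.ord ρb = ∑ P ∈ S, D P := by
      rw [hρb, ord_prod Q S _ fun P _ => zpow_ne_zero _ hsb0]
      refine Finset.sum_congr rfl fun P _ => ?_
      rw [Q.ord_zpow, hQsb, mul_one]
    have hρord : ∀ P : Place K F, SpecTo G t tb P Q → P.ord ρ = D P := by
      intro P hP
      rw [hρ, ord_prod P S _ fun P hP => zpow_ne_zero _ (hs0 P hP)]
      have hPd := hP.inDisc hC.toChart
      have h1 : ∀ P' ∈ S, P' ≠ P → P.ord ((s - algebraMap K F (value P' s)) ^ (D P')) = 0 := by
        intro P' hP' hne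
        rw [P.ord_zpow, (hparam P' (hSspec P' hP')).2.2 P (Ne.symm hne) hPd, mul_zero]
      by_cases hPS : P ∈ S
      · rw [Finset.sum_eq_single_of_mem P hPS h1, P.ord_zpow, (hparam P hP).2.1, mul_one]
      · rw [Finset.sum_eq_zero fun P' hP' => h1 P' hP' (by rintro rfl; exact hPS hP')]
        by_contra hne
        apply hPS
        rw [hS, Finset.mem_filter, Finsupp.mem_support_iff]
        exact ⟨Ne.symm hne, hP⟩
    -- local denominators on the special fibre
    have hub : 0 ≤ Q.ord (ρb * fb) := by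
      rw [Q.ord_mul hρb0 hfb0, hρbQ]
      have h1 := (hfb Q hQ).resolve_left hfb0
      rw [← hS] at h1
      omega
    obtain ⟨bb, hbb, hbb0, hbbQ, hbbn⟩ := exists_separating hC.trb hQ
      ((finite_support (k := κ) (ρb * fb)).toFinset.filter fun v => v.ord (ρb * fb) < 0) (by
        rw [Finset.mem_filter]
        rintro ⟨-, h⟩
        omega) (∑ v ∈ (finite_support (k := κ) (ρb * fb)).toFinset, (v.ord (ρb * fb)).natAbs)
    have hab : bb * (ρb * fb) ∈ affineRing κ tb := by
      intro v hv
      rw [mem_iff_ord v (mul_ne_zero hbb0 (mul_ne_zero hρb0 hfb0)),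
        v.ord_mul hbb0 (mul_ne_zero hρb0 hfb0)]
      by_cases hneg : v.ord (ρb * fb) < 0
      · have hvmem : v ∈ (finite_support (k := κ) (ρb * fb)).toFinset := by
          rw [Set.Finite.mem_toFinset]
          exact hneg.ne
        have h1 := hbbn v (Finset.mem_filter.2 ⟨hvmem, hneg⟩) hv
        have h2 : (v.ord (ρb * fb)).natAbs ≤
            ∑ v ∈ (finite_support (k := κ) (ρb * fb)).toFinset, (v.ord (ρb * fb)).natAbs :=
          Finset.single_le_sum (f := fun v : Place κ Fb => (v.ord (ρb * fb)).natAbs)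
            (fun _ _ => Nat.zero_le _) hvmem
        omega
      · have := (mem_iff_ord v hbb0).1 (hbb v hv)
        omega
    obtain ⟨a, ha, haR⟩ := hC.lift _ hab
    -- the local lift
    obtain ⟨h, hb, hh, hhR, hhQ, hhL⟩ := hC.exists_clearD hQ D (f := a / ρ) (by
      intro P hP
      rcases eq_or_ne a 0 with ha0 | ha0
      · exfalso
        rw [ha0] at haR
        exact mul_ne_zero hbb0 (mul_ne_zero hρb0 hfb0) (haR.unique (GaussRed.R.zero G))
      rw [ord_div P ha0 hρ0, hρord P hP]
      have := (mem_iff_ord P ha0).1 (ha P hP.1)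
      omega)
    have hR : G.R (h * (a / ρ)) (hb * bb * fb) := by
      have := hhR.mul (haR.div hρR hρb0)
      have h2 : hb * (bb * (ρb * fb) / ρb) = hb * bb * fb := by
        field_simp
      rwa [h2] at this
    have hbaff : hb ∈ affineRing κ tb := hC.toChart.red_mem hC.hπ hh hhR
    have hmemI : (⟨hb * bb, (affineRing κ tb).mul_mem hbaff hbb⟩ : affineRing κ tb) ∈ I :=
      ⟨_, hhL, hR⟩
    have h3 := hQI _ hmemI
    obtain ⟨hb0, hbQ⟩ := (value_ne_zero_iff_ord (hbaff Q hQ)).1 hhQ
    change Q.adicValuation (hb * bb) < 1 at h3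
    rw [val_lt_one_iff] at h3
    rcases h3 with h3 | h3
    · exact mul_ne_zero hb0 hbb0 h3
    · rw [Q.ord_mul hb0 hbb0, hbQ, hbbQ] at h3
      omega
  have h1 : (1 : affineRing κ tb) ∈ I := by rw [hI]; trivial
  obtain ⟨f, hf, hfR⟩ := h1
  refine ⟨f, hf, ?_⟩
  rwa [OneMemClass.coe_one, one_mul] at hfR

end Fermat.Agent.GoodRed
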