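import Fermat.Agent.GoodRed.Ram
import Fermat.Agent.GoodRed.FG

/-!
# Charts: coordinate functions compatible with reduction
-/

set_option autoImplicit false
set_option linter.unusedSectionVars false
set_option linter.style.haveILetI false

noncomputable section

namespace Fermat.Agent.GoodRed

open Polynomial AlgebraicCurve Fermat.Agent.Curves Module IntermediateField

section PolyAlg

variable (K : Type*) {F : Type*} [Field K] [Field F] [Algebra K F]

/-- `F` as a `K[X]`-algebra via `X ↦ t` -/
@[reducible] def polyAlg (t : F) : Algebra K[X] F := (aeval (R := K) t).toRingHom.toAlgebra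

/-- `K(t)` as a `K[X]`-algebra via `X ↦ t` -/
@[reducible] def polyAlgAdj (t : F) : Algebra K[X] K⟮t⟯ :=
  (aeval (R := K) (AdjoinSimple.gen K t)).toRingHom.toAlgebra

theorem polyAlg_X (t : F) : (polyAlg K t).algebraMap X = t := by
  change aeval (R := K) t X = t
  rw [aeval_X]

theorem polyAlg_apply (t : F) (p : K[X]) : (polyAlg K t).algebraMap p = aeval t p := rfl

theorem polyAlg_tower (t : F) :
    letI := polyAlg K t
    IsScalarTower K K[X] F := by
  letI := polyAlg K t
  refine IsScalarTower.of_algebraMap_eq fun c => ?_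
  change _ = aeval t (algebraMap K K[X] c)
  rw [AlgHom.commutes]

theorem polyAlgAdj_tower (t : F) :
    letI := polyAlgAdj K t
    IsScalarTower K K[X] K⟮t⟯ := by
  letI := polyAlgAdj K t
  refine IsScalarTower.of_algebraMap_eq fun c => ?_
  change _ = aeval (AdjoinSimple.gen K t) (algebraMap K K[X] c)
  rw [AlgHom.commutes]

theorem polyAlg_tower_adj (t : F) :
    letI := polyAlg K t
    letI := polyAlgAdj K t
    IsScalarTower K[X] K⟮t⟯ F := by
  letI := polyAlg K t
  letI := polyAlgAdj K t
  refine IsScalarTower.of_algebraMap_eq fun p => ?_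
  change aeval t p = algebraMap K⟮t⟯ F (aeval (AdjoinSimple.gen K t) p)
  rw [← aeval_algebraMap_apply]
  rfl

theorem isFractionRing_adj {t : F} (ht : Transcendental K t) :
    letI := polyAlgAdj K t
    IsFractionRing K[X] K⟮t⟯ := by
  letI := polyAlgAdj K t
  haveI : FaithfulSMul K[X] K⟮t⟯ := by
    rw [faithfulSMul_iff_algebraMap_injective, injective_iff_map_eq_zero]
    intro p hp
    by_contra hp0
    apply ht
    refine ⟨p, hp0, ?_⟩
    change aeval (AdjoinSimple.gen K t) p = 0 at hp
    have := congrArg (algebraMap K⟮t⟯ F) hp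
    rw [← aeval_algebraMap_apply, map_zero] at this
    exact this
  refine IsFractionRing.of_field K[X] K⟮t⟯ fun z => ?_
  exact adjoin_gen t z

end PolyAlg

variable {K κ : Type*} [Field K] [Field κ] [IsAlgClosed K] [IsAlgClosed κ] {A : ValuationSubring K}
  {π : A →+* κ} [IsLocalHom π]
  {F Fb : Type*} [Field F] [Field Fb] [Algebra K F] [Algebra κ Fb]
  [IsFunctionField K F] [IsFunctionField κ Fb]

/-- A pair of separating coordinate functions compatible with the reduction. -/
structure Chart (G : GaussRed A π F Fb) (t : F) (tb : Fb) : Prop where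
  R : G.R t tb
  tr : Transcendental K t
  trb : Transcendental κ tb
  sep : Algebra.IsSeparable K⟮t⟯ F
  sepb : Algebra.IsSeparable κ⟮tb⟯ Fb
  finrank_eq : finrank K⟮t⟯ F = finrank κ⟮tb⟯ Fb

variable {G : GaussRed A π F Fb} {t : F} {tb : Fb}

theorem Chart.ne_zero (hC : Chart G t tb) : tb ≠ 0 := by
  rintro h
  exact hC.trb (h ▸ isAlgebraic_zero)

theorem Chart.inv (hC : Chart G t tb) : Chart G t⁻¹ tb⁻¹ where
  R := hC.R.inv hC.ne_zero
  tr := fun h => hC.tr (by simpa using h.inv)
  trb := fun h => hC.trb (by simpa using h.inv)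
  sep := by rw [adjoin_inv_eq]; exact hC.sep
  sepb := by rw [adjoin_inv_eq]; exact hC.sepb
  finrank_eq := by rw [adjoin_inv_eq, adjoin_inv_eq]; exact hC.finrank_eq

/-- reductions of integral functions are integral -/
theorem Chart.red_mem (hC : Chart G t tb) (hπ : Function.Surjective π) {y : F} {yb : Fb}
    (hy : y ∈ affineRing K t) (h : G.R y yb) : yb ∈ affineRing κ tb := by
  letI := polyAlg K t
  letI := polyAlgAdj K t
  haveI := polyAlg_tower K t
  haveI := polyAlgAdj_tower K t
  haveI := polyAlg_tower_adj K t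
  haveI := isFractionRing_adj K hC.tr
  haveI := finiteDimensional_adjoin_simple hC.tr
  haveI := hC.sep
  letI := polyAlg κ tb
  letI := polyAlgAdj κ tb
  haveI := polyAlg_tower κ tb
  haveI := polyAlgAdj_tower κ tb
  haveI := polyAlg_tower_adj κ tb
  haveI := isFractionRing_adj κ hC.trb
  haveI := finiteDimensional_adjoin_simple hC.trb
  haveI := hC.sepb
  have hXt : algebraMap K[X] F X = t := polyAlg_X K t
  have hXtb : algebraMap κ[X] Fb X = tb := polyAlg_X κ tb
  have hX : G.R (algebraMap K[X] F X) (algebraMap κ[X] Fb X) := by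
    rw [hXt, hXtb]; exact hC.R
  have h1 := GaussRed.isIntegral_red (G := G) K⟮t⟯ κ⟮tb⟯ hC.finrank_eq
    ((isIntegral_iff_mem_affineRing y).2 (by rwa [hXt])) h hX hπ
  rwa [isIntegral_iff_mem_affineRing, hXtb] at h1

/-- **Lifting theorem** for charts in characteristic zero. -/
theorem Chart.lift (hC : Chart G t tb) (hπ : Function.Surjective π) [CharZero K]
    (g : A[X]) (hg0 : g.map π ≠ 0) (hg : Squarefree (g.map π)) {m : ℕ} (hm : 0 < m)
    (hram : ∀ (w : Place K F) (c : K), 0 < w.ord (t - algebraMap K F c) →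
      w.ord (t - algebraMap K F c) ≤ m)
    (hunr : ∀ (w : Place K F) (c : K), 0 < w.ord (t - algebraMap K F c) →
      (g.map A.subtype).eval c ≠ 0 → w.ord (t - algebraMap K F c) = 1)
    {yb : Fb} (hyb : yb ∈ affineRing κ tb) : ∃ y ∈ affineRing K t, G.R y yb := by
  letI := polyAlg K t
  letI := polyAlgAdj K t
  haveI := polyAlg_tower K t
  haveI := polyAlgAdj_tower K t
  haveI := polyAlg_tower_adj K t
  haveI := isFractionRing_adj K hC.tr
  haveI := finiteDimensional_adjoin_simple hC.tr
  haveI := hC.sep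
  letI := polyAlg κ tb
  letI := polyAlgAdj κ tb
  haveI := polyAlg_tower κ tb
  haveI := polyAlgAdj_tower κ tb
  haveI := polyAlg_tower_adj κ tb
  haveI := isFractionRing_adj κ hC.trb
  haveI := finiteDimensional_adjoin_simple hC.trb
  haveI := hC.sepb
  have hXt : algebraMap K[X] F X = t := polyAlg_X K t
  have hXtb : algebraMap κ[X] Fb X = tb := polyAlg_X κ tb
  have hX : G.R (algebraMap K[X] F X) (algebraMap κ[X] Fb X) := by
    rw [hXt, hXtb]; exact hC.R
  have hgK : g.map A.subtype ≠ 0 := by
    intro h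
    apply hg0
    have : g = 0 := Polynomial.map_injective A.subtype Subtype.val_injective
      (by rw [h, Polynomial.map_zero])
    rw [this, Polynomial.map_zero]
  obtain ⟨y, hy, hR⟩ := GaussRed.mem_Bbar_of_isIntegral (G := G) K⟮t⟯ κ⟮tb⟯ hX hπ hC.finrank_eq g
    hg0 hg m hm
    (fun h hTr => isIntegral_of_trace_mem K⟮t⟯ hgK hm (by rwa [hXt]) (by rwa [hXt]) hTr)
    (y := yb) (by rw [isIntegral_iff_mem_affineRing, hXtb]; exact hyb)
  refine ⟨y, ?_, hR⟩
  rwa [isIntegral_iff_mem_affineRing, hXt] at hy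

open Classical in
/-- Counting zeros in residue discs. -/
theorem Chart.sum_ord_disc (hC : Chart G t tb) (hπ : Function.Surjective π)
    {x : F} {xb : Fb} (h : G.R x xb) (hxb : xb ≠ 0) (τ : κ) :
    ∑ w ∈ (finite_support (k := K) x).toFinset.filter (fun w => InDisc π w t τ), w.ord x =
      ∑ w ∈ (finite_zeros (k := κ) (tb - algebraMap κ Fb τ)).toFinset, w.ord xb := by
  letI := polyAlg K t
  letI := polyAlgAdj K t
  haveI := polyAlg_tower K t
  haveI := polyAlgAdj_tower K t
  haveI := polyAlg_tower_adj K t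
  haveI := isFractionRing_adj K hC.tr
  haveI := finiteDimensional_adjoin_simple hC.tr
  haveI := hC.sep
  letI := polyAlg κ tb
  letI := polyAlgAdj κ tb
  haveI := polyAlg_tower κ tb
  haveI := polyAlgAdj_tower κ tb
  haveI := polyAlg_tower_adj κ tb
  haveI := isFractionRing_adj κ hC.trb
  haveI := finiteDimensional_adjoin_simple hC.trb
  haveI := hC.sepb
  have hXt : algebraMap K[X] F X = t := polyAlg_X K t
  have hXtb : algebraMap κ[X] Fb X = tb := polyAlg_X κ tb
  have hX : G.R (algebraMap K[X] F X) (algebraMap κ[X] Fb X) := by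
    rw [hXt, hXtb]; exact hC.R
  have h1 := sum_ord_disc_aux (G := G) K⟮t⟯ κ⟮tb⟯ hX hπ hC.finrank_eq h hxb τ
  simp only [hXt, hXtb] at h1
  exact h1

end Fermat.Agent.GoodRed
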