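import Fermat.Agent.GoodRed.Count

/-!
# The tameness hypothesis in characteristic zero
-/

set_option autoImplicit false
set_option linter.unusedSectionVars false
set_option linter.style.haveILetI false

noncomputable section

namespace Fermat.Agent.GoodRed

open Polynomial AlgebraicCurve Fermat.Agent.Curves Module

section Value

variable {K : Type*} [Field K] {F : Type*} [Field F] [Algebra K F]

theorem mem_place_of_ord_pos {w : Place K F} {t : F} {c : K}
    (h : 0 < w.ord (t - algebraMap K F c)) : t ∈ w.toValuationSubring := by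
  have h0 : t - algebraMap K F c ≠ 0 := by
    intro h0; rw [h0, w.ord_zero] at h; exact lt_irrefl _ h
  have := add_mem ((mem_iff_ord w h0).2 h.le) (w.algebraMap_mem' c)
  rwa [sub_add_cancel] at this

variable [IsAlgClosed K] [IsFunctionField K F]

theorem exists_ord_pos_of_mem {w : Place K F} {t : F} (ht : Transcendental K t)
    (h : t ∈ w.toValuationSubring) : ∃ c : K, 0 < w.ord (t - algebraMap K F c) :=
  ⟨value w t, (ord_sub_pos_iff ht h _).2 rfl⟩

theorem value_eq_of_ord_pos {w : Place K F} {t : F} (ht : Transcendental K t) {c : K}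
    (h : 0 < w.ord (t - algebraMap K F c)) : value w t = c :=
  (ord_sub_pos_iff ht (mem_place_of_ord_pos h) c).1 h

end Value

variable {K : Type*} [Field K] [IsAlgClosed K]
  {F : Type*} [Field F] [Algebra K F] [Algebra K[X] F] [IsScalarTower K K[X] F]
  [IsFunctionField K F]
  (L : Type*) [Field L] [Algebra K L] [Algebra K[X] L] [IsScalarTower K K[X] L]
  [IsFractionRing K[X] L] [Algebra L F]
  [IsScalarTower K[X] L F] [IsScalarTower K L F] [FiniteDimensional L F] [Algebra.IsSeparable L F]

include L in
theorem trace_absurd [CharZero K] {c z₀ : K} (hz₀ : z₀ ≠ 0) {z : F} (hz : IsIntegral K[X] z)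
    {r : K[X]} (htr : Algebra.trace L F z = algebraMap K[X] L ((X - C c) * r))
    (hall : ∀ w : Place K F, 0 < w.ord (algebraMap K[X] F X - algebraMap K F c) →
      w.adicValuation z < 1 ∨ w.adicValuation (z - algebraMap K F z₀) < 1)
    (hex : ∃ w : Place K F, 0 < w.ord (algebraMap K[X] F X - algebraMap K F c) ∧
      w.adicValuation (z - algebraMap K F z₀) < 1) : False := by
  classical
  haveI := isFunctionField_rat K L
  let B := integralClosure K[X] F
  have : IsNoetherian K[X] B := IsIntegralClosure.isNoetherian K[X] L F B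
  have : Module.Finite K[X] B := inferInstance
  have : Module.Free K[X] B := free_integralClosure K[X] L F
  have : IsFractionRing B F := integralClosure.isFractionRing_of_finite_extension L F
  have : IsLocalization (Algebra.algebraMapSubmonoid B (nonZeroDivisors K[X])) F :=
    IsIntegralClosure.isLocalization K[X] L F B
  let b := Module.Free.chooseBasis K[X] B
  let ι := Module.Free.ChooseBasisIndex K[X] B
  let zB : B := ⟨z, hz⟩
  let Z : Matrix ι ι K[X] := Algebra.leftMulMatrix b zB
  let Zc : Matrix ι ι K := Z.map (evalRingHom c)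
  obtain ⟨v, hv⟩ := exists_place_rat L c
  -- the trace
  have htr0 : Zc.trace = 0 := by
    have h1 : Algebra.trace L F (algebraMap B F zB) = algebraMap K[X] L (Algebra.trace K[X] B zB) :=
      Algebra.trace_localization K[X] (nonZeroDivisors K[X]) _
    have h2 : Algebra.trace K[X] B zB = (X - C c) * r := by
      apply IsFractionRing.injective K[X] L
      rw [← h1, ← htr]
      rfl
    rw [Algebra.trace_eq_matrix_trace b] at h2
    have h3 := congrArg (evalRingHom c) h2
    rw [AddMonoidHom.map_trace] at h3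
    have h4 : (evalRingHom c) ((X - C c) * r) = 0 := by simp
    rw [h4] at h3
    exact h3
  -- the norm
  have hnorm : ∀ μ : K, Zc.charpoly.eval μ =
      (Algebra.norm K[X] (algebraMap K[X] B (C μ) - zB)).eval c := by
    intro μ
    rw [Matrix.eval_charpoly, Algebra.norm_eq_matrix_det b, ← coe_evalRingHom, RingHom.map_det]
    congr 1
    ext i j
    rw [RingHom.mapMatrix_apply, Matrix.map_apply, map_sub, AlgHom.commutes, Matrix.sub_apply,
      Matrix.sub_apply, Matrix.algebraMap_matrix_apply, Matrix.scalar_apply, Matrix.diagonal_apply]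
    change (if i = j then μ else 0) - (evalRingHom c) (Z i j) = _
    rw [map_sub]
    congr 1
    split_ifs <;> simp
  have hnormL : ∀ μ : K, Algebra.norm L (algebraMap K F μ - z) =
      algebraMap K[X] L (Algebra.norm K[X] (algebraMap K[X] B (C μ) - zB)) := by
    intro μ
    rw [← Algebra.norm_localization K[X] (nonZeroDivisors K[X]) (Rₘ := L) (Sₘ := F)]
    congr 1
    rw [map_sub, ← IsScalarTower.algebraMap_apply K[X] B F, algebraMap_C_eq]
    rfl
  -- roots
  have hroots : ∀ μ ∈ Zc.charpoly.roots, μ = 0 ∨ μ = z₀ := by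
    intro μ hμ
    have h1 : Zc.charpoly.eval μ = 0 := (mem_roots'.1 hμ).2
    rw [hnorm] at h1
    by_cases h0 : algebraMap K F μ - z = 0
    · right
      obtain ⟨w, -, hw2⟩ := hex
      rw [← sub_eq_zero.1 h0, ← map_sub] at hw2
      by_contra hne
      rw [val_algebraMap w (sub_ne_zero.2 hne)] at hw2
      exact lt_irrefl _ hw2
    · have h2 : 0 < v.ord (Algebra.norm L (algebraMap K F μ - z)) := by
        have hne : Algebra.norm K[X] (algebraMap K[X] B (C μ) - zB) ≠ 0 := by
          intro h3
          have h4 := hnormL μ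
          rw [h3, map_zero] at h4
          exact h0 (Algebra.norm_eq_zero_iff.1 h4)
        rw [hnormL, ord_poly v hv hne]
        exact_mod_cast (rootMultiplicity_pos hne).2 h1
      rw [ord_norm v h0] at h2
      obtain ⟨w, hw, hw2⟩ : ∃ w ∈ v.fiber F, 0 < w.ord (algebraMap K F μ - z) := by
        by_contra hcon
        push Not at hcon
        exact absurd (Finset.sum_nonpos hcon) (not_le.2 h2)
      rw [mem_fiber_iff v hv] at hw
      have h3 : w.adicValuation (algebraMap K F μ - z) < 1 := (val_lt_one_iff w).2 (Or.inr hw2)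
      rcases hall w hw with h4 | h4
      · left
        have h5 := (Valuation.map_add w.adicValuation _ _).trans_lt (max_lt h3 h4)
        rw [sub_add_cancel] at h5
        by_contra hne
        rw [val_algebraMap w hne] at h5
        exact lt_irrefl _ h5
      · right
        have h5 := (Valuation.map_add w.adicValuation _ _).trans_lt (max_lt h3 h4)
        rw [sub_add_sub_cancel, ← map_sub] at h5
        by_contra hne
        rw [val_algebraMap w (sub_ne_zero.2 hne)] at h5
        exact lt_irrefl _ h5
  have hroot : z₀ ∈ Zc.charpoly.roots := by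
    rw [mem_roots (Matrix.charpoly_monic _).ne_zero, IsRoot.def, hnorm]
    obtain ⟨w, hw1, hw2⟩ := hex
    by_cases h0 : algebraMap K F z₀ - z = 0
    · have h4 := hnormL z₀
      rw [h0, Algebra.norm_zero] at h4
      have : Algebra.norm K[X] (algebraMap K[X] B (C z₀) - zB) = 0 := by
        apply IsFractionRing.injective K[X] L
        rw [← h4, map_zero]
      rw [this, eval_zero]
    · have hne : Algebra.norm K[X] (algebraMap K[X] B (C z₀) - zB) ≠ 0 := by
        intro h3
        have h4 := hnormL z₀
        rw [h3, map_zero] at h4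
        exact h0 (Algebra.norm_eq_zero_iff.1 h4)
      have hnn : ∀ w' ∈ v.fiber F, 0 ≤ w'.ord (algebraMap K F z₀ - z) := by
        intro w' hw'
        rw [mem_fiber_iff v hv] at hw'
        have h1 : w'.adicValuation z ≤ 1 := by
          rcases hall w' hw' with h4 | h4
          · exact h4.le
          · have := (Valuation.map_add w'.adicValuation _ _).trans (max_le h4.le
              (val_algebraMap w' hz₀).le)
            rwa [sub_add_cancel] at this
        have h2 : w'.adicValuation (algebraMap K F z₀ - z) ≤ 1 :=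
          (Valuation.map_sub _ _ _).trans (max_le (val_algebraMap w' hz₀).le h1)
        exact (mem_iff_ord w' h0).1 ((mem_iff_val w').2 h2)
      have hwf : w ∈ v.fiber F := (mem_fiber_iff v hv w).2 hw1
      have hpos : 0 < w.ord (algebraMap K F z₀ - z) := by
        rw [← Valuation.map_neg, neg_sub] at hw2
        exact ((val_lt_one_iff w).1 hw2).resolve_left h0
      have h5 : 0 < v.ord (Algebra.norm L (algebraMap K F z₀ - z)) := by
        rw [ord_norm v h0]
        exact Finset.sum_pos' hnn ⟨w, hwf, hpos⟩
      rw [hnormL, ord_poly v hv hne] at h5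
      exact (rootMultiplicity_pos hne).1 (by exact_mod_cast h5)
  -- conclusion
  rw [Matrix.trace_eq_sum_roots_charpoly] at htr0
  have h6 : Zc.charpoly.roots.sum = Zc.charpoly.roots.count z₀ • z₀ := by
    have h7 : Zc.charpoly.roots = Multiset.replicate (Zc.charpoly.roots.count z₀) z₀ +
        Multiset.replicate (Zc.charpoly.roots.count 0) 0 := by
      ext μ
      rw [Multiset.count_add, Multiset.count_replicate, Multiset.count_replicate]
      by_cases h1 : z₀ = μ
      · subst h1
        simp [hz₀.symm]
      · by_cases h2 : (0 : K) = μ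
        · subst h2
          simp [h1]
        · rw [if_neg h1, if_neg h2, Multiset.count_eq_zero_of_notMem]
          intro hμ
          rcases hroots μ hμ with h3 | h3
          · exact h2 h3.symm
          · exact h1 h3.symm
    conv_lhs => rw [h7]
    simp
  rw [h6, nsmul_eq_mul, mul_eq_zero] at htr0
  rcases htr0 with h7 | h7
  · rw [Nat.cast_eq_zero, Multiset.count_eq_zero] at h7
    exact h7 hroot
  · exact hz₀ h7

omit [IsAlgClosed K] [IsFunctionField K F] in
theorem range_algebraMap_le (p : K[X]) : algebraMap K[X] F p ∈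
    Algebra.adjoin K {algebraMap K[X] F X} := by
  have h := aeval_mem_adjoin_singleton K (algebraMap K[X] F X) (p := p)
  rwa [aeval_X_eq] at h

theorem isIntegral_iff_mem_affineRing (x : F) :
    IsIntegral K[X] x ↔ x ∈ affineRing K (algebraMap K[X] F X) := by
  rw [mem_affineRing_iff_isIntegral]
  let f : K[X] →+* Algebra.adjoin K {algebraMap K[X] F X} :=
    (algebraMap K[X] F).codRestrict (Algebra.adjoin K {algebraMap K[X] F X}).toSubring
      fun p => range_algebraMap_le p
  have hf : Function.Surjective f := by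
    rintro ⟨y, hy⟩
    rw [Algebra.adjoin_singleton_eq_range_aeval] at hy
    obtain ⟨p, hp⟩ := hy
    refine ⟨p, Subtype.ext ?_⟩
    change algebraMap K[X] F p = y
    rw [← hp, ← aeval_X_eq]
    rfl
  letI : Algebra K[X] (Algebra.adjoin K {algebraMap K[X] F X}) := f.toAlgebra
  haveI : IsScalarTower K[X] (Algebra.adjoin K {algebraMap K[X] F X}) F :=
    IsScalarTower.of_algebraMap_eq fun _ => rfl
  haveI : Algebra.IsIntegral K[X] (Algebra.adjoin K {algebraMap K[X] F X}) :=
    Algebra.isIntegral_of_surjective hf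
  exact ⟨fun h => h.tower_top, fun h => isIntegral_trans x h⟩

include L in
theorem ord_of_trace_mem [CharZero K] {h : F} (hh : h ≠ 0)
    (hTr : ∀ b : F, IsIntegral K[X] b → ∃ r : K[X], Algebra.trace L F (h * b) = algebraMap K[X] L r)
    {w₀ : Place K F} {c₀ : K} (hw₀ : 0 < w₀.ord (algebraMap K[X] F X - algebraMap K F c₀)) :
    -w₀.ord (algebraMap K[X] F X - algebraMap K F c₀) < w₀.ord h := by
  classical
  by_contra hcon
  push Not at hcon
  have hfaithF : FaithfulSMul K[X] F := faithfulSMul_of_tower K[X] L F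
  set t : F := algebraMap K[X] F X with ht'
  have ht : Transcendental K t := transcendental_X_of_faithful
  set e := w₀.ord (t - algebraMap K F c₀) with he
  obtain ⟨S, hS1, hS2⟩ : ∃ S : Finset (Place K F),
      (∀ u : Place K F, 0 < u.ord (t - algebraMap K F c₀) → u ∈ S) ∧
      (∀ u : Place K F, u ∉ S → u.ord h = 0) := by
    refine ⟨(finite_zeros (k := K) (t - algebraMap K F c₀)).toFinset ∪
      (finite_support (k := K) h).toFinset, fun u hu => ?_, fun u hu => ?_⟩
    · exact Finset.mem_union_left _ ((Set.Finite.mem_toFinset _).2 hu)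
    · by_contra hne
      exact hu (Finset.mem_union_right _ ((Set.Finite.mem_toFinset _).2 hne))
  obtain ⟨f, hf0, hf⟩ := exists_ord_eq_finset S
    (fun w => if w = w₀ then -w₀.ord h - e else |w.ord h|)
  have hfnn : ∀ u ∈ S, 0 ≤ u.ord f := by
    intro u hu
    rw [hf u hu]
    split_ifs
    · omega
    · positivity
  obtain ⟨p, hp0, hp1, hp2⟩ := exists_clear ht hf0
  have hpt0 : aeval t p ≠ 0 := fun h0 => ht ⟨p, hp0, h0⟩
  have hpnn : ∀ u : Place K F, t ∈ u.toValuationSubring → 0 ≤ u.ord (aeval t p) := by
    intro u hu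
    rw [← mem_iff_ord u hpt0]
    have : aeval t p ∈ affineRing K t := by
      rw [mem_affineRing_iff_isIntegral]
      exact isIntegral_algebraMap (R := Algebra.adjoin K {t})
        (x := ⟨aeval t p, aeval_mem_adjoin_singleton K t⟩)
    exact this u hu
  have hpw₀ : w₀.ord (aeval t p) = 0 := by
    refine hp2 w₀ (mem_place_of_ord_pos hw₀) fun u hu huv => ?_
    rw [value_eq_of_ord_pos ht hw₀] at huv
    exact hfnn u (hS1 u ((ord_sub_pos_iff ht hu c₀).2 huv))
  set b := aeval t p * f with hb
  have hb0 : b ≠ 0 := mul_ne_zero hpt0 hf0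
  have hbint : IsIntegral K[X] b := by
    rw [isIntegral_iff_mem_affineRing]
    intro u hu
    exact (mem_iff_ord u hb0).2 (hp1 u hu)
  have hhb : ∀ u : Place K F, t ∈ u.toValuationSubring → u ≠ w₀ → 0 ≤ u.ord (h * b) := by
    intro u hu hne
    rw [u.ord_mul hh hb0]
    by_cases huS : u ∈ S
    · rw [hb, u.ord_mul hpt0 hf0, hf u huS, if_neg hne]
      have h1 := hpnn u hu
      have h2 := neg_abs_le (u.ord h)
      omega
    · rw [hS2 u huS, zero_add]
      exact hp1 u hu
  have hhbw₀ : w₀.ord (h * b) = -e := by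
    rw [w₀.ord_mul hh hb0, hb, w₀.ord_mul hpt0 hf0, hpw₀, hf w₀ (hS1 w₀ hw₀), if_pos rfl]
    ring
  have htc0 : t - algebraMap K F c₀ ≠ 0 := sub_algebraMap_ne_zero ht c₀
  set z := (t - algebraMap K F c₀) * (h * b) with hz
  have hhb0 : h * b ≠ 0 := mul_ne_zero hh hb0
  have hz0 : z ≠ 0 := mul_ne_zero htc0 hhb0
  have hzw₀ : w₀.ord z = 0 := by
    rw [hz, w₀.ord_mul htc0 hhb0, hhbw₀]
    omega
  have hzint : IsIntegral K[X] z := by
    rw [isIntegral_iff_mem_affineRing]
    intro u hu
    rw [mem_iff_ord u hz0]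
    by_cases hne : u = w₀
    · rw [hne, hzw₀]
    · rw [hz, u.ord_mul htc0 hhb0]
      exact add_nonneg (ord_sub_nonneg ht hu c₀) (hhb u hu hne)
  have hzmem : z ∈ w₀.toValuationSubring := (mem_iff_ord w₀ hz0).2 hzw₀.ge
  have hz₀ : value w₀ z ≠ 0 := by
    rw [Ne, value_eq_zero_iff w₀ hzmem, val_lt_one_iff]
    rintro (h1 | h1)
    · exact hz0 h1
    · omega
  obtain ⟨r, hr⟩ := hTr b hbint
  refine trace_absurd L (c := c₀) hz₀ hzint (r := r) ?_ ?_ ⟨w₀, hw₀, value_spec w₀ hzmem⟩
  · have h1 : z = algebraMap K[X] L (X - C c₀) • (h * b) := by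
      rw [algebraMap_smul, Algebra.smul_def, algebraMap_X_sub_C]
    rw [h1, map_smul, hr, smul_eq_mul, map_mul]
  · intro w hw
    by_cases hne : w = w₀
    · right
      rw [hne]
      exact value_spec w₀ hzmem
    · left
      rw [val_lt_one_iff]
      right
      rw [hz, w.ord_mul htc0 hhb0]
      exact add_pos_of_pos_of_nonneg hw (hhb w (mem_place_of_ord_pos hw) hne)

include L in
theorem isIntegral_of_trace_mem [CharZero K] {g : K[X]} (hg : g ≠ 0) {m : ℕ} (hm : 0 < m)
    (hram : ∀ (w : Place K F) (c : K), 0 < w.ord (algebraMap K[X] F X - algebraMap K F c) →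
      w.ord (algebraMap K[X] F X - algebraMap K F c) ≤ m)
    (hunr : ∀ (w : Place K F) (c : K), 0 < w.ord (algebraMap K[X] F X - algebraMap K F c) →
      g.eval c ≠ 0 → w.ord (algebraMap K[X] F X - algebraMap K F c) = 1)
    {h : F}
    (hTr : ∀ b : F, IsIntegral K[X] b →
      ∃ r : K[X], Algebra.trace L F (h * b) = algebraMap K[X] L r) :
    IsIntegral K[X] (h ^ m * algebraMap K[X] F g ^ (m - 1)) := by
  have hfaithF : FaithfulSMul K[X] F := faithfulSMul_of_tower K[X] L F
  rcases eq_or_ne h 0 with rfl | hh
  · rw [zero_pow hm.ne', zero_mul]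
    exact isIntegral_zero
  have ht : Transcendental K (algebraMap K[X] F X) := transcendental_X_of_faithful
  have hgF : algebraMap K[X] F g ≠ 0 := by
    rw [Ne, FaithfulSMul.algebraMap_eq_zero_iff]; exact hg
  have hgint : ∀ q : K[X], algebraMap K[X] F q ∈ affineRing K (algebraMap K[X] F X) := fun q => by
    rw [← isIntegral_iff_mem_affineRing]; exact isIntegral_algebraMap
  rw [isIntegral_iff_mem_affineRing]
  intro w hw
  rw [mem_iff_ord w (mul_ne_zero (pow_ne_zero _ hh) (pow_ne_zero _ hgF)),
    w.ord_mul (pow_ne_zero _ hh) (pow_ne_zero _ hgF), ord_pow, ord_pow]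
  obtain ⟨c, hc⟩ := exists_ord_pos_of_mem ht hw
  have h1 := ord_of_trace_mem L hh hTr hc
  have h2 := hram w c hc
  have h3 : 0 ≤ w.ord (algebraMap K[X] F g) := (mem_iff_ord w hgF).1 (hgint g w hw)
  obtain ⟨n, rfl⟩ : ∃ n, m = n + 1 := ⟨m - 1, by omega⟩
  simp only [Nat.add_sub_cancel]
  by_cases hgc : g.eval c = 0
  · obtain ⟨q, hq⟩ := dvd_iff_isRoot.2 hgc
    have hq0 : q ≠ 0 := by rintro rfl; rw [mul_zero] at hq; exact hg hq
    have hqF : algebraMap K[X] F q ≠ 0 := by
      rw [Ne, FaithfulSMul.algebraMap_eq_zero_iff]; exact hq0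
    have h4 : w.ord (algebraMap K[X] F X - algebraMap K F c) ≤ w.ord (algebraMap K[X] F g) := by
      rw [hq, map_mul, algebraMap_X_sub_C, w.ord_mul (sub_algebraMap_ne_zero ht c) hqF]
      have := (mem_iff_ord w hqF).1 (hgint q w hw)
      omega
    set e := w.ord (algebraMap K[X] F X - algebraMap K F c)
    have h5 : (n : ℤ) * e ≤ n * w.ord (algebraMap K[X] F g) :=
      mul_le_mul_of_nonneg_left h4 (by positivity)
    have h6 : ((n + 1 : ℕ) : ℤ) * (1 - e) ≤ ((n + 1 : ℕ) : ℤ) * w.ord h :=
      mul_le_mul_of_nonneg_left (by omega) (by positivity)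
    push_cast at h2 h6 ⊢
    nlinarith
  · rw [hunr w c hc hgc] at h1
    have : 0 ≤ w.ord h := by omega
    positivity

end Fermat.Agent.GoodRed
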