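import Fermat.Agent.GoodRed.Haupt3

/-!
# The Hauptmoduln of level `2` and `3`: definition over `ℤ` and relation with `j`
-/

set_option autoImplicit false
set_option linter.unusedSectionVars false

noncomputable section

namespace Fermat.Agent.GoodRed

open ModularCurve HahnSeries Fermat.Agent.ModFun

/-- `(η(τ)/η(2τ))^24` -/
def T2 : LaurentSeries ℤ := DeltaSer ℤ * qExpand ℤ 2 (DeltaInvSer ℤ)

/-- `η^12` up to a power of `q` -/
def E12 : LaurentSeries ℤ := HahnSeries.ofPowerSeries ℤ ℤ (etaProd ^ 12)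

/-- inverse of `E12` -/
def E12inv : LaurentSeries ℤ := HahnSeries.ofPowerSeries ℤ ℤ ((etaProd ^ 12).invOfUnit 1)

theorem E12_mul_inv : E12 * E12inv = 1 := by
  rw [E12, E12inv, ← map_mul, PowerSeries.mul_invOfUnit _ _ (by
    rw [map_pow, constantCoeff_etaProd, one_pow]; rfl), map_one]

theorem E12_sq : E12 ^ 2 = HahnSeries.ofPowerSeries ℤ ℤ dedekindEtaUnit := by
  rw [E12, ← map_pow, ← pow_mul, dedekindEtaUnit]

theorem DeltaSer_int : DeltaSer ℤ = HahnSeries.single (1 : ℤ) 1 * E12 ^ 2 := by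
  rw [E12_sq, DeltaSer]
  congr 2

/-- `(η(τ)/η(3τ))^12` -/
def T3 : LaurentSeries ℤ := HahnSeries.single (-1 : ℤ) 1 * (E12 * qExpand ℤ 3 E12inv)

theorem T3_sq : T3 ^ 2 = DeltaSer ℤ * qExpand ℤ 3 (DeltaInvSer ℤ) := by
  have h1 : DeltaInvSer ℤ = HahnSeries.single (-1 : ℤ) 1 * E12inv ^ 2 := by
    have h2 : DeltaSer ℤ * (HahnSeries.single (-1 : ℤ) 1 * E12inv ^ 2) = 1 := by
      rw [DeltaSer_int]
      have h3 : (HahnSeries.single (1 : ℤ) (1 : ℤ) * HahnSeries.single (-1 : ℤ) (1 : ℤ)) = 1 := by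
        rw [HahnSeries.single_mul_single]; simp
      have h4 := E12_mul_inv
      linear_combination (E12 * E12inv) ^ 2 * h3 + (E12 * E12inv + 1) * h4
    calc DeltaInvSer ℤ = (DeltaSer ℤ * (HahnSeries.single (-1 : ℤ) 1 * E12inv ^ 2)) *
          DeltaInvSer ℤ := by rw [h2, one_mul]
      _ = (DeltaSer ℤ * DeltaInvSer ℤ) * (HahnSeries.single (-1 : ℤ) 1 * E12inv ^ 2) := by ring
      _ = _ := by rw [DeltaSer_mul_inv, one_mul]
  rw [h1, DeltaSer_int, T3, map_mul, map_pow, qExpand_single]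
  have h3 : (HahnSeries.single (-1 : ℤ) (1 : ℤ)) ^ 2 =
      HahnSeries.single (1 : ℤ) (1 : ℤ) * HahnSeries.single (((3 : ℕ) : ℤ) * -1) (1 : ℤ) := by
    rw [HahnSeries.single_mul_single, HahnSeries.single_pow]
    norm_num
  linear_combination (E12 * qExpand ℤ 3 E12inv) ^ 2 * h3

theorem ld_T2 : Ld (-1) T2 1 := by
  have h1 := (ld_Delta ℤ).mul ((ld_DeltaInv ℤ).qExpand 2)
  exact h1

theorem ld_ofPS {R : Type*} [CommRing R] (f : PowerSeries R) : Ld 0 (HahnSeries.ofPowerSeries ℤ R f)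
    (PowerSeries.constantCoeff f) := by
  have := ld_sp 0 f
  rw [sp] at this
  simpa using this

theorem ld_T3 : Ld (-1) T3 1 := by
  have h1 : Ld 0 E12 1 := by
    have := ld_ofPS (etaProd ^ 12)
    rwa [map_pow (PowerSeries.constantCoeff), constantCoeff_etaProd, one_pow] at this
  have h2 : Ld 0 E12inv 1 := by
    have h3 := ld_ofPS ((etaProd ^ 12).invOfUnit 1)
    have h4 : PowerSeries.constantCoeff ((etaProd ^ 12).invOfUnit 1) = 1 := by
      have h5 := congrArg (PowerSeries.constantCoeff (R := ℤ)) (PowerSeries.mul_invOfUnit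
        (etaProd ^ 12) 1 (by rw [map_pow, constantCoeff_etaProd, one_pow]; rfl))
      rwa [map_mul, map_pow, constantCoeff_etaProd, one_pow, one_mul, map_one] at h5
    rwa [h4] at h3
  have h3 : Ld (-1) (HahnSeries.single (-1 : ℤ) (1 : ℤ)) 1 := by
    refine ⟨fun m hm => ?_, ?_⟩
    · rw [HahnSeries.coeff_single_of_ne (by omega)]
    · rw [HahnSeries.coeff_single_same]
  have h4 := h3.mul (h1.mul (h2.qExpand 3))
  exact h4

theorem Ld.coeffMap {R S : Type*} [CommRing R] [CommRing S] (f : R →+* S) {n : ℤ}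
    {x : LaurentSeries R} {c : R} (h : Ld n x c) : Ld n (coeffMap f x) (f c) :=
  ⟨fun m hm => by rw [coeffMap_coeff, h.1 m hm, map_zero], by rw [coeffMap_coeff, h.2]⟩

theorem T2_mul_uSer (k : Type*) [Field k] :
    coeffMap (Int.castRingHom k) T2 * uSer 2 k = HahnSeries.C ((2 : k) ^ 12) := by
  rw [T2, map_mul, coeffMap_qExpand, coeffMap_DeltaSer, coeffMap_DeltaInvSer, uSer, DeltaInv_eq,
    map_inv₀]
  have h1 : DeltaSer k ≠ 0 := DeltaSer_ne_zero
  have h2 : qExpand k 2 (DeltaSer k) ≠ 0 := fun h => h1 (qExpand_injective 2 (by rw [h, map_zero]))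
  field_simp
  norm_num

theorem T3_sq_mul_uSer (k : Type*) [Field k] :
    coeffMap (Int.castRingHom k) T3 ^ 2 * uSer 3 k = HahnSeries.C ((3 : k) ^ 12) := by
  rw [← map_pow, T3_sq, map_mul, coeffMap_qExpand, coeffMap_DeltaSer, coeffMap_DeltaInvSer, uSer,
    DeltaInv_eq, map_inv₀]
  have h1 : DeltaSer k ≠ 0 := DeltaSer_ne_zero
  have h2 : qExpand k 3 (DeltaSer k) ≠ 0 := fun h => h1 (qExpand_injective 3 (by rw [h, map_zero]))
  field_simp
  norm_num

theorem Ld.ne_zero {R : Type*} [CommRing R] {n : ℤ} {x : LaurentSeries R} {c : R} (h : Ld n x c)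
    (hc : c ≠ 0) : x ≠ 0 := by
  rintro rfl
  exact hc (by rw [← h.2]; rfl)

theorem exists_prim (p : ℕ) (hp : p ≠ 0) : ∃ z : ℂˣ, IsPrimitiveRoot z p := by
  have h := Complex.isPrimitiveRoot_exp p hp
  exact ⟨Units.mk0 _ (Complex.exp_ne_zero _), (IsPrimitiveRoot.coe_units_iff).1 h⟩

instance : CharZero (LaurentSeries ℂ) :=
  charZero_of_injective_ringHom (f := (HahnSeries.C : ℂ →+* LaurentSeries ℂ))
    HahnSeries.C_injective

theorem T2_rel : jqModC ℤ * T2 ^ 2 = (T2 + 256) ^ 3 := by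
  apply coeffMap_injective (f := Int.castRingHom ℂ) Int.cast_injective
  obtain ⟨z, hz⟩ := exists_prim 2 (by norm_num)
  have h1 := Q2_zero hz
  have h2 := T2_mul_uSer ℂ
  simp only [map_mul, map_pow, map_add, coeffMap_jqModC, map_ofNat]
  set T := coeffMap (Int.castRingHom ℂ) T2
  have hT : T ≠ 0 := (ld_T2.coeffMap (Int.castRingHom ℂ)).ne_zero (by simp)
  rw [Q2] at h1
  simp only [map_pow, map_ofNat] at h1 h2
  have h3 : uSer 2 ℂ = 2 ^ 12 / T := by rw [eq_div_iff hT, mul_comm]; exact h2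
  rw [h3] at h1
  field_simp at h1
  have h4 : (2 ^ 12 : LaurentSeries ℂ) ≠ 0 := by norm_num
  apply mul_left_cancel₀ h4
  linear_combination -h1

theorem T3_rel : jqModC ℤ * T3 ^ 3 = (T3 + 27) * (T3 + 243) ^ 3 := by
  apply coeffMap_injective (f := Int.castRingHom ℂ) Int.cast_injective
  obtain ⟨z, hz⟩ := exists_prim 3 (by norm_num)
  have h1 := Q3_zero hz
  have h2 := T3_sq_mul_uSer ℂ
  simp only [map_mul, map_pow, map_add, coeffMap_jqModC, map_ofNat]
  have hLT := ld_T3.coeffMap (Int.castRingHom ℂ)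
  set T := coeffMap (Int.castRingHom ℂ) T3
  have hT : T ≠ 0 := hLT.ne_zero (by simp)
  rw [Q3] at h1
  simp only [map_pow, map_ofNat] at h1 h2
  have h3 : uSer 3 ℂ = 3 ^ 12 / T ^ 2 := by rw [eq_div_iff (pow_ne_zero 2 hT), mul_comm]; exact h2
  rw [h3] at h1
  field_simp at h1
  have h5 : ((T + 27) * (T + 243) ^ 3 - jqModC ℂ * T ^ 3) *
      ((T - 27) * (T - 243) ^ 3 + jqModC ℂ * T ^ 3) = 0 := by
    have h4 : (3 ^ 12 : LaurentSeries ℂ) ≠ 0 := by norm_num
    apply mul_left_cancel₀ h4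
    linear_combination h1
  rcases mul_eq_zero.1 h5 with h | h
  · linear_combination -h
  · exfalso
    have h6 : Ld (-4) ((T - 27) * (T - 243) ^ 3 + jqModC ℂ * T ^ 3) (2 : ℂ) := by
      have hc : ∀ (n : ℂ), Ld (-1) (T - HahnSeries.C n) (1 : ℂ) := by
        intro n
        refine ⟨hLT.bd.sub ?_, ?_⟩
        · rw [C_eq_sp]
          exact (bd_sp 0 _).mono (by norm_num)
        · rw [HahnSeries.coeff_sub, hLT.2, C_eq_sp, sp_coeff_of_lt 0 _ (by norm_num), sub_zero,
            map_one]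
      have h27 := hc 27
      have h243 := hc 243
      rw [map_ofNat] at h27 h243
      have ha := h27.mul ((h243.mul h243).mul h243)
      have hb := (ld_jq ℂ).mul ((hLT.mul hLT).mul hLT)
      refine ⟨fun m hm => ?_, ?_⟩
      · rw [HahnSeries.coeff_add, show (T - 243) ^ 3 = (T - 243) * (T - 243) * (T - 243) by ring,
          show T ^ 3 = T * T * T by ring, ha.1 m (by norm_num; exact hm),
          hb.1 m (by norm_num; exact hm), add_zero]
      · have ha2 := ha.2
        have hb2 := hb.2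
        norm_num at ha2 hb2
        rw [HahnSeries.coeff_add, show (T - 243) ^ 3 = (T - 243) * (T - 243) * (T - 243) by ring,
          show T ^ 3 = T * T * T by ring, ha2, hb2]
        norm_num
    rw [h] at h6
    have := h6.2
    simp at this

end Fermat.Agent.GoodRed
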