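import Fermat.Agent.GoodRed.HauptChart

/-!
# Good charts in residue characteristic `2` and `3`
-/

set_option autoImplicit false
set_option linter.unusedSectionVars false
set_option linter.style.haveILetI false
set_option synthInstance.maxHeartbeats 400000

noncomputable section

namespace Fermat.Agent.GoodRed

open Polynomial AlgebraicCurve Fermat.Agent.Curves Module IntermediateField ModularCurve
open Fermat.Agent.GenusX0 (je transcendental_je)

namespace Haup

variable {p : ℕ} [NeZero p] (h : Haup p)

/-- the Hauptmodul as a function -/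
def te (k : Type) [Field k] [IsAlgClosed k] (N : ℕ) (hp : (p : k) ≠ 0) (hpN : p ∣ N) :
    modularFunctionFieldFullC k N :=
  ⟨coeffMap (Int.castRingHom k) h.T, h.mem k hp _ (jqModC_mem_full k N) (by
    rw [ModFun.Jd_eq]
    exact jqModCd_mem_full k N hpN)⟩

variable (k : Type) [Field k] [IsAlgClosed k] (N : ℕ) (hp : (p : k) ≠ 0) (hpN : p ∣ N)

theorem te_rel : je k N * h.te k N hp hpN ^ h.e =
    aeval (h.te k N hp hpN) (h.H.map (Int.castRingHom k)) := by
  apply Subtype.ext
  have h1 := congrArg (coeffMap (Int.castRingHom k)) h.rel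
  rw [map_mul, map_pow, coeffMap_jqModC, Polynomial.hom_eval₂] at h1
  have h2 := Polynomial.aeval_algHom_apply (modularFunctionFieldFullC k N).val
    (h.te k N hp hpN) (h.H.map (Int.castRingHom k))
  have h3 : ((aeval (h.te k N hp hpN) (h.H.map (Int.castRingHom k)) :
      modularFunctionFieldFullC k N) : LaurentSeries k) =
      aeval (coeffMap (Int.castRingHom k) h.T) (h.H.map (Int.castRingHom k)) := h2.symm
  rw [h3, aeval_def, eval₂_map]
  refine Eq.trans ?_ (h1.trans ?_)
  · rfl
  · congr 1
    exact Subsingleton.elim _ _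

omit [NeZero p] in
theorem monic_map : (h.H.map (Int.castRingHom k)).Monic := h.monic.map _

omit [NeZero p] in
theorem natDegree_map : (h.H.map (Int.castRingHom k)).natDegree = h.e + 1 := by
  rw [h.monic.natDegree_map, h.natDegree]

include hp in
omit [NeZero p] in
theorem coeff_map_ne : (h.H.map (Int.castRingHom k)).coeff 0 ≠ 0 := by
  obtain ⟨a, ha⟩ := h.H0
  rw [coeff_map, ha]
  simpa using pow_ne_zero a hp

include hp in
omit [NeZero p] in
theorem b_ne : (h.b : k) ≠ 0 := by
  obtain ⟨a, ha⟩ := h.b_eq
  rw [ha]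
  simpa using fun h0 => absurd h0 hp

theorem transcendental_te : Transcendental k (h.te k N hp hpN) := by
  intro halg
  apply transcendental_je (k := k) (N := N)
  have hrel := h.te_rel k N hp hpN
  have hne : h.te k N hp hpN ≠ 0 := by
    intro h0
    have := congrArg Subtype.val h0
    exact (h.ld.coeffMap (Int.castRingHom k)).ne_zero (by simp) this
  have h1 : je k N = aeval (h.te k N hp hpN) (h.H.map (Int.castRingHom k)) *
      (h.te k N hp hpN ^ h.e)⁻¹ := by
    rw [← hrel, mul_assoc, mul_inv_cancel₀ (pow_ne_zero _ hne), mul_one]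
  rw [h1]
  have h2 : aeval (h.te k N hp hpN) (h.H.map (Int.castRingHom k)) ∈
      algebraicClosure k (modularFunctionFieldFullC k N) :=
    Algebra.adjoin_le (S := (algebraicClosure k (modularFunctionFieldFullC k N)).toSubalgebra)
      (by
        rw [Set.singleton_subset_iff]
        exact mem_algebraicClosure_iff.2 halg) (aeval_mem_adjoin_singleton k _)
  exact (mem_algebraicClosure_iff.1 h2).mul (halg.pow _).inv

theorem finrank_te (hN : (N : k) ≠ 0) : (h.e + 1) *
    finrank k⟮h.te k N hp hpN⟯ (modularFunctionFieldFullC k N) = dedekindPsi N := by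
  haveI := isFunctionField_fullC k N hN
  rw [← finrank_fullC k N hN]
  exact (finrank_j_eq (h.transcendental_te k N hp hpN) transcendental_je (h.te_rel k N hp hpN)
    (h.monic_map k) (h.natDegree_map k) (h.coeff_map_ne k hp) h.e_pos).symm

end Haup

section Chart

variable {K κ : Type} [Field K] [Field κ] {A : ValuationSubring K} (π : A →+* κ) (N : ℕ)
  [IsLocalHom π] [IsAlgClosed K] [IsAlgClosed κ] {p : ℕ} [NeZero p] (h : Haup p)

theorem hauptChart (hπ : Function.Surjective π) (hNK : (N : K) ≠ 0) (hNκ : (N : κ) ≠ 0)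
    (hp : (p : K) ≠ 0) (hpκ : (p : κ) ≠ 0) (hpN : p ∣ N) :
    haveI := isFunctionField_fullC K N hNK
    haveI := isFunctionField_fullC κ N hNκ
    Chart (modGauss π N hπ hNK hNκ) (h.te K N hp hpN) (h.te κ N hpκ hpN) := by
  haveI := isFunctionField_fullC K N hNK
  haveI := isFunctionField_fullC κ N hNκ
  exact {
    R := (modGauss_R π N).2 (by
      have h1 := LR.of (π := π) (coeffMap (Int.castRingHom A) h.T)
      rw [coeffMap_coeffMap, coeffMap_coeffMap,
        Subsingleton.elim (A.subtype.comp (Int.castRingHom A)) (Int.castRingHom K),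
        Subsingleton.elim (π.comp (Int.castRingHom A)) (Int.castRingHom κ)] at h1
      exact h1)
    tr := h.transcendental_te K N hp hpN
    trb := h.transcendental_te κ N hpκ hpN
    sep := isSeparable_of_theta N hNK (h.transcendental_te K N hp hpN)
      (thetaFun_ne_zero_of_coeff (by
      change (coeffMap (Int.castRingHom K) h.T).coeff (-1) ≠ 0
      rw [(h.ld.coeffMap (Int.castRingHom K)).2]
      simp))
    sepb := isSeparable_of_theta N hNκ (h.transcendental_te κ N hpκ hpN)
      (thetaFun_ne_zero_of_coeff (by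
      change (coeffMap (Int.castRingHom κ) h.T).coeff (-1) ≠ 0
      rw [(h.ld.coeffMap (Int.castRingHom κ)).2]
      simp))
    finrank_eq := by
      have h1 := h.finrank_te K N hp hpN hNK
      have h2 := h.finrank_te κ N hpκ hpN hNκ
      exact Nat.eq_of_mul_eq_mul_left (Nat.succ_pos h.e) (h1.trans h2.symm) }

end Chart

section Ram

variable {K : Type} [Field K] [IsAlgClosed K] [CharZero K] (N : ℕ) [NeZero N]
  {p : ℕ} [NeZero p] (h : Haup p) (hp : (p : K) ≠ 0) (hpN : p ∣ N) (ι : K →+* ℂ)
  (w : Place K (modularFunctionFieldFullC K N))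

include ι in
theorem Haup.ord_le : w.ord (h.te K N hp hpN) ≤ N := by
  haveI := isFunctionField_fullC K N (by exact_mod_cast NeZero.ne N)
  rcases le_or_gt (w.ord (h.te K N hp hpN)) 0 with h0 | h0
  · have : (0 : ℤ) ≤ N := by positivity
    omega
  · have h1 := ord_j_of_pos (h.transcendental_te K N hp hpN) transcendental_je
      (h.te_rel K N hp hpN) (h.monic_map K) (h.coeff_map_ne K hp) w h0
    have h2 := GenusX0.neg_ord_je_le w ι
    have h3 : (1 : ℤ) ≤ h.e := by exact_mod_cast Nat.one_le_iff_ne_zero.2 h.e_pos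
    rw [h1, neg_neg] at h2
    nlinarith

include ι in
theorem Haup.neg_ord_le : -w.ord (h.te K N hp hpN) ≤ N := by
  haveI := isFunctionField_fullC K N (by exact_mod_cast NeZero.ne N)
  rcases le_or_gt 0 (w.ord (h.te K N hp hpN)) with h0 | h0
  · have : (0 : ℤ) ≤ N := by positivity
    omega
  · have h1 := ord_j_of_neg (h.transcendental_te K N hp hpN) transcendental_je
      (h.te_rel K N hp hpN) (h.monic_map K) (h.natDegree_map K) w h0
    have h2 := GenusX0.neg_ord_je_le w ι
    rw [h1] at h2
    exact h2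

include ι in
theorem ord_je_sub_le_three (c : K) :
    w.ord (je K N - algebraMap K (modularFunctionFieldFullC K N) c) ≤ 3 := by
  rcases eq_or_ne c 0 with rfl | h0
  · rw [map_zero, sub_zero]
    exact GenusX0.ord_je_le_three w ι
  · rcases eq_or_ne c 1728 with rfl | h1
    · have := GenusX0.ord_je_sub_le_two w ι
      omega
    · have := GenusX0.ord_je_sub_le_one w ι h0 h1
      omega

include ι in
theorem Haup.ord_sub_le {c : K} (hc : c ≠ 0) :
    w.ord (h.te K N hp hpN - algebraMap K _ c) ≤ 3 := by
  haveI := isFunctionField_fullC K N (by exact_mod_cast NeZero.ne N)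
  by_contra hlt
  push Not at hlt
  have hdvd : (X - C c) ^ 1 ∣ h.H.map (Int.castRingHom K) -
      C ((h.H.map (Int.castRingHom K)).eval c / c ^ h.e) * X ^ h.e := by
    rw [pow_one, dvd_iff_isRoot, IsRoot.def, eval_sub, eval_mul, eval_C, eval_pow, eval_X,
      div_mul_cancel₀ _ (pow_ne_zero _ hc), sub_self]
  have h1 := GoodRed.ord_sub_le (h.transcendental_te K N hp hpN) transcendental_je
    (h.te_rel K N hp hpN) hc hdvd w (by omega)
  have h2 := ord_je_sub_le_three N ι w ((h.H.map (Int.castRingHom K)).eval c / c ^ h.e)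
  simp only [Nat.cast_one, one_mul] at h1
  omega

include ι in
theorem Haup.ord_sub_le_one {c : K} (hc : c ≠ 0) (hcb : c ≠ h.b) :
    w.ord (h.te K N hp hpN - algebraMap K _ c) ≤ 1 := by
  haveI := isFunctionField_fullC K N (by exact_mod_cast NeZero.ne N)
  by_contra hlt
  push Not at hlt
  have hce : c ^ h.e ≠ 0 := pow_ne_zero _ hc
  by_cases h0 : (h.H.map (Int.castRingHom K)).eval c = 0
  · have hdvd := h.ram0 K c hc hcb h0
    have h1 := GoodRed.ord_sub_le (h.transcendental_te K N hp hpN) transcendental_je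
      (h.te_rel K N hp hpN) hc (m := 3) (j0 := 0) (by rwa [map_zero, zero_mul, sub_zero]) w
      (by omega)
    have h2 := ord_je_sub_le_three N ι w 0
    simp only [Nat.cast_ofNat] at h1
    omega
  · by_cases h1 : (h.H.map (Int.castRingHom K)).eval c = 1728 * c ^ h.e
    · have hdvd := h.ram1 K c hc hcb h1
      have h1 := GoodRed.ord_sub_le (h.transcendental_te K N hp hpN) transcendental_je
        (h.te_rel K N hp hpN) hc (m := 2) (j0 := 1728) hdvd w
        (by omega)
      have h2 := GenusX0.ord_je_sub_le_two w ι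
      push_cast at h1
      omega
    · have hdvd : (X - C c) ^ 1 ∣ h.H.map (Int.castRingHom K) -
          C ((h.H.map (Int.castRingHom K)).eval c / c ^ h.e) * X ^ h.e := by
        rw [pow_one, dvd_iff_isRoot, IsRoot.def, eval_sub, eval_mul, eval_C, eval_pow, eval_X,
          div_mul_cancel₀ _ (pow_ne_zero _ hc), sub_self]
      have h2 := GoodRed.ord_sub_le (h.transcendental_te K N hp hpN) transcendental_je
        (h.te_rel K N hp hpN) hc hdvd w (by omega)
      have h3 := GenusX0.ord_je_sub_le_one w ι
        (c := (h.H.map (Int.castRingHom K)).eval c / c ^ h.e) (div_ne_zero h0 hce) (by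
          rw [Ne, div_eq_iff hce]; exact h1)
      simp only [Nat.cast_one, one_mul] at h2
      omega

end Ram

section Good

variable {K κ : Type} [Field K] [Field κ] {A : ValuationSubring K} (π : A →+* κ) (N : ℕ)
  [IsLocalHom π] [IsAlgClosed K] [IsAlgClosed κ] {p : ℕ} [NeZero p] (h : Haup p)

include h in
theorem Haup.hasGood [CharZero K] (ι : K →+* ℂ) (hπ : Function.Surjective π) (hNK : (N : K) ≠ 0)
    (hNκ : (N : κ) ≠ 0) (hp : (p : K) ≠ 0) (hpκ : (p : κ) ≠ 0) (hpN : p ∣ N) : HasGood π N := by
  haveI := isFunctionField_fullC K N hNK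
  haveI := isFunctionField_fullC κ N hNκ
  haveI : NeZero N := ⟨by rintro rfl; simp at hNK⟩
  have hC := hauptChart π N h hπ hNK hNκ hp hpκ hpN
  have hb : π ((h.b : ℤ) : A) ≠ 0 := by
    rw [map_intCast]
    exact h.b_ne κ hpκ
  have hbK : (((h.b : ℤ) : A) : K) = h.b := by simp
  refine ⟨hπ, hNK, hNκ, _, _, hC.good hπ ((h.b : ℤ) : A) hb (3 + N) ?_ ?_ ?_,
    hC.good_inv hπ ((h.b : ℤ) : A) hb (3 + N) ?_ ?_ ?_⟩
  · intro w
    have := h.ord_le N hp hpN ι w
    push_cast
    omega
  · intro w
    rw [hbK]
    have := h.ord_sub_le N hp hpN ι w (h.b_ne K hp)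
    push_cast
    omega
  · intro w c h0 h1
    rw [hbK] at h1
    exact h.ord_sub_le_one N hp hpN ι w h0 h1
  · intro w
    have := h.neg_ord_le N hp hpN ι w
    push_cast
    omega
  · intro w
    rw [hbK]
    have := h.ord_sub_le N hp hpN ι w (h.b_ne K hp)
    push_cast
    omega
  · intro w c h0 h1
    rw [hbK] at h1
    exact h.ord_sub_le_one N hp hpN ι w h0 h1

end Good

end Fermat.Agent.GoodRed
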