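import Fermat.Agent.GoodRed.PlaceRed
import Fermat.Agent.GoodRed.S18Core
import Fermat.Agent.Curves.Along

/-!
# Reduction of divisors on modular curves
-/

set_option autoImplicit false
set_option linter.unusedSectionVars false
set_option linter.style.haveILetI false
set_option synthInstance.maxHeartbeats 400000

noncomputable section

namespace Fermat.Agent.GoodRed

open Polynomial AlgebraicCurve Fermat.Agent.Curves Module IntermediateField ModularCurve

section PD

variable {k F F' : Type*} [Field k] [Field F] [Field F'] [Algebra k F] [Algebra k F']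
  [IsFunctionField k F] [IsFunctionField k F'] [IsAlgClosed k]

theorem pullbackAlong_posDeg (φ : F →ₐ[k] F') (hφ : φ.toRingHom.IsIntegral) :
    PosDeg (Divisor.pullbackAlong φ hφ) (finrankAlong k φ : ℤ) where
  nonneg D hD := by
    intro w
    rw [Divisor.pullbackAlong_apply]
    exact mul_nonneg (Int.natCast_nonneg _) (hD _)
  degree D := Divisor.degree_pullbackAlong φ hφ (fundamentalIdentityAlong φ hφ) D

theorem pushforwardAlong_posDeg (φ : F →ₐ[k] F') (hφ : φ.toRingHom.IsIntegral) :
    PosDeg (Divisor.pushforwardAlong φ hφ) (1 : ℤ) where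
  nonneg D hD := by
    classical
    rw [← Finsupp.sum_single D, Finsupp.sum, map_sum]
    refine Finset.sum_nonneg fun w _ => ?_
    rw [pushforwardAlong_single', Finsupp.single_nonneg]
    exact hD w
  degree D := by rw [Divisor.degree_pushforwardAlong, one_mul]

theorem smul_posDeg (g : SemilinearAut k F) :
    PosDeg (DistribSMul.toAddMonoidHom (Divisor k F) g) (1 : ℤ) where
  nonneg D hD := by
    intro w
    change 0 ≤ (g • D) w
    rw [SemilinearAut.divisor_smul_apply]
    exact hD _
  degree D := by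
    rw [one_mul]
    exact SemilinearAut.degree_smul g D

end PD

variable {K κ : Type} [Field K] [Field κ] {A : ValuationSubring K} (π : A →+* κ)
  [IsLocalHom π] [IsAlgClosed K] [IsAlgClosed κ]

/-- scaling to nonzero reduction -/
theorem exists_scale [CharZero K] (N : ℕ) (hπ : Function.Surjective π) (hNκ : (N : κ) ≠ 0)
    {E : IntermediateField K (LaurentSeries K)} (hE : E = modularFunctionFieldFullC K N)
    {f : E} (hf : f ≠ 0) : ∃ (c : K) (fb : modularFunctionFieldFullC κ N), c ≠ 0 ∧ fb ≠ 0 ∧
      LR π ((algebraMap K E c * f : E) : LaurentSeries K) (fb : LaurentSeries κ) := by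
  subst hE
  have hN0 : N ≠ 0 := by rintro rfl; simp at hNκ
  have hNK : (N : K) ≠ 0 := by exact_mod_cast hN0
  obtain ⟨c, hc, h, hne⟩ := (modGauss π N hπ hNK hNκ).scale f hf
  exact ⟨c, _, hc, hne, (modGauss_R π N).mp ⟨h, rfl⟩⟩

theorem ord_eq_zero_of_const {F : Type} [Field F] [Algebra K F] (P : Place K F) {f : F} {c : K}
    (hf : f ≠ 0) (hc : c ≠ 0) : P.ord (algebraMap K F c * f) = P.ord f := by
  have hcF : algebraMap K F c ≠ 0 := by simpa using hc
  rw [P.ord_mul hcF hf, ord_algebraMap, zero_add]

theorem divisorOf_const_mul {F : Type} [Field F] [Algebra K F] [IsFunctionField K F] {f : F} {c : K}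
    (hf : f ≠ 0) (hc : c ≠ 0) : divisorOf (k := K) (algebraMap K F c * f) = divisorOf f := by
  ext P
  rw [divisorOf_apply, divisorOf_apply, ord_eq_zero_of_const P hf hc]

/-- the reduction of divisors of level `N` in the special fibre of level `M` -/
theorem modRed_of_hasGood [CharZero K] {N M : ℕ} [NeZero N] [NeZero M] (hNM : N ∣ M)
    (hMκ : (M : κ) ≠ 0)
    (hG : HasGood π M)
    (hco : ∀ m : ℕ, (m : κ) ≠ 0 → Nat.Coprime
      (relfinrank (modularFunctionFieldFullC K N) (modularFunctionFieldFullC K M)) m)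
    [IsFunctionField K (modularFunctionFieldFullC K N)]
    [IsFunctionField κ (modularFunctionFieldFullC κ M)] :
    ∃ (R : Divisor K (modularFunctionFieldFullC K N) →+ Divisor κ (modularFunctionFieldFullC κ M))
      (c : ℤ), PosDeg R c ∧
      (∀ (f : modularFunctionFieldFullC K N) (fb : modularFunctionFieldFullC κ M),
        LR π (f : LaurentSeries K) (fb : LaurentSeries κ) → fb ≠ 0 →
          R (divisorOf f) = divisorOf fb) ∧
      (∀ m : ℕ, (m : κ) ≠ 0 → RankOne π → ∀ D : Divisor K (modularFunctionFieldFullC K N),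
        (m • D).IsPrincipal → (R D).IsPrincipal → D.IsPrincipal) := by
  have hG' := hG
  obtain ⟨hπ, hMK, hMκ', t, tb, h1, h2⟩ := hG
  haveI := isFunctionField_fullC K M hMK
  have hle := full_degeneracyC_le (K := K) hNM
  have hleb := full_degeneracyC_le (K := κ) hNM
  have hNκ : (N : κ) ≠ 0 := by
    obtain ⟨d, rfl⟩ := hNM
    intro h
    apply hMκ
    rw [Nat.cast_mul, h, zero_mul]
  let ρ : modularFunctionFieldFullC K N →ₐ[K] modularFunctionFieldFullC K M :=
    IntermediateField.inclusion hle
  let R : Divisor K (modularFunctionFieldFullC K N) →+ Divisor κ (modularFunctionFieldFullC κ M) :=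
    (redDiv h1 h2).comp (Divisor.pullbackAlong ρ (integralAlong ρ))
  have hR : ∀ (f : modularFunctionFieldFullC K N) (fb : modularFunctionFieldFullC κ M),
      LR π (f : LaurentSeries K) (fb : LaurentSeries κ) → fb ≠ 0 →
        R (divisorOf f) = divisorOf fb := by
    intro f fb hLR hfb
    change redDiv h1 h2 (Divisor.pullbackAlong ρ (integralAlong ρ) (divisorOf f)) = _
    rw [pullbackAlong_divisorOf]
    exact redDiv_divisorOf h1 h2 ((modGauss_R π M).2 hLR) hfb
  refine ⟨R, _, (pullbackAlong_posDeg ρ (integralAlong ρ)).comp (redDiv_posDeg h1 h2), hR, ?_⟩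
  intro m hm hr D hmD hRD
  have hm0 : m ≠ 0 := by rintro rfl; simp at hm
  obtain ⟨u, hu0, hu⟩ := hmD
  obtain ⟨g, hg0, hg⟩ := hRD
  obtain ⟨c, fb, hc, hfb, hLR⟩ := exists_scale π N hπ hNκ rfl hu0
  have hcu0 : algebraMap K (modularFunctionFieldFullC K N) c * u ≠ 0 :=
    mul_ne_zero (by simpa using hc) hu0
  have hmD' : m • D = divisorOf (algebraMap K (modularFunctionFieldFullC K N) c * u) := by
    rw [divisorOf_const_mul hu0 hc]
    ext P
    rw [divisorOf_apply]
    exact hu P
  let fb' : modularFunctionFieldFullC κ M := ⟨fb, hleb fb.2⟩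
  have hfb' : fb' ≠ 0 := by
    intro h
    have h' : (fb' : LaurentSeries κ) = 0 := by rw [h]; rfl
    exact hfb (Subtype.ext h')
  have h3 : m • R D = divisorOf fb' := by
    rw [← map_nsmul, hmD']
    exact hR _ _ hLR hfb'
  have hgm : g ^ m ≠ 0 := pow_ne_zero m hg0
  obtain ⟨d, hd⟩ := exists_const_of_ord_zero (k := κ) (x := fb' * (g ^ m)⁻¹) (fun Q => by
    have h4 := DFunLike.congr_fun h3 Q
    rw [Finsupp.smul_apply, hg Q, divisorOf_apply, nsmul_eq_mul] at h4
    rw [Q.ord_mul hfb' (inv_ne_zero hgm), Q.ord_inv, ord_pow, ← h4, add_neg_cancel])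
  have hd' : fb' = algebraMap κ _ d * g ^ m := by
    rw [← hd, mul_assoc, inv_mul_cancel₀ hgm, mul_one]
  have hdiv : ∀ P : Place K (modularFunctionFieldFullC K N), (m : ℤ) ∣
      P.ord ⟨((algebraMap K (modularFunctionFieldFullC K N) c * u :
        modularFunctionFieldFullC K N) : LaurentSeries K), SetLike.coe_mem _⟩ := by
    intro P
    have h4 := DFunLike.congr_fun hmD' P
    rw [Finsupp.smul_apply, divisorOf_apply, nsmul_eq_mul] at h4
    change (m : ℤ) ∣ P.ord (algebraMap K (modularFunctionFieldFullC K N) c * u)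
    rw [← h4]
    exact dvd_mul_right _ _
  obtain ⟨w, hw, huw⟩ := hG'.isPow' π M hr hm (c := d) (hle (SetLike.coe_mem _)) fb'.2 g.2 hLR
    (fun h => hfb' (Subtype.ext h)) (by
      rw [ModFun.C_eq_algebraMap]
      exact congrArg Subtype.val hd')
    (ord_level hNM (SetLike.coe_mem _) (hle (SetLike.coe_mem _)) hdiv)
  obtain ⟨z, hz, huz⟩ := exists_pow_descend hle rfl (hco m hm)
    (u := ((algebraMap K (modularFunctionFieldFullC K N) c * u :
        modularFunctionFieldFullC K N) : LaurentSeries K)) (SetLike.coe_mem _)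
    (fun h => hcu0 (Subtype.ext h)) hw huw
  have huz' : algebraMap K (modularFunctionFieldFullC K N) c * u = ⟨z, hz⟩ ^ m := Subtype.ext huz
  refine ⟨⟨z, hz⟩, ?_, fun P => ?_⟩
  · intro h0
    rw [h0, zero_pow hm0] at huz'
    exact hcu0 huz'
  · have h4 := DFunLike.congr_fun hmD' P
    rw [Finsupp.smul_apply, divisorOf_apply, nsmul_eq_mul, huz', ord_pow] at h4
    exact mul_left_cancel₀ (by exact_mod_cast hm0) h4

/-- **Reduction of divisors on modular curves** -/
theorem exists_modRed [CharZero K] (ι : K →+* ℂ) (hπ : Function.Surjective π) (N : ℕ)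
    (hNκ : (N : κ) ≠ 0)
    {E : IntermediateField K (LaurentSeries K)} (hE : E = modularFunctionFieldFullC K N)
    [IsFunctionField K E] :
    ∃ (M : ℕ) (_ : N ∣ M) (hMκ : (M : κ) ≠ 0)
      (R : Divisor K E →+ Divisor κ (modularFunctionFieldFullC κ M))
      (c : ℤ), PosDeg R c ∧
      (∀ (f : E) (fb : modularFunctionFieldFullC κ M),
        LR π (f : LaurentSeries K) (fb : LaurentSeries κ) → fb ≠ 0 →
          haveI := isFunctionField_fullC κ M hMκ
          R (divisorOf f) = divisorOf fb) ∧
      (∀ m : ℕ, (m : κ) ≠ 0 → RankOne π → ∀ D : Divisor K E,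
        (m • D).IsPrincipal → (R D).IsPrincipal → D.IsPrincipal) := by
  subst hE
  have hN0 : N ≠ 0 := by rintro rfl; simp at hNκ
  haveI : NeZero N := ⟨hN0⟩
  have hNK : (N : K) ≠ 0 := by exact_mod_cast hN0
  have main : ∃ (M : ℕ) (_ : N ∣ M) (_ : (M : κ) ≠ 0), HasGood π M ∧
      ∀ m : ℕ, (m : κ) ≠ 0 → Nat.Coprime
        (relfinrank (modularFunctionFieldFullC K N) (modularFunctionFieldFullC K M)) m := by
    have hself : ∀ m : ℕ, (m : κ) ≠ 0 → Nat.Coprime
        (relfinrank (modularFunctionFieldFullC K N) (modularFunctionFieldFullC K N)) m := by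
      intro m _
      rw [relfinrank_self]
      exact Nat.coprime_one_left m
    by_cases h6 : (6 : κ) = 0
    · have h23 : (2 : κ) * 3 = 0 := by rw [← h6]; norm_num
      rcases mul_eq_zero.1 h23 with h2 | h3
      · have h3 : ((3 : ℕ) : κ) ≠ 0 := by
          intro h
          have : (1 : κ) = 3 - 2 := by norm_num
          push_cast at h
          rw [h, h2, sub_zero] at this
          exact one_ne_zero this
        by_cases h3N : 3 ∣ N
        · exact ⟨N, dvd_rfl, hNκ, haup3.hasGood π N ι hπ hNK hNκ (by norm_num) h3 h3N, hself⟩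
        · have h3Nκ : ((3 * N : ℕ) : κ) ≠ 0 := by
            push_cast; exact mul_ne_zero (by exact_mod_cast h3) hNκ
          have h3NK : ((3 * N : ℕ) : K) ≠ 0 := by
            push_cast; exact mul_ne_zero (by norm_num) hNK
          refine ⟨3 * N, Dvd.intro_left 3 rfl, h3Nκ,
            haup3.hasGood π (3 * N) ι hπ h3NK h3Nκ (by norm_num) h3 (Dvd.intro _ rfl), ?_⟩
          intro m hm
          rw [relfinrank_full Nat.prime_three h3N h3NK]
          have hodd : ¬ 2 ∣ m := by
            rintro ⟨m', rfl⟩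
            apply hm
            push_cast
            rw [h2, zero_mul]
          have : Nat.Coprime 2 m := (Nat.Prime.coprime_iff_not_dvd Nat.prime_two).2 hodd
          exact Nat.Coprime.pow_left 2 this
      · have h2 : ((2 : ℕ) : κ) ≠ 0 := by
          intro h
          have : (1 : κ) = 3 - 2 := by norm_num
          push_cast at h
          rw [h, h3, sub_zero] at this
          exact one_ne_zero this.symm.symm
        by_cases h2N : 2 ∣ N
        · exact ⟨N, dvd_rfl, hNκ, haup2.hasGood π N ι hπ hNK hNκ (by norm_num) h2 h2N, hself⟩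
        · have h2Nκ : ((2 * N : ℕ) : κ) ≠ 0 := by
            push_cast; exact mul_ne_zero (by exact_mod_cast h2) hNκ
          have h2NK : ((2 * N : ℕ) : K) ≠ 0 := by
            push_cast; exact mul_ne_zero (by norm_num) hNK
          refine ⟨2 * N, Dvd.intro_left 2 rfl, h2Nκ,
            haup2.hasGood π (2 * N) ι hπ h2NK h2Nκ (by norm_num) h2 (Dvd.intro _ rfl), ?_⟩
          intro m hm
          rw [relfinrank_full Nat.prime_two h2N h2NK]
          have hodd : ¬ 3 ∣ m := by
            rintro ⟨m', rfl⟩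
            apply hm
            push_cast
            rw [h3, zero_mul]
          exact (Nat.Prime.coprime_iff_not_dvd Nat.prime_three).2 hodd
    · exact ⟨N, dvd_rfl, hNκ, hasGood_of_six π N ι h6 hπ hNK hNκ, hself⟩
  obtain ⟨M, hNM, hMκ, hG, hco⟩ := main
  haveI : NeZero M := ⟨by rintro rfl; simp at hMκ⟩
  haveI := isFunctionField_fullC κ M hMκ
  obtain ⟨R, c, h1, h2, h3⟩ := modRed_of_hasGood π hNM hMκ hG hco
  exact ⟨M, hNM, hMκ, R, c, h1, h2, h3⟩

end Fermat.Agent.GoodRed
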