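import Fermat.Agent.GoodRed.PreRed
import Fermat.Prelude.Def_ModularCurve_ReductionModL

/-!
# Gauss reductions for fields of Laurent series
-/

set_option autoImplicit false
set_option linter.unusedSectionVars false
set_option linter.style.haveILetI false

noncomputable section

namespace Fermat.Agent.GoodRed

open Polynomial AlgebraicCurve Fermat.Agent.Curves Module IntermediateField ModularCurve

variable {K κ : Type*} [Field K] [Field κ] {A : ValuationSubring K} (π : A →+* κ)

/-- reduction of Laurent series: `x = f/g`, `y = f̄/ḡ` with `f, g` over `A` and `ḡ ≠ 0`. -/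
def LR (x : LaurentSeries K) (y : LaurentSeries κ) : Prop :=
  ∃ f g : LaurentSeries A, coeffMap π g ≠ 0 ∧
    coeffMap A.subtype g * x = coeffMap A.subtype f ∧ coeffMap π g * y = coeffMap π f

variable {π}

theorem coeffMap_injective {R S : Type*} [CommRing R] [CommRing S] {f : R →+* S}
    (hf : Function.Injective f) : Function.Injective (coeffMap f) := by
  intro x y h
  ext n
  apply hf
  have := congrArg (fun z => z.coeff n) h
  simpa using this

theorem coeffMap_subtype_injective : Function.Injective (coeffMap A.subtype) :=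
  coeffMap_injective Subtype.val_injective

theorem coeffMap_subtype_ne_zero {g : LaurentSeries A} (hg : coeffMap π g ≠ 0) :
    coeffMap A.subtype g ≠ 0 := by
  intro h
  apply hg
  have : g = 0 := coeffMap_subtype_injective (by rw [h, map_zero])
  rw [this, map_zero]

namespace LR

theorem unique {x : LaurentSeries K} {y y' : LaurentSeries κ} (h : LR π x y) (h' : LR π x y') :
    y = y' := by
  obtain ⟨f, g, hg, hx, hy⟩ := h
  obtain ⟨f', g', hg', hx', hy'⟩ := h'
  have h1 : g' * f = g * f' := by
    apply coeffMap_subtype_injective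
    rw [map_mul, map_mul, ← hx, ← hx']
    ring
  have h2 := congrArg (coeffMap π) h1
  rw [map_mul, map_mul, ← hy, ← hy'] at h2
  have h3 : (coeffMap π g' * coeffMap π g) * y = (coeffMap π g' * coeffMap π g) * y' := by
    linear_combination h2
  exact mul_left_cancel₀ (mul_ne_zero hg' hg) h3

theorem of (f : LaurentSeries A) : LR π (coeffMap A.subtype f) (coeffMap π f) :=
  ⟨f, 1, by rw [map_one]; exact one_ne_zero, by rw [map_one, one_mul], by rw [map_one, one_mul]⟩

theorem add {x x' : LaurentSeries K} {y y' : LaurentSeries κ} (h : LR π x y) (h' : LR π x' y') :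
    LR π (x + x') (y + y') := by
  obtain ⟨f, g, hg, hx, hy⟩ := h
  obtain ⟨f', g', hg', hx', hy'⟩ := h'
  refine ⟨g' * f + g * f', g * g', by rw [map_mul]; exact mul_ne_zero hg hg', ?_, ?_⟩
  · rw [map_add, map_mul, map_mul, map_mul, ← hx, ← hx']; ring
  · rw [map_add, map_mul, map_mul, map_mul, ← hy, ← hy']; ring

theorem mul {x x' : LaurentSeries K} {y y' : LaurentSeries κ} (h : LR π x y) (h' : LR π x' y') :
    LR π (x * x') (y * y') := by
  obtain ⟨f, g, hg, hx, hy⟩ := h
  obtain ⟨f', g', hg', hx', hy'⟩ := h'
  refine ⟨f * f', g * g', by rw [map_mul]; exact mul_ne_zero hg hg', ?_, ?_⟩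
  · rw [map_mul, map_mul, ← hx, ← hx']; ring
  · rw [map_mul, map_mul, ← hy, ← hy']; ring

theorem neg {x : LaurentSeries K} {y : LaurentSeries κ} (h : LR π x y) : LR π (-x) (-y) := by
  obtain ⟨f, g, hg, hx, hy⟩ := h
  refine ⟨-f, g, hg, ?_, ?_⟩
  · rw [map_neg, ← hx]; ring
  · rw [map_neg, ← hy]; ring

variable (π) in
theorem zero : LR π 0 0 := by
  have := of (π := π) (A := A) 0
  rwa [map_zero, map_zero] at this

variable (π) in
theorem one : LR π 1 1 := by
  have := of (π := π) (A := A) 1
  rwa [map_one, map_one] at this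

theorem inv {x : LaurentSeries K} {y : LaurentSeries κ} (h : LR π x y) (hy0 : y ≠ 0) :
    LR π x⁻¹ y⁻¹ := by
  obtain ⟨f, g, hg, hx, hy⟩ := h
  have hf : coeffMap π f ≠ 0 := by rw [← hy]; exact mul_ne_zero hg hy0
  have hf' := coeffMap_subtype_ne_zero hf
  have hx0 : x ≠ 0 := by
    rintro rfl
    rw [mul_zero] at hx
    exact hf' hx.symm
  refine ⟨g, f, hf, ?_, ?_⟩
  · rw [← hx, mul_assoc, mul_inv_cancel₀ hx0, mul_one]
  · rw [← hy, mul_assoc, mul_inv_cancel₀ hy0, mul_one]

variable (π) in
theorem const (a : A) : LR π (algebraMap K (LaurentSeries K) a)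
    (algebraMap κ (LaurentSeries κ) (π a)) := by
  have := of (π := π) (HahnSeries.single (0 : ℤ) a)
  rw [coeffMap_single, coeffMap_single] at this
  rw [algebraMap_laurentSeries_eq_single, algebraMap_laurentSeries_eq_single]
  exact this

theorem sum {ι : Type*} (s : Finset ι) {x : ι → LaurentSeries K} {y : ι → LaurentSeries κ}
    (h : ∀ i ∈ s, LR π (x i) (y i)) : LR π (∑ i ∈ s, x i) (∑ i ∈ s, y i) := by
  classical
  induction s using Finset.induction_on with
  | empty => simpa using zero π
  | insert i s hi ih =>
    rw [Finset.sum_insert hi, Finset.sum_insert hi]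
    exact (h i (Finset.mem_insert_self i s)).add (ih fun j hj => h j (Finset.mem_insert_of_mem hj))

end LR


/-! ### The relation on a pair of fields embedded in Laurent series -/

variable {F Fb : Type*} [Field F] [Field Fb] [Algebra K F] [Algebra κ Fb]

variable (π) in
/-- the reduction relation for subfields of Laurent series -/
def laurentPre (φ : F →+* LaurentSeries K) (φb : Fb →+* LaurentSeries κ)
    (hφ : ∀ c, φ (algebraMap K F c) = algebraMap K (LaurentSeries K) c)
    (hφb : ∀ c, φb (algebraMap κ Fb c) = algebraMap κ (LaurentSeries κ) c) : PreRed A π F Fb where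
  R x y := LR π (φ x) (φb y)
  unique h h' := φb.injective (h.unique h')
  zero := by rw [map_zero, map_zero]; exact LR.zero π
  one := by rw [map_one, map_one]; exact LR.one π
  add h h' := by rw [map_add, map_add]; exact h.add h'
  mul h h' := by rw [map_mul, map_mul]; exact h.mul h'
  neg h := by rw [map_neg, map_neg]; exact h.neg
  inv h hy := by
    rw [map_inv₀, map_inv₀]
    exact h.inv (fun h0 => hy (φb.injective (by rw [h0, map_zero])))
  const a := by rw [hφ, hφb]; exact LR.const π a

end Fermat.Agent.GoodRed
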