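import Fermat.Agent.GoodRed.RatPlaces

/-!
# Counting zeros in residue discs
-/

set_option autoImplicit false
set_option linter.unusedSectionVars false
set_option linter.style.haveILetI false

noncomputable section

namespace Fermat.Agent.GoodRed

open Polynomial AlgebraicCurve Fermat.Agent.Curves Module

/-- the place `w` has `t(w) ∈ A` with reduction `τ` -/
def InDisc {K κ F : Type*} [Field K] [Field κ] [Field F] [Algebra K F] {A : ValuationSubring K}
    (π : A →+* κ) (w : Place K F) (t : F) (τ : κ) : Prop :=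
  ∃ a : A, π a = τ ∧ 0 < w.ord (t - algebraMap K F a)

variable {K κ : Type*} [Field K] [Field κ] {A : ValuationSubring K} {π : A →+* κ}
  [IsLocalHom π]

theorem sum_count_disc [DecidableEq A] {s : Multiset A} (C : Finset A) (τ : κ) (hC : ∀ c ∈ C, π c = τ)
    (hC' : ∀ c ∈ s, π c = τ → c ∈ C) [DecidableEq κ] :
    ∑ c ∈ C, s.count c = (s.map π).count τ := by
  classical
  rw [Multiset.count_map]
  rw [← Multiset.sum_count_eq_card (s := C) (m := s.filter fun a => τ = π a) (by
    intro a ha
    rw [Multiset.mem_filter] at ha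
    exact hC' a ha.1 ha.2.symm)]
  refine Finset.sum_congr rfl fun c hc => ?_
  rw [Multiset.count_filter_of_pos (p := fun a => τ = π a) (hC c hc).symm]

section Fiber

variable {F L : Type*} [Field F] [Field L] [Algebra K F] [Algebra K[X] F] [IsScalarTower K K[X] F]
  [Algebra K L] [Algebra K[X] L] [IsScalarTower K K[X] L] [IsFractionRing K[X] L] [Algebra L F]
  [IsScalarTower K[X] L F] [IsScalarTower K L F] [FiniteDimensional L F] [IsAlgClosed K]
  [IsFunctionField K F]

theorem mem_fiber_iff (v : Place K L) {c : K} (hc : 0 < v.ord (algebraMap K[X] L (X - C c)))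
    (w : Place K F) : w ∈ v.fiber F ↔ 0 < w.ord (algebraMap K[X] F X - algebraMap K F c) := by
  rw [Place.mem_fiber]
  have h1 : algebraMap K[X] F X - algebraMap K F c = algebraMap L F (algebraMap K[X] L (X - C c)) := by
    rw [← IsScalarTower.algebraMap_apply, algebraMap_X_sub_C]
  have hpos : 0 < w.ramificationIndex L := w.ramificationIndex_pos
  rw [h1, w.ord_restrict (F := L)]
  constructor
  · rintro rfl
    positivity
  · intro h
    refine place_rat_unique _ _ ?_ hc
    exact (mul_pos_iff_of_pos_left (by exact_mod_cast hpos)).1 h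

end Fiber

section Main

variable {F Fb : Type*} [Field F] [Field Fb] [Algebra K F] [Algebra κ Fb]
  {G : GaussRed A π F Fb}
  [Algebra K[X] F] [IsScalarTower K K[X] F] [Algebra κ[X] Fb] [IsScalarTower κ κ[X] Fb]
  [IsAlgClosed K] [IsAlgClosed κ] [IsFunctionField K F] [IsFunctionField κ Fb]
  (L : Type*) [Field L] [Algebra K L] [Algebra K[X] L] [IsScalarTower K K[X] L]
  [IsFractionRing K[X] L] [Algebra L F]
  [IsScalarTower K[X] L F] [IsScalarTower K L F] [FiniteDimensional L F] [Algebra.IsSeparable L F]
  (Lb : Type*) [Field Lb] [Algebra κ Lb] [Algebra κ[X] Lb] [IsScalarTower κ κ[X] Lb]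
  [IsFractionRing κ[X] Lb] [Algebra Lb Fb]
  [IsScalarTower κ[X] Lb Fb] [IsScalarTower κ Lb Fb] [FiniteDimensional Lb Fb]
  [Algebra.IsSeparable Lb Fb]

open Classical in
include L Lb in
theorem sum_ord_disc_aux (hX : G.R (algebraMap K[X] F X) (algebraMap κ[X] Fb X))
    (hπ : Function.Surjective π) (hn : finrank L F = finrank Lb Fb)
    {x : F} {xb : Fb} (h : G.R x xb) (hxb : xb ≠ 0) (τ : κ) :
    ∑ w ∈ (finite_support (k := K) x).toFinset.filter
        (fun w => InDisc π w (algebraMap K[X] F X) τ), w.ord x =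
      ∑ w ∈ (finite_zeros (k := κ) (algebraMap κ[X] Fb X - algebraMap κ Fb τ)).toFinset,
        w.ord xb := by
  haveI := isFunctionField_rat K L
  haveI := isFunctionField_rat κ Lb
  have hx0 : x ≠ 0 := h.ne_zero hxb
  have hfaithF : FaithfulSMul K[X] F := faithfulSMul_of_tower K[X] L F
  have hfaith : FaithfulSMul κ[X] Fb := faithfulSMul_of_tower κ[X] Lb Fb
  -- norms
  obtain ⟨ι, _, _, bb, Bb, hBb⟩ := GaussRed.exists_basis_free (G := G) L Lb hX hπ hn
  choose b hb hbR using fun i => (bb i).2
  obtain ⟨B, hB⟩ := GaussRed.exists_basis_of_red (L := L) hX hn Bb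
    (b := b) (fun i => by rw [hBb]; exact hbR i)
  have hBR : ∀ i, G.R (B i) (Bb i) := fun i => by rw [hB, hBb]; exact hbR i
  have hN := GaussRed.R_norm (L := L) (Lb := Lb) hX hBR h
  set y : L := Algebra.norm L x with hy
  set yb : Lb := Algebra.norm Lb xb with hyb
  have hyb0 : yb ≠ 0 := Algebra.norm_ne_zero_iff.2 hxb
  have hy0 : y ≠ 0 := Algebra.norm_ne_zero_iff.2 hx0
  -- numerators and denominators
  obtain ⟨p', q', hq', hpq⟩ := IsFractionRing.div_surjective (A := K[X]) y
  have hq'0 : q' ≠ 0 := nonZeroDivisors.ne_zero hq'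
  obtain ⟨c, r, hc, hr, hr'⟩ := GaussRed.exists_scale_polys (A := A) (π := π)
    (fun o : Bool => if o then p' else q') ⟨false, by simpa using hq'0⟩
  set p := r true with hp
  set q := r false with hq
  have hpK : p.map A.subtype = C c * p' := by simpa using hr true
  have hqK : q.map A.subtype = C c * q' := by simpa using hr false
  have hyeq : algebraMap K[X] L (q.map A.subtype) * y = algebraMap K[X] L (p.map A.subtype) := by
    rw [hpK, hqK, map_mul, map_mul, ← hpq]
    have : algebraMap K[X] L q' ≠ 0 := algebraMap_poly_ne hq'0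
    field_simp
  have hybeq : algebraMap κ[X] Lb (q.map π) * yb = algebraMap κ[X] Lb (p.map π) := by
    have h1 := (GaussRed.R_poly hX q).mul hN
    rw [IsScalarTower.algebraMap_apply K[X] L F, ← map_mul, hyeq,
      ← IsScalarTower.algebraMap_apply] at h1
    have h2 := h1.unique (GaussRed.R_poly hX p)
    rw [IsScalarTower.algebraMap_apply κ[X] Lb Fb, IsScalarTower.algebraMap_apply κ[X] Lb Fb,
      ← map_mul] at h2
    exact (algebraMap Lb Fb).injective h2
  have hqb : q.map π ≠ 0 := by
    intro h0
    rw [h0, map_zero, zero_mul] at hybeq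
    have h1 : p.map π = 0 := IsFractionRing.injective κ[X] Lb (by rw [← hybeq, map_zero])
    obtain ⟨i, hi⟩ := hr'
    cases i
    · exact hi h0
    · exact hi h1
  have hpb : p.map π ≠ 0 := by
    intro h0
    rw [h0, map_zero] at hybeq
    exact mul_ne_zero (algebraMap_poly_ne hqb) hyb0 hybeq
  have hp0 : p ≠ 0 := by rintro h0; rw [h0] at hpb; simp at hpb
  have hq0 : q ≠ 0 := by rintro h0; rw [h0] at hqb; simp at hqb
  have hinj : Function.Injective (Polynomial.map A.subtype) :=
    Polynomial.map_injective A.subtype Subtype.val_injective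
  have hpK0 : p.map A.subtype ≠ 0 := fun h0 => hp0 (hinj (by rw [h0, Polynomial.map_zero]))
  have hqK0 : q.map A.subtype ≠ 0 := fun h0 => hq0 (hinj (by rw [h0, Polynomial.map_zero]))
  -- the order of the norm at the place `c`
  choose v hv using fun c : K => exists_place_rat L c
  obtain ⟨vb, hvb⟩ := exists_place_rat Lb τ
  have hord : ∀ c : A, (v c).ord y = (p.roots.count c : ℤ) - q.roots.count c := by
    intro c
    have h1 := congrArg (v (c : K)).ord hyeq
    rw [(v (c : K)).ord_mul (algebraMap_poly_ne hqK0) hy0, ord_poly _ (hv c) hqK0,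
      ord_poly _ (hv c) hpK0] at h1
    have h2 : ∀ p : A[X], rootMultiplicity (c : K) (p.map A.subtype) = p.roots.count c := by
      intro p
      rw [count_roots]
      exact (eq_rootMultiplicity_map Subtype.val_injective c).symm
    rw [h2, h2] at h1
    omega
  have hordb : vb.ord yb = ((p.map π).roots.count τ : ℤ) - (q.map π).roots.count τ := by
    have h1 := congrArg vb.ord hybeq
    rw [vb.ord_mul (algebraMap_poly_ne hqb) hyb0, ord_poly _ hvb hqb, ord_poly _ hvb hpb] at h1
    rw [count_roots, count_roots]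
    omega
  -- the values at the places in the support
  set S := (finite_support (k := K) x).toFinset.filter
        (fun w => InDisc π w (algebraMap K[X] F X) τ) with hS
  have hSval : ∀ w ∈ S, ∃ a : A, π a = τ ∧ 0 < w.ord (algebraMap K[X] F X - algebraMap K F a) :=
    fun w hw => (Finset.mem_filter.1 hw).2
  choose! val hval1 hval2 using hSval
  set C : Finset A := S.image val ∪ ((p.roots + q.roots).toFinset.filter fun a => π a = τ) with hC
  have hCτ : ∀ c ∈ C, π c = τ := by
    intro c hc
    rcases Finset.mem_union.1 hc with hc | hc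
    · obtain ⟨w, hw, rfl⟩ := Finset.mem_image.1 hc
      exact hval1 w hw
    · exact (Finset.mem_filter.1 hc).2
  have hcount : ∑ c ∈ C, (v (c : K)).ord y = vb.ord yb := by
    simp only [hord]
    rw [hordb, Finset.sum_sub_distrib, roots_map_red hpb, roots_map_red hqb, ← Nat.cast_sum,
      ← Nat.cast_sum, sum_count_disc C τ hCτ, sum_count_disc C τ hCτ]
    · intro c hc hcτ
      refine Finset.mem_union_right _ (Finset.mem_filter.2 ⟨?_, hcτ⟩)
      rw [Multiset.mem_toFinset, Multiset.mem_add]
      exact Or.inr hc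
    · intro c hc hcτ
      refine Finset.mem_union_right _ (Finset.mem_filter.2 ⟨?_, hcτ⟩)
      rw [Multiset.mem_toFinset, Multiset.mem_add]
      exact Or.inl hc
  -- the fibers
  have hfib : vb.fiber Fb = (finite_zeros (k := κ)
      (algebraMap κ[X] Fb X - algebraMap κ Fb τ)).toFinset := by
    ext w
    rw [mem_fiber_iff vb hvb w, Set.Finite.mem_toFinset]
    rfl
  rw [← hfib, ← ord_norm vb hxb, ← hyb, ← hcount]
  have hdisj : ∀ c ∈ C, ∀ c' ∈ C, c ≠ c' → Disjoint ((v (c : K)).fiber F) ((v (c' : K)).fiber F) := by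
    intro c _ c' _ hcc'
    rw [Finset.disjoint_left]
    intro w hw hw'
    rw [mem_fiber_iff _ (hv c)] at hw
    rw [mem_fiber_iff _ (hv c')] at hw'
    apply hcc'
    apply Subtype.ext
    by_contra hne
    have hne' : algebraMap K F ((c' : K) - c) ≠ 0 := by
      rw [Ne, map_eq_zero_iff _ (algebraMap K F).injective, sub_eq_zero]
      exact fun h => hne h.symm
    have h1 : algebraMap K[X] F X - algebraMap K F c - (algebraMap K[X] F X - algebraMap K F c') =
        algebraMap K F ((c' : K) - c) := by
      rw [map_sub]; ring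
    have h2 : algebraMap K[X] F X - algebraMap K F c ≠ 0 := by
      intro h0; rw [h0, w.ord_zero] at hw; exact lt_irrefl _ hw
    have h3 : algebraMap K[X] F X - algebraMap K F c' ≠ 0 := by
      intro h0; rw [h0, w.ord_zero] at hw'; exact lt_irrefl _ hw'
    have h4 := ord_add w (f := algebraMap K[X] F X - algebraMap K F c)
      (g := -(algebraMap K[X] F X - algebraMap K F c')) (by
        rw [← sub_eq_add_neg, h1]; exact hne') h2 (neg_ne_zero.2 h3)
    rw [ord_neg, ← sub_eq_add_neg, h1, ord_algebraMap] at h4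
    have := lt_min hw hw'
    omega
  have hbi : ∑ c ∈ C, (v (c : K)).ord y = ∑ w ∈ C.biUnion fun c => (v (c : K)).fiber F, w.ord x := by
    rw [Finset.sum_biUnion fun c hc c' hc' h => hdisj c hc c' hc' h]
    exact Finset.sum_congr rfl fun c _ => ord_norm (v (c : K)) hx0
  rw [hbi]
  refine Finset.sum_subset ?_ ?_
  · intro w hw
    rw [Finset.mem_biUnion]
    refine ⟨val w, Finset.mem_union_left _ (Finset.mem_image_of_mem _ hw), ?_⟩
    rw [mem_fiber_iff _ (hv _)]
    exact hval2 w hw
  · intro w hw hwS
    rw [Finset.mem_biUnion] at hw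
    obtain ⟨c, hc, hw⟩ := hw
    rw [mem_fiber_iff _ (hv _)] at hw
    by_contra hne
    apply hwS
    rw [hS, Finset.mem_filter, Set.Finite.mem_toFinset]
    exact ⟨hne, c, hCτ c hc, hw⟩

end Main

end Fermat.Agent.GoodRed
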