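import Mathlib

/-!
# Norms and the last embedding
-/

set_option autoImplicit false

noncomputable section

namespace Fermat.Agent.GoodRed

open Module

variable {E L Λ : Type*} [Field E] [Field L] [Field Λ] [Algebra E L] [Algebra E Λ]
  [CharZero E] [FiniteDimensional E L]

/-- if there are `[L : E]` different embeddings in `Λ` then the norm is the product. -/
theorem norm_eq_prod_of_injective {ι : Type*} [Fintype ι] (hcard : finrank E L = Fintype.card ι)
    (φ : ι → (L →ₐ[E] Λ)) (hφ : Function.Injective φ) (x : L) :
    algebraMap E Λ (Algebra.norm E x) = ∏ i, φ i x := by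
  classical
  let Ω := AlgebraicClosure Λ
  let j : Λ →ₐ[E] Ω := IsScalarTower.toAlgHom E Λ Ω
  have hj : Function.Injective j := (algebraMap Λ Ω).injective
  let Φ : ι → (L →ₐ[E] Ω) := fun i => j.comp (φ i)
  have hΦ : Function.Injective Φ := by
    intro a b hab
    apply hφ
    apply AlgHom.ext
    intro y
    exact hj (DFunLike.congr_fun hab y)
  have hbij : Function.Bijective Φ := by
    rw [Fintype.bijective_iff_injective_and_card]
    exact ⟨hΦ, by rw [AlgHom.card, hcard]⟩
  apply hj
  have h1 := Algebra.norm_eq_prod_embeddings E Ω x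
  have h2 : j (algebraMap E Λ (Algebra.norm E x)) = algebraMap E Ω (Algebra.norm E x) :=
    j.commutes _
  rw [h2, h1, map_prod]
  exact (Fintype.prod_bijective Φ hbij _ _ fun i => rfl).symm

/-- if all but one embedding take values in `Λ`, so does the last one. -/
theorem exists_last_embedding {ι : Type*} [Fintype ι] (hcard : finrank E L = Fintype.card ι + 1)
    (φ : ι → (L →ₐ[E] Λ)) (hφ : Function.Injective φ) :
    ∃ c : L →ₐ[E] Λ, ∀ x, algebraMap E Λ (Algebra.trace E L x) = c x + ∑ i, φ i x := by
  classical
  let Ω := AlgebraicClosure Λ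
  let j : Λ →ₐ[E] Ω := IsScalarTower.toAlgHom E Λ Ω
  have hj : Function.Injective j := (algebraMap Λ Ω).injective
  let Φ : ι → (L →ₐ[E] Ω) := fun i => j.comp (φ i)
  have hΦ : Function.Injective Φ := by
    intro a b hab
    apply hφ
    apply AlgHom.ext
    intro y
    exact hj (DFunLike.congr_fun hab y)
  obtain ⟨c', hc'⟩ : ∃ c' : L →ₐ[E] Ω, c' ∉ Set.range Φ := by
    by_contra hcon
    push Not at hcon
    have h1 : Function.Surjective Φ := hcon
    have h2 := Fintype.card_le_of_surjective Φ h1
    rw [AlgHom.card, hcard] at h2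
    omega
  let Ψ : Option ι → (L →ₐ[E] Ω) := fun o => o.elim c' Φ
  have hΨ : Function.Injective Ψ := by
    intro a b hab
    cases a with
    | none =>
      cases b with
      | none => rfl
      | some b => exact absurd ⟨b, hab.symm⟩ hc'
    | some a =>
      cases b with
      | none => exact absurd ⟨a, hab⟩ hc'
      | some b => rw [hΦ hab]
  have hbij : Function.Bijective Ψ := by
    rw [Fintype.bijective_iff_injective_and_card]
    exact ⟨hΨ, by rw [AlgHom.card, hcard, Fintype.card_option]⟩
  have htr : ∀ x, algebraMap E Ω (Algebra.trace E L x) = c' x + ∑ i, Φ i x := by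
    intro x
    rw [trace_eq_sum_embeddings (E := Ω), ← Fintype.sum_bijective Ψ hbij (fun o => Ψ o x) _
      fun i => rfl, Fintype.sum_option]
    rfl
  have hmem : ∀ x, c' x ∈ j.range := by
    intro x
    refine ⟨algebraMap E Λ (Algebra.trace E L x) - ∑ i, φ i x, ?_⟩
    have h3 := htr x
    have h4 : j (algebraMap E Λ (Algebra.trace E L x)) = algebraMap E Ω (Algebra.trace E L x) :=
      j.commutes _
    change j (algebraMap E Λ (Algebra.trace E L x) - ∑ i, φ i x) = _
    rw [map_sub, h4, h3, map_sum]
    simp [Φ]
  let e : Λ ≃ₐ[E] j.range := AlgEquiv.ofInjective j hj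
  let c : L →ₐ[E] Λ := (e.symm : j.range →ₐ[E] Λ).comp (c'.codRestrict j.range hmem)
  have hc : ∀ x, j (c x) = c' x := by
    intro x
    have h5 : (e (c x) : Ω) = c' x := by
      change ((e (e.symm (c'.codRestrict j.range hmem x)) : j.range) : Ω) = _
      rw [e.apply_symm_apply]
      rfl
    exact h5
  refine ⟨c, fun x => hj ?_⟩
  have h4 : j (algebraMap E Λ (Algebra.trace E L x)) = algebraMap E Ω (Algebra.trace E L x) :=
    j.commutes _
  rw [h4, htr, map_add, hc, map_sum]
  rfl

end Fermat.Agent.GoodRed
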