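import Mathlib

/-!
# Gauss reductions: a field `F/K`, a valuation ring `A ⊆ K`, and the reduction of `F`
-/

set_option autoImplicit false

noncomputable section

namespace Fermat.Agent.GoodRed

open Polynomial Module

/-- Gauss reduction datum: a subring `O` of `F` with a surjection onto `Fb`, compatible with
`A → κ`, such that every element of `F` can be scaled by an element of `K` to have nonzero
reduction. -/
structure GaussRed {K κ : Type*} [Field K] [Field κ] (A : ValuationSubring K) (π : A →+* κ)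
    (F Fb : Type*) [Field F] [Field Fb] [Algebra K F] [Algebra κ Fb] where
  O : Subring F
  red : O →+* Fb
  surj : Function.Surjective red
  mem : ∀ a : A, algebraMap K F a ∈ O
  red_mem : ∀ a : A, red ⟨algebraMap K F a, mem a⟩ = algebraMap κ Fb (π a)
  scale : ∀ x : F, x ≠ 0 → ∃ c : K, c ≠ 0 ∧ ∃ h : algebraMap K F c * x ∈ O, red ⟨_, h⟩ ≠ 0

namespace GaussRed

variable {K κ : Type*} [Field K] [Field κ] {A : ValuationSubring K} {π : A →+* κ}
  {F Fb : Type*} [Field F] [Field Fb] [Algebra K F] [Algebra κ Fb]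
  (G : GaussRed A π F Fb)

/-- `x` reduces to `y`. -/
def R (x : F) (y : Fb) : Prop := ∃ h : x ∈ G.O, G.red ⟨x, h⟩ = y

variable {G}

namespace R

theorem mem {x : F} {y : Fb} (h : G.R x y) : x ∈ G.O := h.1

theorem unique {x : F} {y y' : Fb} (h : G.R x y) (h' : G.R x y') : y = y' := by
  obtain ⟨_, rfl⟩ := h
  obtain ⟨_, rfl⟩ := h'
  rfl

theorem add {x x' : F} {y y' : Fb} (h : G.R x y) (h' : G.R x' y') : G.R (x + x') (y + y') := by
  obtain ⟨hx, rfl⟩ := h
  obtain ⟨hx', rfl⟩ := h'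
  exact ⟨add_mem hx hx', by rw [← map_add]; rfl⟩

theorem mul {x x' : F} {y y' : Fb} (h : G.R x y) (h' : G.R x' y') : G.R (x * x') (y * y') := by
  obtain ⟨hx, rfl⟩ := h
  obtain ⟨hx', rfl⟩ := h'
  exact ⟨mul_mem hx hx', by rw [← map_mul]; rfl⟩

theorem neg {x : F} {y : Fb} (h : G.R x y) : G.R (-x) (-y) := by
  obtain ⟨hx, rfl⟩ := h
  exact ⟨neg_mem hx, by rw [← map_neg]; rfl⟩

theorem sub {x x' : F} {y y' : Fb} (h : G.R x y) (h' : G.R x' y') : G.R (x - x') (y - y') := by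
  rw [sub_eq_add_neg, sub_eq_add_neg]
  exact h.add h'.neg

variable (G) in
theorem zero : G.R 0 0 := ⟨zero_mem _, map_zero G.red⟩

variable (G) in
theorem one : G.R 1 1 := ⟨one_mem _, map_one G.red⟩

theorem pow {x : F} {y : Fb} (h : G.R x y) (n : ℕ) : G.R (x ^ n) (y ^ n) := by
  induction n with
  | zero => simpa using one G
  | succ n ih => rw [pow_succ, pow_succ]; exact ih.mul h

theorem sum {ι : Type*} (s : Finset ι) {x : ι → F} {y : ι → Fb} (h : ∀ i ∈ s, G.R (x i) (y i)) :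
    G.R (∑ i ∈ s, x i) (∑ i ∈ s, y i) := by
  classical
  induction s using Finset.induction_on with
  | empty => simpa using zero G
  | insert i s hi ih =>
    rw [Finset.sum_insert hi, Finset.sum_insert hi]
    exact (h i (Finset.mem_insert_self i s)).add (ih fun j hj => h j (Finset.mem_insert_of_mem hj))

theorem prod {ι : Type*} (s : Finset ι) {x : ι → F} {y : ι → Fb} (h : ∀ i ∈ s, G.R (x i) (y i)) :
    G.R (∏ i ∈ s, x i) (∏ i ∈ s, y i) := by
  classical
  induction s using Finset.induction_on with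
  | empty => simpa using one G
  | insert i s hi ih =>
    rw [Finset.prod_insert hi, Finset.prod_insert hi]
    exact (h i (Finset.mem_insert_self i s)).mul (ih fun j hj => h j (Finset.mem_insert_of_mem hj))

variable (G) in
theorem const (a : A) : G.R (algebraMap K F a) (algebraMap κ Fb (π a)) := ⟨G.mem a, G.red_mem a⟩

end R

variable (G) in
theorem exists_R (y : Fb) : ∃ x, G.R x y := by
  obtain ⟨⟨x, hx⟩, h⟩ := G.surj y
  exact ⟨x, hx, h⟩

theorem exists_R_of_mem {x : F} (hx : x ∈ G.O) : ∃ y, G.R x y := ⟨_, hx, rfl⟩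

section Local

variable [IsLocalHom π]

omit [IsLocalHom π] in
theorem inv_mem_of_not_mem {c : K} (hc : c ∉ A) : c⁻¹ ∈ A := (A.mem_or_inv_mem c).resolve_left hc

theorem π_inv_eq_zero {c : K} (hc : c ∉ A) : π ⟨c⁻¹, inv_mem_of_not_mem hc⟩ = 0 := by
  by_contra h
  have h1 : IsUnit (π ⟨c⁻¹, inv_mem_of_not_mem hc⟩) := isUnit_iff_ne_zero.2 h
  have h2 : IsUnit (⟨c⁻¹, inv_mem_of_not_mem hc⟩ : A) := isUnit_of_map_unit π _ h1
  obtain ⟨u, hu⟩ := h2
  apply hc
  have h3 : ((↑u⁻¹ : A) : K) = c := by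
    have h4 : ((u : A) : K) * ((↑u⁻¹ : A) : K) = 1 := by
      have := congrArg (fun z : A => (z : K)) u.mul_inv
      simpa only [MulMemClass.coe_mul, OneMemClass.coe_one] using this
    rw [hu] at h4
    simp only at h4
    have hc0 : c ≠ 0 := by rintro rfl; exact hc (zero_mem _)
    field_simp at h4
    exact h4
  rw [← h3]
  exact Subtype.mem _

theorem mem_of_algebraMap_mem {c : K} (h : algebraMap K F c ∈ G.O) : c ∈ A := by
  by_contra hc
  obtain ⟨y, hy⟩ := exists_R_of_mem h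
  have h1 := R.const G ⟨c⁻¹, inv_mem_of_not_mem hc⟩
  rw [π_inv_eq_zero hc, map_zero] at h1
  have hc0 : c ≠ 0 := by rintro rfl; exact hc (zero_mem _)
  have h2 := hy.mul h1
  rw [mul_zero] at h2
  simp only [← map_mul, mul_inv_cancel₀ hc0, map_one] at h2
  exact one_ne_zero ((R.one G).unique h2)

theorem R.inv {x : F} {y : Fb} (h : G.R x y) (hy : y ≠ 0) : G.R x⁻¹ y⁻¹ := by
  have hx : x ≠ 0 := by
    rintro rfl
    exact hy (h.unique (R.zero G))
  obtain ⟨c, hc, hm, hz⟩ := G.scale x⁻¹ (inv_ne_zero hx)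
  have h1 : G.R (algebraMap K F c * x⁻¹) (G.red ⟨_, hm⟩) := ⟨hm, rfl⟩
  have h2 := h1.mul h
  rw [mul_assoc, inv_mul_cancel₀ hx, mul_one] at h2
  have hcA : c ∈ A := mem_of_algebraMap_mem h2.mem
  have h3 := R.const G ⟨c, hcA⟩
  have h4 := h3.unique h2
  have h5 : π ⟨c, hcA⟩ ≠ 0 := by
    intro h0
    rw [h0, map_zero] at h4
    exact mul_ne_zero hz hy h4.symm
  obtain ⟨u, hu⟩ := isUnit_of_map_unit π ⟨c, hcA⟩ (isUnit_iff_ne_zero.2 h5)
  have h6 := (R.const G (↑u⁻¹ : A)).mul h1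
  have h7 : algebraMap K F ((↑u⁻¹ : A) : K) * (algebraMap K F c * x⁻¹) = x⁻¹ := by
    have h8 : ((↑u⁻¹ : A) : K) * c = 1 := by
      have := congrArg (fun z : A => (z : K)) u.inv_mul
      rw [hu] at this
      simpa using this
    rw [← mul_assoc, ← map_mul, h8, map_one, one_mul]
  rw [h7] at h6
  have h9 := h6.mul h
  rw [inv_mul_cancel₀ hx] at h9
  have h10 := (R.one G).unique h9
  rw [eq_inv_of_mul_eq_one_left h10.symm] at h6
  exact h6

theorem R.div {x x' : F} {y y' : Fb} (h : G.R x y) (h' : G.R x' y') (hy' : y' ≠ 0) :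
    G.R (x / x') (y / y') := by
  rw [div_eq_mul_inv, div_eq_mul_inv]
  exact h.mul (h'.inv hy')

omit [IsLocalHom π] in
theorem R.ne_zero {x : F} {y : Fb} (h : G.R x y) (hy : y ≠ 0) : x ≠ 0 := by
  rintro rfl
  exact hy (h.unique (R.zero G))

/-- Elements outside `O` have inverse reducing to zero. -/
theorem R_inv_zero_of_not_mem {x : F} (hx : x ∉ G.O) : G.R x⁻¹ 0 := by
  have hx0 : x ≠ 0 := by rintro rfl; exact hx (zero_mem _)
  obtain ⟨c, hc, hm, hz⟩ := G.scale x hx0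
  have h1 : G.R (algebraMap K F c * x) (G.red ⟨_, hm⟩) := ⟨hm, rfl⟩
  have hc' : c⁻¹ ∉ A := by
    intro h
    have h2 := (R.const G ⟨c⁻¹, h⟩).mul h1
    simp only [← mul_assoc, ← map_mul, inv_mul_cancel₀ hc, map_one, one_mul] at h2
    exact hx h2.mem
  have h3 : G.R (algebraMap K F c) 0 := by
    have := R.const G ⟨c⁻¹⁻¹, inv_mem_of_not_mem hc'⟩
    rw [π_inv_eq_zero hc', map_zero] at this
    simpa using this
  have h4 := h3.mul (h1.inv hz)
  rw [zero_mul] at h4
  have h5 : algebraMap K F c * (algebraMap K F c * x)⁻¹ = x⁻¹ := by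
    have : algebraMap K F c ≠ 0 := by simpa using hc
    field_simp
  rwa [h5] at h4

/-- Elements with zero reduction are small multiples of units. -/
theorem exists_of_R_zero {x : F} (hx0 : x ≠ 0) (hx : G.R x 0) :
    ∃ (a : A) (u : F) (z : Fb), π a = 0 ∧ a ≠ 0 ∧ z ≠ 0 ∧ G.R u z ∧ x = algebraMap K F a * u := by
  obtain ⟨c, hc, hm, hz⟩ := G.scale x hx0
  have h1 : G.R (algebraMap K F c * x) (G.red ⟨_, hm⟩) := ⟨hm, rfl⟩
  have hcA : c ∉ A := by
    intro h
    have h2 := (R.const G ⟨c, h⟩).mul hx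
    rw [mul_zero] at h2
    exact hz (h1.unique h2)
  refine ⟨⟨c⁻¹, inv_mem_of_not_mem hcA⟩, _, _, π_inv_eq_zero hcA, ?_, hz, h1, ?_⟩
  · intro h0
    have := congrArg (fun z : A => (z : K)) h0
    simp only [ZeroMemClass.coe_zero, inv_eq_zero] at this
    exact hc this
  · simp only [← mul_assoc, ← map_mul, inv_mul_cancel₀ hc, map_one, one_mul]

end Local

/-! ### Scaling of elements of `K` and of polynomials -/

theorem exists_scale_finset {ι : Type*} (s : Finset ι) (x : ι → K) (hx : ∃ i ∈ s, x i ≠ 0) :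
    ∃ i ∈ s, x i ≠ 0 ∧ ∀ j ∈ s, (x i)⁻¹ * x j ∈ A := by
  classical
  obtain ⟨i, hi, hi'⟩ := Finset.exists_max_image (s.filter fun i => x i ≠ 0)
    (fun i => A.valuation (x i)) (by
      obtain ⟨i, hi, hx⟩ := hx
      exact ⟨i, Finset.mem_filter.2 ⟨hi, hx⟩⟩)
  obtain ⟨hi1, hi2⟩ := Finset.mem_filter.1 hi
  refine ⟨i, hi1, hi2, fun j hj => ?_⟩
  by_cases hj0 : x j = 0
  · rw [hj0, mul_zero]; exact zero_mem _
  · rw [← A.valuation_le_one_iff, map_mul, map_inv₀]
    have h1 := hi' j (Finset.mem_filter.2 ⟨hj, hj0⟩)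
    have h2 : A.valuation (x i) ≠ 0 := (_root_.map_ne_zero _).2 hi2
    rw [mul_comm]
    exact mul_inv_le_one_of_le₀ h1 zero_le

/-- simultaneous scaling of a family of polynomials. -/
theorem exists_scale_polys {ι : Type*} [Finite ι] (p : ι → K[X]) (hp : ∃ i, p i ≠ 0) :
    ∃ (c : K) (q : ι → A[X]), c ≠ 0 ∧ (∀ i, (q i).map A.subtype = C c * p i) ∧
      ∃ i, (q i).map π ≠ 0 := by
  classical
  have := Fintype.ofFinite ι
  set s : Finset (ι × ℕ) := Finset.univ.biUnion fun i => (p i).support.map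
    ⟨fun n => (i, n), fun a b h => (Prod.ext_iff.1 h).2⟩ with hs
  have hmem : ∀ i n, (p i).coeff n ≠ 0 → (i, n) ∈ s := by
    intro i n h
    rw [hs, Finset.mem_biUnion]
    exact ⟨i, Finset.mem_univ _, Finset.mem_map.2 ⟨n, mem_support_iff.2 h, rfl⟩⟩
  obtain ⟨i₀, hi₀⟩ := hp
  obtain ⟨⟨i, n⟩, hin, hne, hall⟩ := exists_scale_finset (A := A) s
    (fun x => (p x.1).coeff x.2) (by
      obtain ⟨n, hn⟩ : ∃ n, (p i₀).coeff n ≠ 0 := by
        by_contra h
        push Not at h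
        exact hi₀ (Polynomial.ext h)
      exact ⟨(i₀, n), hmem _ _ hn, hn⟩)
  simp only at hne hall
  have hlift : ∀ j, C ((p i).coeff n)⁻¹ * p j ∈ lifts A.subtype := by
    intro j
    rw [lifts_iff_coeff_lifts]
    intro m
    rw [coeff_C_mul]
    by_cases h0 : (p j).coeff m = 0
    · rw [h0, mul_zero]; exact ⟨0, rfl⟩
    · exact ⟨⟨_, hall (j, m) (hmem j m h0)⟩, rfl⟩
  choose q hq using fun j => (mem_lifts _).1 (hlift j)
  refine ⟨((p i).coeff n)⁻¹, q, inv_ne_zero hne, hq, i, fun h => ?_⟩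
  have h1 : (q i).coeff n = 1 := by
    apply Subtype.ext
    have := congrArg (fun r => r.coeff n) (hq i)
    simp only [coeff_map, coeff_C_mul, inv_mul_cancel₀ hne] at this
    exact this
  have h2 := congrArg (fun r => r.coeff n) h
  simp only [coeff_map, h1, map_one, coeff_zero] at h2
  exact one_ne_zero h2

theorem exists_scale_poly (p : K[X]) (hp : p ≠ 0) :
    ∃ (c : K) (q : A[X]), c ≠ 0 ∧ q.map A.subtype = C c * p ∧ q.map π ≠ 0 := by
  obtain ⟨c, q, hc, h1, i, h2⟩ := exists_scale_polys (π := π) (fun _ : Unit => p) ⟨(), hp⟩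
  exact ⟨c, q i, hc, h1 i, h2⟩

end GaussRed

end Fermat.Agent.GoodRed
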