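import Fermat.Agent.GoodRed.Trunc
import Fermat.Agent.GoodRed.Laurent
import Fermat.Agent.ModFun.Tower1

/-!
# The Hauptmoduln of level `2` and `3`
-/

set_option autoImplicit false
set_option linter.unusedSectionVars false

noncomputable section

namespace Fermat.Agent.GoodRed

open ModularCurve HahnSeries Fermat.Agent.ModFun

section Sp

variable {R : Type*} [CommRing R]

/-- `q^n f(q)` -/
def sp (n : ℤ) (f : PowerSeries R) : LaurentSeries R :=
  HahnSeries.single n 1 * HahnSeries.ofPowerSeries ℤ R f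

theorem sp_mul (n m : ℤ) (f g : PowerSeries R) : sp n f * sp m g = sp (n + m) (f * g) := by
  rw [sp, sp, sp, mul_mul_mul_comm, HahnSeries.single_mul_single, one_mul, map_mul]

theorem sp_pow (n : ℤ) (f : PowerSeries R) (m : ℕ) : sp n f ^ m = sp (m * n) (f ^ m) := by
  rw [sp, sp, mul_pow, HahnSeries.single_pow, one_pow, map_pow, nsmul_eq_mul]

theorem sp_add (n : ℤ) (f g : PowerSeries R) : sp n f + sp n g = sp n (f + g) := by
  rw [sp, sp, sp, map_add, mul_add]

theorem sp_sub (n : ℤ) (f g : PowerSeries R) : sp n f - sp n g = sp n (f - g) := by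
  rw [sp, sp, sp, map_sub, mul_sub]

theorem sp_X (n : ℤ) (f : PowerSeries R) (m : ℕ) : sp n (PowerSeries.X ^ m * f) = sp (n + m) f := by
  rw [sp, sp, map_mul, map_pow, HahnSeries.ofPowerSeries_X, HahnSeries.single_pow, ← mul_assoc,
    HahnSeries.single_mul_single, one_pow, one_mul]
  simp

theorem C_eq_sp (c : R) : (HahnSeries.C c : LaurentSeries R) = sp 0 (PowerSeries.C c) := by
  rw [sp, HahnSeries.ofPowerSeries_C]
  simp

theorem sp_coeff_add (n : ℤ) (f : PowerSeries R) (i : ℕ) :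
    (sp n f).coeff (n + i) = PowerSeries.coeff i f := by
  rw [sp, HahnSeries.coeff_single_mul, one_mul, add_sub_cancel_left,
    HahnSeries.ofPowerSeries_apply_coeff]

theorem sp_coeff_self (n : ℤ) (f : PowerSeries R) :
    (sp n f).coeff n = PowerSeries.constantCoeff f := by
  have := sp_coeff_add n f 0
  rwa [Nat.cast_zero, add_zero, PowerSeries.coeff_zero_eq_constantCoeff] at this

theorem sp_coeff_of_lt (n : ℤ) (f : PowerSeries R) {m : ℤ} (h : m < n) : (sp n f).coeff m = 0 := by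
  rw [sp, HahnSeries.coeff_single_mul, one_mul]
  exact ofPowerSeries_coeff_of_neg _ (by omega)

/-- `x ∈ q^n R[[q]]` with leading coefficient `c` -/
def Ld (n : ℤ) (x : LaurentSeries R) (c : R) : Prop := (∀ m < n, x.coeff m = 0) ∧ x.coeff n = c

/-- `x ∈ q^n R[[q]]` -/
def Bd (n : ℤ) (x : LaurentSeries R) : Prop := ∀ m < n, x.coeff m = 0

theorem Ld.bd {n : ℤ} {x : LaurentSeries R} {c : R} (h : Ld n x c) : Bd n x := h.1

theorem bd_sp (n : ℤ) (f : PowerSeries R) : Bd n (sp n f) := fun _ h => sp_coeff_of_lt n f h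

theorem Bd.eq_sp {n : ℤ} {x : LaurentSeries R} (h : Bd n x) : ∃ f, x = sp n f := by
  refine ⟨PowerSeries.mk fun i => x.coeff (n + i), ?_⟩
  ext m
  rcases lt_or_ge m n with hm | hm
  · rw [h m hm, sp_coeff_of_lt n _ hm]
  · obtain ⟨i, rfl⟩ := Int.exists_add_of_le hm
    rw [sp_coeff_add, PowerSeries.coeff_mk]

theorem Bd.ld {n : ℤ} {x : LaurentSeries R} (h : Bd n x) : Ld n x (x.coeff n) := ⟨h, rfl⟩

theorem ld_sp (n : ℤ) (f : PowerSeries R) : Ld n (sp n f) (PowerSeries.constantCoeff f) :=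
  ⟨bd_sp n f, sp_coeff_self n f⟩

theorem Ld.mul {n m : ℤ} {x y : LaurentSeries R} {c d : R} (h : Ld n x c) (h' : Ld m y d) :
    Ld (n + m) (x * y) (c * d) := by
  obtain ⟨f, rfl⟩ := h.bd.eq_sp
  obtain ⟨g, rfl⟩ := h'.bd.eq_sp
  have h1 := h.2
  have h2 := h'.2
  rw [sp_coeff_self] at h1 h2
  rw [sp_mul, ← h1, ← h2, ← map_mul]
  exact ld_sp _ _

theorem Bd.mul {n m : ℤ} {x y : LaurentSeries R} (h : Bd n x) (h' : Bd m y) :
    Bd (n + m) (x * y) := (h.ld.mul h'.ld).bd

theorem Bd.mono {n m : ℤ} {x : LaurentSeries R} (h : Bd n x) (hm : m ≤ n) : Bd m x :=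
  fun i hi => h i (by omega)

theorem Bd.add {n : ℤ} {x y : LaurentSeries R} (h : Bd n x) (h' : Bd n y) : Bd n (x + y) :=
  fun i hi => by rw [HahnSeries.coeff_add, h i hi, h' i hi, add_zero]

theorem Bd.neg {n : ℤ} {x : LaurentSeries R} (h : Bd n x) : Bd n (-x) :=
  fun i hi => by rw [HahnSeries.coeff_neg, h i hi, neg_zero]

theorem Bd.sub {n : ℤ} {x y : LaurentSeries R} (h : Bd n x) (h' : Bd n y) : Bd n (x - y) := by
  rw [sub_eq_add_neg]
  exact h.add h'.neg

theorem Bd.C_mul {n : ℤ} {x : LaurentSeries R} (h : Bd n x) (c : R) : Bd n (HahnSeries.C c * x) := by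
  intro i hi
  rw [HahnSeries.C_apply, HahnSeries.coeff_single_mul, sub_zero, h i hi, mul_zero]

theorem Ld.C_mul {n : ℤ} {x : LaurentSeries R} {d : R} (h : Ld n x d) (c : R) :
    Ld n (HahnSeries.C c * x) (c * d) := by
  refine ⟨h.bd.C_mul c, ?_⟩
  rw [HahnSeries.C_apply, HahnSeries.coeff_single_mul, sub_zero, h.2]

theorem Ld.twist {n : ℤ} {x : LaurentSeries R} {d : R} (h : Ld n x d) (c : Rˣ) :
    Ld n (twist c x) (((c ^ n : Rˣ) : R) * d) :=
  ⟨fun m hm => by rw [twist_coeff, h.1 m hm, mul_zero], by rw [twist_coeff, h.2]⟩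

theorem Ld.qExpand {n : ℤ} {x : LaurentSeries R} {d : R} (h : Ld n x d) (p : ℕ) [NeZero p] :
    Ld (p * n) (qExpand R p x) d := by
  have hp : (0 : ℤ) < p := by exact_mod_cast Nat.pos_of_ne_zero (NeZero.ne p)
  refine ⟨fun m hm => ?_, by rw [qExpand_coeff_mul, h.2]⟩
  by_cases hd : (p : ℤ) ∣ m
  · obtain ⟨m', rfl⟩ := hd
    rw [qExpand_coeff_mul]
    exact h.1 m' (lt_of_mul_lt_mul_left hm hp.le)
  · exact qExpand_coeff_of_not_dvd p x hd

theorem Bd.elim {k : Type*} [Field k] {n : ℤ} {x y : LaurentSeries k} {c δ : k} (hx : Ld n x c)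
    (hc : c ≠ 0) (hy : Bd (n + 1) y) (h : Bd (n + 1) (HahnSeries.C δ * x + y)) : δ = 0 := by
  have h1 := h n (by omega)
  rw [HahnSeries.coeff_add, hy n (by omega), add_zero, (hx.C_mul δ).2] at h1
  exact (mul_eq_zero.1 h1).resolve_right hc

end Sp

theorem jqModC_eq_sp (R : Type*) [CommRing R] :
    jqModC R = sp (-1) (jNum.map (Int.castRingHom R)) := rfl

theorem DeltaSer_eq_sp (R : Type*) [CommRing R] :
    DeltaSer R = sp 1 (dedekindEtaUnit.map (Int.castRingHom R)) := rfl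

theorem DeltaInvSer_eq_sp (R : Type*) [CommRing R] :
    DeltaInvSer R = sp (-1) (dedekindEtaUnitInv.map (Int.castRingHom R)) := rfl

theorem ld_jq (R : Type*) [CommRing R] : Ld (-1) (jqModC R) (1 : R) := by
  have := ld_sp (-1) (jNum.map (Int.castRingHom R))
  rw [← jqModC_eq_sp] at this
  convert this using 1
  rw [← PowerSeries.coeff_zero_eq_constantCoeff, PowerSeries.coeff_map,
    PowerSeries.coeff_zero_eq_constantCoeff, constantCoeff_jNum, map_one]

theorem ld_Delta (R : Type*) [CommRing R] : Ld 1 (DeltaSer R) (1 : R) := by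
  have := ld_sp 1 (dedekindEtaUnit.map (Int.castRingHom R))
  rw [← DeltaSer_eq_sp] at this
  convert this using 1
  rw [← PowerSeries.coeff_zero_eq_constantCoeff, PowerSeries.coeff_map,
    PowerSeries.coeff_zero_eq_constantCoeff, constantCoeff_dedekindEtaUnit, map_one]

theorem ld_DeltaInv (R : Type*) [CommRing R] : Ld (-1) (DeltaInvSer R) (1 : R) := by
  have := ld_sp (-1) (dedekindEtaUnitInv.map (Int.castRingHom R))
  rw [← DeltaInvSer_eq_sp] at this
  convert this using 1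
  rw [← PowerSeries.coeff_zero_eq_constantCoeff, PowerSeries.coeff_map,
    PowerSeries.coeff_zero_eq_constantCoeff, constantCoeff_dedekindEtaUnitInv, map_one]

section Fam

variable {k : Type*} [Field k] (p : ℕ) [hp : Fact p.Prime] (z : kˣ)

theorem ld_gfam_none : Ld (p * p - p : ℤ) (gfam p k z none) ((p : k) ^ 12) := by
  have h1 := (((ld_Delta k).qExpand (p * p)).C_mul ((p : k) ^ 12)).mul ((ld_DeltaInv k).qExpand p)
  have h2 : (((p * p : ℕ) : ℤ) * 1 + (p : ℤ) * -1) = p * p - p := by push_cast; ring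
  rw [h2, mul_one, mul_one] at h1
  exact h1

theorem ld_gfam_some (b : ZMod p) :
    Ld (1 - p : ℤ) (gfam p k z (some b)) ((z ^ b.val : kˣ) : k) := by
  have h1 := ((ld_Delta k).twist (z ^ b.val)).mul ((ld_DeltaInv k).qExpand p)
  have h2 : ((1 : ℤ) + (p : ℤ) * -1) = 1 - p := by ring
  rw [h2, mul_one, mul_one, zpow_one] at h1
  exact h1

theorem ld_uSer : Ld (p - 1 : ℤ) (uSer p k) ((p : k) ^ 12) := by
  have h1 := (((ld_Delta k).qExpand p).C_mul ((p : k) ^ 12)).mul (ld_DeltaInv k)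
  have h2 : ((p : ℤ) * 1 + -1) = p - 1 := by ring
  rw [h2, mul_one, mul_one] at h1
  exact h1

theorem natDegree_le_of_bd {P : Polynomial k} {b : ℤ} (hb : 0 ≤ b)
    (h : Bd (-b) (qExpand k p (jev k P))) : p * (P.natDegree : ℤ) ≤ b := by
  by_contra hlt
  push Not at hlt
  have hP : P ≠ 0 := by
    rintro rfl
    simp at hlt
    omega
  have h1 := h (p * (-(P.natDegree : ℤ))) (by linarith)
  rw [qExpand_coeff_mul, jev_coeff_natDegree] at h1
  exact hP (Polynomial.leadingCoeff_eq_zero.1 h1)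

end Fam

end Fermat.Agent.GoodRed
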