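import Fermat.Agent.GoodRed.Haupt

/-!
# The Hauptmoduln of level `2` and `3`: the relation with `j`
-/

set_option autoImplicit false
set_option linter.unusedSectionVars false

noncomputable section

namespace Fermat.Agent.GoodRed

open ModularCurve HahnSeries Fermat.Agent.ModFun

section Gen

variable {k : Type*} [Field k]

theorem jev_le_two {P : Polynomial k} (h : P.natDegree ≤ 2) :
    jev k P = HahnSeries.C (P.coeff 0) + HahnSeries.C (P.coeff 1) * jqModC k +
      HahnSeries.C (P.coeff 2) * jqModC k ^ 2 := by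
  rw [jev, Polynomial.coe_eval₂RingHom, Polynomial.eval₂_eq_sum_range' _ (Nat.lt_succ_of_le h)]
  simp only [Finset.sum_range_succ, Finset.sum_range_zero, pow_zero, pow_one, mul_one, zero_add]

/-- image of a power series over `ℤ` -/
def ps (k : Type*) [CommRing k] (f : PowerSeries ℤ) : LaurentSeries k :=
  HahnSeries.ofPowerSeries ℤ k (f.map (Int.castRingHom k))

theorem ps_mul (f g : PowerSeries ℤ) : ps k (f * g) = ps k f * ps k g := by
  simp [ps]

theorem ps_add (f g : PowerSeries ℤ) : ps k (f + g) = ps k f + ps k g := by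
  simp [ps]

theorem ps_pow (f : PowerSeries ℤ) (n : ℕ) : ps k (f ^ n) = ps k f ^ n := by
  simp [ps]

theorem ps_C (c : ℤ) : ps k (PowerSeries.C c) = HahnSeries.C (c : k) := by
  rw [ps, PowerSeries.map_C, HahnSeries.ofPowerSeries_C]
  rfl

theorem ps_X : ps k PowerSeries.X = HahnSeries.single (1 : ℤ) (1 : k) := by
  rw [ps, PowerSeries.map_X, HahnSeries.ofPowerSeries_X]

theorem ps_eq_sp (f : PowerSeries ℤ) : ps k f = sp 0 (f.map (Int.castRingHom k)) := by
  rw [ps, sp]
  simp

theorem bd_ps (f : PowerSeries ℤ) : Bd 0 (ps k f) := by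
  rw [ps_eq_sp]
  exact bd_sp 0 _

theorem bd_ps_of_agree {n : ℕ} {f : PowerSeries ℤ} (h : Agree n f (List.replicate n 0)) :
    Bd n (ps k f) := by
  intro m hm
  rcases lt_or_ge m 0 with h0 | h0
  · exact bd_ps f m h0
  · obtain ⟨i, rfl⟩ := Int.eq_ofNat_of_zero_le h0
    have h1 := sp_coeff_add 0 (f.map (Int.castRingHom k)) i
    rw [← ps_eq_sp, zero_add] at h1
    rw [h1, PowerSeries.coeff_map, h i (by exact_mod_cast hm)]
    have : (List.replicate n (0 : ℤ)).getD i 0 = 0 := by
      rw [List.getD_eq_getElem?_getD, List.getElem?_replicate]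
      split_ifs <;> rfl
    rw [this]
    simp

theorem ps_D_mul : ps k dedekindEtaUnit * ps k dedekindEtaUnitInv = 1 := by
  rw [← ps_mul, dedekindEtaUnit_mul_inv, ps, map_one, map_one]

theorem ps_D_ne : ps k dedekindEtaUnit ≠ 0 := left_ne_zero_of_mul_eq_one ps_D_mul

theorem ps_Dinv : ps k dedekindEtaUnitInv = (ps k dedekindEtaUnit)⁻¹ :=
  eq_inv_of_mul_eq_one_right ps_D_mul

theorem single_one_ne : (HahnSeries.single (1 : ℤ) (1 : k) : LaurentSeries k) ≠ 0 := by simp

theorem single_neg_one : (HahnSeries.single (-1 : ℤ) (1 : k) : LaurentSeries k) =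
    (HahnSeries.single (1 : ℤ) (1 : k))⁻¹ := by
  apply eq_inv_of_mul_eq_one_right
  rw [HahnSeries.single_mul_single]
  simp

theorem jq_eq : jqModC k = ps k (eisenstein4 ^ 3) / (HahnSeries.single (1 : ℤ) (1 : k) *
    ps k dedekindEtaUnit) := by
  have : jqModC k = HahnSeries.single (-1 : ℤ) (1 : k) * ps k jNum := rfl
  rw [this, jNum, ps_mul, single_neg_one, ps_Dinv]
  field_simp

theorem Delta_eq : DeltaSer k = HahnSeries.single (1 : ℤ) (1 : k) * ps k dedekindEtaUnit := rfl

theorem DeltaInv_eq : DeltaInvSer k = (DeltaSer k)⁻¹ := DeltaInvSer_eq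

theorem ps_expand (p : ℕ) [NeZero p] (f : PowerSeries ℤ) :
    ps k (expandP p f) = qExpand k p (ps k f) := by
  have hp : 0 < p := Nat.pos_of_ne_zero (NeZero.ne p)
  ext m
  have hc : ∀ (g : PowerSeries ℤ) (i : ℕ), (ps k g).coeff (i : ℤ) = ((PowerSeries.coeff i g : ℤ) : k) := by
    intro g i
    have h1 := sp_coeff_add 0 (g.map (Int.castRingHom k)) i
    rw [← ps_eq_sp, zero_add] at h1
    rw [h1, PowerSeries.coeff_map]
    simp
  by_cases hd : (p : ℤ) ∣ m
  · obtain ⟨m', rfl⟩ := hd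
    rw [qExpand_coeff_mul]
    rcases lt_or_ge m' 0 with h0 | h0
    · rw [bd_ps f m' h0, bd_ps _ _ (mul_neg_of_pos_of_neg (by exact_mod_cast hp) h0)]
    · obtain ⟨i, rfl⟩ := Int.eq_ofNat_of_zero_le h0
      rw [show (p : ℤ) * (i : ℤ) = ((p * i : ℕ) : ℤ) by push_cast; ring, hc, hc, expandP,
        PowerSeries.coeff_mk, if_pos (dvd_mul_right p i), Nat.mul_div_cancel_left i hp]
  · rw [qExpand_coeff_of_not_dvd p _ hd]
    rcases lt_or_ge m 0 with h0 | h0
    · exact bd_ps _ _ h0
    · obtain ⟨i, rfl⟩ := Int.eq_ofNat_of_zero_le h0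
      rw [hc, expandP, PowerSeries.coeff_mk, if_neg (fun h => hd (by exact_mod_cast h))]
      simp

theorem uSer_eq (p : ℕ) [Fact p.Prime] : uSer p k =
    HahnSeries.C ((p : k) ^ 12) * (HahnSeries.single (1 : ℤ) (1 : k)) ^ (p - 1) *
      ps k (expandP p dedekindEtaUnit) / ps k dedekindEtaUnit := by
  have hp : 1 ≤ p := (Fact.out : p.Prime).one_le
  rw [uSer, DeltaInv_eq, Delta_eq, map_mul, ← ps_expand]
  have h1 : qExpand k p (HahnSeries.single (1 : ℤ) (1 : k)) =
      (HahnSeries.single (1 : ℤ) (1 : k)) ^ (p - 1) * HahnSeries.single (1 : ℤ) (1 : k) := by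
    rw [← pow_succ, Nat.sub_add_cancel hp, qExpand_single, HahnSeries.single_pow, one_pow]
    congr 1
  rw [h1]
  have := ps_D_ne (k := k)
  have h2 := single_one_ne (k := k)
  field_simp

end Gen

/-- coefficients of `Δ/q` -/
theorem agree_D : Agree 10 dedekindEtaUnit
    [1, -24, 252, -1472, 4830, -6048, -16744, 84480, -113643, -115920] := by
  have h1 := agree_eta10
  have h2 := h1.mul h1
  have h3 := (h2.mul h1)
  have h6 := h3.mul h3
  have h12 := h6.mul h6
  have h24 := h12.mul h12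
  have : dedekindEtaUnit = (((etaProd * etaProd * etaProd) * (etaProd * etaProd * etaProd)) *
    ((etaProd * etaProd * etaProd) * (etaProd * etaProd * etaProd))) *
    (((etaProd * etaProd * etaProd) * (etaProd * etaProd * etaProd)) *
    ((etaProd * etaProd * etaProd) * (etaProd * etaProd * etaProd))) := by
    rw [dedekindEtaUnit]; ring
  rw [this]
  exact h24.congr (by decide +kernel)

theorem agree_E : Agree 10 (eisenstein4 ^ 3)
    [1, 720, 179280, 16954560, 396974160, 4632858720, 34413301440, 187477879680, 814940600400, 2975469665040] := by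
  have h := (agree_E4.mul agree_E4).mul agree_E4
  rw [show eisenstein4 ^ 3 = eisenstein4 * eisenstein4 * eisenstein4 by ring]
  refine h.congr ?_
  decide +kernel

/-- the truncated identity at level `2` -/
def G2 : PowerSeries ℤ :=
  PowerSeries.C (4096 ^ 2) * (PowerSeries.X ^ 3 * expandP 2 dedekindEtaUnit ^ 3) +
  PowerSeries.C (48 * 4096) * (PowerSeries.X ^ 2 * expandP 2 dedekindEtaUnit ^ 2 *
    dedekindEtaUnit) +
  PowerSeries.C 768 * (PowerSeries.X ^ 1 * expandP 2 dedekindEtaUnit * dedekindEtaUnit ^ 2) +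
  PowerSeries.C (-1) * (eisenstein4 ^ 3 * expandP 2 dedekindEtaUnit * dedekindEtaUnit) +
  dedekindEtaUnit ^ 3

/-- the truncated identity at level `3` -/
def G3 : PowerSeries ℤ :=
  PowerSeries.C (3 ^ 36) * (PowerSeries.X ^ 8 * expandP 3 dedekindEtaUnit ^ 4) +
  PowerSeries.C (-(756 * 3 ^ 24)) * (PowerSeries.X ^ 6 * expandP 3 dedekindEtaUnit ^ 3 *
    dedekindEtaUnit) +
  PowerSeries.C (72 * 3 ^ 12) * (PowerSeries.X ^ 3 * eisenstein4 ^ 3 *
    expandP 3 dedekindEtaUnit ^ 2 * dedekindEtaUnit) +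
  PowerSeries.C (19926 * 3 ^ 12) * (PowerSeries.X ^ 4 *
    expandP 3 dedekindEtaUnit ^ 2 * dedekindEtaUnit ^ 2) +
  PowerSeries.C (-1) * ((eisenstein4 ^ 3) ^ 2 * expandP 3 dedekindEtaUnit * dedekindEtaUnit) +
  PowerSeries.C 1512 * (PowerSeries.X ^ 1 * eisenstein4 ^ 3 * expandP 3 dedekindEtaUnit *
    dedekindEtaUnit ^ 2) +
  PowerSeries.C (-177876) * (PowerSeries.X ^ 2 * expandP 3 dedekindEtaUnit *
    dedekindEtaUnit ^ 3) +
  dedekindEtaUnit ^ 4

theorem Agree.pow2 {n : ℕ} {f : PowerSeries ℤ} {a : List ℤ} (hf : Agree n f a) :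
    Agree n (f ^ 2) (mulL n a a) := by rw [pow_two]; exact hf.mul hf

theorem Agree.pow3 {n : ℕ} {f : PowerSeries ℤ} {a : List ℤ} (hf : Agree n f a) :
    Agree n (f ^ 3) (mulL n (mulL n a a) a) := by rw [pow_succ]; exact hf.pow2.mul hf

theorem Agree.pow4 {n : ℕ} {f : PowerSeries ℤ} {a : List ℤ} (hf : Agree n f a) :
    Agree n (f ^ 4) (mulL n (mulL n (mulL n a a) a) a) := by rw [pow_succ]; exact hf.pow3.mul hf

theorem agree_G2 : Agree 10 G2 (List.replicate 10 0) := by
  have hD := agree_D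
  have hE := agree_E
  have hX := agree_D.expand (p := 2)
  refine ((((((agree_X_pow 10 3).mul hX.pow3).smul _).add
    ((((agree_X_pow 10 2).mul hX.pow2).mul hD).smul _)).add
    ((((agree_X_pow 10 1).mul hX).mul hD.pow2).smul _)).add
    (((hE.mul hX).mul hD).smul _)).add hD.pow3 |>.congr ?_
  decide +kernel

theorem agree_G3 : Agree 10 G3 (List.replicate 10 0) := by
  have hD := agree_D
  have hE := agree_E
  have hX := agree_D.expand (p := 3)
  refine ((((((((agree_X_pow 10 8).mul hX.pow4).smul _).add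
    ((((agree_X_pow 10 6).mul hX.pow3).mul hD).smul _)).add
    (((((agree_X_pow 10 3).mul hE).mul hX.pow2).mul hD).smul _)).add
    ((((agree_X_pow 10 4).mul hX.pow2).mul hD.pow2).smul _)).add
    (((hE.pow2.mul hX).mul hD).smul _)).add
    (((((agree_X_pow 10 1).mul hE).mul hX).mul hD.pow2).smul _)).add
    ((((agree_X_pow 10 2).mul hX).mul hD.pow3).smul _) |>.add hD.pow4 |>.congr ?_
  decide +kernel

end Fermat.Agent.GoodRed
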