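import Fermat.Agent.GoodRed.Haupt2

/-!
# The Hauptmoduln of level `2` and `3`: the relation with `j`
-/

set_option autoImplicit false
set_option linter.unusedSectionVars false

noncomputable section

namespace Fermat.Agent.GoodRed

open ModularCurve HahnSeries Fermat.Agent.ModFun

variable {k : Type*} [Field k]

instance fact_two : Fact (Nat.Prime 2) := ⟨Nat.prime_two⟩
instance fact_three : Fact (Nat.Prime 3) := ⟨Nat.prime_three⟩

/-- the explicit relation at level `2` (as a function) -/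
def Q2 (j u : LaurentSeries k) : LaurentSeries k :=
  u ^ 3 + HahnSeries.C 48 * u ^ 2 + (HahnSeries.C 768 - j) * u + HahnSeries.C 4096

/-- the explicit relation at level `3` (as a function) -/
def Q3 (j u : LaurentSeries k) : LaurentSeries k :=
  u ^ 4 - HahnSeries.C 756 * u ^ 3 + (HahnSeries.C 72 * j + HahnSeries.C 19926) * u ^ 2 -
    (j ^ 2 - HahnSeries.C 1512 * j + HahnSeries.C 177876) * u + HahnSeries.C (3 ^ 12)

theorem bd_Dinv_pow (n : ℕ) : Bd 0 ((ps k dedekindEtaUnit)⁻¹ ^ n) := by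
  rw [← ps_Dinv, ← ps_pow]
  exact bd_ps _

theorem Q2_bd : Bd 3 (Q2 (jqModC k) (uSer 2 k)) := by
  have h1 : Q2 (jqModC k) (uSer 2 k) = HahnSeries.C 4096 * (ps k G2 *
      (ps k dedekindEtaUnit)⁻¹ ^ 3) := by
    have hD := ps_D_ne (k := k)
    have hX := single_one_ne (k := k)
    rw [Q2, jq_eq, uSer_eq, G2]
    simp only [ps_add, ps_mul, ps_pow, ps_C, ps_X]
    have h2 : ((2 : ℕ) : k) ^ 12 = 4096 := by norm_num
    rw [h2]
    push_cast
    simp only [map_neg, map_one, map_ofNat]
    field_simp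
    ring
  rw [h1]
  have h2 := (bd_ps_of_agree (k := k) agree_G2).mul (bd_Dinv_pow (k := k) 3)
  exact (h2.C_mul 4096).mono (by norm_num)

theorem Q3_bd : Bd 7 (Q3 (jqModC k) (uSer 3 k)) := by
  have h1 : Q3 (jqModC k) (uSer 3 k) = HahnSeries.C (3 ^ 12) * (ps k G3 *
      (ps k dedekindEtaUnit)⁻¹ ^ 4) := by
    have hD := ps_D_ne (k := k)
    have hX := single_one_ne (k := k)
    rw [Q3, jq_eq, uSer_eq, G3]
    simp only [ps_add, ps_mul, ps_pow, ps_C, ps_X]
    push_cast
    simp only [map_pow, map_neg, map_one, map_ofNat]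
    field_simp
    ring
  rw [h1]
  have h2 := (bd_ps_of_agree (k := k) agree_G3).mul (bd_Dinv_pow (k := k) 4)
  exact (h2.C_mul (3 ^ 12)).mono (by norm_num)

theorem phi_injective (p : ℕ) [NeZero p] :
    Function.Injective ((qExpand k p).comp (jev k)) :=
  (qExpand_injective p).comp (jev_injective k)

theorem natDegree_le_of_bd' {p : ℕ} [hp : Fact p.Prime] {P : Polynomial k} {b : ℤ} (hb : 0 ≤ b)
    (h : Bd (-b) (qExpand k p (jev k P))) (d : ℕ) (hbd : b < p * (d + 1)) :
    P.natDegree ≤ d := by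
  have h1 := natDegree_le_of_bd p (P := P) hb h
  by_contra hlt
  push Not at hlt
  have h2 : ((d : ℤ) + 1) ≤ P.natDegree := by exact_mod_cast hlt
  have h3 : (0 : ℤ) ≤ p := by positivity
  have := mul_le_mul_of_nonneg_left h2 h3
  linarith

theorem jev_le_zero {P : Polynomial k} (h : P.natDegree ≤ 0) :
    jev k P = HahnSeries.C (P.coeff 0) := by
  obtain ⟨c, rfl⟩ := Polynomial.natDegree_eq_zero.1 (Nat.le_zero.1 h)
  rw [jev_C, Polynomial.coeff_C_zero]

theorem jev_le_one {P : Polynomial k} (h : P.natDegree ≤ 1) :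
    jev k P = HahnSeries.C (P.coeff 0) + HahnSeries.C (P.coeff 1) * jqModC k := by
  rw [jev_le_two (h.trans one_le_two), Polynomial.coeff_eq_zero_of_natDegree_lt
    (show P.natDegree < 2 by omega), map_zero, zero_mul, add_zero]

theorem eval_uSer_eq_zero {p : ℕ} [hp : Fact p.Prime] {z : kˣ} {U : Polynomial (Polynomial k)}
    (hU : U.map ((qExpand k p).comp (jev k)) = prodPoly (gfam p k z)) :
    U.eval₂ (jev k) (uSer p k) = 0 := by
  apply qExpand_injective p
  rw [map_zero, qExpand_eval₂, hU, ← gfam_none p z, prodPoly_eval]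

theorem cubic_coeffs {S : Type*} [CommRing S] (s2 s1 s0 : S) {P : Polynomial S}
    (hP : P = Polynomial.X ^ 3 + Polynomial.C s2 * Polynomial.X ^ 2 +
      Polynomial.C s1 * Polynomial.X + Polynomial.C s0) :
    P.coeff 2 = s2 ∧ P.coeff 1 = s1 ∧ P.coeff 0 = s0 ∧ P.coeff 3 = 1 := by
  subst hP
  refine ⟨?_, ?_, ?_, ?_⟩ <;>
  simp [Polynomial.coeff_X, Polynomial.coeff_C, Polynomial.coeff_X_pow]

theorem quartic_coeffs {S : Type*} [CommRing S] (s3 s2 s1 s0 : S) {P : Polynomial S}
    (hP : P = Polynomial.X ^ 4 + Polynomial.C s3 * Polynomial.X ^ 3 +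
      Polynomial.C s2 * Polynomial.X ^ 2 +
      Polynomial.C s1 * Polynomial.X + Polynomial.C s0) :
    P.coeff 3 = s3 ∧ P.coeff 2 = s2 ∧ P.coeff 1 = s1 ∧ P.coeff 0 = s0 ∧ P.coeff 4 = 1 := by
  subst hP
  refine ⟨?_, ?_, ?_, ?_, ?_⟩ <;>
  simp [Polynomial.coeff_X, Polynomial.coeff_C, Polynomial.coeff_X_pow]

theorem natDegree_of_expand {p : ℕ} [hp : Fact p.Prime] {z : kˣ} {U : Polynomial (Polynomial k)}
    (hU : U.map ((qExpand k p).comp (jev k)) = prodPoly (gfam p k z)) :
    U.natDegree = p + 1 := by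
  rw [← Polynomial.natDegree_map_eq_of_injective (phi_injective (k := k) p), hU,
    prodPoly_natDegree, Fintype.card_option, ZMod.card]

theorem Q2_zero [CharZero k] {z : kˣ} (hz : IsPrimitiveRoot z 2) :
    Q2 (jqModC k) (uSer 2 k) = 0 := by
  obtain ⟨U, hU⟩ := exists_U 2 z hz
  have hdeg := natDegree_of_expand hU
  have heval := eval_uSer_eq_zero hU
  set a := gfam 2 k z none with ha'
  set b := gfam 2 k z (some 0) with hb'
  set c := gfam 2 k z (some 1) with hc'
  have ha : Ld 2 a ((2 : k) ^ 12) := by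
    have := ld_gfam_none (k := k) 2 z
    norm_num at this ⊢
    exact this
  have hb : Ld (-1) b (1 : k) := by
    have := ld_gfam_some (k := k) 2 z 0
    simpa using this
  have hc : Ld (-1) c (z : k) := by
    have := ld_gfam_some (k := k) 2 z 1
    have h1 : ((1 : ZMod 2).val) = 1 := rfl
    rw [h1, pow_one] at this
    norm_num at this ⊢
    exact this
  have hexp : prodPoly (gfam 2 k z) = Polynomial.X ^ 3 + Polynomial.C (-(a + b + c)) *
      Polynomial.X ^ 2 + Polynomial.C (a * b + a * c + b * c) * Polynomial.X +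
      Polynomial.C (-(a * b * c)) := by
    have huniv : (Finset.univ : Finset (ZMod 2)) = {0, 1} := rfl
    rw [prodPoly, Fintype.prod_option, huniv, Finset.prod_insert (by decide),
      Finset.prod_singleton, ← ha', ← hb', ← hc']
    simp only [map_neg, map_add, map_mul]
    ring
  rw [hexp] at hU
  obtain ⟨hc2, hc1, hc0, hc3⟩ := cubic_coeffs _ _ _ hU
  simp only [Polynomial.coeff_map, RingHom.comp_apply] at hc2 hc1 hc0 hc3
  -- the coefficients
  have hz1 : (z : k) = -1 := by
    have := hz.pow_eq_one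
    have h1 : (z : k) ^ 2 = 1 := by rw [← Units.val_pow_eq_pow_val, this, Units.val_one]
    have h2 : ((z : k) - 1) * ((z : k) + 1) = 0 := by linear_combination h1
    rcases mul_eq_zero.1 h2 with h | h
    · exfalso
      have : z = 1 := Units.ext (by rw [Units.val_one]; linear_combination h)
      exact hz.ne_one (by norm_num) this
    · linear_combination h
  have hd2 : (U.coeff 2).natDegree ≤ 0 := by
    refine natDegree_le_of_bd' (b := 1) (p := 2) (by norm_num) ?_ 0 (by norm_num)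
    rw [hc2]
    exact ((ha.bd.mono (by norm_num)).add hb.bd |>.add hc.bd).neg
  have hd1 : (U.coeff 1).natDegree ≤ 1 := by
    refine natDegree_le_of_bd' (b := 2) (p := 2) (by norm_num) ?_ 1 (by norm_num)
    rw [hc1]
    exact (((ha.mul hb).bd.mono (by norm_num)).add ((ha.mul hc).bd.mono (by norm_num))).add
      ((hb.mul hc).bd.mono (by norm_num))
  have hd0' : Ld 0 (qExpand k 2 (jev k (U.coeff 0))) (2 ^ 12 : k) := by
    have h1 := ((ha.mul hb).mul hc).C_mul (-1)
    rw [hc0]
    have h2 : -(a * b * c) = HahnSeries.C (-1) * (a * b * c) := by rw [map_neg, map_one]; ring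
    rw [h2]
    convert h1 using 1
    · norm_num
    · rw [hz1]; norm_num
  have hd0 : (U.coeff 0).natDegree ≤ 0 :=
    natDegree_le_of_bd' (b := 0) (p := 2) (by norm_num) (by simpa using hd0'.bd) 0 (by norm_num)
  have he0 : (U.coeff 0).coeff 0 = 2 ^ 12 := by
    have := hd0'.2
    rw [jev_le_zero hd0, qExpand_C] at this
    simpa using this
  rw [Polynomial.eval₂_eq_sum_range, hdeg] at heval
  have he3 : jev k (U.coeff 3) = 1 := by
    apply qExpand_injective 2
    rw [hc3, map_one]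
  simp only [Finset.sum_range_succ, Finset.sum_range_zero, jev_le_zero hd2, jev_le_one hd1,
    jev_le_zero hd0, he0, he3, pow_zero, pow_one, zero_add, mul_one, one_mul] at heval
  set α := (U.coeff 2).coeff 0
  set β := (U.coeff 1).coeff 0
  set γ := (U.coeff 1).coeff 1
  have hu : Ld 1 (uSer 2 k) ((2 : k) ^ 12) := by
    have := ld_uSer (k := k) 2
    norm_num at this ⊢
    exact this
  have hj := ld_jq k
  have h0 : (2 : k) ^ 12 ≠ 0 := by norm_num
  have hB := Q2_bd (k := k)
  have h1 : Q2 (jqModC k) (uSer 2 k) = HahnSeries.C (-1 - γ) * (jqModC k * uSer 2 k) +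
      (HahnSeries.C (768 - β) * uSer 2 k + HahnSeries.C (48 - α) * uSer 2 k ^ 2) := by
    rw [Q2]
    simp only [map_sub, map_neg, map_one]
    have : (HahnSeries.C (2 ^ 12) : LaurentSeries k) = HahnSeries.C 4096 := by norm_num
    rw [this] at heval
    linear_combination heval
  rw [h1] at hB
  have e1 : (-1 - γ) = 0 := by
    refine Bd.elim (hj.mul hu) (by simp) ?_ (hB.mono (by norm_num))
    exact ((hu.bd.mono (by norm_num)).C_mul _).add (((by
      rw [pow_two]; exact (hu.mul hu).bd : Bd (1 + 1) (uSer 2 k ^ 2)).mono (by norm_num)).C_mul _)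
  rw [e1, map_zero, zero_mul, zero_add] at hB h1
  have e2 : (768 - β) = 0 := by
    refine Bd.elim hu h0 ?_ (hB.mono (by norm_num))
    exact (((by
      rw [pow_two]; exact (hu.mul hu).bd : Bd (1 + 1) (uSer 2 k ^ 2)).mono (by norm_num)).C_mul _)
  rw [e2, map_zero, zero_mul, zero_add] at hB h1
  have e3 : (48 - α) = 0 := by
    have hu2 : Ld 2 (uSer 2 k ^ 2) ((2 : k) ^ 12 * 2 ^ 12) := by
      rw [pow_two]; exact hu.mul hu
    refine Bd.elim hu2 (mul_ne_zero h0 h0) (y := 0) (fun _ _ => rfl) ?_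
    rw [add_zero]
    exact hB.mono (by norm_num)
  rw [h1, e3, map_zero, zero_mul]

theorem Q3_zero [CharZero k] {z : kˣ} (hz : IsPrimitiveRoot z 3) :
    Q3 (jqModC k) (uSer 3 k) = 0 := by
  obtain ⟨U, hU⟩ := exists_U 3 z hz
  have hdeg := natDegree_of_expand hU
  have heval := eval_uSer_eq_zero hU
  set a := gfam 3 k z none with ha'
  set b := gfam 3 k z (some 0) with hb'
  set c := gfam 3 k z (some 1) with hc'
  set d := gfam 3 k z (some 2) with hd'
  have ha : Ld 6 a ((3 : k) ^ 12) := by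
    have := ld_gfam_none (k := k) 3 z
    norm_num at this ⊢
    exact this
  have hb : Ld (-2) b (1 : k) := by
    have := ld_gfam_some (k := k) 3 z 0
    simpa using this
  have hc : Ld (-2) c (z : k) := by
    have := ld_gfam_some (k := k) 3 z 1
    have h1 : ((1 : ZMod 3).val) = 1 := rfl
    rw [h1, pow_one] at this
    norm_num at this ⊢
    exact this
  have hd : Ld (-2) d ((z : k) ^ 2) := by
    have := ld_gfam_some (k := k) 3 z 2
    have h1 : ((2 : ZMod 3).val) = 2 := rfl
    rw [h1] at this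
    norm_num at this ⊢
    exact this
  have hexp : prodPoly (gfam 3 k z) = Polynomial.X ^ 4 + Polynomial.C (-(a + b + c + d)) *
      Polynomial.X ^ 3 + Polynomial.C (a * b + a * c + a * d + (b * c + b * d + c * d)) *
      Polynomial.X ^ 2 + Polynomial.C (-(a * b * c + a * b * d + a * c * d + b * c * d)) *
      Polynomial.X + Polynomial.C (a * b * c * d) := by
    have huniv : (Finset.univ : Finset (ZMod 3)) = {0, 1, 2} := rfl
    rw [prodPoly, Fintype.prod_option, huniv, Finset.prod_insert (by decide),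
      Finset.prod_insert (by decide),
      Finset.prod_singleton, ← ha', ← hb', ← hc', ← hd']
    simp only [map_neg, map_add, map_mul]
    ring
  rw [hexp] at hU
  obtain ⟨hc3, hc2, hc1, hc0, hc4⟩ := quartic_coeffs _ _ _ _ hU
  simp only [Polynomial.coeff_map, RingHom.comp_apply] at hc3 hc2 hc1 hc0 hc4
  -- the coefficients
  have hz1 : (z : k) * (z : k) ^ 2 = 1 := by
    rw [← pow_succ', ← Units.val_pow_eq_pow_val, hz.pow_eq_one, Units.val_one]
  have hd3 : (U.coeff 3).natDegree ≤ 0 := by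
    refine natDegree_le_of_bd' (b := 2) (p := 3) (by norm_num) ?_ 0 (by norm_num)
    rw [hc3]
    exact (((ha.bd.mono (by norm_num)).add hb.bd |>.add hc.bd).add hd.bd).neg
  have hbc := (hb.mul hc)
  have hbd := (hb.mul hd)
  have hcd := (hc.mul hd)
  have hd2 : (U.coeff 2).natDegree ≤ 1 := by
    refine natDegree_le_of_bd' (b := 4) (p := 3) (by norm_num) ?_ 1 (by norm_num)
    rw [hc2]
    exact ((((ha.mul hb).bd.mono (by norm_num)).add ((ha.mul hc).bd.mono (by norm_num))).add
      ((ha.mul hd).bd.mono (by norm_num))).add (((hbc.bd.mono (by norm_num)).add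
      (hbd.bd.mono (by norm_num))).add (hcd.bd.mono (by norm_num)))
  have hd1 : (U.coeff 1).natDegree ≤ 2 := by
    refine natDegree_le_of_bd' (b := 6) (p := 3) (by norm_num) ?_ 2 (by norm_num)
    rw [hc1]
    exact ((((((ha.mul hb).mul hc).bd.mono (by norm_num)).add
      (((ha.mul hb).mul hd).bd.mono (by norm_num))).add
      (((ha.mul hc).mul hd).bd.mono (by norm_num))).add
      ((hbc.mul hd).bd.mono (by norm_num))).neg
  have hd0' : Ld 0 (qExpand k 3 (jev k (U.coeff 0))) (3 ^ 12 : k) := by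
    have h1 := ((ha.mul hb).mul hc).mul hd
    rw [hc0]
    convert h1 using 1
    · norm_num
    · rw [mul_assoc ((3 : k) ^ 12 * 1), hz1, mul_one, mul_one]
  have hd0 : (U.coeff 0).natDegree ≤ 0 :=
    natDegree_le_of_bd' (b := 0) (p := 3) (by norm_num) (by simpa using hd0'.bd) 0 (by norm_num)
  have he0 : (U.coeff 0).coeff 0 = 3 ^ 12 := by
    have := hd0'.2
    rw [jev_le_zero hd0, qExpand_C] at this
    simpa using this
  rw [Polynomial.eval₂_eq_sum_range, hdeg] at heval
  have he3 : jev k (U.coeff 4) = 1 := by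
    apply qExpand_injective 3
    rw [hc4, map_one]
  simp only [Finset.sum_range_succ, Finset.sum_range_zero, jev_le_zero hd3, jev_le_one hd2,
    jev_le_two hd1,
    jev_le_zero hd0, he0, he3, pow_zero, pow_one, zero_add, mul_one, one_mul] at heval
  set α := (U.coeff 3).coeff 0
  set β₀ := (U.coeff 2).coeff 0
  set β₁ := (U.coeff 2).coeff 1
  set γ₀ := (U.coeff 1).coeff 0
  set γ₁ := (U.coeff 1).coeff 1
  set γ₂ := (U.coeff 1).coeff 2
  have hu : Ld 2 (uSer 3 k) ((3 : k) ^ 12) := by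
    have := ld_uSer (k := k) 3
    norm_num at this ⊢
    exact this
  have hj := ld_jq k
  have h0 : (3 : k) ^ 12 ≠ 0 := by norm_num
  have hB := Q3_bd (k := k)
  have h1 : Q3 (jqModC k) (uSer 3 k) = HahnSeries.C (-1 - γ₂) * (jqModC k ^ 2 * uSer 3 k) +
      (HahnSeries.C (1512 - γ₁) * (jqModC k * uSer 3 k) +
      (HahnSeries.C (-177876 - γ₀) * uSer 3 k +
      (HahnSeries.C (72 - β₁) * (jqModC k * uSer 3 k ^ 2) +
      (HahnSeries.C (19926 - β₀) * uSer 3 k ^ 2 + HahnSeries.C (-756 - α) * uSer 3 k ^ 3)))) := by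
    rw [Q3]
    simp only [map_sub, map_neg, map_one]
    linear_combination heval
  rw [h1] at hB
  have l1 : Ld 0 (jqModC k ^ 2 * uSer 3 k) ((3 : k) ^ 12) := by
    have := (hj.mul hj).mul hu
    rw [← pow_two, one_mul, one_mul] at this
    exact this
  have l2 : Ld 1 (jqModC k * uSer 3 k) ((3 : k) ^ 12) := by
    have := hj.mul hu
    rw [one_mul] at this
    exact this
  have l4 : Ld 4 (uSer 3 k ^ 2) ((3 : k) ^ 12 * 3 ^ 12) := by
    have := hu.mul hu
    rw [← pow_two] at this
    exact this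
  have l3 : Ld 3 (jqModC k * uSer 3 k ^ 2) ((3 : k) ^ 12 * 3 ^ 12) := by
    have := hj.mul l4
    rw [one_mul] at this
    exact this
  have l6 : Ld 6 (uSer 3 k ^ 3) ((3 : k) ^ 12 * 3 ^ 12 * 3 ^ 12) := by
    have := l4.mul hu
    rw [← pow_succ] at this
    exact this
  have b6 : ∀ n : ℤ, n ≤ 6 → Bd n (HahnSeries.C (-756 - α) * uSer 3 k ^ 3) :=
    fun n hn => (l6.bd.mono hn).C_mul _
  have b4 : ∀ n : ℤ, n ≤ 4 → Bd n (HahnSeries.C (19926 - β₀) * uSer 3 k ^ 2 +
      HahnSeries.C (-756 - α) * uSer 3 k ^ 3) :=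
    fun n hn => ((l4.bd.mono hn).C_mul _).add (b6 n (by omega))
  have b3 : ∀ n : ℤ, n ≤ 3 → Bd n (HahnSeries.C (72 - β₁) * (jqModC k * uSer 3 k ^ 2) +
      (HahnSeries.C (19926 - β₀) * uSer 3 k ^ 2 + HahnSeries.C (-756 - α) * uSer 3 k ^ 3)) :=
    fun n hn => ((l3.bd.mono hn).C_mul _).add (b4 n (by omega))
  have b2 : ∀ n : ℤ, n ≤ 2 → Bd n (HahnSeries.C (-177876 - γ₀) * uSer 3 k +
      (HahnSeries.C (72 - β₁) * (jqModC k * uSer 3 k ^ 2) +
      (HahnSeries.C (19926 - β₀) * uSer 3 k ^ 2 + HahnSeries.C (-756 - α) * uSer 3 k ^ 3))) :=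
    fun n hn => ((hu.bd.mono hn).C_mul _).add (b3 n (by omega))
  have b1 : ∀ n : ℤ, n ≤ 1 → Bd n (HahnSeries.C (1512 - γ₁) * (jqModC k * uSer 3 k) +
      (HahnSeries.C (-177876 - γ₀) * uSer 3 k +
      (HahnSeries.C (72 - β₁) * (jqModC k * uSer 3 k ^ 2) +
      (HahnSeries.C (19926 - β₀) * uSer 3 k ^ 2 + HahnSeries.C (-756 - α) * uSer 3 k ^ 3)))) :=
    fun n hn => ((l2.bd.mono hn).C_mul _).add (b2 n (by omega))
  have e1 : (-1 - γ₂) = 0 := Bd.elim l1 h0 (b1 _ (by norm_num)) (hB.mono (by norm_num))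
  rw [e1, map_zero, zero_mul, zero_add] at hB h1
  have e2 : (1512 - γ₁) = 0 := Bd.elim l2 h0 (b2 _ (by norm_num)) (hB.mono (by norm_num))
  rw [e2, map_zero, zero_mul, zero_add] at hB h1
  have e3 : (-177876 - γ₀) = 0 := Bd.elim hu h0 (b3 _ (by norm_num)) (hB.mono (by norm_num))
  rw [e3, map_zero, zero_mul, zero_add] at hB h1
  have e4 : (72 - β₁) = 0 := Bd.elim l3 (mul_ne_zero h0 h0) (b4 _ (by norm_num))
    (hB.mono (by norm_num))
  rw [e4, map_zero, zero_mul, zero_add] at hB h1
  have e5 : (19926 - β₀) = 0 := Bd.elim l4 (mul_ne_zero h0 h0) (b6 _ (by norm_num))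
    (hB.mono (by norm_num))
  rw [e5, map_zero, zero_mul, zero_add] at hB h1
  have e6 : (-756 - α) = 0 := by
    refine Bd.elim l6 (mul_ne_zero (mul_ne_zero h0 h0) h0) (y := 0) (fun _ _ => rfl) ?_
    rw [add_zero]
    exact hB.mono (by norm_num)
  rw [h1, e6, map_zero, zero_mul]

end Fermat.Agent.GoodRed
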