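import Mathlib

/-!
# Traces of elements with mild denominators
-/

set_option autoImplicit false

noncomputable section

namespace Fermat.Agent.GoodRed

open Module

theorem dvd_trace_of_pow_dvd {R B : Type*} [CommRing R] [IsDomain R] [IsPrincipalIdealRing R]
    [CommRing B] [Algebra R B] {ι : Type*} [Fintype ι] [DecidableEq ι] (b : Basis ι R B)
    {g : R} (hg : Squarefree g) {y z : B} {m : ℕ} (h : y ^ m = algebraMap R B g * z) :
    g ∣ Algebra.trace R B y := by
  classical
  have h1 : (Algebra.leftMulMatrix b y) ^ m = g • Algebra.leftMulMatrix b z := by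
    rw [← map_pow, h, ← Algebra.smul_def, map_smul]
  have h2 : IsNilpotent ((Algebra.leftMulMatrix b y).map (Ideal.Quotient.mk (Ideal.span {g}))) := by
    refine ⟨m, ?_⟩
    have := congrArg (fun M : Matrix ι ι R => M.map (Ideal.Quotient.mk (Ideal.span {g}))) h1
    simp only [Matrix.map_pow] at this
    rw [this]
    ext i j
    simp only [Matrix.map_apply, Matrix.smul_apply, smul_eq_mul, map_mul, Matrix.zero_apply]
    rw [Ideal.Quotient.eq_zero_iff_mem.2 (Ideal.mem_span_singleton_self g), zero_mul]
  obtain ⟨k, hk⟩ := Matrix.isNilpotent_trace_of_isNilpotent h2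
  rw [← AddMonoidHom.map_trace, ← Algebra.trace_eq_matrix_trace b, ← map_pow,
    Ideal.Quotient.eq_zero_iff_mem, Ideal.mem_span_singleton] at hk
  rcases Nat.eq_zero_or_pos k with rfl | hk0
  · rw [pow_zero] at hk
    exact hk.trans (one_dvd _)
  · exact (hg.dvd_pow_iff_dvd hk0.ne').1 hk

variable {R L F : Type*} [CommRing R] [IsDomain R] [IsPrincipalIdealRing R] [Field L] [Field F]
  [Algebra R L] [IsFractionRing R L] [Algebra L F] [Algebra R F] [IsScalarTower R L F]
  [FiniteDimensional L F] [Algebra.IsSeparable L F]

omit [IsDomain R] [IsPrincipalIdealRing R] [FiniteDimensional L F] [Algebra.IsSeparable L F] in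
variable (R L F) in
include L in
theorem faithfulSMul_of_tower : FaithfulSMul R F := by
  rw [faithfulSMul_iff_algebraMap_injective, IsScalarTower.algebraMap_eq R L F]
  exact (algebraMap L F).injective.comp (IsFractionRing.injective R L)

variable (R L F) in
include L in
theorem free_integralClosure : Module.Free R (integralClosure R F) := by
  have : IsNoetherian R (integralClosure R F) := IsIntegralClosure.isNoetherian R L F _
  have := faithfulSMul_of_tower R L F
  have : Module.IsTorsionFree R F := (Module.isTorsionFree_iff_faithfulSMul).2 this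
  infer_instance

theorem exists_trace_eq_of_pow {g : R} (hg0 : g ≠ 0) (hg : Squarefree g) {x : F} {m : ℕ}
    (hm : 0 < m) (hx : IsIntegral R (x ^ m * algebraMap R F g ^ (m - 1))) :
    ∃ r : R, Algebra.trace L F x = algebraMap R L r := by
  classical
  have hz : (algebraMap R F g * x) ^ m = algebraMap R F g * (x ^ m * algebraMap R F g ^ (m - 1)) := by
    obtain ⟨n, rfl⟩ : ∃ n, m = n + 1 := ⟨m - 1, by omega⟩
    simp only [Nat.add_sub_cancel]
    ring
  have hy : IsIntegral R (algebraMap R F g * x) := by
    refine IsIntegral.of_pow hm ?_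
    rw [hz]
    exact isIntegral_algebraMap.mul hx
  let B := integralClosure R F
  have : IsNoetherian R B := IsIntegralClosure.isNoetherian R L F B
  have : Module.Finite R B := inferInstance
  have : Module.Free R B := free_integralClosure R L F
  have : IsFractionRing B F := integralClosure.isFractionRing_of_finite_extension L F
  let b := Module.Free.chooseBasis R B
  have h1 := dvd_trace_of_pow_dvd b hg (y := (⟨_, hy⟩ : B)) (z := (⟨_, hx⟩ : B)) (m := m)
    (Subtype.ext hz)
  obtain ⟨r, hr⟩ := h1
  refine ⟨r, ?_⟩
  have : IsLocalization (Algebra.algebraMapSubmonoid B (nonZeroDivisors R)) F :=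
    IsIntegralClosure.isLocalization R L F B
  have h2 : Algebra.trace L F (algebraMap B F ⟨_, hy⟩) = algebraMap R L (Algebra.trace R B ⟨_, hy⟩) :=
    Algebra.trace_localization R (nonZeroDivisors R) _
  rw [hr, map_mul] at h2
  change Algebra.trace L F (algebraMap R F g * x) = _ at h2
  rw [IsScalarTower.algebraMap_apply R L F, ← Algebra.smul_def, map_smul, smul_eq_mul] at h2
  have hg' : algebraMap R L g ≠ 0 := by
    rw [Ne, FaithfulSMul.algebraMap_eq_zero_iff]; exact hg0
  exact mul_left_cancel₀ hg' h2

end Fermat.Agent.GoodRed
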