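import Fermat.Agent.GoodRed.Poly
import Fermat.Agent.GoodRed.Tame

/-!
# Lifting integral elements along a Gauss reduction
-/

set_option autoImplicit false
set_option linter.unusedSectionVars false

noncomputable section

namespace Fermat.Agent.GoodRed

open Polynomial Module

namespace GaussRed

variable {K κ : Type*} [Field K] [Field κ] {A : ValuationSubring K} {π : A →+* κ}
  {F Fb : Type*} [Field F] [Field Fb] [Algebra K F] [Algebra κ Fb]
  {G : GaussRed A π F Fb}
  [Algebra K[X] F] [IsScalarTower K K[X] F] [Algebra κ[X] Fb] [IsScalarTower κ κ[X] Fb]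
  [IsLocalHom π]

variable (G) in
/-- reductions of integral elements -/
def Bbar (hX : G.R (algebraMap K[X] F X) (algebraMap κ[X] Fb X)) (hπ : Function.Surjective π) :
    Subalgebra κ[X] Fb where
  carrier := {y | ∃ x, IsIntegral K[X] x ∧ G.R x y}
  mul_mem' := by
    rintro y y' ⟨x, hx, h⟩ ⟨x', hx', h'⟩
    exact ⟨x * x', hx.mul hx', h.mul h'⟩
  add_mem' := by
    rintro y y' ⟨x, hx, h⟩ ⟨x', hx', h'⟩
    exact ⟨x + x', hx.add hx', h.add h'⟩
  algebraMap_mem' r := by
    obtain ⟨q, rfl⟩ := Polynomial.map_surjective π hπ r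
    exact ⟨_, isIntegral_algebraMap, R_poly hX q⟩

theorem mem_Bbar {hX : G.R (algebraMap K[X] F X) (algebraMap κ[X] Fb X)}
    {hπ : Function.Surjective π} {y : Fb} :
    y ∈ G.Bbar hX hπ ↔ ∃ x, IsIntegral K[X] x ∧ G.R x y := Iff.rfl

variable (L : Type*) [Field L] [Algebra K[X] L] [IsFractionRing K[X] L] [Algebra L F]
  [IsScalarTower K[X] L F] [FiniteDimensional L F] [Algebra.IsSeparable L F]
  (Lb : Type*) [Field Lb] [Algebra κ[X] Lb] [IsFractionRing κ[X] Lb] [Algebra Lb Fb]
  [IsScalarTower κ[X] Lb Fb] [FiniteDimensional Lb Fb] [Algebra.IsSeparable Lb Fb]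

include L in
theorem isAlgebraic_of_tower (x : F) : IsAlgebraic K[X] x :=
  (IsFractionRing.isAlgebraic_iff K[X] L F).2 (Algebra.IsAlgebraic.isAlgebraic x)

variable (hX : G.R (algebraMap K[X] F X) (algebraMap κ[X] Fb X)) (hπ : Function.Surjective π)

include L Lb in
theorem exists_smul_mem_Bbar (y : Fb) : ∃ e : κ[X], e ≠ 0 ∧ e • y ∈ G.Bbar hX hπ := by
  obtain ⟨x, hx⟩ := G.exists_R y
  obtain ⟨d, hd, hdx⟩ := (isAlgebraic_of_tower (K := K) L x).exists_integral_multiple
  obtain ⟨c, q, hc, hq, hq0⟩ := exists_scale_poly (A := A) (π := π) d hd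
  refine ⟨q.map π, hq0, _, ?_, by
    rw [Algebra.smul_def]; exact (R_poly hX q).mul hx⟩
  rw [hq, map_mul, mul_assoc, ← Algebra.smul_def d x]
  exact isIntegral_algebraMap.mul hdx

include L in
/-- an `Lb`-basis of `Fb` consisting of reductions of integral elements. -/
theorem exists_basis_Bbar : ∃ (ι : Type) (_ : Fintype ι) (_ : Nonempty ι) (Bb : Basis ι Lb Fb),
    ∀ i, Bb i ∈ G.Bbar hX hπ := by
  let b := Module.finBasis Lb Fb
  have hne : Nonempty (Fin (finrank Lb Fb)) := ⟨⟨0, finrank_pos⟩⟩
  choose e he heb using fun i => exists_smul_mem_Bbar (G := G) L Lb hX hπ (b i)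
  have he' : ∀ i, IsUnit (algebraMap κ[X] Lb (e i)) := fun i => by
    rw [isUnit_iff_ne_zero, Ne, FaithfulSMul.algebraMap_eq_zero_iff]
    exact he i
  refine ⟨_, inferInstance, hne, b.isUnitSMul he', fun i => ?_⟩
  rw [Basis.isUnitSMul_apply, algebraMap_smul]
  exact heb i

theorem fg_Bbar (hn : finrank L F = finrank Lb Fb) :
    (Subalgebra.toSubmodule (G.Bbar hX hπ)).FG := by
  classical
  have hfaith : FaithfulSMul κ[X] Fb := faithfulSMul_red (Fb := Fb) Lb
  obtain ⟨ι, _, _, Bb, hBb⟩ := exists_basis_Bbar (G := G) L Lb hX hπ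
  choose b hb hbR using hBb
  obtain ⟨B, hB⟩ := exists_basis_of_red (L := L) hX hn Bb hbR
  have hBR : ∀ i, G.R (B i) (Bb i) := fun i => by rw [hB]; exact hbR i
  -- the map `y ↦ (Tr(y c_i))_i`
  let φ : Fb →ₗ[κ[X]] (ι → Lb) :=
    { toFun := fun y i => Algebra.trace Lb Fb (y * Bb i)
      map_add' := fun y z => by
        ext i; simp [add_mul]
      map_smul' := fun r y => by
        ext i
        simp only [Pi.smul_apply, RingHom.id_apply, smul_mul_assoc]
        rw [← algebraMap_smul Lb r (y * Bb i), map_smul, algebraMap_smul] }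
  have hφ : Function.Injective φ := by
    rw [injective_iff_map_eq_zero]
    intro y hy
    have h1 : ∀ z, Algebra.traceForm Lb Fb y z = 0 := by
      intro z
      rw [← Bb.sum_repr z, map_sum]
      refine Finset.sum_eq_zero fun i _ => ?_
      rw [map_smul, Algebra.traceForm_apply]
      have := congrFun hy i
      change Algebra.trace Lb Fb (y * Bb i) = 0 at this
      rw [this, smul_zero]
    exact (traceForm_nondegenerate Lb Fb).1 y h1
  have hle : (Subalgebra.toSubmodule (G.Bbar hX hπ)).map φ ≤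
      LinearMap.range (LinearMap.pi fun i : ι => (Algebra.linearMap κ[X] Lb) ∘ₗ
        LinearMap.proj (R := κ[X]) (φ := fun _ : ι => κ[X]) i) := by
    rintro _ ⟨y, ⟨x, hx, hxy⟩, rfl⟩
    have h1 : ∀ i, ∃ r : κ[X], algebraMap κ[X] Lb r = Algebra.trace Lb Fb (y * Bb i) := by
      intro i
      have h2 := R_trace hX hBR (hxy.mul (hBR i))
      have h3 : IsIntegral K[X] (Algebra.trace L F (x * B i)) := by
        refine Algebra.isIntegral_trace (hx.mul ?_)
        rw [hB]; exact hb i
      obtain ⟨p, hp⟩ := IsIntegrallyClosed.isIntegral_iff.1 h3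
      rw [← hp, ← IsScalarTower.algebraMap_apply] at h2
      obtain ⟨q, hq⟩ := exists_of_algebraMap_mem hX h2.mem
      refine ⟨q.map π, ?_⟩
      have h4 := R_poly hX q
      rw [hq] at h4
      have h5 := h4.unique h2
      rw [IsScalarTower.algebraMap_apply κ[X] Lb Fb] at h5
      exact (algebraMap Lb Fb).injective h5
    choose r hr using h1
    exact ⟨r, funext hr⟩
  have hfin : (LinearMap.range (LinearMap.pi fun i : ι => (Algebra.linearMap κ[X] Lb) ∘ₗ
        LinearMap.proj (R := κ[X]) (φ := fun _ : ι => κ[X]) i)).FG := by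
    rw [LinearMap.range_eq_map]
    exact Module.Finite.fg_top.map _
  exact Submodule.fg_of_fg_map_injective φ hφ (Submodule.FG.of_le hfin hle)

/-- reductions of integral elements are integral. -/
theorem isIntegral_of_mem_Bbar (hn : finrank L F = finrank Lb Fb) {y : Fb}
    (hy : y ∈ G.Bbar hX hπ) : IsIntegral κ[X] y :=
  IsIntegral.of_mem_of_fg _ (fg_Bbar L Lb hX hπ hn) y hy

theorem isIntegral_red (hn : finrank L F = finrank Lb Fb) {x : F} {y : Fb}
    (hx : IsIntegral K[X] x) (h : G.R x y) (hX : G.R (algebraMap K[X] F X) (algebraMap κ[X] Fb X))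
    (hπ : Function.Surjective π) : IsIntegral κ[X] y :=
  isIntegral_of_mem_Bbar L Lb hX hπ hn ⟨x, hx, h⟩

include L in
/-- a `κ[X]`-basis of `Bbar` which is an `Lb`-basis of `Fb`. -/
theorem exists_basis_free (hn : finrank L F = finrank Lb Fb) :
    ∃ (ι : Type) (_ : Fintype ι) (_ : Nonempty ι) (bb : Basis ι κ[X] (G.Bbar hX hπ))
      (Bb : Basis ι Lb Fb), ∀ i, Bb i = (bb i : Fb) := by
  have hfaith : FaithfulSMul κ[X] Fb := faithfulSMul_red (Fb := Fb) Lb
  have : Module.IsTorsionFree κ[X] Fb := (Module.isTorsionFree_iff_faithfulSMul).2 hfaith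
  have : Module.Finite κ[X] (Subalgebra.toSubmodule (G.Bbar hX hπ)) :=
    Module.Finite.iff_fg.2 (fg_Bbar L Lb hX hπ hn)
  have : Module.Free κ[X] (Subalgebra.toSubmodule (G.Bbar hX hπ)) := inferInstance
  let n := finrank κ[X] (Subalgebra.toSubmodule (G.Bbar hX hπ))
  let bb : Basis (Fin n) κ[X] (Subalgebra.toSubmodule (G.Bbar hX hπ)) := Module.finBasis _ _
  have h1 : LinearIndependent κ[X] (fun i => ((bb i : Subalgebra.toSubmodule (G.Bbar hX hπ)) : Fb)) :=
    bb.linearIndependent.map' (Subalgebra.toSubmodule (G.Bbar hX hπ)).subtype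
      (Submodule.ker_subtype _)
  have h2 : LinearIndependent Lb (fun i => ((bb i : Subalgebra.toSubmodule (G.Bbar hX hπ)) : Fb)) :=
    (LinearIndependent.iff_fractionRing κ[X] Lb).1 h1
  have h3 : ⊤ ≤ Submodule.span Lb (Set.range
      (fun i => ((bb i : Subalgebra.toSubmodule (G.Bbar hX hπ)) : Fb))) := by
    intro y _
    obtain ⟨e, he, hey⟩ := exists_smul_mem_Bbar (G := G) L Lb hX hπ y
    have h4 : e • y ∈ Submodule.span Lb (Set.range
        (fun i => ((bb i : Subalgebra.toSubmodule (G.Bbar hX hπ)) : Fb))) := by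
      have h5 := congrArg Subtype.val (bb.sum_repr ⟨e • y, hey⟩)
      change _ = e • y at h5
      rw [← h5]
      simp only [AddSubmonoidClass.coe_finsetSum]
      refine Submodule.sum_mem _ fun i _ => ?_
      rw [Submodule.coe_smul, ← algebraMap_smul Lb]
      exact Submodule.smul_mem _ _ (Submodule.subset_span ⟨i, rfl⟩)
    have h6 : y = (algebraMap κ[X] Lb e)⁻¹ • (e • y) := by
      rw [← algebraMap_smul Lb e y, smul_smul, inv_mul_cancel₀, one_smul]
      rw [Ne, FaithfulSMul.algebraMap_eq_zero_iff]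
      exact he
    rw [h6]
    exact Submodule.smul_mem _ _ h4
  have hne : Nonempty (Fin n) := by
    by_contra hemp
    rw [not_nonempty_iff] at hemp
    have h7 : (1 : Fb) ∈ Submodule.span Lb (Set.range
      (fun i => ((bb i : Subalgebra.toSubmodule (G.Bbar hX hπ)) : Fb))) := h3 trivial
    rw [Set.range_eq_empty, Submodule.span_empty, Submodule.mem_bot] at h7
    exact one_ne_zero h7
  exact ⟨Fin n, inferInstance, hne, bb, Basis.mk h2 h3, fun i => by simp [Basis.mk_apply]⟩

theorem exists_normalized [IsAlgClosed K] (n : ℕ) : ∀ (d : K[X]), d.natDegree = n → d ≠ 0 →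
    (∀ τ : A, ¬ d.IsRoot (τ : K)) →
    ∃ (e : A[X]) (c : K), c ≠ 0 ∧ e.map A.subtype = C c * d ∧ e.map π = 1 := by
  induction n with
  | zero =>
    intro d hd hd0 _
    rw [natDegree_eq_zero] at hd
    obtain ⟨a, rfl⟩ := hd
    have ha : a ≠ 0 := by rintro rfl; simp at hd0
    exact ⟨1, a⁻¹, inv_ne_zero ha, by
      rw [Polynomial.map_one, ← C_mul, inv_mul_cancel₀ ha, C_1], Polynomial.map_one _⟩
  | succ n ih =>
    intro d hd hd0 hroot
    obtain ⟨τ, hτ⟩ := IsAlgClosed.exists_root d (by
      rw [degree_eq_natDegree hd0, hd]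
      exact_mod_cast n.succ_ne_zero)
    obtain ⟨d', hd'⟩ := dvd_iff_isRoot.2 hτ
    have hd'0 : d' ≠ 0 := by rintro rfl; rw [mul_zero] at hd'; exact hd0 hd'
    obtain ⟨e, c, hc, he, he1⟩ := ih d' (by
      have := natDegree_mul (X_sub_C_ne_zero τ) hd'0
      rw [← hd', hd, natDegree_X_sub_C] at this
      omega) hd'0 (fun σ hσ => hroot σ (by
        rw [hd', IsRoot.def, eval_mul, hσ.eq_zero, mul_zero]))
    have hτA : τ ∉ A := fun h => hroot ⟨τ, h⟩ hτ
    have hτ0 : τ ≠ 0 := by rintro rfl; exact hτA (zero_mem _)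
    refine ⟨(1 - C ⟨τ⁻¹, inv_mem_of_not_mem hτA⟩ * X) * e, -τ⁻¹ * c,
      mul_ne_zero (neg_ne_zero.2 (inv_ne_zero hτ0)) hc, ?_, ?_⟩
    · rw [Polynomial.map_mul, he, hd']
      simp only [Polynomial.map_sub, Polynomial.map_one, Polynomial.map_mul, map_C, map_X]
      change (1 - C τ⁻¹ * X) * (C c * d') = _
      have : (1 : K[X]) = C τ⁻¹ * C τ := by rw [← C_mul, inv_mul_cancel₀ hτ0, C_1]
      rw [this, C_mul, C_neg]
      ring
    · rw [Polynomial.map_mul, he1]
      simp only [Polynomial.map_sub, Polynomial.map_one, Polynomial.map_mul, map_C, map_X]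
      rw [π_inv_eq_zero hτA, C_0, zero_mul, sub_zero, one_mul]

variable (G) in
/-- reductions of the elements of a submodule -/
def redMod (hX : G.R (algebraMap K[X] F X) (algebraMap κ[X] Fb X)) (hπ : Function.Surjective π)
    (M : Submodule K[X] F) : Submodule κ[X] Fb where
  carrier := {y | ∃ x ∈ M, G.R x y}
  zero_mem' := ⟨0, M.zero_mem, R.zero G⟩
  add_mem' := by
    rintro y y' ⟨x, hx, h⟩ ⟨x', hx', h'⟩
    exact ⟨x + x', M.add_mem hx hx', h.add h'⟩
  smul_mem' := by
    rintro r y ⟨x, hx, h⟩
    obtain ⟨q, rfl⟩ := Polynomial.map_surjective π hπ r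
    refine ⟨q.map A.subtype • x, M.smul_mem _ hx, ?_⟩
    rw [Algebra.smul_def, Algebra.smul_def]
    exact (R_poly hX q).mul h

theorem mem_redMod {M : Submodule K[X] F} {y : Fb} :
    y ∈ G.redMod hX hπ M ↔ ∃ x ∈ M, G.R x y := Iff.rfl

include L Lb in
/-- Denominators of elements with respect to an adapted basis are invertible on the disc. -/
theorem exists_denom [IsAlgClosed K] {M : Submodule K[X] F} {ι : Type*} [Fintype ι]
    (bb : Basis ι κ[X] (G.redMod hX hπ M)) {b : ι → F} (hb : ∀ i, b i ∈ M)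
    (hbR : ∀ i, G.R (b i) (bb i : Fb)) (B : Basis ι L F) (hB : ∀ i, B i = b i)
    {x : F} (hx : x ∈ M) :
    ∃ (e : A[X]) (p : ι → K[X]), e.map π = 1 ∧ (e.map A.subtype) • x = ∑ i, p i • b i := by
  classical
  have hfaith : FaithfulSMul κ[X] Fb := faithfulSMul_red (Fb := Fb) Lb
  have hfaithF : FaithfulSMul K[X] F := faithfulSMul_of_tower K[X] L F
  let P : ℕ → Prop := fun n => ∃ (d : K[X]) (p : ι → K[X]), d ≠ 0 ∧ d.natDegree = n ∧
    d • x = ∑ i, p i • b i
  have hP : ∃ n, P n := by
    obtain ⟨d, p, hd, -, h⟩ := exists_common_denom (K := K) B x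
    exact ⟨_, d, p, hd, rfl, by simpa only [hB] using h⟩
  obtain ⟨d, p, hd, hdn, hdx⟩ := Nat.find_spec hP
  have hmin : ∀ (d' : K[X]) (p' : ι → K[X]), d' ≠ 0 → d' • x = ∑ i, p' i • b i →
      d.natDegree ≤ d'.natDegree := by
    intro d' p' h1 h2
    rw [hdn]
    exact Nat.find_min' hP ⟨d', p', h1, rfl, h2⟩
  have hroot : ∀ τ : A, ¬ d.IsRoot (τ : K) := by
    intro τ hτ
    obtain ⟨d', hd'⟩ := dvd_iff_isRoot.2 hτ
    have hd'0 : d' ≠ 0 := by rintro rfl; rw [mul_zero] at hd'; exact hd hd'
    have hdeg : d'.natDegree < d.natDegree := by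
      have := natDegree_mul (X_sub_C_ne_zero (τ : K)) hd'0
      rw [← hd', natDegree_X_sub_C] at this
      omega
    -- quotients
    have hdiv : ∀ i, ∃ r : K[X], p i = C ((p i).eval (τ : K)) + (X - C (τ : K)) * r := by
      intro i
      obtain ⟨r, hr⟩ := X_sub_C_dvd_sub_C_eval (a := (τ : K)) (p := p i)
      exact ⟨r, by rw [← hr]; ring⟩
    choose r hr using hdiv
    have hXτ : algebraMap K[X] F (X - C (τ : K)) ≠ 0 := by
      rw [Ne, FaithfulSMul.algebraMap_eq_zero_iff]
      exact X_sub_C_ne_zero _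
    -- the element `z₀ = (Σ cᵢ bᵢ)/(X - τ)`
    have hz₀ : ∑ i, algebraMap K[X] F (C ((p i).eval (τ : K))) * b i =
        algebraMap K[X] F (X - C (τ : K)) * (d' • x - ∑ i, r i • b i) := by
      have h1 : d • x = algebraMap K[X] F (X - C (τ : K)) * (d' • x) := by
        rw [hd', Algebra.smul_def, Algebra.smul_def, map_mul, mul_assoc]
      have h2 : ∑ i, p i • b i = ∑ i, algebraMap K[X] F (C ((p i).eval (τ : K))) * b i +
          algebraMap K[X] F (X - C (τ : K)) * ∑ i, r i • b i := by
        rw [Finset.mul_sum, ← Finset.sum_add_distrib]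
        refine Finset.sum_congr rfl fun i _ => ?_
        conv_lhs => rw [hr i]
        rw [Algebra.smul_def, Algebra.smul_def, map_add, map_mul]
        ring
      rw [hdx, h2] at h1
      rw [mul_sub, ← h1]
      ring
    have hz₀int : d' • x - ∑ i, r i • b i ∈ M :=
      M.sub_mem (M.smul_mem d' hx) (M.sum_mem fun i _ => M.smul_mem (r i) (hb i))
    by_cases hall : ∀ i, (p i).eval (τ : K) = 0
    · -- then a smaller denominator
      have h3 : d' • x - ∑ i, r i • b i = 0 := by
        simp only [hall, map_zero, zero_mul, Finset.sum_const_zero] at hz₀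
        exact (mul_eq_zero.1 hz₀.symm).resolve_left hXτ
      have := hmin d' r hd'0 (sub_eq_zero.1 h3)
      omega
    · push Not at hall
      obtain ⟨i₀, hi₀⟩ := hall
      obtain ⟨j, -, hj0, hj⟩ := exists_scale_finset (A := A) Finset.univ
        (fun i => (p i).eval (τ : K)) ⟨i₀, Finset.mem_univ _, hi₀⟩
      set c := ((p j).eval (τ : K))⁻¹ with hc
      have hsum : algebraMap K F c * ∑ i, algebraMap K[X] F (C ((p i).eval (τ : K))) * b i =
          ∑ i, algebraMap K F (c * (p i).eval (τ : K)) * b i := by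
        rw [Finset.mul_sum]
        refine Finset.sum_congr rfl fun i _ => ?_
        rw [← Polynomial.algebraMap_eq, ← IsScalarTower.algebraMap_apply, map_mul, mul_assoc]
      have h1 : G.R (∑ i, algebraMap K F (c * (p i).eval (τ : K)) * b i)
          (∑ i, algebraMap κ Fb (π ⟨c * (p i).eval (τ : K), hj i (Finset.mem_univ _)⟩) * bb i) :=
        R.sum _ fun i _ => (R.const G ⟨c * (p i).eval (τ : K), hj i (Finset.mem_univ _)⟩).mul (hbR i)
      have h2 : G.R (algebraMap K[X] F (X - C (τ : K))) (algebraMap κ[X] Fb (X - C (π τ))) := by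
        have h0 := R_poly hX (X - C τ)
        simp only [Polynomial.map_sub, map_X, map_C] at h0
        exact h0
      have hXτb : algebraMap κ[X] Fb (X - C (π τ)) ≠ 0 :=
        algebraMap_poly_ne_zero (X_sub_C_ne_zero _)
      have h3 := h1.div h2 hXτb
      rw [← hsum, hz₀, mul_left_comm, mul_div_cancel_left₀ _ hXτ] at h3
      have hint : algebraMap K F c * (d' • x - ∑ i, r i • b i) ∈ M := by
        have := M.smul_mem (C c) hz₀int
        rwa [Algebra.smul_def, ← Polynomial.algebraMap_eq, ← IsScalarTower.algebraMap_apply] at this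
      -- the reduction lies in the reduction of `M`
      set zb : Fb := (∑ i, algebraMap κ Fb (π ⟨c * (p i).eval (τ : K), hj i (Finset.mem_univ _)⟩) *
        bb i) / algebraMap κ[X] Fb (X - C (π τ)) with hzb
      have hzbmem : zb ∈ G.redMod hX hπ M := ⟨_, hint, h3⟩
      have h4 : (X - C (π τ) : κ[X]) • (⟨zb, hzbmem⟩ : G.redMod hX hπ M) =
          ∑ i, (C (π ⟨c * (p i).eval (τ : K), hj i (Finset.mem_univ _)⟩) : κ[X]) • bb i := by
        apply Subtype.ext
        rw [Submodule.coe_smul, Algebra.smul_def, AddSubmonoidClass.coe_finsetSum]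
        change _ * zb = _
        rw [hzb, mul_div_cancel₀ _ hXτb]
        refine Finset.sum_congr rfl fun i _ => ?_
        rw [Submodule.coe_smul, Algebra.smul_def, ← Polynomial.algebraMap_eq,
          ← IsScalarTower.algebraMap_apply]
      have h5 := congrArg (fun z => bb.repr z j) h4
      simp only [map_smul, Finsupp.smul_apply, map_sum, Basis.repr_self, Finsupp.coe_finsetSum,
        Finset.sum_apply, Finsupp.single_apply, smul_eq_mul, mul_ite, mul_one, mul_zero,
        Finset.sum_ite_eq', Finset.mem_univ, if_true] at h5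
      have h6 : (⟨c * (p j).eval (τ : K), hj j (Finset.mem_univ _)⟩ : A) = 1 := by
        apply Subtype.ext
        change c * (p j).eval (τ : K) = 1
        rw [hc]
        exact inv_mul_cancel₀ hj0
      rw [h6, map_one, C_1] at h5
      have h7 : IsUnit (X - C (π τ) : κ[X]) := IsUnit.of_mul_eq_one _ h5
      exact not_isUnit_X_sub_C _ h7
  obtain ⟨e, c, hc, he, he1⟩ := exists_normalized (π := π) _ d rfl hd hroot
  refine ⟨e, fun i => C c * p i, he1, ?_⟩
  rw [he, mul_smul, hdx, Finset.smul_sum]
  refine Finset.sum_congr rfl fun i _ => ?_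
  rw [mul_smul]

include L Lb in
/-- Uniform denominators for finitely generated modules. -/
theorem exists_denom_of_fg [IsAlgClosed K] {M : Submodule K[X] F} (hM : M.FG) {ι : Type*}
    [Fintype ι] (bb : Basis ι κ[X] (G.redMod hX hπ M)) {b : ι → F} (hb : ∀ i, b i ∈ M)
    (hbR : ∀ i, G.R (b i) (bb i : Fb)) (B : Basis ι L F) (hB : ∀ i, B i = b i) :
    ∃ e : A[X], e.map π = 1 ∧ ∀ x ∈ M, ∃ p : ι → K[X],
      (e.map A.subtype) • x = ∑ i, p i • b i := by
  classical
  obtain ⟨s, hs⟩ := hM
  have hsM : ∀ x ∈ s, x ∈ M := fun x hx => hs ▸ Submodule.subset_span hx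
  choose! e p he hp using fun x (hx : x ∈ M) =>
    exists_denom (G := G) L Lb hX hπ bb hb hbR B hB hx
  have hspan : ∀ x, (∃ p : ι → K[X], x = ∑ i, p i • b i) ↔
      x ∈ Submodule.span K[X] (Set.range b) := by
    intro x
    rw [Submodule.mem_span_range_iff_exists_fun]
    exact ⟨fun ⟨p, hp⟩ => ⟨p, hp.symm⟩, fun ⟨p, hp⟩ => ⟨p, hp.symm⟩⟩
  refine ⟨∏ x ∈ s, e x, ?_, fun x hx => ?_⟩
  · rw [Polynomial.map_prod]
    exact Finset.prod_eq_one fun x hx => he x (hsM x hx)
  rw [hspan]
  rw [← hs] at hx
  induction hx using Submodule.span_induction with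
  | mem x hx =>
    rw [← Finset.mul_prod_erase s e hx, Polynomial.map_mul, mul_comm, mul_smul]
    refine Submodule.smul_mem _ _ ((hspan _).1 ⟨_, hp x (hsM x hx)⟩)
  | zero => rw [smul_zero]; exact Submodule.zero_mem _
  | add x y _ _ hx hy => rw [smul_add]; exact Submodule.add_mem _ hx hy
  | smul r x _ hx => rw [smul_comm]; exact Submodule.smul_mem _ _ hx

/-- coordinates of elements of `O` are integral. -/
theorem exists_of_smul_eq (hX : G.R (algebraMap K[X] F X) (algebraMap κ[X] Fb X))
    {ι : Type*} [Fintype ι] {B : Basis ι L F} {Bb : Basis ι Lb Fb}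
    (hB : ∀ i, G.R (B i) (Bb i)) {x : F} (hx : x ∈ G.O) {p : ι → K[X]}
    (h : x = ∑ i, p i • B i) : ∃ q : ι → A[X], ∀ i, (q i).map A.subtype = p i := by
  classical
  have : FaithfulSMul κ[X] Fb := faithfulSMul_red (Fb := Fb) Lb
  have h1 : ∀ i, algebraMap K[X] F (p i) ∈ G.O := by
    intro i
    obtain ⟨y, hy⟩ := exists_R_of_mem hx
    have h2 := (R_repr (L := L) (Lb := Lb) hX hB hy i).mem
    have h3 : B.repr x i = algebraMap K[X] L (p i) := by
      rw [h]
      simp only [← algebraMap_smul L (p _) (B _), map_sum, map_smul, Basis.repr_self,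
        Finsupp.coe_finsetSum, Finset.sum_apply, Finsupp.smul_apply, Finsupp.single_apply,
        smul_eq_mul, mul_ite, mul_one, mul_zero, Finset.sum_ite_eq', Finset.mem_univ, if_true]
    rwa [h3, ← IsScalarTower.algebraMap_apply] at h2
  choose q hq using fun i => exists_of_algebraMap_mem hX (h1 i)
  exact ⟨q, hq⟩

/-- **Lifting theorem**: under a tameness hypothesis, every element integral over `κ[X]` is the
reduction of an element integral over `K[X]`. -/
theorem mem_Bbar_of_isIntegral [IsAlgClosed K] (hn : finrank L F = finrank Lb Fb)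
    (g : A[X]) (hg0 : g.map π ≠ 0) (hg : Squarefree (g.map π)) (m : ℕ) (hm : 0 < m)
    (ram : ∀ h : F, (∀ b : F, IsIntegral K[X] b →
      ∃ r : K[X], Algebra.trace L F (h * b) = algebraMap K[X] L r) →
      IsIntegral K[X] (h ^ m * algebraMap K[X] F (g.map A.subtype) ^ (m - 1)))
    {y : Fb} (hy : IsIntegral κ[X] y) : y ∈ G.Bbar hX hπ := by
  classical
  have hfaith : FaithfulSMul κ[X] Fb := faithfulSMul_red (Fb := Fb) Lb
  obtain ⟨ι, _, _, bb, Bb, hBb⟩ := exists_basis_free (G := G) L Lb hX hπ hn
  choose b hb hbR using fun i => (bb i).2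
  have hbR' : ∀ i, G.R (b i) (Bb i) := fun i => by rw [hBb]; exact hbR i
  obtain ⟨B, hB⟩ := exists_basis_of_red (L := L) hX hn Bb hbR'
  have hBR : ∀ i, G.R (B i) (Bb i) := fun i => by rw [hB]; exact hbR' i
  -- uniform denominators
  let M : Submodule K[X] F := Subalgebra.toSubmodule (integralClosure K[X] F)
  have hMred : G.redMod hX hπ M = Subalgebra.toSubmodule (G.Bbar hX hπ) := by
    ext y
    rfl
  have hMfg : M.FG := by
    have : IsNoetherian K[X] (integralClosure K[X] F) := IsIntegralClosure.isNoetherian K[X] L F _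
    have : Module.Finite K[X] (integralClosure K[X] F) := inferInstance
    exact Module.Finite.iff_fg.1 this
  obtain ⟨e, he, hall⟩ := exists_denom_of_fg (G := G) L Lb hX hπ hMfg
    (M := M) (bb : Basis ι κ[X] (G.redMod hX hπ M)) hb hbR B hB
  have hL := traceForm_nondegenerate L F
  have hLb := traceForm_nondegenerate Lb Fb
  -- dual bases
  let D := (Algebra.traceForm L F).dualBasis hL B
  let Db := (Algebra.traceForm Lb Fb).dualBasis hLb Bb
  have hD : ∀ i j, Algebra.trace L F (D i * B j) = if j = i then 1 else 0 := fun i j => by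
    have := LinearMap.BilinForm.apply_dualBasis_left hL B i j
    rwa [Algebra.traceForm_apply] at this
  have hDb : ∀ i j, Algebra.trace Lb Fb (Db i * Bb j) = if j = i then 1 else 0 := fun i j => by
    have := LinearMap.BilinForm.apply_dualBasis_left hLb Bb i j
    rwa [Algebra.traceForm_apply] at this
  have hDR : ∀ i, G.R (D i) (Db i) := by
    intro i
    have huniq : ∀ z : Fb, (∀ j, Algebra.trace Lb Fb (z * Bb j) = 0) → z = 0 := by
      intro z hz
      refine hLb.1 z fun w => ?_
      rw [← Bb.sum_repr w, map_sum]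
      refine Finset.sum_eq_zero fun j _ => ?_
      rw [map_smul, Algebra.traceForm_apply, hz, smul_zero]
    by_cases hmem : D i ∈ G.O
    · obtain ⟨z, hz⟩ := exists_R_of_mem hmem
      have h1 : z = Db i := by
        rw [← sub_eq_zero]
        refine huniq _ fun j => ?_
        rw [sub_mul, map_sub, hDb, sub_eq_zero]
        have h2 := R_trace (L := L) (Lb := Lb) hX hBR (hz.mul (hBR j))
        rw [hD] at h2
        split_ifs at h2 ⊢
        · rw [map_one] at h2
          have := h2.unique (R.one G)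
          rw [← map_one (algebraMap Lb Fb)] at this
          exact (algebraMap Lb Fb).injective this
        · rw [map_zero] at h2
          have := h2.unique (R.zero G)
          rw [← map_zero (algebraMap Lb Fb)] at this
          exact (algebraMap Lb Fb).injective this
      rwa [h1] at hz
    · exfalso
      have hD0 : D i ≠ 0 := D.ne_zero i
      obtain ⟨c, hc, hm1, hm2⟩ := G.scale (D i) hD0
      have h1 : G.R (algebraMap K F c * D i) (G.red ⟨_, hm1⟩) := ⟨hm1, rfl⟩
      have hcinv : c⁻¹ ∉ A := by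
        intro hcA
        apply hmem
        have := (R.const G ⟨c⁻¹, hcA⟩).mul h1
        simp only [← mul_assoc, ← map_mul, inv_mul_cancel₀ hc, map_one, one_mul] at this
        exact this.mem
      have hcR : G.R (algebraMap K F c) 0 := by
        have := R.const G ⟨c⁻¹⁻¹, inv_mem_of_not_mem hcinv⟩
        rw [π_inv_eq_zero hcinv, map_zero] at this
        simpa using this
      refine hm2 (huniq _ fun j => ?_)
      have h2 := R_trace (L := L) (Lb := Lb) hX hBR (h1.mul (hBR j))
      have h3 : Algebra.trace L F (algebraMap K F c * D i * B j) =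
          algebraMap K[X] L (C c) * (if j = i then 1 else 0) := by
        have : algebraMap K F c * D i * B j = algebraMap K[X] L (C c) • (D i * B j) := by
          rw [mul_assoc, Algebra.smul_def, ← IsScalarTower.algebraMap_apply K[X] L F,
            ← Polynomial.algebraMap_eq, ← IsScalarTower.algebraMap_apply K K[X] F]
        rw [this, map_smul, hD, smul_eq_mul]
      rw [h3, map_mul, ← IsScalarTower.algebraMap_apply K[X] L F,
            ← Polynomial.algebraMap_eq, ← IsScalarTower.algebraMap_apply K K[X] F] at h2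
      have h4 : G.R (algebraMap L F (if j = i then 1 else 0)) (if j = i then 1 else 0) := by
        split_ifs
        · rw [map_one]; exact R.one G
        · rw [map_zero]; exact R.zero G
      have h5 := hcR.mul h4
      rw [zero_mul] at h5
      have h6 := h2.unique h5
      rw [← map_zero (algebraMap Lb Fb)] at h6
      exact (algebraMap Lb Fb).injective h6
  -- tameness
  have heR : G.R (algebraMap K[X] F (e.map A.subtype)) 1 := by
    have := R_poly hX e
    rwa [he, map_one] at this
  have htame : ∀ i, IsIntegral κ[X] ((Db i) ^ m * algebraMap κ[X] Fb (g.map π) ^ (m - 1)) := by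
    intro i
    have h1 := ram (algebraMap K[X] F (e.map A.subtype) * D i) (by
      intro x hx
      obtain ⟨p, hp⟩ := hall x hx
      refine ⟨p i, ?_⟩
      have h2 : algebraMap K[X] F (e.map A.subtype) * D i * x =
          ∑ j, algebraMap K[X] L (p j) • (D i * B j) := by
        have h3 : algebraMap K[X] F (e.map A.subtype) * D i * x =
            D i * ((e.map A.subtype) • x) := by
          rw [Algebra.smul_def]; ring
        rw [h3, hp, Finset.mul_sum]
        refine Finset.sum_congr rfl fun j _ => ?_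
        rw [algebraMap_smul, hB, mul_smul_comm]
      rw [h2, map_sum]
      simp only [map_smul, hD, smul_eq_mul, mul_ite, mul_one, mul_zero, Finset.sum_ite_eq',
        Finset.mem_univ, if_true])
    have h2 : G.R (algebraMap K[X] F (e.map A.subtype) * D i) (Db i) := by
      have := heR.mul (hDR i)
      rwa [one_mul] at this
    exact isIntegral_red (G := G) L Lb hn h1 ((h2.pow m).mul ((R_poly hX g).pow (m - 1))) hX hπ
  -- conclusion
  have hcoef : ∀ i, ∃ r : κ[X], Bb.repr y i = algebraMap κ[X] Lb r := by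
    intro i
    have h1 : Bb.repr y i = Algebra.trace Lb Fb (Db i * y) := by
      conv_rhs => rw [← Bb.sum_repr y, Finset.mul_sum]
      simp only [mul_smul_comm, map_sum, map_smul, hDb, smul_eq_mul, mul_ite, mul_one, mul_zero,
        Finset.sum_ite_eq', Finset.mem_univ, if_true]
    rw [h1]
    refine exists_trace_eq_of_pow hg0 hg hm ?_
    rw [mul_pow, mul_right_comm]
    exact (htame i).mul (hy.pow m)
  choose r hr using hcoef
  have h1 : y = ∑ i, r i • (bb i : Fb) := by
    conv_lhs => rw [← Bb.sum_repr y]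
    refine Finset.sum_congr rfl fun i _ => ?_
    rw [hr, algebraMap_smul, hBb]
  rw [h1]
  exact Subalgebra.sum_mem _ fun i _ => Subalgebra.smul_mem _ (bb i).2 _

end GaussRed

end Fermat.Agent.GoodRed
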