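import Fermat.Agent.Curves.Degree

/-!
# Riemann's inequality and rigidity of homomorphisms of divisor groups
-/

set_option autoImplicit false

noncomputable section

namespace Fermat.Agent.GoodRed

open AlgebraicCurve IntermediateField WithZero Fermat.Agent.Curves

section Riemann

variable {k F : Type*} [Field k] [Field F] [Algebra k F] [IsFunctionField k F] [IsAlgClosed k]

omit [IsFunctionField k F] [IsAlgClosed k] in
theorem riemannRochSpace_mono {D D' : Divisor k F} (h : D ≤ D') :
    riemannRochSpace D ≤ riemannRochSpace D' := by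
  intro f hf
  rw [mem_riemannRochSpace_iff] at hf ⊢
  intro v
  rcases hf v with h0 | h1
  · exact Or.inl h0
  · right
    have := h v
    omega

instance finiteDimensional_riemannRochSpace (D : Divisor k F) :
    FiniteDimensional k (riemannRochSpace D) := by
  have h1 : Module.rank k (riemannRochSpace D) ≤ Module.rank k (riemannRochSpace (D ⊔ 0)) :=
    Submodule.rank_mono (riemannRochSpace_mono le_sup_left)
  have h2 := rank_riemannRochSpace_le (D ⊔ 0) le_sup_right
  have h3 := (h1.trans h2).trans_lt (Cardinal.natCast_lt_aleph0)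
  exact Module.rank_lt_aleph0_iff.mp h3

theorem finrank_add_single_le (D : Divisor k F) (v : Place k F) :
    Module.finrank k (riemannRochSpace (D + Finsupp.single v 1)) ≤
      Module.finrank k (riemannRochSpace D) + 1 := by
  have := rank_riemannRochSpace_add_single_le D v
  rw [← Module.finrank_eq_rank, ← Module.finrank_eq_rank] at this
  exact_mod_cast this

theorem finrank_add_le (D E : Divisor k F) (hE : 0 ≤ E) :
    (Module.finrank k (riemannRochSpace (D + E)) : ℤ) ≤
      Module.finrank k (riemannRochSpace D) + Divisor.degree E := by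
  classical
  have main : ∀ (n : ℕ) (E : Divisor k F), 0 ≤ E → (Divisor.degree E).toNat = n →
      Module.finrank k (riemannRochSpace (D + E)) ≤
        Module.finrank k (riemannRochSpace D) + n := by
    intro n
    induction n with
    | zero =>
      intro E hE hn
      have hE0 : E = 0 := by
        rw [degree_eq_sum] at hn
        ext v
        by_contra hne
        have hv : v ∈ E.support := by simpa using hne
        have h1 : E v ≤ E.sum fun _ n => n := by
          rw [Finsupp.sum]
          exact Finset.single_le_sum (fun w _ => hE w) hv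
        have h2 : 0 ≤ E v := hE v
        have h3 : E v ≠ 0 := hne
        omega
      rw [hE0, add_zero, add_zero]
    | succ n ih =>
      intro E hE hn
      have hne : E ≠ 0 := by
        rintro rfl
        simp at hn
      obtain ⟨v, hv⟩ := Finsupp.ne_iff.mp hne
      have hv1 : 1 ≤ E v := by
        have h2 : 0 ≤ E v := hE v
        have h3 : E v ≠ 0 := hv
        omega
      have hsub : E = (E - Finsupp.single v 1) + Finsupp.single v 1 := by simp
      have hdeg : Divisor.degree (E - Finsupp.single v 1) = Divisor.degree E - 1 := by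
        rw [map_sub, Divisor.degree_single, deg_eq_one]
        simp
      have hnn : 0 ≤ E - Finsupp.single v 1 := by
        intro w
        by_cases hw : w = v
        · subst hw
          simp only [Finsupp.coe_zero, Pi.zero_apply, Finsupp.coe_sub, Pi.sub_apply,
            Finsupp.single_eq_same]
          omega
        · simp only [Finsupp.coe_zero, Pi.zero_apply, Finsupp.coe_sub, Pi.sub_apply,
            Finsupp.single_eq_of_ne hw, sub_zero]
          exact hE w
      have h1 := ih (E - Finsupp.single v 1) hnn (by rw [hdeg]; omega)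
      have h2 := finrank_add_single_le (D + (E - Finsupp.single v 1)) v
      rw [add_assoc, ← hsub] at h2
      omega
  have h := main _ E hE rfl
  have h2 := pos_of_nonneg_degree E hE
  have h3 : (((Divisor.degree E).toNat : ℕ) : ℤ) = Divisor.degree E := Int.toNat_of_nonneg h2
  omega

theorem exists_mem_of_finrank_pos {D : Divisor k F}
    (h : 0 < Module.finrank k (riemannRochSpace D)) :
    ∃ f : F, f ≠ 0 ∧ 0 ≤ divisorOf f + D := by
  rw [Module.finrank_pos_iff] at h
  obtain ⟨f, hf⟩ := exists_ne (0 : riemannRochSpace D)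
  have hf0 : (f : F) ≠ 0 := fun h => hf (Subtype.ext h)
  refine ⟨f, hf0, ?_⟩
  intro v
  have := (mem_riemannRochSpace_iff.mp f.2 v).resolve_left hf0
  simp only [Finsupp.coe_zero, Pi.zero_apply, Finsupp.coe_add, Pi.add_apply, divisorOf_apply]
  omega

/-- many sections -/
theorem exists_many_sections :
    ∃ (n : ℕ) (B C : Divisor k F), 0 < n ∧ 0 ≤ B ∧ 0 ≤ C ∧ Divisor.degree B = n ∧
      ∀ l : ℕ, (l + 1) * n ≤ Module.finrank k (riemannRochSpace (l • B + C)) := by
  classical
  obtain ⟨x, hx, hfin⟩ := (inferInstance : IsFunctionField k F).1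
  have hx : Transcendental k x := hx
  have := finiteDimensional_adjoin_simple hx
  set n := Module.finrank k⟮x⟯ F with hn
  set B := poleDivisor (k := k) x with hB
  let u := Module.finBasis k⟮x⟯ F
  set C : Divisor k F := ∑ i, poleDivisor (k := k) (u i) with hC
  have hC0 : 0 ≤ C := Finset.sum_nonneg fun i _ => poleDivisor_nonneg _
  have hB0 : 0 ≤ B := poleDivisor_nonneg _
  have hx0 : x ≠ 0 := by
    rintro rfl
    exact hx (isAlgebraic_zero)
  refine ⟨n, B, C, Module.finrank_pos, hB0, hC0, degree_poleDivisor hx, fun l => ?_⟩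
  set D : Divisor k F := l • B + C with hD
  have hmem : ∀ p : Fin (l + 1) × Fin n, x ^ (p.1 : ℕ) * u p.2 ∈ riemannRochSpace D := by
    rintro ⟨j, i⟩
    rw [mem_riemannRochSpace_iff]
    intro v
    right
    have hu0 : u i ≠ 0 := u.ne_zero i
    rw [v.ord_mul (pow_ne_zero _ hx0) hu0, ord_pow]
    have h1 : -(v.ord (u i)) ≤ C v := by
      rw [hC, Finsupp.finsetSum_apply]
      refine le_trans ?_ (Finset.single_le_sum (f := fun i => poleDivisor (k := k) (u i) v)
        (fun i _ => poleDivisor_nonneg _ v) (Finset.mem_univ i))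
      simp
    have h2 : -((j : ℕ) * v.ord x : ℤ) ≤ l * B v := by
      have h3 : ((j : ℕ) : ℤ) ≤ l := by
        have := j.2
        omega
      have h4 : -v.ord x ≤ B v := by simp [hB]
      have h5 : 0 ≤ B v := hB0 v
      calc -((j : ℕ) * v.ord x : ℤ) = (j : ℕ) * (-v.ord x) := by ring
        _ ≤ (j : ℕ) * B v := mul_le_mul_of_nonneg_left h4 (by positivity)
        _ ≤ l * B v := mul_le_mul_of_nonneg_right h3 h5
    rw [hD, Finsupp.add_apply, Finsupp.smul_apply, nsmul_eq_mul]
    simp only
    omega
  have hind1 : LinearIndependent k fun j : Fin (l + 1) =>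
      (⟨x, IntermediateField.mem_adjoin_simple_self k x⟩ : k⟮x⟯) ^ (j : ℕ) := by
    have h1 : LinearIndependent k fun j : ℕ => x ^ j := by
      have h0 : LinearIndependent k fun j : ℕ => (Polynomial.X : Polynomial k) ^ j := by
        have := (Polynomial.basisMonomials k).linearIndependent
        simpa [Polynomial.X_pow_eq_monomial] using this
      have h2 := h0.map' (Polynomial.aeval x).toLinearMap
        (LinearMap.ker_eq_bot.mpr (transcendental_iff_injective.mp hx))
      simpa [Function.comp_def] using h2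
    have h2 : LinearIndependent k fun j : Fin (l + 1) => x ^ (j : ℕ) :=
      h1.comp _ Fin.val_injective
    refine LinearIndependent.of_comp (k⟮x⟯.val.toLinearMap) ?_
    exact h2
  have hind := linearIndependent_smul hind1 u.linearIndependent
  have hind' : LinearIndependent k fun p : Fin (l + 1) × Fin n =>
      (⟨x ^ (p.1 : ℕ) * u p.2, hmem p⟩ : riemannRochSpace D) := by
    refine LinearIndependent.of_comp (riemannRochSpace D).subtype ?_
    exact hind
  have h1 := hind'.fintype_card_le_finrank
  rwa [Fintype.card_prod, Fintype.card_fin, Fintype.card_fin] at h1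

/-- **Riemann's inequality** (weak form). -/
theorem riemann_inequality :
    ∃ C : ℕ, ∀ D : Divisor k F, (C : ℤ) ≤ Divisor.degree D →
      ∃ f : F, f ≠ 0 ∧ 0 ≤ divisorOf f + D := by
  obtain ⟨n, B, C', hn, hB0, hC0, hBn, hmany⟩ := exists_many_sections (k := k) (F := F)
  have hCd := pos_of_nonneg_degree C' hC0
  refine ⟨(Divisor.degree C').toNat, fun D hD => ?_⟩
  rw [Int.toNat_of_nonneg hCd] at hD
  set Dp : Divisor k F := D ⊔ 0 with hDp
  have hDp0 : 0 ≤ Dp := le_sup_right
  have hDpd := pos_of_nonneg_degree Dp hDp0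
  -- choose `l`
  set l := (Divisor.degree Dp).toNat with hl
  have hlz : (l : ℤ) = Divisor.degree Dp := Int.toNat_of_nonneg hDpd
  have h1 := hmany l
  have h2 := finrank_add_le (l • B + C' - Dp) Dp hDp0
  rw [sub_add_cancel] at h2
  have h3 : 0 < Module.finrank k (riemannRochSpace (l • B + C' - Dp)) := by
    have h4 : ((l + 1) * n : ℤ) ≤ Module.finrank k (riemannRochSpace (l • B + C')) := by
      exact_mod_cast h1
    have h5 : ((l + 1 : ℕ) : ℤ) ≤ (l + 1) * n := by
      have : (1 : ℤ) ≤ n := by exact_mod_cast hn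
      push_cast
      nlinarith
    push_cast at h5
    omega
  obtain ⟨z, hz0, hz⟩ := exists_mem_of_finrank_pos h3
  -- `D ≤ lB + C' + div z`
  set E : Divisor k F := divisorOf z + (l • B + C') - D with hE
  have hE0 : 0 ≤ E := by
    have h4 : D ≤ Dp := le_sup_left
    intro v
    have h5 := h4 v
    have h6 := hz v
    simp only [hE, Finsupp.coe_zero, Pi.zero_apply, Finsupp.coe_add, Pi.add_apply, Finsupp.coe_sub,
      Pi.sub_apply] at h5 h6 ⊢
    omega
  have h7 := finrank_add_le (l • B + C' - E) E hE0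
  rw [sub_add_cancel] at h7
  have hEd : Divisor.degree E = l * n + Divisor.degree C' - Divisor.degree D := by
    rw [hE, map_sub, map_add, degree_divisorOf, zero_add, map_add, map_nsmul, hBn, nsmul_eq_mul]
  have h8 : 0 < Module.finrank k (riemannRochSpace (l • B + C' - E)) := by
    have h4 : ((l + 1) * n : ℤ) ≤ Module.finrank k (riemannRochSpace (l • B + C')) := by
      exact_mod_cast h1
    have : (1 : ℤ) ≤ n := by exact_mod_cast hn
    rw [hEd] at h7
    have h9 : ((l : ℤ) + 1) * n = l * n + n := by ring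
    omega
  obtain ⟨g, hg0, hg⟩ := exists_mem_of_finrank_pos h8
  refine ⟨g / z, div_ne_zero hg0 hz0, fun v => ?_⟩
  have h10 := hg v
  simp only [hE, Finsupp.coe_zero, Pi.zero_apply, Finsupp.coe_add, Pi.add_apply, Finsupp.coe_sub,
      Pi.sub_apply, divisorOf_apply] at h10 ⊢
  rw [ord_div v hg0 hz0]
  omega

end Riemann

section Rigid

variable {k F : Type*} [Field k] [Field F] [Algebra k F]
variable {k' F' : Type*} [Field k'] [Field F'] [Algebra k' F']
variable {k'' F'' : Type*} [Field k''] [Field F''] [Algebra k'' F'']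

/-- homomorphisms of divisor groups preserving effectivity and multiplying degrees by `c`. -/
structure PosDeg (δ : Divisor k F →+ Divisor k' F') (c : ℤ) : Prop where
  nonneg : ∀ D, 0 ≤ D → 0 ≤ δ D
  degree : ∀ D, Divisor.degree (δ D) = c * Divisor.degree D

theorem PosDeg.comp {δ : Divisor k F →+ Divisor k' F'} {c : ℤ} (h : PosDeg δ c)
    {ε : Divisor k' F' →+ Divisor k'' F''} {d : ℤ} (h' : PosDeg ε d) :
    PosDeg (ε.comp δ) (d * c) where
  nonneg D hD := h'.nonneg _ (h.nonneg D hD)
  degree D := by rw [AddMonoidHom.comp_apply, h'.degree, h.degree, mul_assoc]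

theorem PosDeg.add {δ ε : Divisor k F →+ Divisor k' F'} {c d : ℤ} (h : PosDeg δ c)
    (h' : PosDeg ε d) : PosDeg (δ + ε) (c + d) where
  nonneg D hD := by
    rw [AddMonoidHom.add_apply]
    exact add_nonneg (h.nonneg D hD) (h'.nonneg D hD)
  degree D := by rw [AddMonoidHom.add_apply, map_add, h'.degree, h.degree, add_mul]

theorem PosDeg.nsmul {δ : Divisor k F →+ Divisor k' F'} {c : ℤ} (h : PosDeg δ c) (n : ℕ) :
    PosDeg (n • δ) (n * c) where
  nonneg D hD := by
    rw [AddMonoidHom.smul_apply]
    exact nsmul_nonneg (h.nonneg D hD) n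
  degree D := by
    rw [AddMonoidHom.smul_apply, map_nsmul, h.degree, nsmul_eq_mul, mul_assoc]

theorem PosDeg.id : PosDeg (AddMonoidHom.id (Divisor k F)) 1 where
  nonneg D hD := hD
  degree D := by rw [AddMonoidHom.id_apply, one_mul]

variable [IsFunctionField k F] [IsAlgClosed k] [IsFunctionField k' F'] [IsAlgClosed k']

omit [IsFunctionField k F] [IsAlgClosed k] in
theorem PosDeg.abs_apply_le {δ : Divisor k F →+ Divisor k' F'} {c : ℤ} (h : PosDeg δ c)
    {D : Divisor k F} (hD : 0 ≤ D) (Q : Place k' F') : 0 ≤ δ D Q ∧ δ D Q ≤ c * Divisor.degree D := by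
  have h1 := h.nonneg D hD
  refine ⟨h1 Q, ?_⟩
  rw [← h.degree, degree_eq_sum, Finsupp.sum]
  by_cases hQ : Q ∈ (δ D).support
  · exact Finset.single_le_sum (fun w _ => h1 w) hQ
  · rw [Finsupp.notMem_support_iff] at hQ
    rw [hQ]
    exact Finset.sum_nonneg fun w _ => h1 w

/-- **Rigidity**: two homomorphisms preserving effectivity and agreeing on principal divisors
agree in degree zero. -/
theorem rigid {δ₁ δ₂ : Divisor k F →+ Divisor k' F'} {c₁ c₂ : ℤ} (h₁ : PosDeg δ₁ c₁)
    (h₂ : PosDeg δ₂ c₂)
    (hpr : ∀ f : F, f ≠ 0 → δ₁ (divisorOf f) = δ₂ (divisorOf f))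
    {D : Divisor k F} (hD : Divisor.degree D = 0) : δ₁ D = δ₂ D := by
  classical
  rcases eq_or_ne D 0 with rfl | hne
  · rw [map_zero, map_zero]
  obtain ⟨P, -⟩ := Finsupp.ne_iff.mp hne
  obtain ⟨C, hC⟩ := riemann_inequality (k := k) (F := F)
  ext Q
  -- key bound
  have hP0 : (0 : Divisor k F) ≤ Finsupp.single P 1 := by
    rw [Finsupp.single_nonneg]
    norm_num
  have hPd : Divisor.degree (Finsupp.single P 1 : Divisor k F) = 1 := by
    rw [Divisor.degree_single, deg_eq_one]
    simp
  have key : ∀ n : ℕ, |(n : ℤ) * (δ₁ D Q - δ₂ D Q)| ≤ 2 * C * (|c₁| + |c₂|) := by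
    intro n
    obtain ⟨f, hf0, hf⟩ := hC (n • D + C • Finsupp.single P 1) (by
      rw [map_add, map_nsmul, map_nsmul, hD, hPd]
      simp)
    set E : Divisor k F := divisorOf f + (n • D + C • Finsupp.single P 1) with hE
    have hEd : Divisor.degree E = C := by
      rw [hE, map_add, map_add, map_nsmul, map_nsmul, hD, hPd, degree_divisorOf]
      simp
    have e1 : δ₁ E Q - δ₂ E Q = n * (δ₁ D Q - δ₂ D Q) +
        C * (δ₁ (Finsupp.single P 1) Q - δ₂ (Finsupp.single P 1) Q) := by
      rw [hE]
      simp only [map_add, map_nsmul, Finsupp.add_apply, Finsupp.smul_apply, hpr f hf0,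
        nsmul_eq_mul]
      ring
    obtain ⟨a1, a2⟩ := h₁.abs_apply_le hf Q
    obtain ⟨b1, b2⟩ := h₂.abs_apply_le hf Q
    obtain ⟨a3, a4⟩ := h₁.abs_apply_le hP0 Q
    obtain ⟨b3, b4⟩ := h₂.abs_apply_le hP0 Q
    rw [hEd] at a2 b2
    rw [hPd, mul_one] at a4 b4
    have hc1 := le_abs_self c₁
    have hc2 := le_abs_self c₂
    have hC0 : (0 : ℤ) ≤ C := Int.natCast_nonneg C
    have e2 : (n : ℤ) * (δ₁ D Q - δ₂ D Q) = (δ₁ E Q - δ₂ E Q) -
        C * (δ₁ (Finsupp.single P 1) Q - δ₂ (Finsupp.single P 1) Q) := by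
      rw [e1]
      ring
    rw [e2, abs_le]
    have m1 : c₁ * C ≤ |c₁| * C := mul_le_mul_of_nonneg_right hc1 hC0
    have m2 : c₂ * C ≤ |c₂| * C := mul_le_mul_of_nonneg_right hc2 hC0
    have m3 : (C : ℤ) * δ₁ (Finsupp.single P 1) Q ≤ C * |c₁| :=
      mul_le_mul_of_nonneg_left (a4.trans hc1) hC0
    have m4 : (C : ℤ) * δ₂ (Finsupp.single P 1) Q ≤ C * |c₂| :=
      mul_le_mul_of_nonneg_left (b4.trans hc2) hC0
    have m5 : 0 ≤ (C : ℤ) * δ₁ (Finsupp.single P 1) Q := mul_nonneg hC0 a3
    have m6 : 0 ≤ (C : ℤ) * δ₂ (Finsupp.single P 1) Q := mul_nonneg hC0 b3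
    constructor <;> nlinarith
  by_contra hne'
  have hx : 1 ≤ |δ₁ D Q - δ₂ D Q| := Int.one_le_abs (sub_ne_zero.mpr hne')
  have hb : 0 ≤ 2 * (C : ℤ) * (|c₁| + |c₂|) := by positivity
  have := key ((2 * C * (|c₁| + |c₂|)).toNat + 1)
  rw [abs_mul] at this
  push_cast at this
  rw [Int.toNat_of_nonneg hb] at this
  rw [abs_of_nonneg (by linarith : (0 : ℤ) ≤ 2 * C * (|c₁| + |c₂|) + 1)] at this
  nlinarith

end Rigid

end Fermat.Agent.GoodRed
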