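import Fermat.Agent.GoodRed.Red
import Fermat.Agent.GoodRed.Rigid

/-!
# The reduction map on places and divisors
-/

set_option autoImplicit false
set_option linter.unusedSectionVars false
set_option linter.style.haveILetI false

noncomputable section

namespace Fermat.Agent.GoodRed

open Polynomial AlgebraicCurve Fermat.Agent.Curves Module IntermediateField

variable {K κ : Type*} [Field K] [Field κ] [IsAlgClosed K] [IsAlgClosed κ] {A : ValuationSubring K}
  {π : A →+* κ} [IsLocalHom π]
  {F Fb : Type*} [Field F] [Field Fb] [Algebra K F] [Algebra κ Fb]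
  [IsFunctionField K F] [IsFunctionField κ Fb]

variable {G : GaussRed A π F Fb} {t : F} {tb : Fb}

theorem inDisc_iff_value (ht : Transcendental K t) {P : Place K F} {τ : κ} :
    InDisc π P t τ ↔ t ∈ P.toValuationSubring ∧ ∃ a : A, (a : K) = value P t ∧ π a = τ := by
  constructor
  · rintro ⟨a, ha, h⟩
    exact ⟨mem_place_of_ord_pos h, a, (value_eq_of_ord_pos ht h).symm, ha⟩
  · rintro ⟨hP, a, ha, h⟩
    exact ⟨a, h, (ord_sub_pos_iff ht hP _).2 ha.symm⟩

theorem inDisc_inv_zero (ht : Transcendental K t) {P : Place K F}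
    (h : ¬ ∃ τ, InDisc π P t τ) : InDisc π P t⁻¹ (0 : κ) := by
  have ht0 : t ≠ 0 := by
    rintro h0
    exact ht (h0 ▸ isAlgebraic_zero)
  by_cases hP : t ∈ P.toValuationSubring
  · -- value not in `A`
    have hv : value P t ∉ A := by
      intro hc
      exact h ⟨π ⟨_, hc⟩, (inDisc_iff_value ht).2 ⟨hP, ⟨_, hc⟩, rfl, rfl⟩⟩
    have hv0 : value P t ≠ 0 := by
      intro h0
      rw [h0] at hv
      exact hv (zero_mem _)
    have hord : P.ord t = 0 := by
      by_contra hne
      have h1 := (mem_iff_ord P ht0).1 hP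
      have h2 : 0 < P.ord t := by omega
      exact hv0 ((value_eq_zero_iff P hP).2 ((val_lt_one_iff P).2 (Or.inr h2)))
    have hP' : t⁻¹ ∈ P.toValuationSubring := by
      rw [mem_iff_ord P (inv_ne_zero ht0), P.ord_inv, hord]
      simp
    have hmul : value P t * value P t⁻¹ = 1 := by
      rw [← value_mul P hP hP', mul_inv_cancel₀ ht0, value_one]
    have hval : value P t⁻¹ = (value P t)⁻¹ := eq_inv_of_mul_eq_one_right hmul
    refine (inDisc_iff_value (fun h' => ht (by simpa using h'.inv))).2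
      ⟨hP', ⟨(value P t)⁻¹, GaussRed.inv_mem_of_not_mem hv⟩, hval.symm, ?_⟩
    exact GaussRed.π_inv_eq_zero hv
  · have h1 : P.ord t < 0 := by
      by_contra hcon
      push Not at hcon
      exact hP ((mem_iff_ord P ht0).2 hcon)
    refine ⟨0, map_zero π, ?_⟩
    rw [ZeroMemClass.coe_zero, map_zero, sub_zero, P.ord_inv]
    omega

theorem value_eq_of_specTo {P : Place K F} {Q : Place κ Fb} (hC : Chart G t tb)
    (h : SpecTo G t tb P Q) {τ : κ} (hτ : InDisc π P t τ) : value Q tb = τ := by
  obtain ⟨-, a, ha, ha'⟩ := (inDisc_iff_value hC.tr).1 hτ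
  obtain ⟨-, b, hb, hb'⟩ := (inDisc_iff_value hC.tr).1 (h.inDisc hC)
  rw [← hb', ← ha']
  congr 1
  exact Subtype.ext (hb.trans ha.symm)

open Classical in
/-- the reduction of a place -/
def redPlace (h1 : GoodChart G t tb) (h2 : GoodChart G t⁻¹ tb⁻¹) (P : Place K F) : Place κ Fb :=
  if h : ∃ τ, InDisc π P t τ then (h1.existsUnique_specTo h.choose_spec).choose
  else (h2.existsUnique_specTo (inDisc_inv_zero h1.tr h)).choose

theorem redPlace_spec1 (h1 : GoodChart G t tb) (h2 : GoodChart G t⁻¹ tb⁻¹) {P : Place K F}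
    (h : ∃ τ, InDisc π P t τ) : SpecTo G t tb P (redPlace h1 h2 P) := by
  rw [redPlace, dif_pos h]
  exact (h1.existsUnique_specTo h.choose_spec).choose_spec.1

theorem redPlace_spec2 (h1 : GoodChart G t tb) (h2 : GoodChart G t⁻¹ tb⁻¹) {P : Place K F}
    (h : ¬ ∃ τ, InDisc π P t τ) : SpecTo G t⁻¹ tb⁻¹ P (redPlace h1 h2 P) := by
  rw [redPlace, dif_neg h]
  exact (h2.existsUnique_specTo (inDisc_inv_zero h1.tr h)).choose_spec.1

theorem redPlace_eq_iff1 (h1 : GoodChart G t tb) (h2 : GoodChart G t⁻¹ tb⁻¹) {P : Place K F}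
    {Q : Place κ Fb} (hQ : tb ∈ Q.toValuationSubring) :
    redPlace h1 h2 P = Q ↔ SpecTo G t tb P Q := by
  constructor
  · rintro rfl
    by_cases h : ∃ τ, InDisc π P t τ
    · exact redPlace_spec1 h1 h2 h
    · exfalso
      have h3 := redPlace_spec2 h1 h2 h
      have h4 := value_eq_of_specTo h2.toChart h3 (inDisc_inv_zero h1.tr h)
      have h5 : (redPlace h1 h2 P).adicValuation tb⁻¹ < 1 :=
        (value_eq_zero_iff _ h3.2.1).1 h4
      have h6 := (val_lt_one_iff _).1 h5
      rcases h6 with h6 | h6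
      · exact inv_ne_zero h1.toChart.ne_zero h6
      · rw [(redPlace h1 h2 P).ord_inv] at h6
        have := (mem_iff_ord _ h1.toChart.ne_zero).1 hQ
        omega
  · intro h
    have hτ := h.inDisc h1.toChart
    have h3 := redPlace_spec1 h1 h2 ⟨_, hτ⟩
    exact (h1.existsUnique_specTo hτ).unique h3 h

theorem redPlace_eq_iff2 (h1 : GoodChart G t tb) (h2 : GoodChart G t⁻¹ tb⁻¹) {P : Place K F}
    {Q : Place κ Fb} (hQ : tb ∉ Q.toValuationSubring) :
    redPlace h1 h2 P = Q ↔ SpecTo G t⁻¹ tb⁻¹ P Q := by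
  have hQord : Q.ord tb < 0 := by
    by_contra hcon
    push Not at hcon
    exact hQ ((mem_iff_ord Q h1.toChart.ne_zero).2 hcon)
  have hQ' : tb⁻¹ ∈ Q.toValuationSubring := by
    rw [mem_iff_ord Q (inv_ne_zero h1.toChart.ne_zero), Q.ord_inv]
    omega
  have hval : value Q tb⁻¹ = 0 := by
    rw [value_eq_zero_iff Q hQ', val_lt_one_iff]
    right
    rw [Q.ord_inv]
    omega
  constructor
  · rintro rfl
    by_cases h : ∃ τ, InDisc π P t τ
    · exact absurd (redPlace_spec1 h1 h2 h).2.1 hQ
    · exact redPlace_spec2 h1 h2 h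
  · intro h
    have hτ := h.inDisc h2.toChart
    rw [hval] at hτ
    have hno : ¬ ∃ τ, InDisc π P t τ := by
      rintro ⟨τ, hτ'⟩
      obtain ⟨hP, a, ha, ha'⟩ := (inDisc_iff_value h1.tr).1 hτ'
      obtain ⟨hP', b, hb, hb'⟩ := (inDisc_iff_value h2.tr).1 hτ
      have ht0 : t ≠ 0 := by
        rintro h0
        exact h1.tr (h0 ▸ isAlgebraic_zero)
      have hmul : value P t * value P t⁻¹ = 1 := by
        rw [← value_mul P hP hP', mul_inv_cancel₀ ht0, value_one]
      rw [← ha, ← hb] at hmul
      have : a * b = 1 := Subtype.ext hmul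
      have h3 := congrArg π this
      rw [map_mul, hb', mul_zero, map_one] at h3
      exact zero_ne_one h3
    have h3 := redPlace_spec2 h1 h2 hno
    exact (h2.existsUnique_specTo hτ).unique h3 h

/-- the reduction map on divisors -/
def redDiv (h1 : GoodChart G t tb) (h2 : GoodChart G t⁻¹ tb⁻¹) : Divisor K F →+ Divisor κ Fb :=
  Finsupp.mapDomain.addMonoidHom (redPlace h1 h2)

theorem redDiv_single (h1 : GoodChart G t tb) (h2 : GoodChart G t⁻¹ tb⁻¹) (P : Place K F) (n : ℤ) :
    redDiv h1 h2 (Finsupp.single P n) = Finsupp.single (redPlace h1 h2 P) n :=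
  Finsupp.mapDomain_single

open Classical in
theorem redDiv_apply (h1 : GoodChart G t tb) (h2 : GoodChart G t⁻¹ tb⁻¹) (D : Divisor K F)
    (Q : Place κ Fb) : redDiv h1 h2 D Q =
      ∑ P ∈ D.support.filter (fun P => redPlace h1 h2 P = Q), D P := by
  change (Finsupp.mapDomain (redPlace h1 h2) D) Q = _
  rw [Finsupp.mapDomain, Finsupp.sum_apply, Finsupp.sum, Finset.sum_filter]
  refine Finset.sum_congr rfl fun P _ => ?_
  rw [Finsupp.single_apply]

/-- **Reduction of principal divisors**. -/
theorem redDiv_divisorOf (h1 : GoodChart G t tb) (h2 : GoodChart G t⁻¹ tb⁻¹) {f : F} {fb : Fb}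
    (hR : G.R f fb) (hfb : fb ≠ 0) : redDiv h1 h2 (divisorOf f) = divisorOf fb := by
  classical
  ext Q
  rw [redDiv_apply, divisorOf_apply]
  have hsupp : ∀ (p : Place K F → Prop) [DecidablePred p],
      ∑ P ∈ (divisorOf (k := K) f).support.filter p, divisorOf f P =
      ∑ P ∈ (finite_support (k := K) f).toFinset.filter p, P.ord f := by
    intro p _
    refine Finset.sum_congr ?_ fun P _ => rfl
    congr 1
  rw [hsupp]
  by_cases hQ : tb ∈ Q.toValuationSubring
  · rw [h1.ord_red hQ hR hfb]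
    refine Finset.sum_congr ?_ fun P _ => rfl
    refine Finset.filter_congr fun P _ => ?_
    exact redPlace_eq_iff1 h1 h2 hQ
  · have hQ' : tb⁻¹ ∈ Q.toValuationSubring := by
      have hQord : Q.ord tb < 0 := by
        by_contra hcon
        push Not at hcon
        exact hQ ((mem_iff_ord Q h1.toChart.ne_zero).2 hcon)
      rw [mem_iff_ord Q (inv_ne_zero h1.toChart.ne_zero), Q.ord_inv]
      omega
    rw [h2.ord_red hQ' hR hfb]
    refine Finset.sum_congr ?_ fun P _ => rfl
    refine Finset.filter_congr fun P _ => ?_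
    exact redPlace_eq_iff2 h1 h2 hQ

theorem redDiv_posDeg (h1 : GoodChart G t tb) (h2 : GoodChart G t⁻¹ tb⁻¹) :
    PosDeg (redDiv h1 h2) 1 where
  nonneg D hD := by
    classical
    intro Q
    rw [redDiv_apply]
    exact Finset.sum_nonneg fun P _ => hD P
  degree D := by
    rw [one_mul]
    induction D using Finsupp.induction_linear with
    | zero => rw [map_zero, map_zero, map_zero]
    | add D E hD hE => rw [map_add, map_add, map_add, hD, hE]
    | single P n =>
      rw [redDiv_single, Divisor.degree_single, Divisor.degree_single, deg_eq_one, deg_eq_one]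

end Fermat.Agent.GoodRed
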