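import Fermat.Agent.GoodRed.Gauss

/-!
# Gauss reductions over `K(X)`: orthonormal bases, traces and norms
-/

set_option autoImplicit false
set_option linter.unusedSectionVars false

noncomputable section

namespace Fermat.Agent.GoodRed

open Polynomial Module

namespace GaussRed

variable {K κ : Type*} [Field K] [Field κ] {A : ValuationSubring K} {π : A →+* κ}
  {F Fb : Type*} [Field F] [Field Fb] [Algebra K F] [Algebra κ Fb]
  {G : GaussRed A π F Fb}
  [Algebra K[X] F] [IsScalarTower K K[X] F] [Algebra κ[X] Fb] [IsScalarTower κ κ[X] Fb]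

theorem R_poly (hX : G.R (algebraMap K[X] F X) (algebraMap κ[X] Fb X)) (q : A[X]) :
    G.R (algebraMap K[X] F (q.map A.subtype)) (algebraMap κ[X] Fb (q.map π)) := by
  induction q using Polynomial.induction_on with
  | C a =>
    rw [map_C, map_C, ← Polynomial.algebraMap_eq, ← Polynomial.algebraMap_eq,
      ← IsScalarTower.algebraMap_apply, ← IsScalarTower.algebraMap_apply]
    exact R.const G a
  | add p q hp hq =>
    rw [Polynomial.map_add, Polynomial.map_add, map_add, map_add]
    exact hp.add hq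
  | monomial n a h =>
    rw [pow_succ, ← mul_assoc, Polynomial.map_mul, Polynomial.map_mul (f := π), map_mul, map_mul,
      map_X, map_X]
    exact h.mul hX

variable [IsLocalHom π]

section

variable [FaithfulSMul κ[X] Fb]

omit [IsScalarTower κ κ[X] Fb] [IsLocalHom π] in
theorem algebraMap_poly_ne_zero {p : κ[X]} (hp : p ≠ 0) : algebraMap κ[X] Fb p ≠ 0 := by
  rw [Ne, FaithfulSMul.algebraMap_eq_zero_iff]
  exact hp

/-- Polynomials which lie in `O` have coefficients in `A`. -/
theorem exists_of_algebraMap_mem (hX : G.R (algebraMap K[X] F X) (algebraMap κ[X] Fb X))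
    {p : K[X]} (hp : algebraMap K[X] F p ∈ G.O) : ∃ q : A[X], q.map A.subtype = p := by
  rcases eq_or_ne p 0 with rfl | hp0
  · exact ⟨0, by simp⟩
  obtain ⟨c, q, hc, hq, hq0⟩ := exists_scale_poly (A := A) (π := π) p hp0
  have hq' : C c⁻¹ * q.map A.subtype = p := by
    rw [hq, ← mul_assoc, ← C_mul, inv_mul_cancel₀ hc, C_1, one_mul]
  have key : c⁻¹ ∈ A := by
    by_contra h
    have hcA : c ∈ A := by
      have := inv_mem_of_not_mem h
      rwa [inv_inv] at this
    have hπ : π ⟨c, hcA⟩ = 0 := by
      have h1 := π_inv_eq_zero (π := π) h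
      convert h1 using 3
      rw [inv_inv]
    obtain ⟨y, hy⟩ := exists_R_of_mem hp
    have h1 := (R.const G ⟨c, hcA⟩).mul hy
    rw [hπ, map_zero, zero_mul] at h1
    have h2 := R_poly hX q
    have h3 : algebraMap K[X] F (q.map A.subtype) = algebraMap K F c * algebraMap K[X] F p := by
      rw [hq, map_mul, ← Polynomial.algebraMap_eq, ← IsScalarTower.algebraMap_apply]
    rw [h3] at h2
    exact algebraMap_poly_ne_zero hq0 (h2.unique h1)
  refine ⟨C ⟨c⁻¹, key⟩ * q, ?_⟩
  rw [Polynomial.map_mul, map_C]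
  exact hq'

/-- Lifts of linearly independent elements are linearly independent. -/
theorem linearIndependent_of_red (hX : G.R (algebraMap K[X] F X) (algebraMap κ[X] Fb X))
    {ι : Type*} [Finite ι] {b : ι → F} {bb : ι → Fb} (hb : ∀ i, G.R (b i) (bb i))
    (h : LinearIndependent κ[X] bb) : LinearIndependent K[X] b := by
  have := Fintype.ofFinite ι
  rw [Fintype.linearIndependent_iff] at h ⊢
  intro g hg
  by_contra hne
  push Not at hne
  obtain ⟨c, q, hc, hq, i, hi⟩ := exists_scale_polys (A := A) (π := π) g hne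
  have h1 : G.R (∑ i, algebraMap K[X] F ((q i).map A.subtype) * b i)
      (∑ i, algebraMap κ[X] Fb ((q i).map π) * bb i) :=
    R.sum _ fun i _ => (R_poly hX (q i)).mul (hb i)
  have h2 : ∑ i, algebraMap K[X] F ((q i).map A.subtype) * b i = 0 := by
    have : ∀ i, algebraMap K[X] F ((q i).map A.subtype) * b i =
        algebraMap K[X] F (C c) * (g i • b i) := by
      intro i
      rw [hq, map_mul, Algebra.smul_def, mul_assoc]
    simp only [this]
    rw [← Finset.mul_sum, hg, mul_zero]
  rw [h2] at h1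
  have h3 : ∑ i, ((q i).map π) • bb i = 0 := by
    simp only [Algebra.smul_def]
    exact h1.unique (R.zero G)
  exact hi (h _ h3 i)

/-- Expansion with integral coefficients. -/
theorem exists_expand (hX : G.R (algebraMap K[X] F X) (algebraMap κ[X] Fb X))
    {ι : Type*} [Fintype ι] {b : ι → F} {bb : ι → Fb} (hb : ∀ i, G.R (b i) (bb i))
    (h : LinearIndependent κ[X] bb) {x : F} {y : Fb} (hxy : G.R x y)
    {d : K[X]} {p : ι → K[X]} (hd : d ≠ 0) (hx : d • x = ∑ i, p i • b i) :
    ∃ (e : A[X]) (r : ι → A[X]) (c : K), c ≠ 0 ∧ e.map A.subtype = C c * d ∧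
      (∀ i, (r i).map A.subtype = C c * p i) ∧ e.map π ≠ 0 ∧
      (e.map A.subtype) • x = ∑ i, ((r i).map A.subtype) • b i ∧
      (e.map π) • y = ∑ i, ((r i).map π) • bb i := by
  obtain ⟨c, q, hc, hq, i, hi⟩ := exists_scale_polys (A := A) (π := π)
    (fun o : Option ι => o.elim d p) ⟨none, hd⟩
  have hd' : (q none).map A.subtype = C c * d := hq none
  have hp' : ∀ i, (q (some i)).map A.subtype = C c * p i := fun i => hq (some i)
  have hx' : ((q none).map A.subtype) • x = ∑ i, ((q (some i)).map A.subtype) • b i := by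
    rw [hd', mul_smul, hx, Finset.smul_sum]
    refine Finset.sum_congr rfl fun i _ => ?_
    rw [hp', mul_smul]
  have h1 : G.R (((q none).map A.subtype) • x) (((q none).map π) • y) := by
    rw [Algebra.smul_def, Algebra.smul_def]
    exact (R_poly hX _).mul hxy
  have h2 : G.R (∑ i, ((q (some i)).map A.subtype) • b i) (∑ i, ((q (some i)).map π) • bb i) := by
    simp only [Algebra.smul_def]
    exact R.sum _ fun i _ => (R_poly hX _).mul (hb i)
  have hy' : ((q none).map π) • y = ∑ i, ((q (some i)).map π) • bb i := by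
    rw [hx'] at h1
    exact h1.unique h2
  refine ⟨q none, fun i => q (some i), c, hc, hd', hp', fun h0 => ?_, hx', hy'⟩
  rw [h0, zero_smul] at hy'
  rw [Fintype.linearIndependent_iff] at h
  have h3 := h _ hy'.symm
  rcases i with _ | i
  · exact hi h0
  · exact hi (h3 i)

end

section Fraction

variable (L : Type*) [Field L] [Algebra K[X] L] [IsFractionRing K[X] L] [Algebra L F]
  [IsScalarTower K[X] L F] [FiniteDimensional L F]
  (Lb : Type*) [Field Lb] [Algebra κ[X] Lb] [IsFractionRing κ[X] Lb] [Algebra Lb Fb]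
  [IsScalarTower κ[X] Lb Fb] [FiniteDimensional Lb Fb]

omit [Algebra K F] [Algebra κ Fb] [Algebra K[X] F] [IsScalarTower K K[X] F]
  [IsScalarTower κ κ[X] Fb] [IsLocalHom π] in
include Lb in
theorem faithfulSMul_red : FaithfulSMul κ[X] Fb := by
  rw [faithfulSMul_iff_algebraMap_injective, IsScalarTower.algebraMap_eq κ[X] Lb Fb]
  exact (algebraMap Lb Fb).injective.comp (IsFractionRing.injective κ[X] Lb)

variable {L Lb}

theorem exists_common_denom {ι : Type*} [Fintype ι] (B : Basis ι L F) (x : F) :
    ∃ (d : K[X]) (p : ι → K[X]), d ≠ 0 ∧ (∀ i, algebraMap K[X] L (p i) = algebraMap K[X] L d * B.repr x i) ∧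
      d • x = ∑ i, p i • B i := by
  classical
  obtain ⟨d, hd⟩ := IsLocalization.exist_integer_multiples_of_finite (nonZeroDivisors K[X])
    (fun i => B.repr x i)
  choose p hp using hd
  have hp' : ∀ i, algebraMap K[X] L (p i) = algebraMap K[X] L (d : K[X]) * B.repr x i := by
    intro i
    rw [hp, Algebra.smul_def]
  refine ⟨d, p, nonZeroDivisors.ne_zero d.2, hp', ?_⟩
  conv_lhs => rw [← B.sum_repr x]
  rw [Finset.smul_sum]
  refine Finset.sum_congr rfl fun i _ => ?_
  rw [Algebra.smul_def, Algebra.smul_def, Algebra.smul_def, IsScalarTower.algebraMap_apply K[X] L F,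
    ← mul_assoc, ← map_mul, ← hp', IsScalarTower.algebraMap_apply K[X] L F]

theorem R_repr (hX : G.R (algebraMap K[X] F X) (algebraMap κ[X] Fb X))
    {ι : Type*} [Fintype ι] {B : Basis ι L F} {Bb : Basis ι Lb Fb} (hB : ∀ i, G.R (B i) (Bb i))
    {x : F} {y : Fb} (h : G.R x y) (i : ι) :
    G.R (algebraMap L F (B.repr x i)) (algebraMap Lb Fb (Bb.repr y i)) := by
  classical
  have : FaithfulSMul κ[X] Fb := faithfulSMul_red (Fb := Fb) Lb
  obtain ⟨d, p, hd, hp, hx⟩ := exists_common_denom (K := K) B x
  obtain ⟨e, r, c, hc, he, hr, he0, hex, hey⟩ := exists_expand hX hB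
    ((LinearIndependent.iff_fractionRing κ[X] Lb).2 Bb.linearIndependent) h hd hx
  have he0' : e.map A.subtype ≠ 0 := by
    rw [he]
    exact mul_ne_zero (by simpa using hc) hd
  have h1 : B.repr x i = algebraMap K[X] L ((r i).map A.subtype) /
      algebraMap K[X] L (e.map A.subtype) := by
    have hne : algebraMap K[X] L (e.map A.subtype) ≠ 0 := by
      rw [Ne, FaithfulSMul.algebraMap_eq_zero_iff]; exact he0'
    rw [eq_div_iff hne, hr, he, map_mul, map_mul, hp]
    ring
  have h2 : Bb.repr y i = algebraMap κ[X] Lb ((r i).map π) / algebraMap κ[X] Lb (e.map π) := by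
    have hne : algebraMap κ[X] Lb (e.map π) ≠ 0 := by
      rw [Ne, FaithfulSMul.algebraMap_eq_zero_iff]; exact he0
    have h3 : algebraMap κ[X] Lb (e.map π) • y = ∑ i, algebraMap κ[X] Lb ((r i).map π) • Bb i := by
      simp only [algebraMap_smul]
      exact hey
    have h4 := congrArg (fun z => Bb.repr z i) h3
    simp only [map_smul, Finsupp.smul_apply, map_sum, Basis.repr_self, Finsupp.coe_finsetSum,
      Finset.sum_apply, Finsupp.single_apply, smul_eq_mul, mul_ite, mul_one, mul_zero,
      Finset.sum_ite_eq', Finset.mem_univ, if_true] at h4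
    rw [eq_div_iff hne, mul_comm]
    exact h4
  rw [h1, h2, map_div₀, map_div₀, ← IsScalarTower.algebraMap_apply,
    ← IsScalarTower.algebraMap_apply, ← IsScalarTower.algebraMap_apply,
    ← IsScalarTower.algebraMap_apply]
  exact (R_poly hX _).div (R_poly hX _) (algebraMap_poly_ne_zero he0)

theorem R_det {ι : Type*} [Fintype ι] [DecidableEq ι] {M : Matrix ι ι L} {Mb : Matrix ι ι Lb}
    (h : ∀ i j, G.R (algebraMap L F (M i j)) (algebraMap Lb Fb (Mb i j))) :
    G.R (algebraMap L F M.det) (algebraMap Lb Fb Mb.det) := by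
  rw [Matrix.det_apply, Matrix.det_apply, map_sum, map_sum]
  refine R.sum _ fun σ _ => ?_
  have h1 : G.R (∏ i, algebraMap L F (M (σ i) i)) (∏ i, algebraMap Lb Fb (Mb (σ i) i)) :=
    R.prod _ fun i _ => h _ _
  rcases Int.units_eq_one_or (Equiv.Perm.sign σ) with hs | hs
  · rw [hs, one_smul, one_smul, map_prod, map_prod]
    exact h1
  · rw [hs, Units.neg_smul, one_smul, Units.neg_smul, one_smul, map_neg, map_neg, map_prod, map_prod]
    exact h1.neg

/-- The trace is compatible with reduction. -/
theorem R_trace (hX : G.R (algebraMap K[X] F X) (algebraMap κ[X] Fb X))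
    {ι : Type*} [Fintype ι] {B : Basis ι L F} {Bb : Basis ι Lb Fb} (hB : ∀ i, G.R (B i) (Bb i))
    {x : F} {y : Fb} (h : G.R x y) :
    G.R (algebraMap L F (Algebra.trace L F x)) (algebraMap Lb Fb (Algebra.trace Lb Fb y)) := by
  classical
  rw [Algebra.trace_eq_matrix_trace B, Algebra.trace_eq_matrix_trace Bb, Matrix.trace, Matrix.trace,
    map_sum, map_sum]
  refine R.sum _ fun i _ => ?_
  rw [Matrix.diag_apply, Matrix.diag_apply, Algebra.leftMulMatrix_eq_repr_mul,
    Algebra.leftMulMatrix_eq_repr_mul]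
  exact R_repr hX hB (h.mul (hB i)) i

/-- The norm is compatible with reduction. -/
theorem R_norm (hX : G.R (algebraMap K[X] F X) (algebraMap κ[X] Fb X))
    {ι : Type*} [Fintype ι] {B : Basis ι L F} {Bb : Basis ι Lb Fb} (hB : ∀ i, G.R (B i) (Bb i))
    {x : F} {y : Fb} (h : G.R x y) :
    G.R (algebraMap L F (Algebra.norm L x)) (algebraMap Lb Fb (Algebra.norm Lb y)) := by
  classical
  rw [Algebra.norm_eq_matrix_det B, Algebra.norm_eq_matrix_det Bb]
  refine R_det fun i j => ?_
  rw [Algebra.leftMulMatrix_eq_repr_mul, Algebra.leftMulMatrix_eq_repr_mul]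
  exact R_repr hX hB (h.mul (hB j)) i

/-- Lifting a basis. -/
theorem exists_basis_of_red (hX : G.R (algebraMap K[X] F X) (algebraMap κ[X] Fb X))
    (hn : finrank L F = finrank Lb Fb) {ι : Type*} [Fintype ι] [Nonempty ι] (Bb : Basis ι Lb Fb)
    {b : ι → F} (hb : ∀ i, G.R (b i) (Bb i)) : ∃ B : Basis ι L F, ∀ i, B i = b i := by
  have : FaithfulSMul κ[X] Fb := faithfulSMul_red (Fb := Fb) Lb
  have h1 := linearIndependent_of_red hX hb
    ((LinearIndependent.iff_fractionRing κ[X] Lb).2 Bb.linearIndependent)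
  have h2 : LinearIndependent L b := (LinearIndependent.iff_fractionRing K[X] L).1 h1
  have h3 : Fintype.card ι = finrank L F := by rw [hn, finrank_eq_card_basis Bb]
  exact ⟨basisOfLinearIndependentOfCardEqFinrank h2 h3, fun i => by simp⟩

end Fraction

end GaussRed

end Fermat.Agent.GoodRed
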