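import Fermat.Agent.GoodRed.KL

/-!
# Constructing Gauss reductions
-/

set_option autoImplicit false
set_option linter.unusedSectionVars false
set_option linter.style.haveILetI false

noncomputable section

namespace Fermat.Agent.GoodRed

open Polynomial AlgebraicCurve Fermat.Agent.Curves Module IntermediateField

variable {K κ : Type*} [Field K] [Field κ] {A : ValuationSubring K} {π : A →+* κ}
  {F Fb : Type*} [Field F] [Field Fb] [Algebra K F] [Algebra κ Fb]

/-- a relation "reduces to", without the scaling property -/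
structure PreRed (A : ValuationSubring K) (π : A →+* κ) (F Fb : Type*) [Field F] [Field Fb]
    [Algebra K F] [Algebra κ Fb] where
  R : F → Fb → Prop
  unique : ∀ {x y y'}, R x y → R x y' → y = y'
  zero : R 0 0
  one : R 1 1
  add : ∀ {x x' y y'}, R x y → R x' y' → R (x + x') (y + y')
  mul : ∀ {x x' y y'}, R x y → R x' y' → R (x * x') (y * y')
  neg : ∀ {x y}, R x y → R (-x) (-y)
  inv : ∀ {x y}, R x y → y ≠ 0 → R x⁻¹ y⁻¹
  const : ∀ a : A, R (algebraMap K F a) (algebraMap κ Fb (π a))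

namespace PreRed

variable (P : PreRed A π F Fb)

theorem sum {ι : Type*} (s : Finset ι) {x : ι → F} {y : ι → Fb}
    (h : ∀ i ∈ s, P.R (x i) (y i)) : P.R (∑ i ∈ s, x i) (∑ i ∈ s, y i) := by
  classical
  induction s using Finset.induction_on with
  | empty => simpa using P.zero
  | insert i s hi ih =>
    rw [Finset.sum_insert hi, Finset.sum_insert hi]
    exact P.add (h i (Finset.mem_insert_self i s)) (ih fun j hj => h j (Finset.mem_insert_of_mem hj))

/-- the ring of elements with a reduction -/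
def O : Subring F where
  carrier := {x | ∃ y : Fb, P.R x y}
  zero_mem' := ⟨0, P.zero⟩
  one_mem' := ⟨1, P.one⟩
  add_mem' := by
    rintro x x' ⟨y, hy⟩ ⟨y', hy'⟩
    exact ⟨y + y', P.add hy hy'⟩
  mul_mem' := by
    rintro x x' ⟨y, hy⟩ ⟨y', hy'⟩
    exact ⟨y * y', P.mul hy hy'⟩
  neg_mem' := by
    rintro x ⟨y, hy⟩
    exact ⟨-y, P.neg hy⟩

/-- the reduction map -/
def redHom : P.O →+* Fb where
  toFun x := x.2.choose
  map_one' := P.unique (Exists.choose_spec (1 : P.O).2) P.one
  map_zero' := P.unique (Exists.choose_spec (0 : P.O).2) P.zero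
  map_mul' x x' := P.unique (Exists.choose_spec (x * x' : P.O).2)
      (P.mul (Exists.choose_spec x.2) (Exists.choose_spec x'.2))
  map_add' x x' := P.unique (Exists.choose_spec (x + x' : P.O).2)
      (P.add (Exists.choose_spec x.2) (Exists.choose_spec x'.2))

theorem redHom_spec (x : P.O) : P.R x (P.redHom x) := x.2.choose_spec

/-- the Gauss reduction -/
def gauss (hlift : ∀ y : Fb, ∃ x : F, P.R x y)
    (hscale : ∀ x : F, x ≠ 0 → ∃ c : K, c ≠ 0 ∧ ∃ y : Fb, y ≠ 0 ∧ P.R (algebraMap K F c * x) y) :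
    GaussRed A π F Fb where
  O := P.O
  red := P.redHom
  surj := by
    intro y
    obtain ⟨x, hx⟩ := hlift y
    exact ⟨⟨x, y, hx⟩, P.unique (P.redHom_spec ⟨x, y, hx⟩) hx⟩
  mem := fun a => ⟨algebraMap κ Fb (π a), P.const a⟩
  red_mem := fun a => P.unique (P.redHom_spec ⟨algebraMap K F a, algebraMap κ Fb (π a), P.const a⟩)
    (P.const a)
  scale := by
    intro x hx
    obtain ⟨c, hc, y, hy, h⟩ := hscale x hx
    refine ⟨c, hc, ⟨y, h⟩, ?_⟩
    intro h0
    have h1 := P.unique (P.redHom_spec ⟨algebraMap K F c * x, y, h⟩) h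
    rw [h0] at h1
    exact hy h1.symm

theorem gauss_R (hlift : ∀ y : Fb, ∃ x : F, P.R x y)
    (hscale : ∀ x : F, x ≠ 0 → ∃ c : K, c ≠ 0 ∧ ∃ y : Fb, y ≠ 0 ∧ P.R (algebraMap K F c * x) y)
    {x : F} {y : Fb} : (P.gauss hlift hscale).R x y ↔ P.R x y := by
  constructor
  · rintro ⟨h, rfl⟩
    exact P.redHom_spec ⟨x, h⟩
  · intro h
    exact ⟨⟨y, h⟩, P.unique (P.redHom_spec ⟨x, y, h⟩) h⟩

theorem R_aeval {t : F} {tb : Fb} (ht : P.R t tb) (q : A[X]) :
    P.R (aeval t (q.map A.subtype)) (aeval tb (q.map π)) := by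
  induction q using Polynomial.induction_on with
  | C a =>
    rw [map_C, map_C, aeval_C, aeval_C]
    exact P.const a
  | add p q hp hq =>
    rw [Polynomial.map_add, Polynomial.map_add, map_add, map_add]
    exact P.add hp hq
  | monomial n a h =>
    rw [pow_succ, ← mul_assoc, Polynomial.map_mul, Polynomial.map_mul (f := π), map_mul, map_mul,
      map_X, map_X, aeval_X, aeval_X]
    exact P.mul h ht

/-- scaling -/
theorem exists_scale {t : F} {tb : Fb} (ht : P.R t tb)
    (htr : Transcendental K t) (htrb : Transcendental κ tb)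
    (hfin : FiniteDimensional K⟮t⟯ F) (hfinb : FiniteDimensional κ⟮tb⟯ Fb)
    (hn : finrank K⟮t⟯ F = finrank κ⟮tb⟯ Fb) {S : Set F} {Sb : Set Fb}
    (hS : ∀ sb ∈ Sb, ∃ s ∈ S, P.R s sb) (hspan : Submodule.span κ⟮tb⟯ Sb = ⊤)
    (x : F) (hx : x ≠ 0) :
    ∃ (ι : Type) (_ : Fintype ι) (c : K) (q : ι → A[X]) (δ : A[X]) (b : ι → F) (bb : ι → Fb),
      c ≠ 0 ∧ (∀ i, b i ∈ S) ∧ (∀ i, P.R (b i) (bb i)) ∧ aeval t (δ.map A.subtype) ≠ 0 ∧
      aeval tb (δ.map π) ≠ 0 ∧
      (∑ i, aeval tb ((q i).map π) * bb i) ≠ 0 ∧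
      aeval t (δ.map A.subtype) * (algebraMap K F c * x) =
        ∑ i, aeval t ((q i).map A.subtype) * b i := by
  classical
  letI := polyAlg K t
  letI := polyAlgAdj K t
  haveI := polyAlg_tower K t
  haveI := polyAlgAdj_tower K t
  haveI := polyAlg_tower_adj K t
  haveI := isFractionRing_adj K htr
  letI := polyAlg κ tb
  letI := polyAlgAdj κ tb
  haveI := polyAlg_tower κ tb
  haveI := polyAlgAdj_tower κ tb
  haveI := polyAlg_tower_adj κ tb
  haveI := isFractionRing_adj κ htrb
  have hsm : ∀ (p : K[X]) (z : F), p • z = aeval t p * z := fun p z => Algebra.smul_def p z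
  have hsmb : ∀ (p : κ[X]) (z : Fb), p • z = aeval tb p * z := fun p z => Algebra.smul_def p z
  obtain ⟨ι', f, Bb0, hf⟩ : ∃ (ι' : Type _) (f : ι' → Fb) (Bb : Basis ι' κ⟮tb⟯ Fb),
      (∀ i, Bb i = f i) ∧ ∀ i, f i ∈ Sb := by
    obtain ⟨s, hsS, hs⟩ := exists_linearIndependent κ⟮tb⟯ Sb
    rw [hspan] at hs
    refine ⟨s, Subtype.val, Basis.mk hs.2 (by rw [Subtype.range_coe]; exact hs.1.ge), ?_, ?_⟩
    · intro i; simp
    · intro i; exact hsS i.2
  obtain ⟨hf1, hf2⟩ := hf
  haveI : Finite ι' := Module.Finite.finite_basis Bb0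
  obtain ⟨n, ⟨e⟩⟩ := Finite.exists_equiv_fin ι'
  let Bb := Bb0.reindex e
  have hBbS : ∀ i, Bb i ∈ Sb := fun i => by
    rw [Basis.reindex_apply, hf1]; exact hf2 _
  choose b hbS hb using fun i => hS (Bb i) (hBbS i)
  have hBb : LinearIndependent κ[X] Bb :=
    (LinearIndependent.iff_fractionRing κ[X] κ⟮tb⟯).2 Bb.linearIndependent
  have hkey : ∀ q : Fin n → A[X],
      P.R (∑ i, (q i).map A.subtype • b i) (∑ i, (q i).map π • Bb i) := by
    intro q
    refine P.sum _ fun i _ => ?_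
    rw [hsm, hsmb]
    exact P.mul (P.R_aeval ht (q i)) (hb i)
  have hlin : LinearIndependent K[X] b := by
    rw [Fintype.linearIndependent_iff]
    intro g hg
    by_contra hne
    push Not at hne
    obtain ⟨c, q, hc, hq, i, hi⟩ := GaussRed.exists_scale_polys (A := A) (π := π) g hne
    have h1 := hkey q
    have h2 : ∑ i, (q i).map A.subtype • b i = 0 := by
      have : ∀ i, (q i).map A.subtype • b i = C c • (g i • b i) := by
        intro i
        rw [hq, mul_smul]
      simp only [this]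
      rw [← Finset.smul_sum, hg, smul_zero]
    rw [h2] at h1
    have h3 : ∑ i, (q i).map π • Bb i = 0 := P.unique h1 P.zero
    exact hi (Fintype.linearIndependent_iff.1 hBb _ h3 i)
  have hlinL : LinearIndependent K⟮t⟯ b := (LinearIndependent.iff_fractionRing K[X] K⟮t⟯).1 hlin
  have hcard : Fintype.card (Fin n) = finrank K⟮t⟯ F := by
    rw [hn, finrank_eq_card_basis Bb]
  haveI : Nonempty (Fin n) := by
    rw [← Fintype.card_pos_iff, hcard]
    exact finrank_pos
  let B := basisOfLinearIndependentOfCardEqFinrank hlinL hcard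
  have hB : ∀ i, B i = b i := fun i => by simp [B]
  obtain ⟨d, p, hd, -, hdx⟩ := GaussRed.exists_common_denom (K := K) B x
  simp only [hB] at hdx
  have hdE : aeval t d ≠ 0 := fun h => htr ⟨d, hd, h⟩
  have hp : ∃ i, p i ≠ 0 := by
    by_contra! h
    simp only [h, zero_smul, Finset.sum_const_zero] at hdx
    rw [hsm] at hdx
    exact mul_ne_zero hdE hx hdx
  obtain ⟨c₁, q, hc₁, hq, i, hi⟩ := GaussRed.exists_scale_polys (A := A) (π := π) p hp
  obtain ⟨c₂, δ, hc₂, hδ, hδ0⟩ := GaussRed.exists_scale_poly (A := A) (π := π) d hd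
  have h3 : aeval t (δ.map A.subtype) = algebraMap K F c₂ * aeval t d := by
    rw [hδ, map_mul, aeval_C]
  have hc₂' : algebraMap K F c₂ ≠ 0 := by simpa using hc₂
  refine ⟨Fin n, inferInstance, c₁ / c₂, q, δ, b, Bb, div_ne_zero hc₁ hc₂, hbS, hb, ?_, ?_, ?_, ?_⟩
  · rw [h3]; exact mul_ne_zero hc₂' hdE
  · exact fun h => htrb ⟨_, hδ0, h⟩
  · intro h
    simp only [← hsmb] at h
    exact hi (Fintype.linearIndependent_iff.1 hBb _ h i)
  · simp only [← hsm]
    have h2 : ∑ i, (q i).map A.subtype • b i = algebraMap K F c₁ * (d • x) := by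
      rw [hdx, Finset.mul_sum]
      refine Finset.sum_congr rfl fun i _ => ?_
      rw [hq, mul_smul, hsm (C c₁), aeval_C]
    rw [h2, hsm (Polynomial.map A.subtype δ), h3, hsm, map_div₀]
    field_simp

end PreRed

end Fermat.Agent.GoodRed
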