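import Fermat.Agent.Curves.Affine
import Fermat.Agent.GoodRed.Lift

/-!
# Places of the rational function field, and roots of polynomials under reduction
-/

set_option autoImplicit false
set_option linter.unusedSectionVars false
set_option linter.style.haveILetI false

noncomputable section

namespace Fermat.Agent.GoodRed

open Polynomial AlgebraicCurve Fermat.Agent.Curves

section Rat

variable {K L : Type*} [Field K] [Field L] [Algebra K L] [Algebra K[X] L] [IsScalarTower K K[X] L]

theorem aeval_X_eq (p : K[X]) : aeval (algebraMap K[X] L X) p = algebraMap K[X] L p := by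
  rw [aeval_algebraMap_apply, aeval_X_left_apply]

theorem algebraMap_C_eq (c : K) : algebraMap K[X] L (C c) = algebraMap K L c := by
  rw [← Polynomial.algebraMap_eq, ← IsScalarTower.algebraMap_apply]

theorem algebraMap_X_sub_C (c : K) :
    algebraMap K[X] L (X - C c) = algebraMap K[X] L X - algebraMap K L c := by
  rw [map_sub, algebraMap_C_eq]

theorem transcendental_X_of_faithful [FaithfulSMul K[X] L] :
    Transcendental K (algebraMap K[X] L X) :=
  (transcendental_algebraMap_iff (FaithfulSMul.algebraMap_injective K[X] L)).2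
    (Polynomial.transcendental_X K)

variable [IsFractionRing K[X] L]

variable (K L) in
theorem isFunctionField_rat : IsFunctionField K L := by
  have := (IsFractionRing.injective K[X] L)
  have hf : FaithfulSMul K[X] L := (faithfulSMul_iff_algebraMap_injective _ _).2 this
  refine ⟨algebraMap K[X] L X, transcendental_X_of_faithful, ?_⟩
  have htop : IntermediateField.adjoin K {algebraMap K[X] L X} = ⊤ := by
    rw [eq_top_iff]
    intro x _
    obtain ⟨p, q, hq, rfl⟩ := IsFractionRing.div_surjective (A := K[X]) x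
    rw [IntermediateField.mem_adjoin_simple_iff]
    exact ⟨p, q, by rw [aeval_X_eq, aeval_X_eq]⟩
  rw [htop]
  refine FiniteDimensional.of_finrank_pos ?_
  rw [IntermediateField.finrank_top]
  exact one_pos

theorem mem_valuationSubring_of_ord_pos (v : Place K L) {c : K}
    (hc : 0 < v.ord (algebraMap K[X] L (X - C c))) (p : K[X]) :
    algebraMap K[X] L p ∈ v.toValuationSubring := by
  have h0 : algebraMap K[X] L (X - C c) ≠ 0 := by
    intro h
    rw [h, v.ord_zero] at hc
    exact lt_irrefl _ hc
  have h1 : algebraMap K[X] L (X - C c) ∈ v.toValuationSubring := (mem_iff_ord v h0).2 hc.le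
  have h2 : algebraMap K[X] L X ∈ v.toValuationSubring := by
    have := add_mem h1 (v.algebraMap_mem' c)
    rwa [algebraMap_X_sub_C, sub_add_cancel] at this
  induction p using Polynomial.induction_on with
  | C a => rw [algebraMap_C_eq]; exact v.algebraMap_mem' a
  | add p q hp hq => rw [map_add]; exact add_mem hp hq
  | monomial n a h => rw [pow_succ, ← mul_assoc, map_mul]; exact mul_mem h h2

theorem algebraMap_poly_ne {p : K[X]} (hp : p ≠ 0) : algebraMap K[X] L p ≠ 0 := by
  intro h
  exact hp (IsFractionRing.injective K[X] L (by rw [h, map_zero]))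

theorem ord_poly_eq_zero (v : Place K L) {c : K}
    (hc : 0 < v.ord (algebraMap K[X] L (X - C c))) {q : K[X]} (hq : q.eval c ≠ 0) :
    v.ord (algebraMap K[X] L q) = 0 := by
  obtain ⟨r, hr⟩ := X_sub_C_dvd_sub_C_eval (a := c) (p := q)
  have hq' : algebraMap K[X] L q = algebraMap K L (q.eval c) +
      algebraMap K[X] L (X - C c) * algebraMap K[X] L r := by
    rw [← map_mul, ← hr, map_sub, algebraMap_C_eq]
    ring
  have h0 : algebraMap K L (q.eval c) ≠ 0 := by simpa using hq
  have := (ord_add_eq_left v h0 (g := algebraMap K[X] L (X - C c) * algebraMap K[X] L r) (by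
    by_cases hr0 : r = 0
    · left; rw [hr0, map_zero, mul_zero]
    · right
      rw [ord_algebraMap, v.ord_mul (algebraMap_poly_ne (X_sub_C_ne_zero c)) (algebraMap_poly_ne hr0)]
      have := (mem_iff_ord v (algebraMap_poly_ne (L := L) hr0)).1 (mem_valuationSubring_of_ord_pos v hc r)
      omega)).2
  rw [← hq'] at this
  rw [this, ord_algebraMap]

theorem ord_poly_aux (v : Place K L) {c : K}
    (hc : 0 < v.ord (algebraMap K[X] L (X - C c))) {p : K[X]} (hp : p ≠ 0) :
    v.ord (algebraMap K[X] L p) = p.rootMultiplicity c * v.ord (algebraMap K[X] L (X - C c)) := by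
  obtain ⟨q, hq, hq'⟩ := exists_eq_pow_rootMultiplicity_mul_and_not_dvd p hp c
  have hq0 : q ≠ 0 := by rintro rfl; simp at hq'
  have heval : q.eval c ≠ 0 := fun h => hq' (dvd_iff_isRoot.2 h)
  conv_lhs => rw [hq]
  rw [map_mul, map_pow, v.ord_mul (pow_ne_zero _ (algebraMap_poly_ne (X_sub_C_ne_zero c)))
    (algebraMap_poly_ne hq0), ord_pow, ord_poly_eq_zero v hc heval, add_zero]

theorem ord_X_sub_C (v : Place K L) {c : K}
    (hc : 0 < v.ord (algebraMap K[X] L (X - C c))) :
    v.ord (algebraMap K[X] L (X - C c)) = 1 := by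
  obtain ⟨f, hf0, hf⟩ := exists_ord_eq v 1
  obtain ⟨p, q, hq, rfl⟩ := IsFractionRing.div_surjective (A := K[X]) f
  have hq0 : q ≠ 0 := nonZeroDivisors.ne_zero hq
  have hp0 : p ≠ 0 := by rintro rfl; simp at hf0
  rw [ord_div v (algebraMap_poly_ne hp0) (algebraMap_poly_ne hq0), ord_poly_aux v hc hp0,
    ord_poly_aux v hc hq0, ← sub_mul] at hf
  exact Int.eq_one_of_mul_eq_one_left hc.le hf

theorem ord_poly (v : Place K L) {c : K}
    (hc : 0 < v.ord (algebraMap K[X] L (X - C c))) {p : K[X]} (hp : p ≠ 0) :
    v.ord (algebraMap K[X] L p) = p.rootMultiplicity c := by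
  rw [ord_poly_aux v hc hp, ord_X_sub_C v hc, mul_one]

theorem place_rat_unique (v v' : Place K L) {c : K}
    (hc : 0 < v.ord (algebraMap K[X] L (X - C c)))
    (hc' : 0 < v'.ord (algebraMap K[X] L (X - C c))) : v = v' := by
  have key : ∀ f : L, v.ord f = v'.ord f := by
    intro f
    rcases eq_or_ne f 0 with rfl | hf0
    · simp
    obtain ⟨p, q, hq, rfl⟩ := IsFractionRing.div_surjective (A := K[X]) f
    have hq0 : q ≠ 0 := nonZeroDivisors.ne_zero hq
    have hp0 : p ≠ 0 := by rintro rfl; simp at hf0
    rw [ord_div v (algebraMap_poly_ne hp0) (algebraMap_poly_ne hq0),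
      ord_div v' (algebraMap_poly_ne hp0) (algebraMap_poly_ne hq0), ord_poly v hc hp0,
      ord_poly v hc hq0, ord_poly v' hc' hp0, ord_poly v' hc' hq0]
  refine Place.ext (SetLike.ext fun f => ?_)
  rcases eq_or_ne f 0 with rfl | hf0
  · simp
  rw [mem_iff_ord v hf0, mem_iff_ord v' hf0, key]

variable (L) in
theorem exists_place_rat [IsAlgClosed K] (c : K) :
    ∃ v : Place K L, 0 < v.ord (algebraMap K[X] L (X - C c)) := by
  haveI := isFunctionField_rat K L
  have h1 : Transcendental K (algebraMap K[X] L (X - C c)) := by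
    rw [transcendental_algebraMap_iff (IsFractionRing.injective K[X] L)]
    intro h
    apply Polynomial.transcendental_X K
    have := h.add (isAlgebraic_algebraMap c : IsAlgebraic K (algebraMap K K[X] c))
    rwa [Polynomial.algebraMap_eq, sub_add_cancel] at this
  exact exists_ord_pos_of_transcendental h1

end Rat

section Roots

variable {K κ : Type*} [Field K] [Field κ] {A : ValuationSubring K} {π : A →+* κ} [IsLocalHom π]
  [IsAlgClosed K]

theorem exists_map_eq_C_of_roots_eq_zero {q : A[X]} (hq : q.roots = 0) (hq0 : q.map π ≠ 0) :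
    ∃ u : κ, u ≠ 0 ∧ q.map π = C u := by
  have hinj : Function.Injective (Polynomial.map A.subtype) :=
    Polynomial.map_injective A.subtype Subtype.val_injective
  have hqne : q ≠ 0 := by rintro rfl; simp at hq0
  have hne : q.map A.subtype ≠ 0 := by
    intro h
    exact hqne (hinj (by rw [h, Polynomial.map_zero]))
  obtain ⟨e, c, hc, he, he1⟩ := GaussRed.exists_normalized (π := π) _ (q.map A.subtype) rfl hne (by
    intro τ hτ
    have h1 : q.IsRoot τ := by
      rw [IsRoot.def] at hτ ⊢
      change (q.map A.subtype).eval (A.subtype τ) = 0 at hτ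
      rw [eval_map_apply] at hτ
      exact Subtype.val_injective hτ
    have : τ ∈ q.roots := (mem_roots hqne).2 h1
    rw [hq] at this
    exact absurd this (Multiset.notMem_zero _))
  have hcA : c ∈ A := by
    by_contra hcA
    apply hq0
    have : q = C ⟨c⁻¹, GaussRed.inv_mem_of_not_mem hcA⟩ * e := by
      apply hinj
      rw [Polynomial.map_mul, he, map_C]
      change _ = C c⁻¹ * _
      rw [← mul_assoc, ← C_mul, inv_mul_cancel₀ hc, C_1, one_mul]
    rw [this, Polynomial.map_mul, map_C, GaussRed.π_inv_eq_zero hcA, C_0, zero_mul]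
  have h1 : e = C ⟨c, hcA⟩ * q := by
    apply hinj
    rw [Polynomial.map_mul, he, map_C]
    rfl
  have h2 : C (π ⟨c, hcA⟩) * q.map π = 1 := by
    rw [← he1, h1, Polynomial.map_mul, map_C]
  have h3 : π ⟨c, hcA⟩ ≠ 0 := by
    intro h0
    rw [h0, C_0, zero_mul] at h2
    exact zero_ne_one h2
  refine ⟨(π ⟨c, hcA⟩)⁻¹, inv_ne_zero h3, ?_⟩
  have h4 : C ((π ⟨c, hcA⟩)⁻¹) * (C (π ⟨c, hcA⟩) * q.map π) = C ((π ⟨c, hcA⟩)⁻¹) := by
    rw [h2, mul_one]
  rwa [← mul_assoc, ← C_mul, inv_mul_cancel₀ h3, C_1, one_mul] at h4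

/-- Roots of reductions: the roots of `p mod 𝔪` are the reductions of the integral roots of `p`. -/
theorem roots_map_red {p : A[X]} (hp0 : p.map π ≠ 0) : (p.map π).roots = p.roots.map π := by
  have hpne : p ≠ 0 := by rintro rfl; simp at hp0
  obtain ⟨q, hq, hdeg, hq0⟩ := exists_prod_multiset_X_sub_C_mul p
  have h1 : p.map π = ((p.roots.map π).map (X - C ·)).prod * q.map π := by
    conv_lhs => rw [← hq]
    rw [Polynomial.map_mul, Polynomial.map_multiset_prod, Multiset.map_map, Multiset.map_map]
    congr 3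
    ext a
    simp
  have hqπ : q.map π ≠ 0 := by
    intro h
    rw [h, mul_zero] at h1
    exact hp0 h1
  obtain ⟨u, hu, hqu⟩ := exists_map_eq_C_of_roots_eq_zero hq0 hqπ
  rw [h1, hqu, mul_comm, roots_C_mul _ hu, roots_multiset_prod_X_sub_C]

end Roots

end Fermat.Agent.GoodRed
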