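import Fermat.Agent.GoodRed.Chart

/-!
# Reduction of places
-/

set_option autoImplicit false
set_option linter.unusedSectionVars false
set_option linter.style.haveILetI false

noncomputable section

namespace Fermat.Agent.GoodRed

open Polynomial AlgebraicCurve Fermat.Agent.Curves Module IntermediateField

variable {K κ : Type*} [Field K] [Field κ] [IsAlgClosed K] [IsAlgClosed κ] {A : ValuationSubring K}
  {π : A →+* κ} [IsLocalHom π]
  {F Fb : Type*} [Field F] [Field Fb] [Algebra K F] [Algebra κ Fb]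
  [IsFunctionField K F] [IsFunctionField κ Fb]

/-- A chart with the lifting property. -/
structure GoodChart (G : GaussRed A π F Fb) (t : F) (tb : Fb) : Prop extends Chart G t tb where
  hπ : Function.Surjective π
  lift : ∀ yb ∈ affineRing κ tb, ∃ y ∈ affineRing K t, G.R y yb

/-- the place `P` specialises to `Q` (in the chart `t`) -/
def SpecTo (G : GaussRed A π F Fb) (t : F) (tb : Fb) (P : Place K F) (Q : Place κ Fb) : Prop :=
  t ∈ P.toValuationSubring ∧ tb ∈ Q.toValuationSubring ∧
    ∀ y ∈ affineRing K t, ∀ yb, G.R y yb → ∃ a : A, (a : K) = value P y ∧ π a = value Q yb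

variable {G : GaussRed A π F Fb} {t : F} {tb : Fb}

omit [IsLocalHom π] in
theorem InDisc.mem {P : Place K F} {τ : κ} (hP : InDisc π P t τ) : t ∈ P.toValuationSubring := by
  obtain ⟨a, -, h⟩ := hP
  exact mem_place_of_ord_pos h

theorem value_mul_const (P : Place K F) (c : K) {y : F} (hy : y ∈ P.toValuationSubring) :
    value P (algebraMap K F c * y) = c * value P y := by
  rw [value_mul P (P.algebraMap_mem' c) hy, value_algebraMap]

theorem value_sub (P : Place K F) {x y : F} (hx : x ∈ P.toValuationSubring)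
    (hy : y ∈ P.toValuationSubring) : value P (x - y) = value P x - value P y := by
  have := value_add P (sub_mem hx hy) hy
  rw [sub_add_cancel] at this
  rw [this]; ring

theorem value_one (P : Place K F) : value P (1 : F) = 1 := by
  have := value_algebraMap P (1 : K)
  rwa [map_one] at this

theorem value_zero (P : Place K F) : value P (0 : F) = 0 := by
  have := value_algebraMap P (0 : K)
  rwa [map_zero] at this

theorem algebraMap_mem_affineRing (t : F) (c : K) : algebraMap K F c ∈ affineRing K t :=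
  (affineRing K t).algebraMap_mem c

/-- values of integral functions at integral places are integral -/
theorem Chart.value_mem (hC : Chart G t tb) (hπ : Function.Surjective π) {P : Place K F} {τ : κ}
    (hP : InDisc π P t τ) {y : F} {yb : Fb} (hy : y ∈ affineRing K t) (h : G.R y yb) :
    ∃ a : A, (a : K) = value P y := by
  classical
  by_cases hc : value P y ∈ A
  · exact ⟨⟨_, hc⟩, rfl⟩
  exfalso
  set c := value P y with hcdef
  have hc0 : c ≠ 0 := by rintro h0; rw [h0] at hc; exact hc (zero_mem _)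
  have hyP := hy P hP.mem
  set z := algebraMap K F c⁻¹ * y - 1 with hz
  have hzR : G.R z (-1) := by
    have h1 := ((GaussRed.R.const G ⟨c⁻¹, GaussRed.inv_mem_of_not_mem hc⟩).mul h).sub
      (GaussRed.R.one G)
    rwa [GaussRed.π_inv_eq_zero hc, map_zero, zero_mul, zero_sub] at h1
  have hz0 : z ≠ 0 := hzR.ne_zero (neg_ne_zero.2 one_ne_zero)
  have hzaff : z ∈ affineRing K t :=
    (affineRing K t).sub_mem ((affineRing K t).mul_mem (algebraMap_mem_affineRing t _) hy)
      (affineRing K t).one_mem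
  have hsum := hC.sum_ord_disc hπ hzR (neg_ne_zero.2 one_ne_zero) τ
  rw [Finset.sum_eq_zero (s := (finite_zeros (k := κ) (tb - algebraMap κ Fb τ)).toFinset)
    (fun w _ => by rw [ord_neg, w.ord_one])] at hsum
  have hPpos : 0 < P.ord z := by
    have h1 : P.adicValuation z < 1 := by
      rw [← value_eq_zero_iff P (hzaff P hP.mem), hz, value_sub P
        (mul_mem (P.algebraMap_mem' _) hyP) (one_mem _), value_mul_const P _ hyP, value_one,
        ← hcdef, inv_mul_cancel₀ hc0, sub_self]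
    exact ((val_lt_one_iff P).1 h1).resolve_left hz0
  have hPmem : P ∈ (finite_support (k := K) z).toFinset.filter (fun w => InDisc π w t τ) := by
    rw [Finset.mem_filter, Set.Finite.mem_toFinset]
    exact ⟨hPpos.ne', hP⟩
  have hnn : ∀ w ∈ (finite_support (k := K) z).toFinset.filter (fun w => InDisc π w t τ),
      0 ≤ w.ord z := fun w hw =>
    (mem_iff_ord w hz0).1 (hzaff w (Finset.mem_filter.1 hw).2.mem)
  have := Finset.single_le_sum hnn hPmem
  omega

theorem SpecTo.inDisc (hC : Chart G t tb) {P : Place K F} {Q : Place κ Fb}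
    (h : SpecTo G t tb P Q) : InDisc π P t (value Q tb) := by
  obtain ⟨a, ha, ha'⟩ := h.2.2 t (self_mem_affineRing t) tb hC.R
  refine ⟨a, ha', ?_⟩
  rw [ord_sub_pos_iff hC.tr h.1, ha]

theorem affineRing_smul_mem {c : K} {y : F} (hy : y ∈ affineRing K t) :
    algebraMap K F c * y ∈ affineRing K t :=
  (affineRing K t).mul_mem (algebraMap_mem_affineRing t c) hy

/-- existence and uniqueness of the specialisation -/
theorem GoodChart.existsUnique_specTo (hC : GoodChart G t tb) {P : Place K F} {τ : κ}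
    (hP : InDisc π P t τ) : ∃! Q : Place κ Fb, SpecTo G t tb P Q := by
  classical
  have hπ := hC.hπ
  -- elements with zero reduction
  have hzero : ∀ y ∈ affineRing K t, G.R y 0 → ∃ a : A, (a : K) = value P y ∧ π a = 0 := by
    intro y hy hy0
    rcases eq_or_ne y 0 with rfl | hne
    · exact ⟨0, by rw [value_zero]; rfl, map_zero π⟩
    obtain ⟨a, u, z, ha, ha0, hz, hu, hyu⟩ := GaussRed.exists_of_R_zero hne hy0
    have haK : (a : K) ≠ 0 := fun h => ha0 (Subtype.ext h)
    have haF : algebraMap K F a ≠ 0 := by simpa using haK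
    have huaff : u ∈ affineRing K t := by
      have : u = algebraMap K F (a : K)⁻¹ * y := by
        rw [hyu, ← mul_assoc, ← map_mul, inv_mul_cancel₀ haK, map_one, one_mul]
      rw [this]
      exact affineRing_smul_mem hy
    obtain ⟨b, hb⟩ := hC.toChart.value_mem hπ hP huaff hu
    refine ⟨a * b, ?_, by rw [map_mul, ha, zero_mul]⟩
    rw [hyu, value_mul_const P _ (huaff P hP.mem), ← hb]
    rfl
  have hkey : ∀ yb : affineRing κ tb, ∃ b : κ, ∀ y ∈ affineRing K t, G.R y yb →
      ∃ a : A, (a : K) = value P y ∧ π a = b := by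
    intro yb
    obtain ⟨y, hy, hyR⟩ := hC.lift yb yb.2
    obtain ⟨a, ha⟩ := hC.toChart.value_mem hπ hP hy hyR
    refine ⟨π a, fun y' hy' hy'R => ?_⟩
    have h1 := hy'R.sub hyR
    rw [sub_self] at h1
    obtain ⟨a', ha', ha'0⟩ := hzero _ ((affineRing K t).sub_mem hy' hy) h1
    refine ⟨a' + a, ?_, by rw [map_add, ha'0, zero_add]⟩
    rw [value_sub P (hy' P hP.mem) (hy P hP.mem), ← ha] at ha'
    change (a' : K) + a = _
    rw [ha']; ring
  choose χ₀ hχ₀ using hkey
  have hχeq : ∀ (yb : affineRing κ tb) (y : F) (hy : y ∈ affineRing K t) (h : G.R y yb) (a : A)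
      (ha : (a : K) = value P y), χ₀ yb = π a := by
    intro yb y hy h a ha
    obtain ⟨a', ha', h1⟩ := hχ₀ yb y hy h
    rw [← h1]
    congr 1
    exact Subtype.ext (ha'.trans ha.symm)
  have hcomm : ∀ c : κ, χ₀ (algebraMap κ (affineRing κ tb) c) = c := by
    intro c
    obtain ⟨a, rfl⟩ := hπ c
    exact hχeq _ (algebraMap K F a) (algebraMap_mem_affineRing t _) (GaussRed.R.const G a) a
      (value_algebraMap P _).symm
  let χ : affineRing κ tb →ₐ[κ] κ :=
    { toFun := χ₀
      map_one' := by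
        have := hcomm 1
        rwa [map_one] at this
      map_zero' := by
        have := hcomm 0
        rwa [map_zero] at this
      map_mul' := by
        intro yb yb'
        obtain ⟨y, hy, hyR⟩ := hC.lift yb yb.2
        obtain ⟨y', hy', hyR'⟩ := hC.lift yb' yb'.2
        obtain ⟨a, ha⟩ := hC.toChart.value_mem hπ hP hy hyR
        obtain ⟨a', ha'⟩ := hC.toChart.value_mem hπ hP hy' hyR'
        rw [hχeq yb y hy hyR a ha, hχeq yb' y' hy' hyR' a' ha', ← map_mul]
        refine hχeq _ _ ((affineRing K t).mul_mem hy hy') (hyR.mul hyR') _ ?_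
        rw [value_mul P (hy P hP.mem) (hy' P hP.mem), ← ha, ← ha']
        rfl
      map_add' := by
        intro yb yb'
        obtain ⟨y, hy, hyR⟩ := hC.lift yb yb.2
        obtain ⟨y', hy', hyR'⟩ := hC.lift yb' yb'.2
        obtain ⟨a, ha⟩ := hC.toChart.value_mem hπ hP hy hyR
        obtain ⟨a', ha'⟩ := hC.toChart.value_mem hπ hP hy' hyR'
        rw [hχeq yb y hy hyR a ha, hχeq yb' y' hy' hyR' a' ha', ← map_add]
        refine hχeq _ _ ((affineRing K t).add_mem hy hy') (hyR.add hyR') _ ?_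
        rw [value_add P (hy P hP.mem) (hy' P hP.mem), ← ha, ← ha']
        rfl
      commutes' := hcomm }
  obtain ⟨Q, ⟨hQ, hQv⟩, huniq⟩ := existsUnique_place_of_algHom hC.trb χ
  refine ⟨Q, ⟨hP.mem, hQ, fun y hy yb h => ?_⟩, ?_⟩
  · have hyb := hC.toChart.red_mem hπ hy h
    obtain ⟨a, ha, ha'⟩ := hχ₀ ⟨yb, hyb⟩ y hy h
    refine ⟨a, ha, ?_⟩
    rw [ha']
    exact (hQv ⟨yb, hyb⟩).symm
  · rintro Q' ⟨-, hQ', hQ''⟩
    refine huniq Q' ⟨hQ', fun yb => ?_⟩
    obtain ⟨y, hy, hyR⟩ := hC.lift yb yb.2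
    obtain ⟨a, ha, ha'⟩ := hQ'' y hy yb hyR
    rw [← ha']
    exact (hχeq yb y hy hyR a ha).symm

/-! ### Local uniformizers -/

omit [IsAlgClosed K] [IsFunctionField K F] [IsLocalHom π] [IsAlgClosed κ] [IsFunctionField κ Fb] in
theorem ord_nonneg_of_mem (P : Place K F) {x : F} (hx0 : x ≠ 0) (hx : x ∈ P.toValuationSubring) :
    0 ≤ P.ord x := (mem_iff_ord P hx0).1 hx

theorem aeval_mem_affineRing (t : F) (p : K[X]) : aeval t p ∈ affineRing K t := by
  rw [mem_affineRing_iff_isIntegral]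
  exact isIntegral_algebraMap (R := Algebra.adjoin K {t})
    (x := ⟨aeval t p, aeval_mem_adjoin_singleton K t⟩)

/-- a function on the special fibre with a simple zero at `Q` and no other zero above the same
value of `tb`. -/
theorem exists_unif (htb : Transcendental κ tb) {Q : Place κ Fb}
    (hQ : tb ∈ Q.toValuationSubring) : ∃ sb ∈ affineRing κ tb, sb ≠ 0 ∧ Q.ord sb = 1 ∧
      ∀ Q' : Place κ Fb, Q' ≠ Q → 0 < Q'.ord (tb - algebraMap κ Fb (value Q tb)) → Q'.ord sb = 0 := by
  classical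
  obtain ⟨f, hf0, hf⟩ := exists_ord_eq_finset
    (finite_zeros (k := κ) (tb - algebraMap κ Fb (value Q tb))).toFinset
    (fun v => if v = Q then 1 else 0)
  have hmem : ∀ u : Place κ Fb, tb ∈ u.toValuationSubring → value u tb = value Q tb →
      u ∈ (finite_zeros (k := κ) (tb - algebraMap κ Fb (value Q tb))).toFinset := by
    intro u hu h
    rw [Set.Finite.mem_toFinset]
    exact (ord_sub_pos_iff htb hu _).mpr h
  obtain ⟨p, hp0, hp1, hp2⟩ := exists_clear htb hf0
  have hpt0 : aeval tb p ≠ 0 := fun h => htb ⟨p, hp0, h⟩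
  refine ⟨aeval tb p * f, fun u hu => ?_, mul_ne_zero hpt0 hf0, ?_, fun Q' hne hQ' => ?_⟩
  · rw [mem_iff_ord u (mul_ne_zero hpt0 hf0)]
    exact hp1 u hu
  · rw [Q.ord_mul hpt0 hf0, hf Q (hmem Q hQ rfl), if_pos rfl, hp2 Q hQ, zero_add]
    intro u hu h
    rw [hf u (hmem u hu h)]
    split_ifs <;> simp
  · have hQ'm := mem_place_of_ord_pos hQ'
    have hval := value_eq_of_ord_pos htb hQ'
    rw [Q'.ord_mul hpt0 hf0, hf Q' (hmem Q' hQ'm hval), if_neg hne, hp2 Q' hQ'm, zero_add]
    intro u hu h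
    rw [hf u (hmem u hu (h.trans hval))]
    split_ifs <;> simp

/-- local parameter at `Q`: a function `s` such that for each `P` specialising to `Q` the function
`s - s(P)` has a simple zero at `P` and no other zero in the disc. -/
theorem GoodChart.exists_param (hC : GoodChart G t tb) {Q : Place κ Fb}
    (hQ : tb ∈ Q.toValuationSubring) : ∃ (s : F) (sb : Fb), s ∈ affineRing K t ∧ G.R s sb ∧
      sb ≠ 0 ∧ Q.ord sb = 1 ∧ ∀ P : Place K F, SpecTo G t tb P Q →
        G.R (s - algebraMap K F (value P s)) sb ∧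
        P.ord (s - algebraMap K F (value P s)) = 1 ∧
        ∀ P' : Place K F, P' ≠ P → InDisc π P' t (value Q tb) →
          P'.ord (s - algebraMap K F (value P s)) = 0 := by
  classical
  obtain ⟨sb, hsb, hsb0, hQsb, hsb'⟩ := exists_unif hC.trb hQ
  obtain ⟨s, hs, hsR⟩ := hC.lift sb hsb
  have hval : value Q sb = 0 := by
    rw [value_eq_zero_iff Q (hsb Q hQ), val_lt_one_iff]
    right; omega
  refine ⟨s, sb, hs, hsR, hsb0, hQsb, fun P hP => ?_⟩
  have hPd := hP.inDisc hC.toChart
  obtain ⟨a, ha, ha'⟩ := hP.2.2 s hs sb hsR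
  rw [hval] at ha'
  set x := s - algebraMap K F (value P s) with hx
  have hxR : G.R x sb := by
    have := hsR.sub (GaussRed.R.const G a)
    rwa [ha', map_zero, sub_zero, ha] at this
  have hx0 : x ≠ 0 := hxR.ne_zero hsb0
  have hxaff : x ∈ affineRing K t :=
    (affineRing K t).sub_mem hs (algebraMap_mem_affineRing t _)
  have hsum := hC.toChart.sum_ord_disc hC.hπ hxR hsb0 (value Q tb)
  have hQmem : Q ∈ (finite_zeros (k := κ) (tb - algebraMap κ Fb (value Q tb))).toFinset := by
    rw [Set.Finite.mem_toFinset]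
    exact (ord_sub_pos_iff hC.trb hQ _).mpr rfl
  rw [Finset.sum_eq_single_of_mem Q hQmem (fun Q' hQ' hne => by
    have h1 := (Set.Finite.mem_toFinset _).1 hQ'
    exact hsb' Q' hne h1), hQsb] at hsum
  set S := (finite_support (k := K) x).toFinset.filter
    (fun w => InDisc π w t (value Q tb)) with hS
  have hPpos : 0 < P.ord x := by
    have h1 : P.adicValuation x < 1 := by
      rw [← value_eq_zero_iff P (hxaff P hPd.mem), hx, value_sub P (hs P hPd.mem)
        (P.algebraMap_mem' _), value_algebraMap, sub_self]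
    exact ((val_lt_one_iff P).1 h1).resolve_left hx0
  have hPmem : P ∈ S := by
    rw [hS, Finset.mem_filter, Set.Finite.mem_toFinset]
    exact ⟨hPpos.ne', hPd⟩
  have hnn : ∀ w ∈ S, 0 ≤ w.ord x := fun w hw =>
    (mem_iff_ord w hx0).1 (hxaff w (Finset.mem_filter.1 hw).2.mem)
  have hle := Finset.single_le_sum hnn hPmem
  have hP1 : P.ord x = 1 := by omega
  refine ⟨hxR, hP1, fun P' hne hP' => ?_⟩
  by_contra hP'0
  have hP'mem : P' ∈ S := by
    rw [hS, Finset.mem_filter, Set.Finite.mem_toFinset]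
    exact ⟨hP'0, hP'⟩
  have h2 : P.ord x + P'.ord x ≤ ∑ w ∈ S, w.ord x := by
    rw [← Finset.sum_pair (f := fun w : Place K F => w.ord x) (Ne.symm hne)]
    refine Finset.sum_le_sum_of_subset_of_nonneg ?_ fun w hw _ => hnn w hw
    intro w hw
    rcases Finset.mem_insert.1 hw with rfl | hw
    · exact hPmem
    · rw [Finset.mem_singleton.1 hw]; exact hP'mem
  have h3 := hnn P' hP'mem
  omega

/-! ### Clearing denominators away from a residue disc -/

/-- `x` has poles bounded by `D` at the finite places -/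
def InL (t : F) (D : Divisor K F) (x : F) : Prop :=
  ∀ w : Place K F, t ∈ w.toValuationSubring → x = 0 ∨ 0 ≤ w.ord x + D w

/-- a function vanishing at a given place not specialising to `Q` with reduction not vanishing
at `Q`. -/
theorem GoodChart.exists_avoid (hC : GoodChart G t tb) {Q : Place κ Fb}
    (hQ : tb ∈ Q.toValuationSubring) {P : Place K F} (hP : t ∈ P.toValuationSubring)
    (hPQ : ¬ SpecTo G t tb P Q) :
    ∃ (h : F) (hb : Fb), h ∈ affineRing K t ∧ G.R h hb ∧ value Q hb ≠ 0 ∧ 0 < P.ord h := by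
  classical
  by_cases hPA : ∃ τ, InDisc π P t τ
  · obtain ⟨τ, hτ⟩ := hPA
    obtain ⟨Q', hPQ', -⟩ := hC.existsUnique_specTo hτ
    have hne : Q ≠ Q' := by rintro rfl; exact hPQ hPQ'
    obtain ⟨cb, hcb, hcb0, hcQ, hcQ'⟩ := exists_separating hC.trb hQ {Q'} (by simpa using hne) 1
    obtain ⟨c, hc, hcR⟩ := hC.lift cb hcb
    obtain ⟨a, ha, ha'⟩ := hPQ'.2.2 c hc cb hcR
    have hv : value Q' cb = 0 := by
      rw [value_eq_zero_iff Q' (hcb Q' hPQ'.2.1), val_lt_one_iff]
      right
      have := hcQ' Q' (by simp) hPQ'.2.1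
      omega
    rw [hv] at ha'
    have hR : G.R (c - algebraMap K F (value P c)) cb := by
      have := hcR.sub (GaussRed.R.const G a)
      rwa [ha', map_zero, sub_zero, ha] at this
    have haff : c - algebraMap K F (value P c) ∈ affineRing K t :=
      (affineRing K t).sub_mem hc (algebraMap_mem_affineRing t _)
    refine ⟨_, cb, haff, hR, ?_, ?_⟩
    · rw [Ne, value_eq_zero_iff Q (hcb Q hQ), val_lt_one_iff]
      rintro (h | h)
      · exact hcb0 h
      · omega
    · have h1 : P.adicValuation (c - algebraMap K F (value P c)) < 1 := value_spec P (hc P hP)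
      exact ((val_lt_one_iff P).1 h1).resolve_left (hR.ne_zero hcb0)
  · -- `t(P) ∉ A`
    set v := value P t with hv
    have hvA : v ∉ A := by
      intro h
      apply hPA
      exact ⟨π ⟨v, h⟩, ⟨v, h⟩, rfl, (ord_sub_pos_iff hC.tr hP _).2 rfl⟩
    have hv0 : v ≠ 0 := by rintro h0; rw [h0] at hvA; exact hvA (zero_mem _)
    have hR : G.R (1 - algebraMap K F v⁻¹ * t) 1 := by
      have := (GaussRed.R.one G).sub
        ((GaussRed.R.const G ⟨v⁻¹, GaussRed.inv_mem_of_not_mem hvA⟩).mul hC.R)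
      rwa [GaussRed.π_inv_eq_zero hvA, map_zero, zero_mul, sub_zero] at this
    refine ⟨_, 1, (affineRing K t).sub_mem (affineRing K t).one_mem
      (affineRing_smul_mem (self_mem_affineRing t)), hR, ?_, ?_⟩
    · rw [value_one]; exact one_ne_zero
    · have h1 : P.adicValuation (1 - algebraMap K F v⁻¹ * t) < 1 := by
        rw [← value_eq_zero_iff P (sub_mem (one_mem _) (mul_mem (P.algebraMap_mem' _) hP)),
          value_sub P (one_mem _) (mul_mem (P.algebraMap_mem' _) hP), value_one,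
          value_mul_const P _ hP, ← hv, inv_mul_cancel₀ hv0, sub_self]
      exact ((val_lt_one_iff P).1 h1).resolve_left (hR.ne_zero one_ne_zero)

theorem value_ne_zero_iff_ord {Q : Place κ Fb} {x : Fb} (hx : x ∈ Q.toValuationSubring) :
    value Q x ≠ 0 ↔ x ≠ 0 ∧ Q.ord x = 0 := by
  rw [Ne, value_eq_zero_iff Q hx, val_lt_one_iff, not_or]
  constructor
  · rintro ⟨h1, h2⟩
    have := (mem_iff_ord Q h1).1 hx
    exact ⟨h1, by omega⟩
  · rintro ⟨h1, h2⟩
    exact ⟨h1, by omega⟩

theorem GoodChart.exists_clearD (hC : GoodChart G t tb) {Q : Place κ Fb}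
    (hQ : tb ∈ Q.toValuationSubring) (D : Divisor K F) {f : F}
    (hf : ∀ P : Place K F, SpecTo G t tb P Q → 0 ≤ P.ord f + D P) :
    ∃ (h : F) (hb : Fb), h ∈ affineRing K t ∧ G.R h hb ∧ value Q hb ≠ 0 ∧ InL t D (h * f) := by
  classical
  -- the finite set of bad places
  obtain ⟨S, hS⟩ : ∃ S : Finset (Place K F), ∀ P : Place K F, P ∈ S ↔
      (t ∈ P.toValuationSubring ∧ P.ord f + D P < 0) := by
    refine ⟨((finite_support (k := K) f).toFinset ∪ D.support).filter
      fun P => t ∈ P.toValuationSubring ∧ P.ord f + D P < 0, fun P => ?_⟩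
    rw [Finset.mem_filter, Finset.mem_union, Set.Finite.mem_toFinset, Finsupp.mem_support_iff,
      Function.mem_support]
    refine ⟨fun h => h.2, fun h => ⟨?_, h⟩⟩
    by_contra hcon
    push Not at hcon
    omega
  have hSspec : ∀ P ∈ S, ¬ SpecTo G t tb P Q := by
    intro P hP hPQ
    have h1 := hf P hPQ
    have h2 := ((hS P).1 hP).2
    omega
  choose! h hb hh1 hh2 hh3 hh4 using fun (P : Place K F) (hP : P ∈ S) =>
    hC.exists_avoid hQ ((hS P).1 hP).1 (hSspec P hP)
  let n : Place K F → ℕ := fun P => (P.ord f + D P).natAbs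
  refine ⟨∏ P ∈ S, h P ^ n P, ∏ P ∈ S, hb P ^ n P, ?_, ?_, ?_, ?_⟩
  · exact Subalgebra.prod_mem _ fun P hP => Subalgebra.pow_mem _ (hh1 P hP) _
  · exact GaussRed.R.prod S fun P hP => (hh2 P hP).pow _
  · have hmem : ∀ P ∈ S, hb P ∈ Q.toValuationSubring := fun P hP =>
      hC.toChart.red_mem hC.hπ (hh1 P hP) (hh2 P hP) Q hQ
    have hprod : (∏ P ∈ S, hb P ^ n P) ∈ Q.toValuationSubring :=
      prod_mem fun P hP => pow_mem (hmem P hP) _
    rw [value_ne_zero_iff_ord hprod]
    have hne : ∀ P ∈ S, hb P ^ n P ≠ 0 := fun P hP =>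
      pow_ne_zero _ ((value_ne_zero_iff_ord (hmem P hP)).1 (hh3 P hP)).1
    refine ⟨Finset.prod_ne_zero_iff.2 hne, ?_⟩
    rw [ord_prod Q S _ hne]
    refine Finset.sum_eq_zero fun P hP => ?_
    rw [ord_pow, ((value_ne_zero_iff_ord (hmem P hP)).1 (hh3 P hP)).2, mul_zero]
  · intro w hw
    rcases eq_or_ne f 0 with hf0 | hf0
    · left; rw [hf0, mul_zero]
    right
    have hh0 : ∀ P ∈ S, h P ≠ 0 := by
      intro P hP h0
      have := hh4 P hP
      rw [h0, P.ord_zero] at this
      exact lt_irrefl _ this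
    have hprod0 : (∏ P ∈ S, h P ^ n P) ≠ 0 :=
      Finset.prod_ne_zero_iff.2 fun P hP => pow_ne_zero _ (hh0 P hP)
    rw [w.ord_mul hprod0 hf0, ord_prod w S _ fun P hP => pow_ne_zero _ (hh0 P hP)]
    have hnn : ∀ P ∈ S, 0 ≤ w.ord (h P ^ n P) := fun P hP => by
      rw [ord_pow]
      exact mul_nonneg (by positivity) ((mem_iff_ord w (hh0 P hP)).1 (hh1 P hP w hw))
    by_cases hwS : w ∈ S
    · have h1 := Finset.single_le_sum hnn hwS
      rw [ord_pow] at h1
      have h2 := hh4 w hwS
      have h3 : (n w : ℤ) * 1 ≤ n w * w.ord (h w) :=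
        mul_le_mul_of_nonneg_left (by omega) (by positivity)
      have h4 : (n w : ℤ) = |w.ord f + D w| := Int.natCast_natAbs _
      have h5 := neg_abs_le (w.ord f + D w)
      linarith
    · have h1 := Finset.sum_nonneg hnn
      have h2 : 0 ≤ w.ord f + D w := by
        by_contra hcon
        exact hwS ((hS w).2 ⟨hw, by omega⟩)
      linarith

/-- functions without poles in the residue disc of `Q` have regular reduction at `Q` -/
theorem GoodChart.ord_red_nonneg (hC : GoodChart G t tb) {Q : Place κ Fb}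
    (hQ : tb ∈ Q.toValuationSubring) {f : F} {fb : Fb} (hR : G.R f fb) (hfb : fb ≠ 0)
    (hf : ∀ P : Place K F, SpecTo G t tb P Q → 0 ≤ P.ord f) : 0 ≤ Q.ord fb := by
  obtain ⟨h, hb, hh, hhR, hhQ, hhL⟩ := hC.exists_clearD hQ 0 (f := f) (by simpa using hf)
  have hf0 : f ≠ 0 := hR.ne_zero hfb
  have hhf : h * f ∈ affineRing K t := by
    intro w hw
    by_cases h0 : h * f = 0
    · rw [h0]; exact zero_mem _
    rw [mem_iff_ord w h0]
    have := (hhL w hw).resolve_left h0
    simpa using this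
  have h1 := hC.toChart.red_mem hC.hπ hhf (hhR.mul hR) Q hQ
  have hbmem : hb ∈ Q.toValuationSubring := hC.toChart.red_mem hC.hπ hh hhR Q hQ
  obtain ⟨hb0, hbQ⟩ := (value_ne_zero_iff_ord hbmem).1 hhQ
  rw [mem_iff_ord Q (mul_ne_zero hb0 hfb), Q.ord_mul hb0 hfb, hbQ, zero_add] at h1
  exact h1

open Classical in
/-- **Orders of reductions**. -/
theorem GoodChart.ord_red (hC : GoodChart G t tb) {Q : Place κ Fb}
    (hQ : tb ∈ Q.toValuationSubring) {f : F} {fb : Fb} (hR : G.R f fb) (hfb : fb ≠ 0) :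
    Q.ord fb = ∑ P ∈ (finite_support (k := K) f).toFinset.filter
      (fun P => SpecTo G t tb P Q), P.ord f := by
  obtain ⟨s, sb, hs, hsR, hsb0, hQsb, hparam⟩ := hC.exists_param hQ
  set S := (finite_support (k := K) f).toFinset.filter (fun P => SpecTo G t tb P Q) with hS
  have hf0 : f ≠ 0 := hR.ne_zero hfb
  have hSspec : ∀ P ∈ S, SpecTo G t tb P Q := fun P hP => (Finset.mem_filter.1 hP).2
  have hs0 : ∀ P ∈ S, s - algebraMap K F (value P s) ≠ 0 := fun P hP =>
    (hparam P (hSspec P hP)).1.ne_zero hsb0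
  -- the product
  set ρ := ∏ P ∈ S, (s - algebraMap K F (value P s)) ^ (P.ord f) with hρ
  have hρ0 : ρ ≠ 0 := Finset.prod_ne_zero_iff.2 fun P hP => zpow_ne_zero _ (hs0 P hP)
  have hRzpow : ∀ {x : F} {xb : Fb}, G.R x xb → xb ≠ 0 → ∀ n : ℤ, G.R (x ^ n) (xb ^ n) := by
    intro x xb hx hxb n
    obtain ⟨m, rfl | rfl⟩ := n.eq_nat_or_neg
    · rw [zpow_natCast, zpow_natCast]; exact hx.pow m
    · rw [zpow_neg, zpow_neg, zpow_natCast, zpow_natCast]
      exact (hx.pow m).inv (pow_ne_zero _ hxb)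
  have hρR : G.R ρ (∏ P ∈ S, sb ^ (P.ord f)) :=
    GaussRed.R.prod S fun P hP => hRzpow (hparam P (hSspec P hP)).1 hsb0 _
  have hρb0 : (∏ P ∈ S, sb ^ (P.ord f)) ≠ 0 :=
    Finset.prod_ne_zero_iff.2 fun P _ => zpow_ne_zero _ hsb0
  have hρord : ∀ P : Place K F, SpecTo G t tb P Q → P.ord ρ = P.ord f := by
    intro P hP
    rw [hρ, ord_prod P S _ fun P hP => zpow_ne_zero _ (hs0 P hP)]
    have hPd := hP.inDisc hC.toChart
    have h1 : ∀ P' ∈ S, P' ≠ P → P.ord ((s - algebraMap K F (value P' s)) ^ (P'.ord f)) = 0 := by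
      intro P' hP' hne
      rw [P.ord_zpow, (hparam P' (hSspec P' hP')).2.2 P (Ne.symm hne) hPd, mul_zero]
    by_cases hPS : P ∈ S
    · rw [Finset.sum_eq_single_of_mem P hPS h1, P.ord_zpow, (hparam P hP).2.1, mul_one]
    · rw [Finset.sum_eq_zero fun P' hP' => h1 P' hP' (by rintro rfl; exact hPS hP')]
      by_contra hne
      apply hPS
      rw [hS, Finset.mem_filter, Set.Finite.mem_toFinset]
      exact ⟨Ne.symm hne, hP⟩
  have h1 := hC.ord_red_nonneg hQ (hR.div hρR hρb0) (div_ne_zero hfb hρb0) (fun P hP => by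
    rw [ord_div P hf0 hρ0, hρord P hP, sub_self])
  have h2 := hC.ord_red_nonneg hQ (hρR.div hR hfb) (div_ne_zero hρb0 hfb) (fun P hP => by
    rw [ord_div P hρ0 hf0, hρord P hP, sub_self])
  rw [ord_div Q hfb hρb0] at h1
  rw [ord_div Q hρb0 hfb] at h2
  have h3 : Q.ord (∏ P ∈ S, sb ^ (P.ord f)) = ∑ P ∈ S, P.ord f := by
    rw [ord_prod Q S _ fun P _ => zpow_ne_zero _ hsb0]
    refine Finset.sum_congr rfl fun P _ => ?_
    rw [Q.ord_zpow, hQsb, mul_one]
  omega

end Fermat.Agent.GoodRed
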