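import Fermat.Prelude.Def_ModularCurve_X0

/-!
# Truncated power series computations
-/

set_option autoImplicit false

noncomputable section

namespace Fermat.Agent.GoodRed

open ModularCurve

/-- the first `n` coefficients of `f` are given by the list `l` -/
def Agree (n : ℕ) (f : PowerSeries ℤ) (l : List ℤ) : Prop :=
  ∀ i < n, PowerSeries.coeff i f = l.getD i 0

/-- truncated product -/
def mulL (n : ℕ) (a b : List ℤ) : List ℤ :=
  (List.range n).map fun k => ((List.range (k + 1)).map fun i => a.getD i 0 * b.getD (k - i) 0).sum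

/-- truncated sum -/
def addL (n : ℕ) (a b : List ℤ) : List ℤ :=
  (List.range n).map fun k => a.getD k 0 + b.getD k 0

/-- scaling -/
def smulL (n : ℕ) (c : ℤ) (a : List ℤ) : List ℤ :=
  (List.range n).map fun k => c * a.getD k 0

/-- truncated monomials -/
def monL (n m : ℕ) : List ℤ :=
  (List.range n).map fun k => if k = m then 1 else 0

/-- `f(q^p)` -/
def expL (n p : ℕ) (a : List ℤ) : List ℤ :=
  (List.range n).map fun k => if p ∣ k then a.getD (k / p) 0 else 0

theorem getD_map_range (n i : ℕ) (hi : i < n) (f : ℕ → ℤ) :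
    ((List.range n).map f).getD i 0 = f i := by
  rw [List.getD_eq_getElem?_getD]
  simp [hi]

theorem Agree.congr {n : ℕ} {f : PowerSeries ℤ} {a b : List ℤ} (h : Agree n f a) (hab : a = b) :
    Agree n f b := hab ▸ h

theorem Agree.mul {n : ℕ} {f g : PowerSeries ℤ} {a b : List ℤ} (hf : Agree n f a)
    (hg : Agree n g b) : Agree n (f * g) (mulL n a b) := by
  intro k hk
  rw [mulL, getD_map_range n k hk, PowerSeries.coeff_mul,
    Finset.Nat.sum_antidiagonal_eq_sum_range_succ_mk]
  rw [← List.sum_toFinset]
  · have : (List.range (k + 1)).toFinset = Finset.range (k + 1) := by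
      ext; simp
    rw [this]
    refine Finset.sum_congr rfl fun i hi => ?_
    rw [Finset.mem_range] at hi
    rw [hf i (by omega), hg (k - i) (by omega)]
  · exact List.nodup_range

theorem Agree.add {n : ℕ} {f g : PowerSeries ℤ} {a b : List ℤ} (hf : Agree n f a)
    (hg : Agree n g b) : Agree n (f + g) (addL n a b) := by
  intro k hk
  rw [addL, getD_map_range n k hk, map_add, hf k hk, hg k hk]

theorem Agree.smul {n : ℕ} {f : PowerSeries ℤ} {a : List ℤ} (c : ℤ) (hf : Agree n f a) :
    Agree n (PowerSeries.C c * f) (smulL n c a) := by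
  intro k hk
  rw [smulL, getD_map_range n k hk, PowerSeries.coeff_C_mul, hf k hk]

theorem agree_X_pow (n m : ℕ) : Agree n (PowerSeries.X ^ m) (monL n m) := by
  intro k hk
  rw [monL, getD_map_range n k hk, PowerSeries.coeff_X_pow]

/-- `f(q^p)` as a power series -/
def expandP (p : ℕ) (f : PowerSeries ℤ) : PowerSeries ℤ :=
  PowerSeries.mk fun n => if p ∣ n then PowerSeries.coeff (n / p) f else 0

theorem Agree.expand {n p : ℕ} {f : PowerSeries ℤ} {a : List ℤ} (hf : Agree n f a) :
    Agree n (expandP p f) (expL n p a) := by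
  intro k hk
  rw [expL, getD_map_range n k hk, expandP, PowerSeries.coeff_mk]
  split_ifs with h
  · exact hf _ ((Nat.div_le_self k p).trans_lt hk)
  · rfl

/-- truncations of the Euler product -/
theorem coeff_partial (n i : ℕ) (hi : i < n + 1) :
    PowerSeries.coeff i (∏ k ∈ Finset.range (n + 1), (1 - PowerSeries.X ^ (k + 1) : PowerSeries ℤ)) =
      PowerSeries.coeff i (∏ k ∈ Finset.range n, (1 - PowerSeries.X ^ (k + 1) : PowerSeries ℤ)) := by
  rw [Finset.prod_range_succ, mul_sub, mul_one, map_sub, PowerSeries.coeff_mul_X_pow',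
    if_neg (by omega), sub_zero]

theorem coeff_partial' (n m i : ℕ) (hi : i < n + 1) :
    PowerSeries.coeff i (∏ k ∈ Finset.range (n + m), (1 - PowerSeries.X ^ (k + 1) : PowerSeries ℤ)) =
      PowerSeries.coeff i (∏ k ∈ Finset.range n, (1 - PowerSeries.X ^ (k + 1) : PowerSeries ℤ)) := by
  induction m with
  | zero => rfl
  | succ m ih =>
    rw [← add_assoc, coeff_partial (n + m) i (by omega), ih]

open scoped PowerSeries.WithPiTopology in
theorem coeff_etaProd (n i : ℕ) (hi : i < n + 1) :
    PowerSeries.coeff i etaProd =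
      PowerSeries.coeff i (∏ k ∈ Finset.range n, (1 - PowerSeries.X ^ (k + 1) : PowerSeries ℤ)) := by
  have h1 := (PowerSeries.WithPiTopology.multipliable_one_sub_X_pow ℤ).hasProd.tendsto_prod_nat
  have h2 : Filter.Tendsto (fun m => PowerSeries.coeff i
      (∏ k ∈ Finset.range m, (1 - PowerSeries.X ^ (k + 1) : PowerSeries ℤ))) Filter.atTop
      (nhds (PowerSeries.coeff i etaProd)) :=
    ((PowerSeries.WithPiTopology.continuous_coeff ℤ i).tendsto _).comp h1
  have h3 : Filter.Tendsto (fun m => PowerSeries.coeff i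
      (∏ k ∈ Finset.range m, (1 - PowerSeries.X ^ (k + 1) : PowerSeries ℤ))) Filter.atTop
      (nhds (PowerSeries.coeff i
        (∏ k ∈ Finset.range n, (1 - PowerSeries.X ^ (k + 1) : PowerSeries ℤ)))) := by
    refine tendsto_const_nhds.congr' ?_
    filter_upwards [Filter.eventually_ge_atTop n] with m hm
    obtain ⟨d, rfl⟩ := Nat.exists_eq_add_of_le hm
    exact (coeff_partial' n d i hi).symm
  exact tendsto_nhds_unique h2 h3

theorem agree_one_sub (n m : ℕ) : Agree n (1 - PowerSeries.X ^ m)
    (addL n (monL n 0) (smulL n (-1) (monL n m))) := by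
  have h := (agree_X_pow n 0).add ((agree_X_pow n m).smul (-1))
  have : (1 - PowerSeries.X ^ m : PowerSeries ℤ) =
      PowerSeries.X ^ 0 + PowerSeries.C (-1 : ℤ) * PowerSeries.X ^ m := by
    rw [pow_zero, map_neg, map_one]
    ring
  rw [this]
  exact h

/-- truncated Euler product -/
def eulerL (n : ℕ) : ℕ → List ℤ
  | 0 => monL n 0
  | k + 1 => mulL n (eulerL n k) (addL n (monL n 0) (smulL n (-1) (monL n (k + 1))))

theorem agree_partial (n k : ℕ) : Agree n
    (∏ k ∈ Finset.range k, (1 - PowerSeries.X ^ (k + 1) : PowerSeries ℤ)) (eulerL n k) := by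
  induction k with
  | zero =>
    rw [Finset.prod_range_zero, eulerL]
    have := agree_X_pow n 0
    rwa [pow_zero] at this
  | succ k ih =>
    rw [Finset.prod_range_succ]
    exact ih.mul (agree_one_sub n (k + 1))

theorem agree_etaProd (n : ℕ) : Agree n etaProd (eulerL n n) := by
  intro i hi
  rw [coeff_etaProd n i (by omega)]
  exact agree_partial n n i hi

theorem agree_eisenstein4 (n : ℕ) : Agree n eisenstein4
    ((List.range n).map fun (m : ℕ) =>
      ((if m = 0 then 1 else 240 * ∑ d ∈ m.divisors, (d : ℤ) ^ 3) : ℤ)) := by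
  intro i hi
  rw [getD_map_range n i hi, eisenstein4, PowerSeries.coeff_mk]

theorem agree_eta10 : Agree 10 etaProd [1, -1, -1, 0, 0, 1, 0, 1, 0, 0] :=
  (agree_etaProd 10).congr (by decide +kernel)

theorem agree_E4 : Agree 10 eisenstein4
    [1, 240, 2160, 6720, 17520, 30240, 60480, 82560, 140400, 181680] :=
  (agree_eisenstein4 10).congr (by decide +kernel)

end Fermat.Agent.GoodRed
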